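import Mathlib
import Fermat.Prelude.Def_ExtCitation_AdmissibleExtension_v2
import Fermat.Agent.S54.Frobenius

/-!
# S14 (G1): lifting elements of decomposition and inertia groups to `Gal(ℚ̄/ℚ)`
-/

set_option autoImplicit false

namespace Fermat.Agent.S14

open Fermat.Agent.S54
open scoped Pointwise

local notation "Qb" => AlgebraicClosure ℚ
local notation "GalQ" => (AlgebraicClosure ℚ ≃ₐ[ℚ] AlgebraicClosure ℚ)

lemma g1_le (A : ValuationSubring Qb) : Zbar ≤ A.toSubring :=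
  fun _ hz => mem_of_isIntegral_int A hz

/-- the prime of `ℤ̄` below a valuation subring -/
noncomputable def g1Prime (A : ValuationSubring Qb) : Ideal Zbar :=
  (IsLocalRing.maximalIdeal A).comap (Subring.inclusion (g1_le A))

instance g1Prime_isPrime (A : ValuationSubring Qb) : (g1Prime A).IsPrime :=
  Ideal.comap_isPrime _ _

lemma g1_mem_prime (A : ValuationSubring Qb) (b : Zbar) :
    b ∈ g1Prime A ↔ (b : Qb) ∈ A.nonunits := by
  rw [g1Prime, Ideal.mem_comap, ← ValuationSubring.coe_mem_nonunits_iff]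
  rfl

lemma g1_isAlgebraic (x : Qb) : IsAlgebraic ℤ x :=
  (IsFractionRing.isAlgebraic_iff ℤ ℚ Qb).mpr (Algebra.IsAlgebraic.isAlgebraic x)

section

variable (A : ValuationSubring Qb) {ℓ : ℕ} (hℓ : ℓ.Prime) (hA : (ℓ : Qb) ∈ A.nonunits)

include hℓ hA

lemma g1_stab (τ : GalQ) (hτ : τ • g1Prime A = g1Prime A) (x : Qb) (hx : x ∈ A) : τ x ∈ A := by
  obtain ⟨b, c, hb, hc, hbA, hxb⟩ := exists_integral_fraction A hℓ hA hx (g1_isAlgebraic x)
  have h1 : τ x * τ b = τ c := by rw [← map_mul, hxb]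
  have h2 : τ b ∉ A.nonunits := by
    intro h
    have h3 : (τ • (⟨b, hb⟩ : Zbar)) ∈ g1Prime A := (g1_mem_prime A _).mpr h
    rw [← hτ] at h3
    have h4 := (Ideal.smul_mem_pointwise_smul_iff).mp h3
    exact hbA ((g1_mem_prime A _).mp h4)
  have h5 : τ c ∈ A := mem_of_isIntegral_int A (map_isIntegral_int τ hc)
  rw [ValuationSubring.mem_nonunits_iff, not_lt] at h2
  rw [← ValuationSubring.valuation_le_one_iff] at h5 ⊢
  calc A.valuation (τ x) ≤ A.valuation (τ x) * A.valuation (τ b) := le_mul_of_one_le_right' h2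
    _ = A.valuation (τ c) := by rw [← map_mul, h1]
    _ ≤ 1 := h5

lemma g1_mem_decomp (τ : GalQ) (hτ : τ • g1Prime A = g1Prime A) :
    τ ∈ A.decompositionSubgroup ℚ := by
  have hτ' : τ⁻¹ • g1Prime A = g1Prime A := inv_smul_eq_iff.mpr hτ.symm
  rw [MulAction.mem_stabilizer_iff]
  ext x
  rw [ValuationSubring.mem_pointwise_smul_iff_inv_smul_mem]
  constructor
  · intro h
    have := g1_stab A hℓ hA τ hτ _ h
    simpa using this
  · intro h
    exact g1_stab A hℓ hA τ⁻¹ hτ' _ h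

lemma g1_mem_inertia (τ : GalQ) (hτ : τ • g1Prime A = g1Prime A)
    (h : ∀ b : Zbar, τ • b - b ∈ g1Prime A) : τ ∈ A.inertiaSubgroupIn ℚ := by
  have hdec := g1_mem_decomp A hℓ hA τ hτ
  refine ⟨⟨τ, hdec⟩, ?_, rfl⟩
  change (⟨τ, hdec⟩ : A.decompositionSubgroup ℚ) ∈ A.inertiaSubgroup ℚ
  rw [ValuationSubring.inertiaSubgroup, MonoidHom.mem_ker]
  ext y
  change (⟨τ, hdec⟩ : A.decompositionSubgroup ℚ) • y = y
  obtain ⟨a, rfl⟩ := IsLocalRing.residue_surjective y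
  obtain ⟨b, c, hb, hc, hbA, hxb⟩ := exists_integral_fraction A hℓ hA a.2 (g1_isAlgebraic a)
  set s : A.decompositionSubgroup ℚ := ⟨τ, hdec⟩ with hs
  let b' : A := ⟨b, mem_of_isIntegral_int A hb⟩
  let c' : A := ⟨c, mem_of_isIntegral_int A hc⟩
  have hab : a * b' = c' := Subtype.ext hxb
  have hfix : ∀ (z : Qb) (hz : IsIntegral ℤ z),
      IsLocalRing.residue A (s • (⟨z, mem_of_isIntegral_int A hz⟩ : A)) =
        IsLocalRing.residue A (⟨z, mem_of_isIntegral_int A hz⟩ : A) := by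
    intro z hz
    rw [← sub_eq_zero, ← map_sub, IsLocalRing.residue_eq_zero_iff,
      ← ValuationSubring.coe_mem_nonunits_iff]
    exact (g1_mem_prime A _).mp (h ⟨z, hz⟩)
  have hb0 : IsLocalRing.residue A b' ≠ 0 := by
    rw [Ne, IsLocalRing.residue_eq_zero_iff, ← ValuationSubring.coe_mem_nonunits_iff]
    exact hbA
  have h1 : IsLocalRing.residue A (s • a) * IsLocalRing.residue A b' =
      IsLocalRing.residue A a * IsLocalRing.residue A b' := by
    have e1 : IsLocalRing.residue A (s • a) * IsLocalRing.residue A b' =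
        IsLocalRing.residue A (s • c') := by
      rw [← hfix b hb, ← map_mul, ← smul_mul', hab]
    rw [e1, hfix c hc, ← map_mul, hab]
  rw [← IsLocalRing.ResidueField.residue_smul]
  exact mul_right_cancel₀ hb0 h1

end

/-! ### the profinite group `H` acting on `ℤ̄` -/

/-- the discrete topology on `ℤ̄` -/
local instance g1TopZbar : TopologicalSpace Zbar := ⊥

local instance g1DiscZbar : DiscreteTopology Zbar := ⟨rfl⟩

local instance g1ContZbar : ContinuousSMul GalQ Zbar := by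
  rw [continuousSMul_iff_stabilizer_isOpen]
  intro x
  have : (MulAction.stabilizer GalQ x : Set GalQ) =
      (MulAction.stabilizer GalQ (x : Qb) : Set GalQ) := by
    ext σ
    simp only [SetLike.mem_coe, MulAction.mem_stabilizer_iff, Subtype.ext_iff]
    rfl
  rw [this]
  exact stabilizer_isOpen_of_isIntegral (K := ℚ) (x : Qb)

section

variable (H : Subgroup GalQ)

/-- `ℤ̄ ^ H` -/
noncomputable abbrev g1R : Subalgebra ℤ Zbar := FixedPoints.subalgebra ℤ Zbar H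

instance g1_smulComm : SMulCommClass H (g1R H) Zbar :=
  instSMulCommClassSubtypeMemSubalgebraSubalgebra ℤ Zbar H

instance g1_isInvariant : Algebra.IsInvariant (g1R H) Zbar H :=
  ⟨fun b hb => ⟨⟨b, hb⟩, rfl⟩⟩

lemma g1_mem_R (b : Zbar) : b ∈ g1R H ↔ ∀ h ∈ H, h (b : Qb) = b := by
  constructor
  · intro hb h hh
    exact congrArg Subtype.val (hb ⟨h, hh⟩)
  · intro hb h
    exact Subtype.ext (hb h.1 h.2)

lemma g1_smul_mem_R [H.Normal] (σ : GalQ) (b : Zbar) (hb : b ∈ g1R H) : σ • b ∈ g1R H := by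
  rw [g1_mem_R] at hb ⊢
  intro h hh
  have h1 := hb (σ⁻¹ * h * σ) (by
    have := Subgroup.Normal.conj_mem ‹H.Normal› h hh σ⁻¹
    simpa using this)
  rw [coe_smul_Zbar]
  have h2 : σ ((σ⁻¹ * h * σ) (b : Qb)) = h (σ (b : Qb)) := by
    simp [AlgEquiv.mul_apply]
  rw [← h2, h1]

variable (A : ValuationSubring Qb) {ℓ : ℕ} (hℓ : ℓ.Prime) (hA : (ℓ : Qb) ∈ A.nonunits)

lemma g1_exists_stab [H.Normal] (hH : IsClosed (H : Set GalQ)) (σ : GalQ)
    (hσ : ∀ b : Zbar, b ∈ g1R H → (b ∈ g1Prime A ↔ σ • b ∈ g1Prime A)) :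
    ∃ τ ∈ H, (τ * σ) • g1Prime A = g1Prime A := by
  have : CompactSpace H := isCompact_iff_compactSpace.mp hH.isCompact
  have hund : (σ • g1Prime A).under (g1R H) = (g1Prime A).under (g1R H) := by
    ext r
    rw [Ideal.mem_comap, Ideal.mem_comap, Ideal.mem_pointwise_smul_iff_inv_smul_mem]
    have h1 := hσ (σ⁻¹ • (r : Zbar)) (g1_smul_mem_R H σ⁻¹ _ r.2)
    rw [smul_inv_smul] at h1
    exact h1
  obtain ⟨g, hg⟩ := Algebra.IsInvariant.exists_smul_of_under_eq_of_profinite (A := g1R H)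
    (B := Zbar) (G := H) (σ • g1Prime A) (g1Prime A) hund
  refine ⟨g.1, g.2, ?_⟩
  rw [mul_smul]
  exact hg.symm

include hℓ hA

theorem g1_exists_mul_mem_decomp [H.Normal] (hH : IsClosed (H : Set GalQ)) (σ : GalQ)
    (hσ : ∀ x : Qb, IsIntegral ℤ x → (∀ h ∈ H, h x = x) →
      (x ∈ A.nonunits ↔ σ x ∈ A.nonunits)) :
    ∃ τ ∈ H, τ * σ ∈ A.decompositionSubgroup ℚ := by
  obtain ⟨τ, hτ, h⟩ := g1_exists_stab H A hH σ (fun b hb => by
    rw [g1_mem_prime, g1_mem_prime]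
    exact hσ b b.2 ((g1_mem_R H b).1 hb))
  exact ⟨τ, hτ, g1_mem_decomp A hℓ hA _ h⟩

theorem g1_exists_mul_mem_inertia [H.Normal] (hH : IsClosed (H : Set GalQ)) (σ : GalQ)
    (hσ : ∀ x : Qb, IsIntegral ℤ x → (∀ h ∈ H, h x = x) → σ x - x ∈ A.nonunits) :
    ∃ τ ∈ H, τ * σ ∈ A.inertiaSubgroupIn ℚ := by
  have : CompactSpace H := isCompact_iff_compactSpace.mp hH.isCompact
  have hσ' : ∀ b : Zbar, b ∈ g1R H → σ • b - b ∈ g1Prime A := by
    intro b hb
    rw [g1_mem_prime]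
    exact hσ b b.2 ((g1_mem_R H b).1 hb)
  obtain ⟨τ₁, hτ₁, h1⟩ := g1_exists_stab H A hH σ (fun b hb => by
    constructor
    · intro h
      have := (g1Prime A).add_mem (hσ' b hb) h
      simpa using this
    · intro h
      have := (g1Prime A).sub_mem h (hσ' b hb)
      simpa using this)
  set σ₁ : GalQ := τ₁ * σ with hσ₁
  have hσ₁' : ∀ b : Zbar, b ∈ g1R H → σ₁ • b - b ∈ g1Prime A := by
    intro b hb
    have h2 : τ₁ • (σ • b) = σ • b := (g1_smul_mem_R H σ b hb) ⟨τ₁, hτ₁⟩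
    rw [hσ₁, mul_smul, h2]
    exact hσ' b hb
  -- the automorphism of the residue ring
  let φ := Ideal.Quotient.stabilizerHom (g1Prime A) ((g1Prime A).under ℤ) GalQ ⟨σ₁, h1⟩
  have hφ : ∀ b : Zbar, φ (Ideal.Quotient.mk _ b) = Ideal.Quotient.mk _ (σ₁ • b) := fun b =>
    Ideal.Quotient.stabilizerHom_apply _ _ _ _ b
  let φ' : (Zbar ⧸ g1Prime A) ≃ₐ[g1R H ⧸ (g1Prime A).under (g1R H)] (Zbar ⧸ g1Prime A) :=
    AlgEquiv.ofRingEquiv (f := φ.toRingEquiv) (by
      intro r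
      obtain ⟨r, rfl⟩ := Ideal.Quotient.mk_surjective r
      change φ (Ideal.Quotient.mk _ (r : Zbar)) = Ideal.Quotient.mk _ (r : Zbar)
      rw [hφ, Ideal.Quotient.eq]
      exact hσ₁' r r.2)
  obtain ⟨t, ht⟩ := Ideal.Quotient.stabilizerHom_surjective_of_profinite (G := H)
    ((g1Prime A).under (g1R H)) (g1Prime A) φ'
  have ht' : ∀ b : Zbar, σ₁ • b - t.1.1 • b ∈ g1Prime A := by
    intro b
    have h2 := DFunLike.congr_fun ht (Ideal.Quotient.mk _ b)
    rw [Ideal.Quotient.stabilizerHom_apply] at h2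
    have h3 : φ' (Ideal.Quotient.mk _ b) = Ideal.Quotient.mk _ (σ₁ • b) := hφ b
    rw [h3, Ideal.Quotient.eq] at h2
    have := (g1Prime A).neg_mem h2
    rw [neg_sub] at this
    exact this
  obtain ⟨t₀, ht₀, ht', htP⟩ : ∃ t₀ ∈ H, (∀ b : Zbar, σ₁ • b - t₀ • b ∈ g1Prime A) ∧
      t₀ • g1Prime A = g1Prime A := ⟨t.1.1, t.1.2, ht', t.2⟩
  have htP' : t₀⁻¹ • g1Prime A = g1Prime A := inv_smul_eq_iff.mpr htP.symm
  refine ⟨t₀⁻¹ * τ₁, H.mul_mem (H.inv_mem ht₀) hτ₁, ?_⟩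
  rw [mul_assoc, ← hσ₁]
  refine g1_mem_inertia A hℓ hA _ (by rw [mul_smul, h1, htP']) fun b => ?_
  have h4 := ht' b
  rw [← htP', Ideal.mem_pointwise_smul_iff_inv_smul_mem, inv_inv]
  rw [smul_sub, mul_smul, smul_inv_smul]
  exact h4

end

end Fermat.Agent.S14
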