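import Mathlib

/-!
# S14 (G2): the representation theory of an extension of `μ_p` by `ℤ/p`
-/

set_option autoImplicit false

namespace Fermat.Agent.S14

section rep

variable {p : ℕ} [Fact p.Prime] {G V : Type*} [Group G] [AddCommGroup V] [Module (ZMod p) V]
  [DistribMulAction G V] [SMulCommClass G (ZMod p) V] {C : Submodule (ZMod p) V}
  (χ : G →* (ZMod p)ˣ)

lemma g2_exists_not_mem (hC : Nat.card C = p) (hV : Nat.card V = p ^ 2) : ∃ e : V, e ∉ C := by
  by_contra hcon
  push Not at hcon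
  have h1 : C = ⊤ := eq_top_iff.2 fun x _ => hcon x
  have h2 : Nat.card C = Nat.card V := by
    rw [h1]
    exact Nat.card_congr (Equiv.Set.univ V)
  have hp := (Fact.out : p.Prime).two_le
  rw [hC, hV] at h2
  nlinarith

lemma g2_span (hC : Nat.card C = p) (hV : Nat.card V = p ^ 2) {e : V} (he : e ∉ C) (v : V) :
    ∃ a : ZMod p, v - a • e ∈ C := by
  have hp := (Fact.out : p.Prime).pos
  have : Finite V := Nat.finite_of_card_ne_zero (by rw [hV]; positivity)
  let f : ZMod p × C → V := fun x => x.1 • e + x.2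
  have hf : Function.Injective f := by
    rintro ⟨a, c⟩ ⟨a', c'⟩ h
    simp only [f] at h
    have h1 : (a - a') • e = (c' : V) - c := by
      rw [sub_smul]
      linear_combination (norm := abel) h
    by_cases ha : a = a'
    · subst ha
      simp only [add_right_inj] at h
      rw [Subtype.ext h]
    · exfalso
      apply he
      have h2 : (a - a') • e ∈ C := by
        rw [h1]
        exact C.sub_mem c'.2 c.2
      have h3 := C.smul_mem (a - a')⁻¹ h2
      rwa [smul_smul, inv_mul_cancel₀ (sub_ne_zero.2 ha), one_smul] at h3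
  have hcard : Nat.card (ZMod p × C) = Nat.card V := by
    rw [Nat.card_prod, Nat.card_zmod, hC, hV]
    ring
  have hbij : Function.Bijective f :=
    (Nat.bijective_iff_injective_and_card f).2 ⟨hf, hcard⟩
  obtain ⟨⟨a, c⟩, hac⟩ := hbij.2 v
  refine ⟨a, ?_⟩
  rw [← hac]
  simp only [f, add_sub_cancel_left]
  exact c.2

variable (hfix : ∀ (σ : G), ∀ x ∈ C, σ • x = x)
  (hquot : ∀ (σ : G) (x : V), σ • x - ((χ σ : (ZMod p)ˣ) : ZMod p) • x ∈ C)
  (hC : Nat.card C = p) (hV : Nat.card V = p ^ 2)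

include hfix hC hV in
lemma g2_fix_of {e : V} (he : e ∉ C) (σ : G) (h : σ • e = e) (v : V) : σ • v = v := by
  obtain ⟨a, ha⟩ := g2_span hC hV he v
  have h1 := hfix σ _ ha
  rw [smul_sub, smul_comm, h] at h1
  exact sub_left_injective h1

omit [SMulCommClass G (ZMod p) V] in
include hquot hC hV in
lemma g2_chi_of_fix (σ : G) (h : ∀ v : V, σ • v = v) : χ σ = 1 := by
  obtain ⟨e, he⟩ := g2_exists_not_mem hC hV
  by_contra hne
  have h1 := hquot σ e
  rw [h] at h1
  have h2 : (1 - ((χ σ : (ZMod p)ˣ) : ZMod p)) • e ∈ C := by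
    rw [sub_smul, one_smul]
    exact h1
  have h3 : (1 - ((χ σ : (ZMod p)ˣ) : ZMod p)) ≠ 0 := by
    intro h0
    apply hne
    ext
    rw [Units.val_one]
    exact (sub_eq_zero.1 h0).symm
  have h4 := C.smul_mem (1 - ((χ σ : (ZMod p)ˣ) : ZMod p))⁻¹ h2
  rw [smul_smul, inv_mul_cancel₀ h3, one_smul] at h4
  exact he h4

include hfix hquot in
/-- if `ker χ` acts trivially the extension splits -/
lemma g2_split_of_trivial (h : ∀ σ : G, χ σ = 1 → ∀ v : V, σ • v = v) (σ₀ : G) (hσ₀ : χ σ₀ ≠ 1) :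
    ∃ C' : Submodule (ZMod p) V, (∀ σ : G, ∀ x ∈ C', σ • x ∈ C') ∧ IsCompl C C' := by
  set c : ZMod p := ((χ σ₀ : (ZMod p)ˣ) : ZMod p) with hc
  have hc1 : (1 - c) ≠ 0 := by
    intro h0
    apply hσ₀
    ext
    rw [Units.val_one]
    exact (sub_eq_zero.1 h0).symm
  have hcomm : ∀ (σ τ : G) (v : V), σ • τ • v = τ • σ • v := by
    intro σ τ v
    have h1 : χ (τ⁻¹ * σ⁻¹ * τ * σ) = 1 := by
      simp only [map_mul, map_inv]
      rw [mul_comm (χ τ)⁻¹, mul_assoc, mul_assoc, ← mul_assoc (χ τ)⁻¹]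
      simp
    have h2 := h _ h1 v
    have h3 : σ • τ • ((τ⁻¹ * σ⁻¹ * τ * σ) • v) = τ • σ • v := by
      simp only [mul_smul, smul_inv_smul]
    rw [← h3, h2]
  let C' : Submodule (ZMod p) V :=
    { carrier := {x | σ₀ • x = c • x}
      add_mem' := by
        intro a b ha hb
        simp only [Set.mem_ofPred_eq] at ha hb ⊢
        rw [smul_add, smul_add, ha, hb]
      zero_mem' := by simp
      smul_mem' := by
        intro r x hx
        simp only [Set.mem_ofPred_eq] at hx ⊢
        rw [smul_comm, hx, smul_comm] }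
  have hmem : ∀ x, x ∈ C' ↔ σ₀ • x = c • x := fun x => Iff.rfl
  refine ⟨C', fun σ x hx => ?_, ?_⟩
  · rw [hmem] at hx ⊢
    rw [hcomm, hx, smul_comm]
  · constructor
    · rw [Submodule.disjoint_def]
      intro x hx hx'
      rw [hmem, hfix σ₀ x hx] at hx'
      have h1 : (1 - c) • x = 0 := by
        rw [sub_smul, one_smul, ← hx', sub_self]
      exact (smul_eq_zero.1 h1).resolve_left hc1
    · rw [codisjoint_iff, eq_top_iff]
      intro x _
      obtain ⟨y, hy⟩ : ∃ y : V, y = σ₀ • x - c • x := ⟨_, rfl⟩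
      have hyC : y ∈ C := hy ▸ hquot σ₀ x
      have h1 : x = (1 - c)⁻¹ • y + (x - (1 - c)⁻¹ • y) := by abel
      rw [h1]
      refine Submodule.add_mem_sup (C.smul_mem _ hyC) ?_
      rw [hmem, smul_sub, smul_sub, smul_comm σ₀, hfix σ₀ y hyC]
      have h2 : σ₀ • x = y + c • x := by rw [hy]; abel
      rw [h2]
      have h3 : y = (1 - c) • ((1 - c)⁻¹ • y) := by
        rw [smul_smul, mul_inv_cancel₀ hc1, one_smul]
      have h4 : y = (1 - c)⁻¹ • y - c • ((1 - c)⁻¹ • y) := by
        conv_lhs => rw [h3, sub_smul, one_smul]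
      linear_combination (norm := abel) h4

omit [SMulCommClass G (ZMod p) V] in
include hfix in
lemma g2_pow_smul (σ : G) (e : V) (h : σ • e - e ∈ C) (n : ℕ) :
    σ ^ n • e = e + n • (σ • e - e) := by
  induction n with
  | zero => simp
  | succ n ih =>
    rw [pow_succ', mul_smul, ih, smul_add, smul_comm σ n, hfix σ _ h, succ_nsmul]
    abel

include hfix hquot in
lemma g2_conj_smul (s t : G) (ht : χ t = 1) (e : V) :
    (s * t * s⁻¹) • e - e = (((χ s)⁻¹ : (ZMod p)ˣ) : ZMod p) • (t • e - e) := by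
  set a : ZMod p := (((χ s)⁻¹ : (ZMod p)ˣ) : ZMod p) with ha
  set u : V := s⁻¹ • e with hu
  have h1 : u - a • e ∈ C := by
    have := hquot s⁻¹ e
    rwa [map_inv] at this
  have h2 : t • (u - a • e) = u - a • e := hfix t _ h1
  have h3 : t • u = u + a • (t • e - e) := by
    rw [smul_sub, smul_comm t a e] at h2
    rw [smul_sub]
    linear_combination (norm := abel) h2
  have h4 : t • e - e ∈ C := by
    have := hquot t e
    rwa [ht, Units.val_one, one_smul] at this
  rw [mul_smul, mul_smul, ← hu, h3, smul_add, hu, smul_inv_smul, hfix s _ (C.smul_mem a h4)]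
  abel

end rep

end Fermat.Agent.S14
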