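import Mathlib
import Fermat.Prelude.Def_ExtCitation_AdmissibleExtension_v2
import Fermat.Agent.S14.G1
import Fermat.Agent.S14.G2

/-!
# S14 (G3): from a non-split admissible extension to a number field
-/

set_option autoImplicit false
set_option linter.unusedSectionVars false

namespace Fermat.Agent.S14

open Fermat.Agent.S54 ExtCitation NumberField
open scoped Pointwise

local notation "Qb" => AlgebraicClosure ℚ
local notation "GalQ" => (AlgebraicClosure ℚ ≃ₐ[ℚ] AlgebraicClosure ℚ)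

/-- the configuration to be excluded, in terms of `Gal(L/ℚ)` -/
structure BadData (p : ℕ) (L : Type) [Field L] [Algebra ℚ L] (ζ : L) : Prop where
  fin : FiniteDimensional ℚ L
  gal : IsGalois ℚ L
  prim : IsPrimitiveRoot ζ p
  card : Nat.card {t : L ≃ₐ[ℚ] L // t ζ = ζ} = p
  conj : ∀ (s t : L ≃ₐ[ℚ] L) (m : ℕ), t ζ = ζ → s ζ ^ m = ζ → s * t * s⁻¹ = t ^ m
  unram : ∀ (Q : Ideal (𝓞 L)), Q.IsPrime → Q ≠ ⊥ → (p : 𝓞 L) ∉ Q → ∀ t : L ≃ₐ[ℚ] L,
    (∀ x : 𝓞 L, t • x - x ∈ Q) → t = 1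
  split : ∀ (Q : Ideal (𝓞 L)), Q.IsPrime → (p : 𝓞 L) ∈ Q → ∀ t : L ≃ₐ[ℚ] L, t ζ = ζ →
    (∀ x : 𝓞 L, x ∈ Q ↔ t • x ∈ Q) → t = 1

section chi

variable (p : ℕ) [Fact p.Prime]

instance g3_neZero : NeZero p := ⟨(Fact.out : p.Prime).ne_zero⟩

/-- the mod `p` cyclotomic character of `Gal(ℚ̄/ℚ)` -/
noncomputable def g3chi : GalQ →* (ZMod p)ˣ where
  toFun σ := modularCyclotomicCharacter (AlgebraicClosure ℚ) (card_rootsOfUnity_eq_self p)
      (σ : AlgebraicClosure ℚ ≃+* AlgebraicClosure ℚ)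
  map_one' := map_one _
  map_mul' σ τ := map_mul _ (σ : AlgebraicClosure ℚ ≃+* AlgebraicClosure ℚ)
      (τ : AlgebraicClosure ℚ ≃+* AlgebraicClosure ℚ)

lemma g3_cast_cycloExp (σ : GalQ) : (cycloExp p σ : ZMod p) = ((g3chi p σ : (ZMod p)ˣ) : ZMod p) :=
  ZMod.natCast_zmod_val _

lemma g3_chi_spec (σ : GalQ) {ζ : Qb} (hζ : ζ ^ p = 1) :
    σ ζ = ζ ^ ((g3chi p σ : (ZMod p)ˣ) : ZMod p).val := by
  have hu : IsUnit ζ := IsUnit.of_pow_eq_one hζ (NeZero.ne p)
  obtain ⟨u, rfl⟩ := hu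
  have hmem : u ∈ rootsOfUnity p Qb := by
    rw [mem_rootsOfUnity]
    ext
    simpa using hζ
  exact modularCyclotomicCharacter.spec (AlgebraicClosure ℚ) (card_rootsOfUnity_eq_self p)
    (σ : AlgebraicClosure ℚ ≃+* AlgebraicClosure ℚ) hmem

lemma g3_exists_prim : ∃ ζ : Qb, IsPrimitiveRoot ζ p :=
  HasEnoughRootsOfUnity.exists_primitiveRoot Qb p

variable {p}

lemma g3_chi_eq_one_iff (σ : GalQ) {ζ : Qb} (hζ : IsPrimitiveRoot ζ p) :
    g3chi p σ = 1 ↔ σ ζ = ζ := by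
  have h := g3_chi_spec p σ hζ.pow_eq_one
  have hp := (Fact.out : p.Prime).one_lt
  constructor
  · intro h1
    have : Fact (1 < p) := ⟨hp⟩
    rw [h, h1, Units.val_one, ZMod.val_one, pow_one]
  · intro h1
    rw [h1] at h
    have h2 : ζ ^ 1 = ζ ^ ((g3chi p σ : (ZMod p)ˣ) : ZMod p).val := by rw [pow_one]; exact h
    have h3 := hζ.pow_inj hp (ZMod.val_lt _) h2
    ext
    have : Fact (1 < p) := ⟨hp⟩
    rw [Units.val_one, ← ZMod.val_injective p |>.eq_iff, ZMod.val_one, ← h3]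

lemma g3_exists_chi_ne_one (h3 : 3 ≤ p) : ∃ σ : GalQ, g3chi p σ ≠ 1 := by
  obtain ⟨ζ, hζ⟩ := g3_exists_prim p
  by_contra hcon
  push Not at hcon
  have h1 : ζ ∈ Set.range (algebraMap ℚ Qb) := by
    rw [InfiniteGalois.mem_range_algebraMap_iff_fixed]
    intro σ
    exact (g3_chi_eq_one_iff σ hζ).1 (hcon σ)
  obtain ⟨q, rfl⟩ := h1
  have h2 : q ^ p = 1 := by
    have := hζ.pow_eq_one
    rw [← map_pow] at this
    exact (algebraMap ℚ Qb).injective (by rw [this, map_one])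
  have hodd : Odd p := (Fact.out : p.Prime).odd_of_ne_two (by omega)
  have h4 : q = 1 := hodd.strictMono_pow.injective (by simpa using h2)
  rw [h4, map_one] at hζ
  have := hζ.eq_orderOf
  rw [orderOf_one] at this
  omega

end chi

/-! ### primes of a number field inside `ℚ̄` and valuation subrings of `ℚ̄` -/

section primes

variable (L : IntermediateField ℚ Qb)

/-- `𝓞 L → ℚ̄` -/
noncomputable def g3f : 𝓞 L →+* Qb := (algebraMap L Qb).comp (algebraMap (𝓞 L) L)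

lemma g3f_injective : Function.Injective (g3f L) :=
  (algebraMap L Qb).injective.comp RingOfIntegers.coe_injective

lemma g3f_isIntegral (x : 𝓞 L) : IsIntegral ℤ (g3f L x) :=
  (RingOfIntegers.isIntegral_coe x).map (algebraMap L Qb).toIntAlgHom

lemma g3f_surj {x : Qb} (hx : IsIntegral ℤ x) (hL : x ∈ L) : ∃ y : 𝓞 L, g3f L y = x := by
  have h1 : IsIntegral ℤ (⟨x, hL⟩ : L) := by
    have h2 : IsIntegral ℤ ((algebraMap L Qb).toIntAlgHom (⟨x, hL⟩ : L)) := hx
    exact (isIntegral_algHom_iff _ (algebraMap L Qb).injective).1 h2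
  exact ⟨⟨⟨x, hL⟩, h1⟩, rfl⟩

lemma g3_exists_val [NumberField L] (Q : Ideal (𝓞 L)) [hQp : Q.IsPrime] (hQ : Q ≠ ⊥) :
    ∃ (A : ValuationSubring Qb) (ℓ : ℕ), ℓ.Prime ∧ (ℓ : Qb) ∈ A.nonunits ∧ (ℓ : 𝓞 L) ∈ Q ∧
      ∀ x : 𝓞 L, x ∈ Q ↔ g3f L x ∈ A.nonunits := by
  have hsurj : Function.Surjective (g3f L).rangeRestrict := (g3f L).rangeRestrict_surjective
  have hne : Q.map (g3f L).rangeRestrict ≠ ⊤ := by
    intro htop
    have h1 : (1 : (g3f L).range) ∈ Q.map (g3f L).rangeRestrict := by rw [htop]; trivial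
    obtain ⟨q, hq, hq1⟩ := (Ideal.mem_map_iff_of_surjective _ hsurj).1 h1
    have h2 : g3f L q = g3f L 1 := by
      rw [map_one]
      exact congrArg Subtype.val hq1
    rw [g3f_injective L h2] at hq
    exact hQp.ne_top ((Ideal.eq_top_iff_one Q).2 hq)
  obtain ⟨A, -, hI⟩ := Ideal.image_subset_nonunits_valuationSubring _ hne
  have hQA : ∀ x ∈ Q, g3f L x ∈ A.nonunits := fun x hx =>
    hI ⟨(g3f L).rangeRestrict x, Ideal.mem_map_of_mem _ hx, rfl⟩
  let h : 𝓞 L →+* A := (g3f L).codRestrict A.toSubring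
    (fun x => mem_of_isIntegral_int A (g3f_isIntegral L x))
  let Q' : Ideal (𝓞 L) := (IsLocalRing.maximalIdeal A).comap h
  have hQ'p : Q'.IsPrime := Ideal.comap_isPrime _ _
  have hQ'mem : ∀ x, x ∈ Q' ↔ g3f L x ∈ A.nonunits := by
    intro x
    rw [Ideal.mem_comap, ← ValuationSubring.coe_mem_nonunits_iff]
    rfl
  have hmax : Q.IsMaximal := hQp.isMaximal hQ
  have hQQ' : Q = Q' := hmax.eq_of_le hQ'p.ne_top fun x hx => (hQ'mem x).2 (hQA x hx)
  have hfin : Finite (𝓞 L ⧸ Q) := Ideal.finiteQuotientOfFreeOfNeBot Q hQ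
  obtain ⟨ℓ, hchar⟩ := CharP.exists (𝓞 L ⧸ Q)
  have hdom : IsDomain (𝓞 L ⧸ Q) := Ideal.Quotient.isDomain Q
  have hℓ : ℓ.Prime := (CharP.char_is_prime_or_zero (𝓞 L ⧸ Q) ℓ).resolve_right
    (CharP.char_ne_zero_of_finite (𝓞 L ⧸ Q) ℓ)
  have hℓQ : (ℓ : 𝓞 L) ∈ Q := by
    rw [← Ideal.Quotient.eq_zero_iff_mem, map_natCast]
    exact CharP.cast_eq_zero _ _
  refine ⟨A, ℓ, hℓ, ?_, hℓQ, fun x => by rw [hQQ']; exact hQ'mem x⟩
  have := hQA _ hℓQ
  rwa [map_natCast] at this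

variable [IsGalois ℚ L]

lemma g3f_smul (σ : GalQ) (x : 𝓞 L) :
    g3f L (AlgEquiv.restrictNormalHom (F := ℚ) (K₁ := Qb) L σ • x) = σ (g3f L x) :=
  AlgEquiv.restrictNormal_commutes σ L (x : L)

lemma g3_res_eq_one_iff (σ : GalQ) :
    AlgEquiv.restrictNormalHom (F := ℚ) (K₁ := Qb) L σ = 1 ↔ σ ∈ L.fixingSubgroup := by
  rw [IntermediateField.mem_fixingSubgroup_iff]
  constructor
  · intro h x hx
    have h1 := AlgEquiv.restrictNormal_commutes σ L (⟨x, hx⟩ : L)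
    have h2 : σ.restrictNormal L = 1 := h
    rw [h2] at h1
    exact h1.symm
  · intro h
    ext x
    have h1 := AlgEquiv.restrictNormal_commutes σ L x
    exact h1.trans (h _ x.2)

variable (H : Subgroup GalQ) [H.Normal] (hH : IsClosed (H : Set GalQ))
  (hL : L = IntermediateField.fixedField H)
  (Q : Ideal (𝓞 L)) (A : ValuationSubring Qb) {ℓ : ℕ} (hℓ : ℓ.Prime) (hA : (ℓ : Qb) ∈ A.nonunits)
  (hQA : ∀ x : 𝓞 L, x ∈ Q ↔ g3f L x ∈ A.nonunits)

omit [H.Normal] in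
include hL in
lemma g3_res_of_mem (τ : GalQ) (hτ : τ ∈ H) :
    AlgEquiv.restrictNormalHom (F := ℚ) (K₁ := Qb) L τ = 1 := by
  rw [g3_res_eq_one_iff, IntermediateField.mem_fixingSubgroup_iff]
  intro x hx
  rw [hL, IntermediateField.mem_fixedField_iff] at hx
  exact hx τ hτ

include hH hL hℓ hA hQA

lemma g3_lift_inertia (t : L ≃ₐ[ℚ] L) (ht : ∀ x : 𝓞 L, t • x - x ∈ Q) :
    ∃ σ ∈ A.inertiaSubgroupIn ℚ, AlgEquiv.restrictNormalHom (F := ℚ) (K₁ := Qb) L σ = t := by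
  obtain ⟨σ₀, rfl⟩ := AlgEquiv.restrictNormalHom_surjective (F := ℚ) (K₁ := L) Qb t
  obtain ⟨τ, hτ, h⟩ := g1_exists_mul_mem_inertia H A hℓ hA hH σ₀ (by
    intro x hx hfix
    have hxL : x ∈ L := by
      rw [hL, IntermediateField.mem_fixedField_iff]
      exact hfix
    obtain ⟨y, rfl⟩ := g3f_surj L hx hxL
    rw [← g3f_smul, ← map_sub, ← hQA]
    exact ht y)
  exact ⟨_, h, by rw [map_mul, g3_res_of_mem L H hL τ hτ, one_mul]⟩

lemma g3_lift_decomp (t : L ≃ₐ[ℚ] L) (ht : ∀ x : 𝓞 L, x ∈ Q ↔ t • x ∈ Q) :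
    ∃ σ ∈ A.decompositionSubgroup ℚ, AlgEquiv.restrictNormalHom (F := ℚ) (K₁ := Qb) L σ = t := by
  obtain ⟨σ₀, rfl⟩ := AlgEquiv.restrictNormalHom_surjective (F := ℚ) (K₁ := L) Qb t
  obtain ⟨τ, hτ, h⟩ := g1_exists_mul_mem_decomp H A hℓ hA hH σ₀ (by
    intro x hx hfix
    have hxL : x ∈ L := by
      rw [hL, IntermediateField.mem_fixedField_iff]
      exact hfix
    obtain ⟨y, rfl⟩ := g3f_surj L hx hxL
    rw [← g3f_smul, ← hQA, ← hQA]
    exact ht y)
  exact ⟨_, h, by rw [map_mul, g3_res_of_mem L H hL τ hτ, one_mul]⟩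

end primes

/-! ### the main construction -/

lemma g3_conv_gal (L : IntermediateField ℚ Qb) (h : @IsGalois ℚ _ L _ L.algebra') :
    IsGalois ℚ L := by
  have e : (L.algebra' : Algebra ℚ ↥L) = DivisionRing.toRatAlgebra := Subsingleton.elim _ _
  rw [← e]
  exact h

/-- the kernel of the representation -/
def g3H (V : Type) [AddCommGroup V] [DistribMulAction GalQ V] : Subgroup GalQ where
  carrier := {σ | ∀ v : V, σ • v = v}
  mul_mem' := by
    intro a b ha hb v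
    rw [mul_smul, hb, ha]
  one_mem' := fun v => one_smul _ v
  inv_mem' := by
    intro a ha v
    rw [inv_smul_eq_iff, ha]

instance g3H_normal (V : Type) [AddCommGroup V] [DistribMulAction GalQ V] : (g3H V).Normal :=
  ⟨fun n hn g v => by rw [mul_smul, mul_smul, hn, smul_inv_smul]⟩

section main

variable {p : ℕ} [Fact p.Prime] {V : Type} [AddCommGroup V] [Module (ZMod p) V]
  [DistribMulAction GalQ V] [SMulCommClass GalQ (ZMod p) V] {C : Submodule (ZMod p) V}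
  (hadm : IsAdmissibleExtensionCts p V C)

include hadm

omit [SMulCommClass GalQ (ZMod p) V] in
lemma g3_hquot (σ : GalQ) (x : V) : σ • x - ((g3chi p σ : (ZMod p)ˣ) : ZMod p) • x ∈ C := by
  rw [← g3_cast_cycloExp]
  exact hadm.cyclo_quot σ x

lemma g3_chi_of_mem_H (σ : GalQ) (h : σ ∈ g3H V) : g3chi p σ = 1 :=
  g2_chi_of_fix (g3chi p) (g3_hquot hadm) hadm.card_sub hadm.card_total σ h

lemma g3_sub_mem (σ : GalQ) (hσ : g3chi p σ = 1) (x : V) : σ • x - x ∈ C := by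
  have := g3_hquot hadm σ x
  rwa [hσ, Units.val_one, one_smul] at this

theorem g3_badData (t₀ : GalQ) (ht₀ : g3chi p t₀ = 1) (ht₀' : t₀ ∉ g3H V) {ζ : Qb}
    (hζ : IsPrimitiveRoot ζ p) :
    ∃ hmem : ζ ∈ IntermediateField.fixedField (g3H V),
      BadData p (IntermediateField.fixedField (g3H V)) ⟨ζ, hmem⟩ := by
  have hp := (Fact.out : p.Prime)
  set H := g3H V with hHdef
  set L := IntermediateField.fixedField H with hLdef
  have hopen : IsOpen (H : Set GalQ) := hadm.open_kernel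
  have hclosed : IsClosed (H : Set GalQ) := H.isClosed_of_isOpen hopen
  have hfixing : L.fixingSubgroup = H :=
    InfiniteGalois.fixingSubgroup_fixedField (⟨H, hclosed⟩ : ClosedSubgroup GalQ)
  have hfin : FiniteDimensional ℚ L := (InfiniteGalois.isOpen_iff_finite L).1 (by
    rw [hfixing]; exact hopen)
  have hnf : NumberField L := ⟨⟩
  have hgal : IsGalois ℚ L := g3_conv_gal L ((InfiniteGalois.normal_iff_isGalois L).1 (by
    rw [hfixing]; infer_instance))
  have hmem : ζ ∈ L := by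
    rw [hLdef, IntermediateField.mem_fixedField_iff]
    intro h hh
    exact (g3_chi_eq_one_iff h hζ).1 (g3_chi_of_mem_H hadm h hh)
  refine ⟨hmem, ?_⟩
  have hsurj := AlgEquiv.restrictNormalHom_surjective (F := ℚ) (K₁ := L) Qb
  have k1 : ∀ σ : GalQ, AlgEquiv.restrictNormalHom (F := ℚ) (K₁ := Qb) L σ = 1 ↔ σ ∈ H := by
    intro σ
    rw [g3_res_eq_one_iff, hfixing]
  have k2 : ∀ σ : GalQ, AlgEquiv.restrictNormalHom (F := ℚ) (K₁ := Qb) L σ (⟨ζ, hmem⟩ : L) =
      ⟨ζ, hmem⟩ ↔ g3chi p σ = 1 := by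
    intro σ
    rw [g3_chi_eq_one_iff σ hζ, Subtype.ext_iff]
    have h1 := AlgEquiv.restrictNormal_commutes σ L (⟨ζ, hmem⟩ : L)
    constructor
    · intro h
      exact h1.symm.trans h
    · intro h
      exact h1.trans h
  obtain ⟨e, he⟩ := g2_exists_not_mem hadm.card_sub hadm.card_total
  have hfixe : ∀ σ : GalQ, σ • e = e → σ ∈ H := fun σ h =>
    g2_fix_of hadm.fixed_sub hadm.card_sub hadm.card_total he σ h
  have hpsmul : ∀ x : V, p • x = 0 := by
    intro x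
    rw [← Nat.cast_smul_eq_nsmul (ZMod p), ZMod.natCast_self, zero_smul]
  have hCfin : Finite C := Nat.finite_of_card_ne_zero (by rw [hadm.card_sub]; exact hp.ne_zero)
  refine ⟨hfin, hgal, ?_, ?_, ?_, ?_, ?_⟩
  · -- primitive root
    exact IsPrimitiveRoot.of_map_of_injective (f := algebraMap L Qb) hζ (algebraMap L Qb).injective
  · -- cardinality
    let N : Subgroup (L ≃ₐ[ℚ] L) := MulAction.stabilizer (L ≃ₐ[ℚ] L) (⟨ζ, hmem⟩ : L)
    have hN : ∀ t, t ∈ N ↔ t (⟨ζ, hmem⟩ : L) = ⟨ζ, hmem⟩ := fun t => Iff.rfl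
    change Nat.card N = p
    have hpg : IsPGroup p N := by
      rintro ⟨t, ht⟩
      refine ⟨1, Subtype.ext ?_⟩
      obtain ⟨σ, rfl⟩ := hsurj t
      rw [hN, k2] at ht
      rw [pow_one]
      change (AlgEquiv.restrictNormalHom (F := ℚ) (K₁ := Qb) L σ) ^ p = 1
      rw [← map_pow, k1]
      apply hfixe
      rw [g2_pow_smul hadm.fixed_sub σ e (g3_sub_mem hadm σ ht e), hpsmul, add_zero]
    obtain ⟨n, hn⟩ := (IsPGroup.iff_card (p := p) (G := N)).1 hpg
    have hnontriv : Nat.card N ≠ 1 := by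
      intro h1
      have hsub : Subsingleton N := (Nat.card_eq_one_iff_unique.1 h1).1
      have h2 : (⟨AlgEquiv.restrictNormalHom (F := ℚ) (K₁ := Qb) L t₀, (hN _).2 ((k2 t₀).2 ht₀)⟩ : N)
          = 1 := Subsingleton.elim _ _
      exact ht₀' ((k1 t₀).1 (congrArg Subtype.val h2))
    have hle : Nat.card N ≤ p := by
      rw [← hadm.card_sub]
      have hχ : ∀ t : N, g3chi p (Function.surjInv hsurj t.1) = 1 := by
        intro t
        rw [← k2, Function.surjInv_eq hsurj]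
        exact t.2
      refine Nat.card_le_card_of_injective (fun t : N =>
        (⟨Function.surjInv hsurj t.1 • e - e, g3_sub_mem hadm _ (hχ t) e⟩ : C)) ?_
      intro t t' h
      have h1 : Function.surjInv hsurj t.1 • e = Function.surjInv hsurj t'.1 • e :=
        sub_left_injective (congrArg Subtype.val h)
      have h2 : (Function.surjInv hsurj t'.1)⁻¹ * Function.surjInv hsurj t.1 ∈ H := by
        apply hfixe
        rw [mul_smul, h1, inv_smul_smul]
      rw [← k1, map_mul, map_inv, Function.surjInv_eq hsurj, Function.surjInv_eq hsurj,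
        inv_mul_eq_one] at h2
      exact Subtype.ext h2.symm
    rw [hn] at hnontriv hle ⊢
    have hn0 : n ≠ 0 := by
      rintro rfl
      exact hnontriv (pow_zero p)
    have hn1 : n ≤ 1 := by
      by_contra hcon
      have h2 : p ^ 2 ≤ p ^ n := Nat.pow_le_pow_right hp.pos (by omega)
      have := hp.two_le
      nlinarith
    have : n = 1 := by omega
    rw [this, pow_one]
  · -- conjugation
    intro s t m ht hs
    obtain ⟨σs, rfl⟩ := hsurj s
    obtain ⟨σt, rfl⟩ := hsurj t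
    rw [k2] at ht
    have hm : (((g3chi p σs)⁻¹ : (ZMod p)ˣ) : ZMod p) = (m : ZMod p) := by
      have h1 := AlgEquiv.restrictNormal_commutes σs L (⟨ζ, hmem⟩ : L)
      have h2 : (σs ζ) ^ m = ζ := by
        have h3 := congrArg (algebraMap L Qb) hs
        rw [map_pow] at h3
        have h3' : (algebraMap L Qb) ((AlgEquiv.restrictNormalHom (F := ℚ) (K₁ := Qb) L σs)
            (⟨ζ, hmem⟩ : L)) = σs ζ := h1
        rw [h3'] at h3
        exact h3
      rw [g3_chi_spec p σs hζ.pow_eq_one, ← pow_mul] at h2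
      have h4 : ζ ^ (((g3chi p σs : (ZMod p)ˣ) : ZMod p).val * m + (p - 1)) = 1 := by
        rw [pow_add, h2, ← pow_succ', Nat.sub_add_cancel hp.pos, hζ.pow_eq_one]
      rw [hζ.pow_eq_one_iff_dvd, ← ZMod.natCast_eq_zero_iff] at h4
      push_cast [Nat.cast_pred hp.pos] at h4
      rw [ZMod.natCast_zmod_val, ZMod.natCast_self] at h4
      have h5 : ((g3chi p σs : (ZMod p)ˣ) : ZMod p) * (m : ZMod p) = 1 := by
        linear_combination h4
      rw [Units.val_inv_eq_inv_val]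
      exact inv_eq_of_mul_eq_one_right h5
    rw [← map_inv, ← map_mul, ← map_mul, ← map_pow, ← mul_inv_eq_one, ← map_inv, ← map_mul, k1]
    have h5 : (σs * σt * σs⁻¹) • e = σt ^ m • e := by
      have h6 := g2_conj_smul (g3chi p) hadm.fixed_sub (g3_hquot hadm) σs σt ht e
      rw [g2_pow_smul hadm.fixed_sub σt e (g3_sub_mem hadm σt ht e), ← Nat.cast_smul_eq_nsmul (ZMod p),
        ← hm, ← h6]
      abel
    have h7 : (σt ^ m)⁻¹ * (σs * σt * σs⁻¹) ∈ H := by
      apply hfixe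
      rw [mul_smul, h5, inv_smul_smul]
    have h8 := Subgroup.Normal.conj_mem (inferInstance : H.Normal) _ h7 (σt ^ m)
    simpa [mul_assoc] using h8
  · -- unramified outside `p`
    intro Q hQp hQ hpQ t ht
    obtain ⟨A, ℓ, hℓ, hA, hℓQ, hQA⟩ := g3_exists_val L Q hQ
    have hne : ℓ ≠ p := by
      rintro rfl
      exact hpQ hℓQ
    obtain ⟨σ, hσ, rfl⟩ := g3_lift_inertia L H hclosed hLdef Q A hℓ hA hQA t ht
    rw [k1]
    exact hadm.unramified_outside ℓ hℓ hne A hA σ hσ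
  · -- split at `p`
    intro Q hQp hpQ t ht htQ
    have hQ : Q ≠ ⊥ := by
      rintro rfl
      rw [Ideal.mem_bot] at hpQ
      exact hp.ne_zero (by exact_mod_cast hpQ)
    obtain ⟨A, ℓ, -, -, -, hQA⟩ := g3_exists_val L Q hQ
    have hA : (p : Qb) ∈ A.nonunits := by
      have := (hQA _).1 hpQ
      rwa [map_natCast] at this
    obtain ⟨σ, hσ, rfl⟩ := g3_lift_decomp L H hclosed hLdef Q A hp hA hQA t htQ
    rw [k2] at ht
    rw [k1]
    obtain ⟨C', hC', hcompl⟩ := hadm.locally_split A hA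
    intro v
    have hv : v ∈ C ⊔ C' := by rw [hcompl.sup_eq_top]; trivial
    obtain ⟨c, hc, c', hc', rfl⟩ := Submodule.mem_sup.1 hv
    have h1 : σ • c' - c' ∈ C ⊓ C' :=
      ⟨g3_sub_mem hadm σ ht c', C'.sub_mem (hC' σ hσ c' hc') hc'⟩
    rw [hcompl.inf_eq_bot, Submodule.mem_bot, sub_eq_zero] at h1
    rw [smul_add, hadm.fixed_sub σ c hc, h1]

end main

/-- (G): reduction of S14 to the non-existence of the field `L` -/
theorem g3_main {p : ℕ} [Fact p.Prime] (h3 : 3 ≤ p)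
    (hno : ∀ (L : Type) [Field L] [NumberField L] (ζ : L), ¬ BadData p L ζ) :
    ExtVanishingCts p := by
  intro V _ _ _ _ C hadm
  by_cases h : ∀ σ : GalQ, g3chi p σ = 1 → σ ∈ g3H V
  · obtain ⟨σ₀, hσ₀⟩ := g3_exists_chi_ne_one h3
    exact g2_split_of_trivial (g3chi p) hadm.fixed_sub (g3_hquot hadm) h σ₀ hσ₀
  · push Not at h
    obtain ⟨t₀, ht₀, ht₀'⟩ := h
    obtain ⟨ζ, hζ⟩ := g3_exists_prim p
    obtain ⟨hmem, hbad⟩ := g3_badData hadm t₀ ht₀ ht₀' hζ
    have := hbad.fin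
    have hnf : NumberField (IntermediateField.fixedField (g3H V)) := ⟨⟩
    exact absurd hbad (hno _ _)

end Fermat.Agent.S14
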