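import Mathlib

/-!
# S14 (C2): Euler products over the primes of a Dedekind domain
-/

set_option autoImplicit false
set_option linter.unusedSectionVars false

namespace Fermat.Agent.S14

open Filter Topology IsDedekindDomain
open scoped nonZeroDivisors Classical

variable {R : Type*} [CommRing R] [IsDedekindDomain R]

/-- a prime as a nonzero ideal -/
noncomputable def pr0 (q : HeightOneSpectrum R) : (Ideal R)⁰ :=
  ⟨q.asIdeal, mem_nonZeroDivisors_of_ne_zero q.ne_bot⟩

@[simp] theorem coe_pr0 (q : HeightOneSpectrum R) : ((pr0 q : (Ideal R)⁰) : Ideal R) = q.asIdeal :=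
  rfl

theorem pr0_injective : Function.Injective (pr0 (R := R)) := by
  intro q q' h
  exact HeightOneSpectrum.ext (congrArg Subtype.val h)

/-- `I` is prime to all the primes in `T` -/
def Cop (T : Finset (HeightOneSpectrum R)) (I : (Ideal R)⁰) : Prop :=
  ∀ q ∈ T, ¬ (q.asIdeal ∣ (I : Ideal R))

theorem hos_dvd_iff_eq (q q' : HeightOneSpectrum R) : q'.asIdeal ∣ q.asIdeal ↔ q' = q := by
  constructor
  · intro h
    have hle : q.asIdeal ≤ q'.asIdeal := Ideal.le_of_dvd h
    have := q.isMaximal.eq_of_le q'.isPrime.ne_top hle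
    exact HeightOneSpectrum.ext this.symm
  · rintro rfl
    exact dvd_rfl

theorem cop_mul_iff (T : Finset (HeightOneSpectrum R)) (q : HeightOneSpectrum R) (hq : q ∉ T)
    (J : (Ideal R)⁰) : Cop T (pr0 q * J) ↔ Cop T J := by
  unfold Cop
  refine forall₂_congr fun q' hq' => not_congr ?_
  have hne : q' ≠ q := fun h => hq (h ▸ hq')
  have hp : Prime q'.asIdeal := q'.prime
  constructor
  · intro h
    rcases hp.dvd_or_dvd (a := q.asIdeal) (b := (J : Ideal R)) (by simpa using h) with h | h
    · exact absurd ((hos_dvd_iff_eq q q').1 h) hne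
    · exact h
  · intro h
    simpa using Dvd.dvd.mul_left h q.asIdeal

theorem cop_insert (T : Finset (HeightOneSpectrum R)) (q : HeightOneSpectrum R) (I : (Ideal R)⁰) :
    Cop (insert q T) I ↔ Cop T I ∧ ¬ (q.asIdeal ∣ (I : Ideal R)) := by
  unfold Cop
  simp only [Finset.mem_insert, forall_eq_or_imp]
  tauto

section

variable {𝕜 : Type*} [NormedField 𝕜] [CompleteSpace 𝕜] (f : (Ideal R)⁰ → 𝕜)

theorem summable_cop (hf : Summable fun I => ‖f I‖) (T : Finset (HeightOneSpectrum R)) :
    Summable fun I => if Cop T I then f I else 0 := by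
  refine Summable.of_norm_bounded hf fun I => ?_
  split_ifs
  · exact le_rfl
  · simp

theorem euler_sieve (hmul : ∀ I J, f (I * J) = f I * f J) (hf : Summable fun I => ‖f I‖)
    (T : Finset (HeightOneSpectrum R)) :
    (∏ q ∈ T, (1 - f (pr0 q))) * ∑' I, f I = ∑' I, if Cop T I then f I else 0 := by
  induction T using Finset.induction_on with
  | empty => simp [Cop]
  | insert q T hq ih =>
    rw [Finset.prod_insert hq, mul_assoc, ih]
    set g : (Ideal R)⁰ → 𝕜 := fun I => if Cop T I then f I else 0 with hg
    have hgs : Summable g := summable_cop f hf T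
    have hinj : Function.Injective fun J : (Ideal R)⁰ => pr0 q * J := by
      intro J J' h
      exact mul_left_cancel h
    have h1 : ∑' J, g (pr0 q * J) =
        ∑' I : (Ideal R)⁰, if q.asIdeal ∣ (I : Ideal R) then g I else 0 := by
      have := hinj.tsum_eq (f := fun I : (Ideal R)⁰ => if q.asIdeal ∣ (I : Ideal R) then g I else 0)
        (by
          intro I hI
          have hd : q.asIdeal ∣ (I : Ideal R) := by
            by_contra hd
            simp [hd] at hI
          obtain ⟨J, hJ⟩ := hd
          have hJ0 : J ∈ (Ideal R)⁰ := by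
            refine mem_nonZeroDivisors_of_ne_zero ?_
            rintro rfl
            have : (I : Ideal R) ≠ 0 := nonZeroDivisors.coe_ne_zero I
            simp [hJ] at this
          exact ⟨⟨J, hJ0⟩, Subtype.ext (by simp [hJ])⟩)
      rw [← this]
      refine tsum_congr fun J => ?_
      simp
    have h2 : ∀ J, g (pr0 q * J) = f (pr0 q) * g J := by
      intro J
      simp only [hg, cop_mul_iff T q hq J]
      split_ifs
      · exact hmul _ _
      · simp
    have h3 : ∑' J, g (pr0 q * J) = f (pr0 q) * ∑' J, g J := by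
      simp_rw [h2]
      exact tsum_mul_left
    have hs2 : Summable fun I : (Ideal R)⁰ => if q.asIdeal ∣ (I : Ideal R) then g I else 0 := by
      refine Summable.of_norm_bounded hf fun I => ?_
      simp only [hg]
      split_ifs
      · exact le_rfl
      · simp
      · simp
    have h4 : (fun I => if Cop (insert q T) I then f I else 0) =
        fun I => g I - if q.asIdeal ∣ (I : Ideal R) then g I else 0 := by
      funext I
      simp only [hg, cop_insert]
      by_cases hc : Cop T I <;> by_cases hd : q.asIdeal ∣ (I : Ideal R) <;> simp [hc, hd]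
    rw [h4, hgs.tsum_sub hs2, ← h1, h3]
    ring

theorem cop_one (T : Finset (HeightOneSpectrum R)) : Cop T (1 : (Ideal R)⁰) := by
  intro q _ h
  have : q.asIdeal = ⊤ := by
    have h' : q.asIdeal ∣ (1 : Ideal R) := by simpa using h
    exact Ideal.isUnit_iff.1 (isUnit_of_dvd_one h')
  exact q.isPrime.ne_top this

theorem exists_hos_dvd (I : (Ideal R)⁰) (hI : I ≠ 1) :
    ∃ q : HeightOneSpectrum R, q.asIdeal ∣ (I : Ideal R) := by
  have h1 : (I : Ideal R) ≠ ⊤ := by
    intro h
    exact hI (Subtype.ext (by simpa using h))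
  obtain ⟨M, hM, hle⟩ := Ideal.exists_le_maximal _ h1
  have hM0 : M ≠ ⊥ := by
    rintro rfl
    exact nonZeroDivisors.coe_ne_zero I (le_bot_iff.1 hle)
  exact ⟨⟨M, hM.isPrime, hM0⟩, Ideal.dvd_iff_le.2 hle⟩

theorem euler_tendsto (h1 : f 1 = 1) (hmul : ∀ I J, f (I * J) = f I * f J)
    (hf : Summable fun I => ‖f I‖) :
    Tendsto (fun T : Finset (HeightOneSpectrum R) => (∏ q ∈ T, (1 - f (pr0 q))) * ∑' I, f I)
      atTop (𝓝 1) := by
  simp_rw [euler_sieve f hmul hf]
  have key := tendsto_tsum_of_dominated_convergence (𝓕 := (atTop : Filter (Finset (HeightOneSpectrum R))))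
    (f := fun T I => if Cop T I then f I else 0)
    (g := fun I : (Ideal R)⁰ => if I = 1 then (1 : 𝕜) else 0) (bound := fun I => ‖f I‖) hf
    (by
      intro I
      by_cases hI : I = 1
      · subst hI
        simp [cop_one, h1]
      · obtain ⟨q, hq⟩ := exists_hos_dvd I hI
        simp only [hI, if_false]
        refine tendsto_const_nhds.congr' ?_
        filter_upwards [eventually_ge_atTop ({q} : Finset (HeightOneSpectrum R))] with T hT
        have : ¬ Cop T I := fun h => h q (hT (Finset.mem_singleton_self q)) hq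
        simp [this])
    (by
      refine Eventually.of_forall fun T I => ?_
      split_ifs
      · exact le_rfl
      · simp)
  simpa using key

end

/-- complex exp-log form of the Euler product -/
theorem euler_exp_complex (f : (Ideal R)⁰ → ℂ) (h1 : f 1 = 1)
    (hmul : ∀ I J, f (I * J) = f I * f J) (hf : Summable fun I => ‖f I‖)
    (hlt : ∀ q, ‖f (pr0 q)‖ < 1) :
    Summable (fun q : HeightOneSpectrum R => Complex.log (1 - f (pr0 q))) ∧
    Complex.exp (∑' q : HeightOneSpectrum R, Complex.log (1 - f (pr0 q))) * ∑' I, f I = 1 := by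
  have hs : Summable fun q : HeightOneSpectrum R => f (pr0 q) :=
    (hf.of_norm).comp_injective pr0_injective
  have hl : Summable fun q : HeightOneSpectrum R => Complex.log (1 - f (pr0 q)) := by
    have := Complex.summable_log_one_add_of_summable hs.neg
    simpa [sub_eq_add_neg] using this
  refine ⟨hl, ?_⟩
  have ht := euler_tendsto f h1 hmul hf
  have he : Tendsto (fun T : Finset (HeightOneSpectrum R) =>
      Complex.exp (∑ q ∈ T, Complex.log (1 - f (pr0 q))) * ∑' I, f I) atTop
      (𝓝 (Complex.exp (∑' q : HeightOneSpectrum R, Complex.log (1 - f (pr0 q))) * ∑' I, f I)) :=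
    ((Complex.continuous_exp.tendsto _).comp hl.hasSum).mul_const _
  refine tendsto_nhds_unique he (ht.congr fun T => ?_)
  rw [Complex.exp_sum]
  congr 1
  refine Finset.prod_congr rfl fun q _ => ?_
  rw [Complex.exp_log]
  intro h0
  have : f (pr0 q) = 1 := (sub_eq_zero.1 h0).symm
  have h := hlt q
  rw [this] at h
  simp at h

/-- real exp-log form of the Euler product -/
theorem euler_exp_real (f : (Ideal R)⁰ → ℝ) (h1 : f 1 = 1)
    (hmul : ∀ I J, f (I * J) = f I * f J) (hf : Summable fun I => ‖f I‖)
    (hlt : ∀ q, f (pr0 q) < 1) :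
    Summable (fun q : HeightOneSpectrum R => Real.log (1 - f (pr0 q))) ∧
    Real.exp (∑' q : HeightOneSpectrum R, Real.log (1 - f (pr0 q))) * ∑' I, f I = 1 := by
  have hs : Summable fun q : HeightOneSpectrum R => f (pr0 q) :=
    (hf.of_norm).comp_injective pr0_injective
  have hl : Summable fun q : HeightOneSpectrum R => Real.log (1 - f (pr0 q)) := by
    have := Real.summable_log_one_add_of_summable hs.neg
    simpa [sub_eq_add_neg] using this
  refine ⟨hl, ?_⟩
  have ht := euler_tendsto f h1 hmul hf
  have he : Tendsto (fun T : Finset (HeightOneSpectrum R) =>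
      Real.exp (∑ q ∈ T, Real.log (1 - f (pr0 q))) * ∑' I, f I) atTop
      (𝓝 (Real.exp (∑' q : HeightOneSpectrum R, Real.log (1 - f (pr0 q))) * ∑' I, f I)) :=
    ((Real.continuous_exp.tendsto _).comp hl.hasSum).mul_const _
  refine tendsto_nhds_unique he (ht.congr fun T => ?_)
  rw [Real.exp_sum]
  congr 1
  refine Finset.prod_congr rfl fun q _ => ?_
  rw [Real.exp_log]
  linarith [hlt q]

end Fermat.Agent.S14
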