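import Mathlib

/-!
# S14 (C1), part 1: a Lipschitz partition of unity for the unit lattice
-/

set_option autoImplicit false

namespace Fermat.Agent.S14

open Finset

/-- the tent function -/
noncomputable def tent (u : ℝ) : ℝ := max 0 (1 - |u|)

theorem tent_nonneg (u : ℝ) : 0 ≤ tent u := le_max_left _ _

theorem tent_le_one (u : ℝ) : tent u ≤ 1 := by
  unfold tent
  exact max_le zero_le_one (by linarith [abs_nonneg u])

theorem tent_eq_zero {u : ℝ} (h : 1 ≤ |u|) : tent u = 0 := by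
  unfold tent
  exact max_eq_left (by linarith)

theorem tent_of_abs_le {u : ℝ} (h : |u| ≤ 1) : tent u = 1 - |u| := by
  unfold tent
  exact max_eq_right (by linarith)

theorem abs_lt_one_of_tent_ne_zero {u : ℝ} (h : tent u ≠ 0) : |u| < 1 := by
  by_contra h1
  exact h (tent_eq_zero (not_lt.mp h1))

theorem tent_lipschitz (u v : ℝ) : |tent u - tent v| ≤ |u - v| := by
  unfold tent
  rw [max_comm 0, max_comm 0]
  refine (abs_max_sub_max_le_abs (1 - |u|) (1 - |v|) (0 : ℝ)).trans ?_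
  have : (1 - |u|) - (1 - |v|) = -(|u| - |v|) := by ring
  rw [this, abs_neg]
  exact abs_abs_sub_abs_le_abs_sub u v

theorem tent_add_int_eq_zero (u : ℝ) (i : ℤ) (h : i ∉ ({-⌊u⌋, -⌊u⌋ - 1} : Finset ℤ)) :
    tent (u + i) = 0 := by
  apply tent_eq_zero
  simp only [Finset.mem_insert, Finset.mem_singleton, not_or] at h
  obtain ⟨h1, h2⟩ := h
  have hf0 := Int.fract_nonneg u
  have hf1 := Int.fract_lt_one u
  have hu : u = ⌊u⌋ + Int.fract u := (Int.floor_add_fract u).symm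
  rcases lt_or_gt_of_ne h1 with h3 | h3
  · have h4 : i + ⌊u⌋ ≤ -2 := by
      rcases lt_or_gt_of_ne h2 with h5 | h5 <;> omega
    have h5 : ((i + ⌊u⌋ : ℤ) : ℝ) ≤ -2 := by exact_mod_cast h4
    push_cast at h5
    rw [le_abs]
    right
    linarith
  · have h4 : 1 ≤ i + ⌊u⌋ := by omega
    have h5 : (1 : ℝ) ≤ ((i + ⌊u⌋ : ℤ) : ℝ) := by exact_mod_cast h4
    push_cast at h5
    rw [le_abs]
    left
    linarith

theorem tent_sum (u : ℝ) : ∑ i ∈ ({-⌊u⌋, -⌊u⌋ - 1} : Finset ℤ), tent (u + i) = 1 := by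
  have hf0 := Int.fract_nonneg u
  have hf1 := Int.fract_lt_one u
  have hu : u = ⌊u⌋ + Int.fract u := (Int.floor_add_fract u).symm
  rw [Finset.sum_pair (by omega)]
  have e1 : u + ((-⌊u⌋ : ℤ) : ℝ) = Int.fract u := by push_cast; linarith
  have e2 : u + ((-⌊u⌋ - 1 : ℤ) : ℝ) = Int.fract u - 1 := by push_cast; linarith
  rw [e1, e2, tent_of_abs_le, tent_of_abs_le, abs_of_nonneg hf0, abs_of_nonpos (by linarith)]
  · ring
  · rw [abs_of_nonpos (by linarith)]; linarith
  · rw [abs_of_nonneg hf0]; exact hf1.le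

variable {ι : Type*} [Fintype ι]

/-- product of tent functions -/
noncomputable def tentPi (x : ι → ℝ) : ℝ := ∏ j, tent (x j)

theorem tentPi_nonneg (x : ι → ℝ) : 0 ≤ tentPi x := Finset.prod_nonneg fun j _ => tent_nonneg _

theorem tentPi_le_one (x : ι → ℝ) : tentPi x ≤ 1 :=
  Finset.prod_le_one (fun j _ => tent_nonneg _) fun j _ => tent_le_one _

theorem abs_lt_one_of_tentPi_ne_zero {x : ι → ℝ} (h : tentPi x ≠ 0) (j : ι) : |x j| < 1 := by
  apply abs_lt_one_of_tent_ne_zero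
  exact (Finset.prod_ne_zero_iff.mp h) j (Finset.mem_univ j)

omit [Fintype ι] in
theorem abs_prod_sub_prod_le_sum (s : Finset ι) (a b : ι → ℝ) (ha : ∀ j, 0 ≤ a j ∧ a j ≤ 1)
    (hb : ∀ j, 0 ≤ b j ∧ b j ≤ 1) :
    |∏ j ∈ s, a j - ∏ j ∈ s, b j| ≤ ∑ j ∈ s, |a j - b j| := by
  classical
  induction s using Finset.induction_on with
  | empty => simp
  | insert i s hi ih =>
    rw [Finset.prod_insert hi, Finset.prod_insert hi, Finset.sum_insert hi]
    have hA : 0 ≤ ∏ j ∈ s, a j ∧ ∏ j ∈ s, a j ≤ 1 :=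
      ⟨Finset.prod_nonneg fun j _ => (ha j).1,
        Finset.prod_le_one (fun j _ => (ha j).1) fun j _ => (ha j).2⟩
    have e : a i * ∏ j ∈ s, a j - b i * ∏ j ∈ s, b j =
        (a i - b i) * ∏ j ∈ s, a j + b i * (∏ j ∈ s, a j - ∏ j ∈ s, b j) := by ring
    rw [e]
    refine (abs_add_le _ _).trans ?_
    rw [abs_mul, abs_mul, abs_of_nonneg hA.1, abs_of_nonneg (hb i).1]
    have h1 : |a i - b i| * ∏ j ∈ s, a j ≤ |a i - b i| :=
      mul_le_of_le_one_right (abs_nonneg _) hA.2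
    have h2 : b i * |∏ j ∈ s, a j - ∏ j ∈ s, b j| ≤ |∏ j ∈ s, a j - ∏ j ∈ s, b j| :=
      mul_le_of_le_one_left (abs_nonneg _) (hb i).2
    linarith

theorem tentPi_lipschitz (x y : ι → ℝ) : |tentPi x - tentPi y| ≤ ∑ j, |x j - y j| := by
  unfold tentPi
  refine (abs_prod_sub_prod_le_sum _ _ _ (fun j => ⟨tent_nonneg _, tent_le_one _⟩)
    (fun j => ⟨tent_nonneg _, tent_le_one _⟩)).trans ?_
  exact Finset.sum_le_sum fun j _ => tent_lipschitz _ _

theorem hasSum_tentPi (x : ι → ℝ) :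
    HasSum (fun m : ι → ℤ => tentPi (fun j => x j + m j)) 1 := by
  classical
  have h1 : ∑ m ∈ Fintype.piFinset (fun j => ({-⌊x j⌋, -⌊x j⌋ - 1} : Finset ℤ)),
      tentPi (fun j => x j + m j) = 1 := by
    unfold tentPi
    have := Finset.prod_univ_sum (fun j => ({-⌊x j⌋, -⌊x j⌋ - 1} : Finset ℤ))
      (fun j (i : ℤ) => tent (x j + i))
    rw [← this]
    exact Finset.prod_eq_one fun j _ => tent_sum (x j)
  rw [← h1]
  apply hasSum_sum_of_ne_finset_zero
  intro m hm
  rw [Fintype.mem_piFinset] at hm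
  push Not at hm
  obtain ⟨j, hj⟩ := hm
  exact Finset.prod_eq_zero (Finset.mem_univ j) (tent_add_int_eq_zero _ _ hj)

section Coset

variable {A : Type*} [AddCommGroup A] (H : AddSubgroup A)

/-- coset decomposition `(A ⧸ H) × H ≃ A`, `(q, y) ↦ q.out + y` -/
noncomputable def cosetEquiv : (A ⧸ H) × H ≃ A where
  toFun p := p.1.out + p.2
  invFun x := (QuotientAddGroup.mk x, ⟨x - (QuotientAddGroup.mk x : A ⧸ H).out, by
    have h : (QuotientAddGroup.mk (QuotientAddGroup.mk x : A ⧸ H).out : A ⧸ H) =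
      QuotientAddGroup.mk x := QuotientAddGroup.out_eq' _
    rw [QuotientAddGroup.eq] at h
    rwa [sub_eq_neg_add]⟩)
  left_inv p := by
    obtain ⟨q, y⟩ := p
    have h1 : (QuotientAddGroup.mk (q.out + (y : A)) : A ⧸ H) = q := by
      rw [QuotientAddGroup.mk_add, QuotientAddGroup.out_eq',
        (QuotientAddGroup.eq_zero_iff _).mpr y.2, add_zero]
    ext
    · exact h1
    · simp only [h1, add_sub_cancel_left]
  right_inv x := by simp

theorem cosetEquiv_apply (p : (A ⧸ H) × H) : cosetEquiv H p = p.1.out + p.2 := rfl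

theorem mk_cosetEquiv (p : (A ⧸ H) × H) : (QuotientAddGroup.mk (cosetEquiv H p) : A ⧸ H) = p.1 := by
  rw [cosetEquiv_apply, QuotientAddGroup.mk_add, QuotientAddGroup.out_eq',
    (QuotientAddGroup.eq_zero_iff _).mpr p.2.2, add_zero]

theorem hasSum_comp_mk [Finite H] (g : A ⧸ H → ℝ) (hg : ∀ q, 0 ≤ g q) (S : ℝ) (h : HasSum g S) :
    HasSum (fun x : A => g (QuotientAddGroup.mk x)) (S * Nat.card H) := by
  have := Fintype.ofFinite H
  rw [← (cosetEquiv H).hasSum_iff]
  have h1 : HasSum (fun _ : H => (1 : ℝ)) (Nat.card H) := by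
    have := hasSum_fintype (fun _ : H => (1 : ℝ))
    simpa [Nat.card_eq_fintype_card] using this
  have h2 := h.mul h1 (h.summable.mul_of_nonneg h1.summable hg (fun _ => zero_le_one))
  have e : ((fun x : A => g (QuotientAddGroup.mk x)) ∘ (cosetEquiv H)) =
      fun p : (A ⧸ H) × H => g p.1 * 1 := by
    funext p
    rw [Function.comp_apply, mk_cosetEquiv, mul_one]
  rw [e]
  exact h2

end Coset

end Fermat.Agent.S14
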