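import Mathlib
import Fermat.Agent.S14.C1Tent

/-!
# S14 (C1), part 4: comparing the sums over a group and over a subgroup of finite index
-/

set_option autoImplicit false

namespace Fermat.Agent.S14

theorem coset_sum_bound {A : Type*} [AddCommGroup A] (H A₁ : AddSubgroup A) (hle : H ≤ A₁)
    [Finite (A ⧸ H)] (g : A → A → ℝ) (hg : ∀ t, Summable (g t)) :
    ∃ B : ℝ, ∀ φ : A → ℝ, Summable φ → (∀ t x, |φ (x + t) - φ x| ≤ g t x) →
      |∑' x : A₁, φ x - (Nat.card {q : A ⧸ H // q.out ∈ A₁} : ℝ) * ∑' x : H, φ x| ≤ B := by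
  classical
  have := Fintype.ofFinite (A ⧸ H)
  refine ⟨∑ q ∈ Finset.univ.filter (fun q : A ⧸ H => q.out ∈ A₁), ∑' x, g q.out x,
    fun φ hφ hb => ?_⟩
  set ψ : A → ℝ := (A₁ : Set A).indicator φ with hψ
  have hA : Summable ψ := hφ.indicator _
  have hP : Summable (ψ ∘ cosetEquiv H) := ((cosetEquiv H).summable_iff (f := ψ)).mpr hA
  have hP' : Summable (φ ∘ cosetEquiv H) := ((cosetEquiv H).summable_iff (f := φ)).mpr hφ
  have e0 : ∑' a : A, ψ a = ∑ q : A ⧸ H, ∑' y : H, ψ (q.out + y) := by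
    rw [← (cosetEquiv H).tsum_eq ψ]
    have := hP.tsum_prod
    simp only [Function.comp_apply] at this
    rw [this, tsum_fintype]
    rfl
  have e1 : ∑' x : A₁, φ x =
      ∑ q ∈ Finset.univ.filter (fun q : A ⧸ H => q.out ∈ A₁), ∑' y : H, φ (q.out + y) := by
    have h0 : ∑' x : A₁, φ x = ∑' a : A, ψ a := tsum_subtype (A₁ : Set A) φ
    rw [h0, e0, Finset.sum_filter]
    refine Finset.sum_congr rfl fun q _ => ?_
    split_ifs with hq
    · refine tsum_congr fun y => ?_
      rw [hψ, Set.indicator_of_mem]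
      exact A₁.add_mem hq (hle y.2)
    · have : ∀ y : H, ψ (q.out + y) = 0 := fun y => by
        rw [hψ, Set.indicator_of_notMem]
        intro h
        exact hq ((A₁.add_mem_cancel_right (hle y.2)).mp h)
      simp only [this, tsum_zero]
  have hcard : (Nat.card {q : A ⧸ H // q.out ∈ A₁} : ℝ) =
      ((Finset.univ.filter (fun q : A ⧸ H => q.out ∈ A₁)).card : ℝ) := by
    rw [Nat.card_eq_fintype_card, Fintype.card_subtype]
  have hH1 : Summable (fun y : H => φ (y : A)) := hφ.subtype _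
  have hH2 : ∀ q : A ⧸ H, Summable (fun y : H => φ (q.out + (y : A))) :=
    fun q => hP'.prod_factor q
  rw [e1, hcard, ← nsmul_eq_mul, ← Finset.sum_const, ← Finset.sum_sub_distrib]
  refine (Finset.abs_sum_le_sum_abs _ _).trans (Finset.sum_le_sum fun q _ => ?_)
  rw [← (hH2 q).tsum_sub hH1]
  have hg0 : ∀ t x, 0 ≤ g t x := fun t x => (abs_nonneg _).trans (hb t x)
  have hgs : Summable (fun y : H => g q.out (y : A)) :=
    (hg _).comp_injective Subtype.val_injective
  have h1 : ∀ y : H, |φ (q.out + (y : A)) - φ (y : A)| ≤ g q.out (y : A) := fun y => by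
    rw [add_comm]
    exact hb _ _
  have hs : Summable (fun y : H => |φ (q.out + (y : A)) - φ (y : A)|) :=
    Summable.of_nonneg_of_le (fun _ => abs_nonneg _) h1 hgs
  calc |∑' y : H, (φ (q.out + (y : A)) - φ (y : A))|
      ≤ ∑' y : H, |φ (q.out + (y : A)) - φ (y : A)| := by
        have := norm_tsum_le_tsum_norm (f := fun y : H => (φ (q.out + (y : A)) - φ (y : A))) hs
        simpa only [Real.norm_eq_abs] using this
    _ ≤ ∑' y : H, g q.out (y : A) := hs.tsum_le_tsum h1 hgs
    _ ≤ ∑' x, g q.out x := tsum_comp_le_tsum_of_inj (hg _) (hg0 _) Subtype.val_injective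

end Fermat.Agent.S14
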