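import Mathlib
import Fermat.Agent.S14.C1Tent

/-!
# S14 (C1), part 2: the weight function `psi` on `ℝ^(places)`
-/

set_option autoImplicit false

namespace Fermat.Agent.S14

open NumberField NumberField.Units NumberField.InfinitePlace
  NumberField.Units.dirichletUnitTheorem Module

section Lattice

variable {V : Type*} [NormedAddCommGroup V] [NormedSpace ℝ V] [FiniteDimensional ℝ V]
  (L : Submodule ℤ V) [DiscreteTopology L] [IsZLattice ℝ L] {ι : Type*} [Fintype ι]
  (b : Basis ι ℤ L)

/-- tent function attached to a basis of a lattice -/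
noncomputable def latTent (v : V) : ℝ := tentPi (fun j => (b.ofZLatticeBasis ℝ L).repr v j)

theorem latTent_nonneg (v : V) : 0 ≤ latTent L b v := tentPi_nonneg _

theorem latTent_le_one (v : V) : latTent L b v ≤ 1 := tentPi_le_one _

theorem hasSum_latTent (v : V) : HasSum (fun l : L => latTent L b (v + l)) 1 := by
  have h := hasSum_tentPi (fun j => (b.ofZLatticeBasis ℝ L).repr v j)
  rw [← b.equivFun.toEquiv.hasSum_iff] at h
  convert h using 1
  funext l
  simp only [latTent, Function.comp_apply, map_add, Finsupp.add_apply,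
    Basis.ofZLatticeBasis_repr_apply, LinearEquiv.coe_toEquiv, Basis.equivFun_apply]

theorem norm_le_of_latTent_ne_zero (v : V) (h : latTent L b v ≠ 0) :
    ‖v‖ ≤ ∑ j, ‖(b j : V)‖ := by
  have h1 := fun j => abs_lt_one_of_tentPi_ne_zero h j
  rw [← (b.ofZLatticeBasis ℝ L).sum_repr v]
  refine (norm_sum_le _ _).trans (Finset.sum_le_sum fun j _ => ?_)
  rw [norm_smul, Basis.ofZLatticeBasis_apply, Real.norm_eq_abs]
  exact mul_le_of_le_one_left (norm_nonneg _) (h1 j).le

theorem latTent_lipschitz : ∃ C : ℝ, 0 ≤ C ∧ ∀ v v' : V,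
    |latTent L b v - latTent L b v'| ≤ C * ‖v - v'‖ := by
  let f : ι → V →L[ℝ] ℝ := fun j =>
    LinearMap.toContinuousLinearMap ((b.ofZLatticeBasis ℝ L).coord j)
  refine ⟨∑ j, ‖f j‖, Finset.sum_nonneg fun j _ => norm_nonneg _, fun v v' => ?_⟩
  refine (tentPi_lipschitz _ _).trans ?_
  rw [Finset.sum_mul]
  refine Finset.sum_le_sum fun j _ => ?_
  have := (f j).le_opNorm (v - v')
  simpa [f, Real.norm_eq_abs] using this

end Lattice

section Hom

variable {A V : Type*} [AddCommGroup A] [AddCommGroup V] (f : A →+ V) [Finite f.ker]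

theorem hasSum_comp_hom (τ : V → ℝ) (hτ : ∀ v, 0 ≤ τ v) (S : ℝ)
    (h : HasSum (fun l : f.range => τ l) S) :
    HasSum (fun a : A => τ (f a)) (S * Nat.card f.ker) := by
  have h1 : HasSum (fun q : A ⧸ f.ker => τ (QuotientAddGroup.kerLift f q)) S := by
    rw [← (QuotientAddGroup.quotientKerEquivRange f).toEquiv.hasSum_iff] at h
    convert h using 1
    funext q
    induction q using QuotientAddGroup.induction_on with
    | H a => rfl
  exact hasSum_comp_mk f.ker _ (fun q => hτ _) S h1

end Hom

section NF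

open scoped Classical

variable (K : Type*) [Field K] [NumberField K]

/-- the linear map `α ↦ (m_w (α_w - mean α))_{w ≠ w₀}` -/
noncomputable def logProj : (InfinitePlace K → ℝ) →ₗ[ℝ] logSpace K where
  toFun α := fun w => mult w.1 * (α w.1 - (finrank ℚ K : ℝ)⁻¹ * ∑ w', mult w' * α w')
  map_add' α β := by
    funext w
    simp only [Pi.add_apply, mul_add, Finset.sum_add_distrib]
    ring
  map_smul' c α := by
    funext w
    simp only [Pi.smul_apply, smul_eq_mul, RingHom.id_apply]
    have : ∑ w', (mult w' : ℝ) * (c * α w') = c * ∑ w', (mult w' : ℝ) * α w' := by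
      rw [Finset.mul_sum]
      exact Finset.sum_congr rfl fun w' _ => by ring
    rw [this]
    ring

theorem logProj_apply (α : InfinitePlace K → ℝ) (w : {w : InfinitePlace K // w ≠ w₀}) :
    logProj K α w = mult w.1 * (α w.1 - (finrank ℚ K : ℝ)⁻¹ * ∑ w', mult w' * α w') := rfl

/-- the vector `(log |u|_w)_w` -/
noncomputable def logVec (x : K) : InfinitePlace K → ℝ := fun w => Real.log (w x)

theorem logProj_logVec_unit (u : (𝓞 K)ˣ) :
    logProj K (logVec K (u : K)) = logEmbedding K (Additive.ofMul u) := by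
  funext w
  rw [logProj_apply, logEmbedding_component]
  have := sum_mult_mul_log u
  simp only [logVec]
  rw [this, mul_zero, sub_zero]

/-- the weight function -/
noncomputable def psi (α : InfinitePlace K → ℝ) : ℝ :=
  latTent (unitLattice K) (basisUnitLattice K) (logProj K α)

theorem psi_nonneg (α : InfinitePlace K → ℝ) : 0 ≤ psi K α := latTent_nonneg _ _ _

theorem psi_le_one (α : InfinitePlace K → ℝ) : psi K α ≤ 1 := latTent_le_one _ _ _

theorem psi_lipschitz : ∃ C : ℝ, 0 ≤ C ∧ ∀ α β : InfinitePlace K → ℝ,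
    |psi K α - psi K β| ≤ C * ‖α - β‖ := by
  obtain ⟨C, hC, h⟩ := latTent_lipschitz (unitLattice K) (basisUnitLattice K)
  let f : (InfinitePlace K → ℝ) →L[ℝ] logSpace K := LinearMap.toContinuousLinearMap (logProj K)
  refine ⟨C * ‖f‖, mul_nonneg hC (norm_nonneg _), fun α β => ?_⟩
  refine (h _ _).trans ?_
  rw [mul_assoc]
  refine mul_le_mul_of_nonneg_left ?_ hC
  have := f.le_opNorm (α - β)
  simpa [f] using this

theorem hasSum_psi_units (α : InfinitePlace K → ℝ) :
    HasSum (fun u : (𝓞 K)ˣ => psi K (α + logVec K (u : K))) (torsionOrder K) := by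
  have hfin : Finite (logEmbedding K).ker := by
    rw [logEmbedding_ker]
    exact (inferInstance : Finite (torsion K))
  have hcard : Nat.card (logEmbedding K).ker = torsionOrder K := by
    rw [logEmbedding_ker]
    rfl
  have h0 := hasSum_latTent (unitLattice K) (basisUnitLattice K) (logProj K α)
  have h1 : HasSum (fun l : (logEmbedding K).range =>
      latTent (unitLattice K) (basisUnitLattice K) (logProj K α + l)) 1 := by
    let e : (logEmbedding K).range ≃ unitLattice K := Equiv.subtypeEquivRight (fun x => by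
      simp only [unitLattice, Submodule.map_top, LinearMap.mem_range,
        AddMonoidHom.coe_toIntLinearMap, AddMonoidHom.mem_range])
    rw [← e.hasSum_iff] at h0
    exact h0
  have h2 := hasSum_comp_hom (logEmbedding K)
    (fun v => latTent (unitLattice K) (basisUnitLattice K) (logProj K α + v))
    (fun v => latTent_nonneg _ _ _) 1 h1
  rw [hcard, one_mul] at h2
  rw [← Additive.ofMul.symm.hasSum_iff]
  convert h2 using 1
  funext u
  simp only [Function.comp_apply, psi, map_add, logProj_logVec_unit]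
  rfl

theorem psi_support : ∃ M : ℝ, 0 ≤ M ∧ ∀ α : InfinitePlace K → ℝ, psi K α ≠ 0 →
    ∀ w w', α w - α w' ≤ M := by
  set M₀ : ℝ := ∑ j, ‖(basisUnitLattice K j : logSpace K)‖ with hM₀
  have hM₀0 : 0 ≤ M₀ := Finset.sum_nonneg fun j _ => norm_nonneg _
  set c : ℝ := (Fintype.card (InfinitePlace K) : ℝ) with hc
  have hc1 : 1 ≤ c := by
    rw [hc]
    exact_mod_cast Fintype.card_pos
  refine ⟨2 * (c * M₀), by positivity, fun α hα => ?_⟩
  have hv : ‖logProj K α‖ ≤ M₀ := norm_le_of_latTent_ne_zero _ _ _ hα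
  set a : ℝ := (finrank ℚ K : ℝ)⁻¹ * ∑ w', mult w' * α w' with ha
  have h1 : ∀ w : {w : InfinitePlace K // w ≠ w₀}, |(mult w.1 : ℝ) * (α w.1 - a)| ≤ M₀ := by
    intro w
    have := norm_le_pi_norm (logProj K α) w
    rw [logProj_apply, Real.norm_eq_abs] at this
    exact this.trans hv
  have hn : (finrank ℚ K : ℝ) ≠ 0 := by
    exact_mod_cast (finrank_pos (R := ℚ) (M := K)).ne'
  have h2 : ∑ w : InfinitePlace K, (mult w : ℝ) * (α w - a) = 0 := by
    simp only [mul_sub, Finset.sum_sub_distrib]
    rw [← Finset.sum_mul]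
    have : ∑ w : InfinitePlace K, (mult w : ℝ) = finrank ℚ K := by
      exact_mod_cast sum_mult_eq (K := K)
    rw [this, ha, mul_inv_cancel_left₀ hn, sub_self]
  have h3 : ∀ w : InfinitePlace K, |(mult w : ℝ) * (α w - a)| ≤ c * M₀ := by
    intro w
    by_cases hw : w = w₀
    · rw [Fintype.sum_eq_add_sum_subtype_ne _ w₀] at h2
      have e : (mult w : ℝ) * (α w - a) =
          -∑ i : {i : InfinitePlace K // i ≠ w₀}, (mult i.1 : ℝ) * (α i.1 - a) := by
        rw [hw]; linarith
      rw [e, abs_neg]
      refine (Finset.abs_sum_le_sum_abs _ _).trans ?_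
      refine (Finset.sum_le_sum fun i _ => h1 i).trans ?_
      rw [Finset.sum_const, nsmul_eq_mul]
      refine mul_le_mul_of_nonneg_right ?_ hM₀0
      rw [hc]
      exact_mod_cast Fintype.card_subtype_le _
    · refine (h1 ⟨w, hw⟩).trans ?_
      nlinarith
  have h4 : ∀ w : InfinitePlace K, |α w - a| ≤ c * M₀ := by
    intro w
    refine le_trans ?_ (h3 w)
    rw [abs_mul, abs_of_nonneg (by positivity : (0 : ℝ) ≤ mult w)]
    exact le_mul_of_one_le_left (abs_nonneg _) one_le_mult
  intro w w'
  have := abs_le.mp (h4 w)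
  have := abs_le.mp (h4 w')
  linarith

end NF

end Fermat.Agent.S14
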