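import Mathlib
import Fermat.Agent.S14.C1Psi

/-!
# S14 (C1), part 3: the shift lemma
-/

set_option autoImplicit false

namespace Fermat.Agent.S14

open NumberField NumberField.Units NumberField.InfinitePlace
  NumberField.Units.dirichletUnitTheorem Module

section Abstract

variable {W : Type*} [Fintype W]

theorem weight_diff (m : W → ℝ) (Ψ : (W → ℝ) → ℝ) (n C : ℝ) (hm : ∀ w, 0 ≤ m w)
    (hn : ∑ w, m w = n) (hΨ0 : ∀ α, 0 ≤ Ψ α) (hΨ1 : ∀ α, Ψ α ≤ 1) (hC : 0 ≤ C)
    (hL : ∀ α β, |Ψ α - Ψ β| ≤ C * ‖α - β‖) (α β : W → ℝ) (ε s : ℝ) (hε : ‖α - β‖ ≤ ε)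
    (hε1 : 2 * n * ε ≤ 1) (hs1 : 1 ≤ s) (hs2 : s ≤ 2) (hα : 0 ≤ ∑ w, m w * α w) :
    |Ψ α * Real.exp (-s * ∑ w, m w * α w) - Ψ β * Real.exp (-s * ∑ w, m w * β w)| ≤
      (C + 4 * n) * ε * Real.exp (-∑ w, m w * α w) := by
  set a := ∑ w, m w * α w with ha
  set b := ∑ w, m w * β w with hb
  have hn0 : 0 ≤ n := hn ▸ Finset.sum_nonneg fun w _ => hm w
  have hε0 : 0 ≤ ε := (norm_nonneg _).trans hε
  have hab : |a - b| ≤ n * ε := by
    rw [ha, hb, ← Finset.sum_sub_distrib, ← hn, Finset.sum_mul]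
    refine (Finset.abs_sum_le_sum_abs _ _).trans (Finset.sum_le_sum fun w _ => ?_)
    rw [← mul_sub, abs_mul, abs_of_nonneg (hm w)]
    refine mul_le_mul_of_nonneg_left ?_ (hm w)
    have := norm_le_pi_norm (α - β) w
    rw [Pi.sub_apply, Real.norm_eq_abs] at this
    exact this.trans hε
  have h1 : |s * (a - b)| ≤ 2 * (n * ε) := by
    rw [abs_mul, abs_of_nonneg (by linarith)]
    exact mul_le_mul hs2 hab (abs_nonneg _) (by norm_num)
  have h2 : |Real.exp (s * (a - b)) - 1| ≤ 4 * n * ε := by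
    refine (Real.abs_exp_sub_one_le (by linarith)).trans ?_
    linarith
  have h3 : Real.exp (-s * a) ≤ Real.exp (-a) := by
    apply Real.exp_le_exp.mpr
    nlinarith
  have e : Ψ α * Real.exp (-s * a) - Ψ β * Real.exp (-s * b) =
      (Ψ α - Ψ β) * Real.exp (-s * a) - Ψ β * (Real.exp (-s * a) * (Real.exp (s * (a - b)) - 1)) := by
    have : Real.exp (-s * b) = Real.exp (-s * a) * Real.exp (s * (a - b)) := by
      rw [← Real.exp_add]
      congr 1
      ring
    rw [this]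
    ring
  rw [e]
  refine (abs_sub _ _).trans ?_
  rw [abs_mul, abs_mul, abs_mul, abs_of_nonneg (Real.exp_pos _).le, abs_of_nonneg (hΨ0 β)]
  have h4 : |Ψ α - Ψ β| ≤ C * ε := (hL α β).trans (mul_le_mul_of_nonneg_left hε hC)
  have h5 : |Ψ α - Ψ β| * Real.exp (-s * a) ≤ C * ε * Real.exp (-a) :=
    mul_le_mul h4 h3 (Real.exp_pos _).le (by positivity)
  have h6 : Ψ β * (Real.exp (-s * a) * |Real.exp (s * (a - b)) - 1|) ≤
      1 * (Real.exp (-a) * (4 * n * ε)) :=
    mul_le_mul (hΨ1 β) (mul_le_mul h3 h2 (abs_nonneg _) (Real.exp_pos _).le)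
      (by positivity) zero_le_one
  nlinarith

end Abstract

section NF

open scoped Classical

variable (K : Type*) [Field K] [NumberField K]

/-- height: the sup norm in the mixed space -/
noncomputable def hgt (x : 𝓞 K) : ℝ := ‖mixedEmbedding K (x : K)‖

theorem place_le_hgt (w : InfinitePlace K) (x : 𝓞 K) : w (x : K) ≤ hgt K x := by
  rw [hgt, mixedEmbedding.norm_eq_sup'_normAtPlace, ← mixedEmbedding.normAtPlace_apply]
  exact Finset.le_sup' (fun w => mixedEmbedding.normAtPlace w (mixedEmbedding K (x : K)))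
    (Finset.mem_univ w)

theorem exists_place_eq_hgt (x : 𝓞 K) : ∃ w : InfinitePlace K, w (x : K) = hgt K x := by
  obtain ⟨w, -, hw⟩ := Finset.exists_mem_eq_sup' Finset.univ_nonempty
    (fun w => mixedEmbedding.normAtPlace w (mixedEmbedding K (x : K)))
  refine ⟨w, ?_⟩
  rw [hgt, mixedEmbedding.norm_eq_sup'_normAtPlace, hw, mixedEmbedding.normAtPlace_apply]

theorem hgt_nonneg (x : 𝓞 K) : 0 ≤ hgt K x := norm_nonneg _

theorem hgt_pos {x : 𝓞 K} (hx : x ≠ 0) : 0 < hgt K x := by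
  rw [hgt, norm_pos_iff]
  intro h
  apply hx
  have := (map_eq_zero_iff (mixedEmbedding K) (mixedEmbedding_injective K)).mp h
  exact_mod_cast this

theorem hgt_add_le (x y : 𝓞 K) : hgt K (x + y) ≤ hgt K x + hgt K y := by
  simp only [hgt, map_add]
  exact norm_add_le _ _

theorem hgt_neg (x : 𝓞 K) : hgt K (-x) = hgt K x := by
  simp only [hgt, map_neg, norm_neg]

theorem place_pos (w : InfinitePlace K) {x : 𝓞 K} (hx : x ≠ 0) : 0 < w (x : K) := by
  rw [InfinitePlace.pos_iff]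
  exact_mod_cast hx

/-- `log |N x|` -/
noncomputable def logNrm (x : 𝓞 K) : ℝ := ∑ w, (mult w : ℝ) * logVec K (x : K) w

theorem exp_logNrm {x : 𝓞 K} (hx : x ≠ 0) :
    Real.exp (logNrm K x) = (Ideal.absNorm (Ideal.span {x}) : ℝ) := by
  rw [logNrm, Real.exp_sum]
  have h1 : ∀ w : InfinitePlace K, Real.exp ((mult w : ℝ) * logVec K (x : K) w) =
      w (x : K) ^ mult w := by
    intro w
    rw [logVec, mul_comm, Real.exp_mul, Real.exp_log (place_pos K w hx), Real.rpow_natCast]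
  simp only [h1]
  rw [prod_eq_abs_norm, Ideal.absNorm_span_singleton, ← Algebra.coe_norm_int, Nat.cast_natAbs]
  push_cast
  rfl

theorem logNrm_nonneg {x : 𝓞 K} (hx : x ≠ 0) : 0 ≤ logNrm K x := by
  rw [← Real.exp_le_exp, Real.exp_zero, exp_logNrm K hx]
  have : Ideal.absNorm (Ideal.span {x}) ≠ 0 := by
    rw [Ne, Ideal.absNorm_eq_zero_iff, Ideal.span_singleton_eq_bot]
    exact hx
  exact_mod_cast Nat.one_le_iff_ne_zero.mpr this

/-- the weight function on `𝓞 K` -/
noncomputable def phi (s : ℝ) (x : 𝓞 K) : ℝ :=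
  if x = 0 then 0 else psi K (logVec K (x : K)) * Real.exp (-s * logNrm K x)

theorem phi_zero (s : ℝ) : phi K s 0 = 0 := if_pos rfl

theorem phi_of_ne {x : 𝓞 K} (hx : x ≠ 0) (s : ℝ) :
    phi K s x = psi K (logVec K (x : K)) * Real.exp (-s * logNrm K x) := if_neg hx

theorem phi_nonneg (s : ℝ) (x : 𝓞 K) : 0 ≤ phi K s x := by
  by_cases hx : x = 0
  · rw [hx, phi_zero]
  · rw [phi_of_ne K hx]
    exact mul_nonneg (psi_nonneg K _) (Real.exp_pos _).le

theorem phi_le_one {s : ℝ} (hs : 0 ≤ s) (x : 𝓞 K) : phi K s x ≤ 1 := by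
  by_cases hx : x = 0
  · rw [hx, phi_zero]; exact zero_le_one
  · rw [phi_of_ne K hx]
    refine mul_le_one₀ (psi_le_one K _) (Real.exp_pos _).le ?_
    rw [Real.exp_le_one_iff]
    have := logNrm_nonneg K hx
    nlinarith

theorem abs_log_sub_log_le {a b c : ℝ} (hc : 0 < c) (ha : c ≤ a) (hb : c ≤ b) :
    |Real.log a - Real.log b| ≤ |a - b| / c := by
  have key : ∀ a b : ℝ, c ≤ a → c ≤ b → b ≤ a → |Real.log a - Real.log b| ≤ |a - b| / c := by
    intro a b ha hb hab
    have hb0 : 0 < b := hc.trans_le hb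
    have ha0 : 0 < a := hc.trans_le ha
    rw [abs_of_nonneg (sub_nonneg.mpr (Real.log_le_log hb0 hab)), abs_of_nonneg (sub_nonneg.mpr hab),
      ← Real.log_div ha0.ne' hb0.ne']
    refine (Real.log_le_sub_one_of_pos (div_pos ha0 hb0)).trans ?_
    have : a / b - 1 = (a - b) / b := by field_simp
    rw [this]
    exact div_le_div_of_nonneg_left (sub_nonneg.mpr hab) hc hb
  rcases le_total b a with h | h
  · exact key a b ha hb h
  · rw [abs_sub_comm, abs_sub_comm a b]
    exact key b a hb ha h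

theorem sum_mult_real : ∑ w : InfinitePlace K, (mult w : ℝ) = (finrank ℚ K : ℝ) := by
  exact_mod_cast sum_mult_eq (K := K)

theorem one_le_finrank_real : (1 : ℝ) ≤ (finrank ℚ K : ℝ) := by
  exact_mod_cast (finrank_pos (R := ℚ) (M := K))

theorem phi_diff_aux (C M : ℝ) (hC : 0 ≤ C) (hM : 0 ≤ M)
    (hL : ∀ α β : InfinitePlace K → ℝ, |psi K α - psi K β| ≤ C * ‖α - β‖)
    (hS : ∀ α : InfinitePlace K → ℝ, psi K α ≠ 0 → ∀ w w', α w - α w' ≤ M)
    {x y : 𝓞 K} (hx : x ≠ 0) (hy : y ≠ 0) (δ : ℝ) (hδ : hgt K (y - x) ≤ δ)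
    (hψ : psi K (logVec K (x : K)) ≠ 0)
    (hbig : 4 * (finrank ℚ K : ℝ) * Real.exp M * δ ≤ hgt K x) (s : ℝ) (hs1 : 1 ≤ s) (hs2 : s ≤ 2) :
    |phi K s x - phi K s y| ≤
      (C + 4 * (finrank ℚ K : ℝ)) * (2 * Real.exp M) * Real.exp ((finrank ℚ K : ℝ) * M) * δ *
        hgt K x ^ (-((finrank ℚ K : ℝ) + 1)) := by
  set n : ℝ := (finrank ℚ K : ℝ) with hn
  have hn1 : 1 ≤ n := one_le_finrank_real K
  set A := hgt K x with hA
  have hA0 : 0 < A := hgt_pos K hx
  have hδ0 : 0 ≤ δ := (hgt_nonneg K _).trans hδ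
  have heM : 0 < Real.exp M := Real.exp_pos M
  have heM1 : 1 ≤ Real.exp M := Real.one_le_exp hM
  obtain ⟨w', hw'⟩ := exists_place_eq_hgt K x
  -- step 1
  have h1log : ∀ w : InfinitePlace K, Real.log A - M ≤ Real.log (w (x : K)) := by
    intro w
    have := hS _ hψ w' w
    simp only [logVec, hw'] at this
    linarith
  have h1 : ∀ w : InfinitePlace K, Real.exp (-M) * A ≤ w (x : K) := by
    intro w
    have := Real.exp_le_exp.mpr (h1log w)
    rw [Real.exp_log (place_pos K w hx), sub_eq_neg_add, Real.exp_add, Real.exp_log hA0] at this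
    exact this
  -- step 2
  have h2 : ∀ w : InfinitePlace K, |w (x : K) - w (y : K)| ≤ δ := by
    intro w
    have h := w.1.abs_abv_sub_le_abv_sub (x : K) (y : K)
    have h' : w.1 ((x : K) - (y : K)) ≤ δ := by
      have e : (x : K) - (y : K) = -(((y - x : 𝓞 K)) : K) := by push_cast; ring
      rw [e, w.1.map_neg]
      exact (place_le_hgt K w (y - x)).trans hδ
    exact h.trans h'
  -- step 3
  set c := Real.exp (-M) * A / 2 with hc
  have hc0 : 0 < c := by positivity
  have hδc : δ ≤ c := by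
    have e : Real.exp (-M) * Real.exp M = 1 := by rw [← Real.exp_add]; simp
    have h3 : Real.exp (-M) * (4 * n * Real.exp M * δ) ≤ Real.exp (-M) * A :=
      mul_le_mul_of_nonneg_left hbig (Real.exp_pos _).le
    have h4 : Real.exp (-M) * (4 * n * Real.exp M * δ) = 4 * n * δ := by
      calc _ = (Real.exp (-M) * Real.exp M) * (4 * n * δ) := by ring
        _ = _ := by rw [e, one_mul]
    rw [h4] at h3
    rw [hc]
    nlinarith
  have h3x : ∀ w : InfinitePlace K, c ≤ w (x : K) := fun w => by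
    have := h1 w
    rw [hc]; linarith [mul_pos (Real.exp_pos (-M)) hA0]
  have h3y : ∀ w : InfinitePlace K, c ≤ w (y : K) := fun w => by
    have := h1 w
    have := abs_le.mp (h2 w)
    rw [hc] at hδc ⊢
    linarith
  -- step 4, 5
  set ε := 2 * Real.exp M * δ / A with hε
  have hεc : δ / c = ε := by
    rw [hc, hε, Real.exp_neg]
    field_simp
  have h5 : ‖logVec K (x : K) - logVec K (y : K)‖ ≤ ε := by
    rw [pi_norm_le_iff_of_nonneg (by positivity)]
    intro w
    rw [Pi.sub_apply, Real.norm_eq_abs, logVec, logVec, ← hεc]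
    exact (abs_log_sub_log_le hc0 (h3x w) (h3y w)).trans
      (div_le_div_of_nonneg_right (h2 w) hc0.le)
  -- step 6
  have h6 : 2 * n * ε ≤ 1 := by
    rw [hε, ← mul_div_assoc, div_le_one hA0]
    linarith
  -- step 7
  have h7 := weight_diff (fun w : InfinitePlace K => (mult w : ℝ)) (psi K) n C
    (fun w => Nat.cast_nonneg _) (sum_mult_real K) (psi_nonneg K) (psi_le_one K) hC hL
    (logVec K (x : K)) (logVec K (y : K)) ε s h5 h6 hs1 hs2 (logNrm_nonneg K hx)
  rw [phi_of_ne K hx, phi_of_ne K hy]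
  refine h7.trans ?_
  -- step 8
  have h8 : n * (Real.log A - M) ≤ ∑ w : InfinitePlace K, (mult w : ℝ) * logVec K (x : K) w := by
    rw [hn, ← sum_mult_real K, Finset.sum_mul]
    exact Finset.sum_le_sum fun w _ => mul_le_mul_of_nonneg_left (h1log w) (Nat.cast_nonneg _)
  have h9 : Real.exp (-∑ w : InfinitePlace K, (mult w : ℝ) * logVec K (x : K) w) ≤
      Real.exp (n * M) * Real.exp (-(n * Real.log A)) := by
    rw [← Real.exp_add]
    apply Real.exp_le_exp.mpr
    linarith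
  have h10 : A ^ (-(n + 1)) = Real.exp (-(n * Real.log A)) / A := by
    rw [Real.rpow_def_of_pos hA0, neg_add, mul_add, Real.exp_add, mul_neg_one, Real.exp_neg (Real.log A),
      Real.exp_log hA0, div_eq_mul_inv]
    congr 2
    ring
  rw [h10]
  have h11 : (C + 4 * n) * ε * Real.exp (-∑ w : InfinitePlace K, (mult w : ℝ) * logVec K (x : K) w) ≤
      (C + 4 * n) * ε * (Real.exp (n * M) * Real.exp (-(n * Real.log A))) :=
    mul_le_mul_of_nonneg_left h9 (by positivity)
  refine h11.trans (le_of_eq ?_)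
  rw [hε]
  field_simp

theorem phi_eq_zero_of_psi {x : 𝓞 K} (h : psi K (logVec K (x : K)) = 0) (s : ℝ) :
    phi K s x = 0 := by
  by_cases hx : x = 0
  · rw [hx, phi_zero]
  · rw [phi_of_ne K hx, h, zero_mul]

theorem phi_shift_bound (t : 𝓞 K) : ∃ D : ℝ, 0 ≤ D ∧ ∀ s : ℝ, 1 ≤ s → s ≤ 2 → ∀ x : 𝓞 K, x ≠ 0 →
    |phi K s (x + t) - phi K s x| ≤ D * hgt K x ^ (-((finrank ℚ K : ℝ) + 1)) := by
  obtain ⟨C, hC, hL⟩ := psi_lipschitz K
  obtain ⟨M, hM, hS⟩ := psi_support K
  set n : ℝ := (finrank ℚ K : ℝ) with hn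
  have hn1 : 1 ≤ n := one_le_finrank_real K
  set δ := hgt K t with hδ
  have hδ0 : 0 ≤ δ := hgt_nonneg K t
  have heM1 : 1 ≤ Real.exp M := Real.one_le_exp hM
  set R := 8 * n * Real.exp M * δ with hR
  have hR0 : 0 ≤ R := by positivity
  have hRδ : 8 * δ ≤ R := by
    rw [hR]
    have : 1 ≤ n * Real.exp M := by nlinarith
    nlinarith
  set D₀ := (C + 4 * n) * (2 * Real.exp M) * Real.exp (n * M) * δ with hD₀
  have hD₀0 : 0 ≤ D₀ := by positivity
  have h2pow : (1 : ℝ) ≤ 2 ^ (n + 1) := Real.one_le_rpow (by norm_num) (by linarith)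
  refine ⟨R ^ (n + 1) + D₀ * 2 ^ (n + 1),
    add_nonneg (Real.rpow_nonneg hR0 _) (mul_nonneg hD₀0 (by linarith)), fun s hs1 hs2 x hx => ?_⟩
  have hA0 : 0 < hgt K x := hgt_pos K hx
  have hpow0 : 0 ≤ hgt K x ^ (-(n + 1)) := Real.rpow_nonneg hA0.le _
  rw [add_mul]
  by_cases hsmall : hgt K x < R
  · -- small height: trivial bound
    have h1 : |phi K s (x + t) - phi K s x| ≤ 1 := by
      rw [abs_le]
      have := phi_nonneg K s (x + t)
      have := phi_nonneg K s x
      have := phi_le_one K (by linarith : 0 ≤ s) (x + t)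
      have := phi_le_one K (by linarith : 0 ≤ s) x
      constructor <;> linarith
    have h2 : 1 ≤ R ^ (n + 1) * hgt K x ^ (-(n + 1)) := by
      rw [Real.rpow_neg hA0.le, ← div_eq_mul_inv, ← Real.div_rpow hR0 hA0.le]
      exact Real.one_le_rpow ((one_le_div hA0).mpr hsmall.le) (by linarith)
    have h3 : 0 ≤ D₀ * 2 ^ (n + 1) * hgt K x ^ (-(n + 1)) :=
      mul_nonneg (mul_nonneg hD₀0 (by linarith)) hpow0
    linarith
  · push Not at hsmall
    have hy : x + t ≠ 0 := by
      intro h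
      have : x = -t := eq_neg_of_add_eq_zero_left h
      have h1 : hgt K x = δ := by rw [this, hgt_neg]
      rw [h1] at hsmall hA0
      linarith
    have hyx : hgt K x / 2 ≤ hgt K (x + t) := by
      have := hgt_add_le K (x + t) (-t)
      rw [hgt_neg, add_neg_cancel_right] at this
      linarith
    have hR' : 0 ≤ R ^ (n + 1) * hgt K x ^ (-(n + 1)) :=
      mul_nonneg (Real.rpow_nonneg hR0 _) hpow0
    have hD' : 0 ≤ D₀ * 2 ^ (n + 1) * hgt K x ^ (-(n + 1)) :=
      mul_nonneg (mul_nonneg hD₀0 (by linarith)) hpow0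
    by_cases hψx : psi K (logVec K (x : K)) = 0
    · by_cases hψy : psi K (logVec K ((x + t : 𝓞 K) : K)) = 0
      · rw [phi_eq_zero_of_psi K hψx, phi_eq_zero_of_psi K hψy, sub_zero, abs_zero]
        exact add_nonneg hR' hD'
      · have h := phi_diff_aux K C M hC hM hL hS hy hx δ
          (by rw [sub_add_cancel_left, hgt_neg]) hψy (by rw [hR] at hsmall; linarith) s hs1 hs2
        refine h.trans ?_
        have h1 : hgt K (x + t) ^ (-(n + 1)) ≤ (hgt K x / 2) ^ (-(n + 1)) :=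
          Real.rpow_le_rpow_of_nonpos (by linarith) hyx (by linarith)
        have h2 : (hgt K x / 2) ^ (-(n + 1)) = 2 ^ (n + 1) * hgt K x ^ (-(n + 1)) := by
          rw [Real.div_rpow hA0.le (by norm_num), Real.rpow_neg (by norm_num : (0 : ℝ) ≤ 2),
            div_inv_eq_mul, mul_comm]
        rw [h2] at h1
        have h3 := mul_le_mul_of_nonneg_left h1 hD₀0
        rw [← mul_assoc] at h3
        linarith
    · have h := phi_diff_aux K C M hC hM hL hS hx hy δ
        (by rw [add_sub_cancel_left]) hψx (by rw [hR] at hsmall; linarith) s hs1 hs2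
      rw [abs_sub_comm]
      refine h.trans ?_
      have h3 : D₀ * hgt K x ^ (-(n + 1)) ≤ D₀ * 2 ^ (n + 1) * hgt K x ^ (-(n + 1)) :=
        mul_le_mul_of_nonneg_right (le_mul_of_one_le_right hD₀0 h2pow) hpow0
      linarith

/-- the equivalence between `𝓞 K` and its image in the mixed space -/
noncomputable def intLatEquiv : 𝓞 K ≃ mixedEmbedding.integerLattice K :=
  Equiv.ofBijective (fun x => ⟨mixedEmbedding K (x : K), ⟨x, rfl⟩⟩) (by
    constructor
    · intro x y h
      have := (mixedEmbedding_injective K) (Subtype.ext_iff.mp h)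
      exact_mod_cast this
    · rintro ⟨_, x, rfl⟩
      exact ⟨x, rfl⟩)

theorem summable_hgt_rpow {r : ℝ} (hr : r < -(finrank ℚ K : ℝ)) :
    Summable (fun x : 𝓞 K => hgt K x ^ r) := by
  have h := ZLattice.summable_norm_rpow (mixedEmbedding.integerLattice K) r (by
    rw [ZLattice.rank ℝ, mixedEmbedding.finrank]
    exact hr)
  rw [← (intLatEquiv K).summable_iff] at h
  exact h

theorem summable_phi {s : ℝ} (hs : 1 < s) : Summable (phi K s) := by
  obtain ⟨M, hM, hS⟩ := psi_support K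
  set n : ℝ := (finrank ℚ K : ℝ) with hn
  have hn1 : 1 ≤ n := one_le_finrank_real K
  have hsum : Summable (fun x : 𝓞 K => Real.exp (s * (n * M)) * hgt K x ^ (-(n * s))) :=
    (summable_hgt_rpow K (by nlinarith)).mul_left _
  refine Summable.of_nonneg_of_le (phi_nonneg K s) (fun x => ?_) hsum
  by_cases hx : x = 0
  · rw [hx, phi_zero]
    exact mul_nonneg (Real.exp_pos _).le (Real.rpow_nonneg (hgt_nonneg K _) _)
  by_cases hψ : psi K (logVec K (x : K)) = 0
  · rw [phi_eq_zero_of_psi K hψ]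
    exact mul_nonneg (Real.exp_pos _).le (Real.rpow_nonneg (hgt_nonneg K _) _)
  have hA0 : 0 < hgt K x := hgt_pos K hx
  obtain ⟨w', hw'⟩ := exists_place_eq_hgt K x
  have h1log : ∀ w : InfinitePlace K, Real.log (hgt K x) - M ≤ Real.log (w (x : K)) := by
    intro w
    have := hS _ hψ w' w
    simp only [logVec, hw'] at this
    linarith
  have h8 : n * (Real.log (hgt K x) - M) ≤ logNrm K x := by
    rw [logNrm, hn, ← sum_mult_real K, Finset.sum_mul]
    exact Finset.sum_le_sum fun w _ => mul_le_mul_of_nonneg_left (h1log w) (Nat.cast_nonneg _)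
  rw [phi_of_ne K hx, Real.rpow_def_of_pos hA0, ← Real.exp_add]
  refine (mul_le_of_le_one_left (Real.exp_pos _).le (psi_le_one K _)).trans ?_
  apply Real.exp_le_exp.mpr
  nlinarith

theorem phi_shift_majorant (t : 𝓞 K) : ∃ g : 𝓞 K → ℝ, Summable g ∧
    ∀ s : ℝ, 1 ≤ s → s ≤ 2 → ∀ x : 𝓞 K, |phi K s (x + t) - phi K s x| ≤ g x := by
  obtain ⟨D, hD, h⟩ := phi_shift_bound K t
  have h1 : Summable (fun x : 𝓞 K => D * hgt K x ^ (-((finrank ℚ K : ℝ) + 1))) :=
    (summable_hgt_rpow K (by linarith)).mul_left D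
  have h2 : Summable (fun x : 𝓞 K => if x = 0 then (1 : ℝ) else 0) :=
    (hasSum_ite_eq (0 : 𝓞 K) (1 : ℝ)).summable
  refine ⟨_, h1.add h2, fun s hs1 hs2 x => ?_⟩
  by_cases hx : x = 0
  · simp only [hx, if_true, phi_zero, sub_zero, zero_add]
    rw [abs_of_nonneg (phi_nonneg K s t)]
    have := phi_le_one K (by linarith : 0 ≤ s) t
    have h0 : 0 ≤ D * hgt K (0 : 𝓞 K) ^ (-((finrank ℚ K : ℝ) + 1)) :=
      mul_nonneg hD (Real.rpow_nonneg (hgt_nonneg K _) _)
    linarith
  · simp only [hx, if_false, add_zero]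
    exact h s hs1 hs2 x hx

end NF

end Fermat.Agent.S14
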