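import Mathlib
import Fermat.Agent.S14.C1Shift

/-!
# S14 (C1), part 5: the sum of the weight over an ideal is a partial zeta function
-/

set_option autoImplicit false

namespace Fermat.Agent.S14

open NumberField NumberField.Units NumberField.InfinitePlace
  NumberField.Units.dirichletUnitTheorem Module
open scoped nonZeroDivisors Classical

variable (K : Type*) [Field K] [NumberField K]

/-- principal nonzero ideals contained in `J` -/
abbrev PrinIn (J : Ideal (𝓞 K)) := {I : Ideal (𝓞 K) // I ≠ ⊥ ∧ I.IsPrincipal ∧ I ≤ J}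

variable {K}

/-- a generator -/
noncomputable def prinGen {J : Ideal (𝓞 K)} (I : PrinIn K J) : 𝓞 K := I.2.2.1.generator

theorem span_prinGen {J : Ideal (𝓞 K)} (I : PrinIn K J) : Ideal.span {prinGen I} = I.1 := by
  have := I.2.2.1
  exact Ideal.span_singleton_generator I.1

theorem prinGen_ne_zero {J : Ideal (𝓞 K)} (I : PrinIn K J) : prinGen I ≠ 0 := by
  intro h
  apply I.2.1
  rw [← span_prinGen I, h, Ideal.span_singleton_eq_bot]

theorem prinGen_mem {J : Ideal (𝓞 K)} (I : PrinIn K J) : prinGen I ∈ J := by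
  apply I.2.2.2
  rw [← span_prinGen I]
  exact Ideal.mem_span_singleton_self _

/-- nonzero elements of `J` = (principal ideals in `J`) × units -/
noncomputable def orbitEquiv (J : Ideal (𝓞 K)) :
    PrinIn K J × (𝓞 K)ˣ ≃ {x : 𝓞 K // x ∈ J ∧ x ≠ 0} :=
  Equiv.ofBijective (fun p => ⟨(p.2 : 𝓞 K) * prinGen p.1,
    J.mul_mem_left _ (prinGen_mem p.1), mul_ne_zero p.2.ne_zero (prinGen_ne_zero p.1)⟩) (by
    constructor
    · rintro ⟨I, u⟩ ⟨I', u'⟩ h
      have h1 : (u : 𝓞 K) * prinGen I = (u' : 𝓞 K) * prinGen I' := Subtype.ext_iff.mp h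
      have h2 : I = I' := by
        apply Subtype.ext
        rw [← span_prinGen I, ← span_prinGen I', Ideal.span_singleton_eq_span_singleton]
        refine ⟨u * u'⁻¹, ?_⟩
        rw [Units.val_mul, mul_comm (prinGen I), mul_comm (u : 𝓞 K), mul_assoc, h1, ← mul_assoc,
          Units.inv_mul, one_mul]
      subst h2
      have h3 : (u : 𝓞 K) = u' := mul_right_cancel₀ (prinGen_ne_zero I) h1
      rw [Units.ext h3]
    · rintro ⟨x, hxJ, hx0⟩
      let I : PrinIn K J := ⟨Ideal.span {x}, by rwa [Ne, Ideal.span_singleton_eq_bot], ⟨x, rfl⟩,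
        (Ideal.span_singleton_le_iff_mem J).mpr hxJ⟩
      have h1 : Ideal.span {prinGen I} = Ideal.span {x} := span_prinGen I
      rw [Ideal.span_singleton_eq_span_singleton] at h1
      obtain ⟨u, hu⟩ := h1
      refine ⟨(I, u), Subtype.ext ?_⟩
      exact (mul_comm _ _).trans hu)

theorem orbitEquiv_apply (J : Ideal (𝓞 K)) (p : PrinIn K J × (𝓞 K)ˣ) :
    ((orbitEquiv J p : {x : 𝓞 K // x ∈ J ∧ x ≠ 0}) : 𝓞 K) = (p.2 : 𝓞 K) * prinGen p.1 := rfl

theorem logVec_unit_mul (u : (𝓞 K)ˣ) {g : 𝓞 K} (hg : g ≠ 0) :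
    logVec K (((u : 𝓞 K) * g : 𝓞 K) : K) = logVec K (g : K) + logVec K ((u : 𝓞 K) : K) := by
  funext w
  simp only [logVec, Pi.add_apply, map_mul]
  rw [Real.log_mul (place_pos K w u.ne_zero).ne' (place_pos K w hg).ne', add_comm]

theorem logNrm_unit_mul (u : (𝓞 K)ˣ) {g : 𝓞 K} (hg : g ≠ 0) :
    logNrm K ((u : 𝓞 K) * g) = logNrm K g := by
  rw [logNrm, logVec_unit_mul u hg, logNrm]
  simp only [Pi.add_apply, mul_add, Finset.sum_add_distrib]
  have := sum_mult_mul_log u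
  simp only [logVec]
  rw [this, add_zero]

theorem phi_unit_mul (s : ℝ) (u : (𝓞 K)ˣ) {g : 𝓞 K} (hg : g ≠ 0) :
    phi K s ((u : 𝓞 K) * g) =
      psi K (logVec K (g : K) + logVec K ((u : 𝓞 K) : K)) * Real.exp (-s * logNrm K g) := by
  rw [phi_of_ne K (mul_ne_zero u.ne_zero hg), logVec_unit_mul u hg, logNrm_unit_mul u hg]

theorem exp_neg_mul_logNrm (s : ℝ) {g : 𝓞 K} (hg : g ≠ 0) :
    Real.exp (-s * logNrm K g) = (Ideal.absNorm (Ideal.span {g}) : ℝ) ^ (-s) := by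
  rw [← exp_logNrm K hg, ← Real.exp_mul, mul_comm]

/-- the sum of the weight over an ideal -/
noncomputable def sumJ (J : Ideal (𝓞 K)) (s : ℝ) : ℝ := ∑' x : J.toAddSubgroup, phi K s x

theorem sumJ_eq (J : Ideal (𝓞 K)) (s : ℝ) :
    sumJ J s = ∑' x : {x : 𝓞 K // x ∈ J ∧ x ≠ 0}, phi K s x := by
  have h1 : sumJ J s = ∑' x, (J : Set (𝓞 K)).indicator (phi K s) x :=
    tsum_subtype (J : Set (𝓞 K)) (phi K s)
  have h2 : ∑' x : {x : 𝓞 K // x ∈ J ∧ x ≠ 0}, phi K s x =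
      ∑' x, {x : 𝓞 K | x ∈ J ∧ x ≠ 0}.indicator (phi K s) x :=
    tsum_subtype {x : 𝓞 K | x ∈ J ∧ x ≠ 0} (phi K s)
  rw [h1, h2]
  refine tsum_congr fun x => ?_
  by_cases hx : x = 0
  · simp [hx, phi_zero]
  · simp [Set.indicator, hx]

theorem hasSum_prinIn (J : Ideal (𝓞 K)) {s : ℝ} (hs : 1 < s) :
    HasSum (fun I : PrinIn K J => (torsionOrder K : ℝ) * (Ideal.absNorm I.1 : ℝ) ^ (-s))
      (sumJ J s) := by
  have hX : Summable (fun x : {x : 𝓞 K // x ∈ J ∧ x ≠ 0} => phi K s x) :=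
    (summable_phi K hs).subtype _
  have h1 : HasSum ((fun x : {x : 𝓞 K // x ∈ J ∧ x ≠ 0} => phi K s x) ∘ orbitEquiv J)
      (sumJ J s) := by
    rw [(orbitEquiv J).hasSum_iff, sumJ_eq]
    exact hX.hasSum
  refine h1.prod_fiberwise fun I => ?_
  have h2 := (hasSum_psi_units K (logVec K (prinGen I : K))).mul_right
    (Real.exp (-s * logNrm K (prinGen I)))
  rw [exp_neg_mul_logNrm s (prinGen_ne_zero I), span_prinGen] at h2
  have e : (fun u : (𝓞 K)ˣ => ((fun x : {x : 𝓞 K // x ∈ J ∧ x ≠ 0} => phi K s x) ∘ orbitEquiv J)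
      (I, u)) = fun u : (𝓞 K)ˣ => psi K (logVec K (prinGen I : K) + logVec K ((u : 𝓞 K) : K)) *
        (Ideal.absNorm I.1 : ℝ) ^ (-s) := by
    funext u
    rw [Function.comp_apply, orbitEquiv_apply, phi_unit_mul s u (prinGen_ne_zero I),
      exp_neg_mul_logNrm s (prinGen_ne_zero I), span_prinGen]
  rw [e]
  exact h2

end Fermat.Agent.S14
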