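import Mathlib
import Fermat.Agent.S14.C1Orbit
import Fermat.Agent.S14.C1Coset

/-!
# S14 (C1): differences of partial zeta functions are bounded on `(1, 2]`
-/

set_option autoImplicit false

namespace Fermat.Agent.S14

open NumberField NumberField.Units Module
open scoped nonZeroDivisors Classical

variable {K : Type*} [Field K] [NumberField K]

/-- partial zeta function of an ideal class -/
noncomputable def zetaCl (C : ClassGroup (𝓞 K)) (s : ℝ) : ℝ :=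
  ∑' a : {I : (Ideal (𝓞 K))⁰ // ClassGroup.mk0 I = C}, (Ideal.absNorm (a.1 : Ideal (𝓞 K)) : ℝ) ^ (-s)

/-- ideals in the class `[J]⁻¹` = principal ideals contained in `J` -/
noncomputable def classEquiv (J : (Ideal (𝓞 K))⁰) :
    {I : (Ideal (𝓞 K))⁰ // ClassGroup.mk0 I = (ClassGroup.mk0 J)⁻¹} ≃ PrinIn K (J : Ideal (𝓞 K)) :=
  Equiv.ofBijective (fun a => ⟨(J : Ideal (𝓞 K)) * (a.1 : Ideal (𝓞 K)),
    mul_ne_zero (mem_nonZeroDivisors_iff_ne_zero.mp J.2) (mem_nonZeroDivisors_iff_ne_zero.mp a.1.2),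
    by
      have h : ClassGroup.mk0 (J * a.1) = 1 := by rw [map_mul, a.2, mul_inv_cancel]
      exact (ClassGroup.mk0_eq_one_iff (J * a.1).2).mp h,
    Ideal.mul_le_left⟩) (by
    constructor
    · rintro ⟨a, ha⟩ ⟨b, hb⟩ h
      have h1 : (J : Ideal (𝓞 K)) * (a : Ideal (𝓞 K)) = (J : Ideal (𝓞 K)) * (b : Ideal (𝓞 K)) :=
        Subtype.ext_iff.mp h
      have h2 := mul_left_cancel₀ (mem_nonZeroDivisors_iff_ne_zero.mp J.2) h1
      exact Subtype.ext (Subtype.ext h2)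
    · rintro ⟨I, hI0, hIp, hIJ⟩
      obtain ⟨a, rfl⟩ := Ideal.dvd_iff_le.mpr hIJ
      have ha0 : a ≠ 0 := right_ne_zero_of_mul hI0
      let a' : (Ideal (𝓞 K))⁰ := ⟨a, mem_nonZeroDivisors_iff_ne_zero.mpr ha0⟩
      have h : ClassGroup.mk0 (J * a') = 1 := (ClassGroup.mk0_eq_one_iff (J * a').2).mpr hIp
      rw [map_mul] at h
      exact ⟨⟨a', eq_inv_of_mul_eq_one_right h⟩, rfl⟩)

theorem classEquiv_apply (J : (Ideal (𝓞 K))⁰)
    (a : {I : (Ideal (𝓞 K))⁰ // ClassGroup.mk0 I = (ClassGroup.mk0 J)⁻¹}) :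
    (classEquiv J a).1 = (J : Ideal (𝓞 K)) * (a.1 : Ideal (𝓞 K)) := rfl

theorem absNorm_pos_real (J : (Ideal (𝓞 K))⁰) : (0 : ℝ) < (Ideal.absNorm (J : Ideal (𝓞 K)) : ℝ) := by
  exact_mod_cast Ideal.absNorm_pos_of_nonZeroDivisors J

theorem hasSum_zetaCl_aux (J : (Ideal (𝓞 K))⁰) {s : ℝ} (hs : 1 < s) :
    HasSum (fun a : {I : (Ideal (𝓞 K))⁰ // ClassGroup.mk0 I = (ClassGroup.mk0 J)⁻¹} =>
      ((torsionOrder K : ℝ) * (Ideal.absNorm (J : Ideal (𝓞 K)) : ℝ) ^ (-s)) *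
        (Ideal.absNorm (a.1 : Ideal (𝓞 K)) : ℝ) ^ (-s)) (sumJ (J : Ideal (𝓞 K)) s) := by
  have h := hasSum_prinIn (J : Ideal (𝓞 K)) hs
  rw [← (classEquiv J).hasSum_iff] at h
  have e : ((fun I : PrinIn K (J : Ideal (𝓞 K)) =>
      (torsionOrder K : ℝ) * (Ideal.absNorm I.1 : ℝ) ^ (-s)) ∘ classEquiv J) =
      fun a : {I : (Ideal (𝓞 K))⁰ // ClassGroup.mk0 I = (ClassGroup.mk0 J)⁻¹} =>
      ((torsionOrder K : ℝ) * (Ideal.absNorm (J : Ideal (𝓞 K)) : ℝ) ^ (-s)) *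
        (Ideal.absNorm (a.1 : Ideal (𝓞 K)) : ℝ) ^ (-s) := by
    funext a
    rw [Function.comp_apply, classEquiv_apply, map_mul, Nat.cast_mul,
      Real.mul_rpow (Nat.cast_nonneg _) (Nat.cast_nonneg _), mul_assoc]
  rw [e] at h
  exact h

theorem torsionOrder_pos_real : (0 : ℝ) < (torsionOrder K : ℝ) := by
  exact_mod_cast torsionOrder_pos K

theorem summable_zetaCl (C : ClassGroup (𝓞 K)) {s : ℝ} (hs : 1 < s) :
    Summable (fun a : {I : (Ideal (𝓞 K))⁰ // ClassGroup.mk0 I = C} =>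
      (Ideal.absNorm (a.1 : Ideal (𝓞 K)) : ℝ) ^ (-s)) := by
  obtain ⟨J, hJ⟩ := ClassGroup.mk0_surjective C⁻¹
  have hC : C = (ClassGroup.mk0 J)⁻¹ := by rw [hJ, inv_inv]
  subst hC
  have h := (hasSum_zetaCl_aux J hs).summable
  rwa [summable_mul_left_iff] at h
  exact (mul_pos torsionOrder_pos_real (Real.rpow_pos_of_pos (absNorm_pos_real J) _)).ne'

theorem sumJ_eq_zetaCl (J : (Ideal (𝓞 K))⁰) {s : ℝ} (hs : 1 < s) :
    sumJ (J : Ideal (𝓞 K)) s = (torsionOrder K : ℝ) * (Ideal.absNorm (J : Ideal (𝓞 K)) : ℝ) ^ (-s) *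
      zetaCl (ClassGroup.mk0 J)⁻¹ s := by
  rw [zetaCl, ← tsum_mul_left]
  exact (hasSum_zetaCl_aux J hs).tsum_eq.symm

theorem zetaCl_nonneg (C : ClassGroup (𝓞 K)) (s : ℝ) : 0 ≤ zetaCl C s :=
  tsum_nonneg fun _ => Real.rpow_nonneg (Nat.cast_nonneg _) _

/-- the number of cosets of `J'` contained in `J` -/
noncomputable def cosetCount (J J' : Ideal (𝓞 K)) : ℕ :=
  Nat.card {q : 𝓞 K ⧸ J'.toAddSubgroup // q.out ∈ J.toAddSubgroup}

theorem cosetCount_mul (J J' : Ideal (𝓞 K)) (hle : J' ≤ J) :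
    cosetCount J J' * Ideal.absNorm J = Ideal.absNorm J' := by
  have h := Submodule.card_quotient_mul_card_quotient J J' hle
  rw [Ideal.absNorm_apply, Ideal.absNorm_apply, Submodule.cardQuot_apply, Submodule.cardQuot_apply,
    ← h]
  congr 1
  refine Nat.card_congr (Equiv.subtypeEquivRight fun q => ?_)
  constructor
  · intro hq
    exact ⟨q.out, hq, Quotient.out_eq q⟩
  · rintro ⟨x, hx, rfl⟩
    have h1 : (Submodule.Quotient.mk (Quotient.out (J'.mkQ x)) : 𝓞 K ⧸ J') =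
        Submodule.Quotient.mk x := Quotient.out_eq (J'.mkQ x)
    rw [Submodule.Quotient.eq] at h1
    have h2 := J.add_mem (hle h1) hx
    rwa [sub_add_cancel] at h2

theorem sumJ_compare (J J' : Ideal (𝓞 K)) (hJ' : J' ≠ ⊥) (hle : J' ≤ J) :
    ∃ B : ℝ, ∀ s : ℝ, 1 < s → s ≤ 2 → |sumJ J s - (cosetCount J J' : ℝ) * sumJ J' s| ≤ B := by
  have hfin : Finite (𝓞 K ⧸ J'.toAddSubgroup) := Ideal.finiteQuotientOfFreeOfNeBot J' hJ'
  obtain ⟨B, hB⟩ := coset_sum_bound J'.toAddSubgroup J.toAddSubgroup hle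
    (fun t => Classical.choose (phi_shift_majorant K t))
    (fun t => (Classical.choose_spec (phi_shift_majorant K t)).1)
  refine ⟨B, fun s hs1 hs2 => ?_⟩
  exact hB (phi K s) (summable_phi K hs1)
    (fun t x => (Classical.choose_spec (phi_shift_majorant K t)).2 s hs1.le hs2 x)

theorem zetaCl_compare (J J' : (Ideal (𝓞 K))⁰) (hle : (J' : Ideal (𝓞 K)) ≤ J) :
    ∃ B : ℝ, ∀ s : ℝ, 1 < s → s ≤ 2 →
      |zetaCl (ClassGroup.mk0 J)⁻¹ s -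
        (cosetCount (J : Ideal (𝓞 K)) J' : ℝ) ^ (1 - s) * zetaCl (ClassGroup.mk0 J')⁻¹ s| ≤ B := by
  obtain ⟨B, hB⟩ := sumJ_compare (J : Ideal (𝓞 K)) J' (mem_nonZeroDivisors_iff_ne_zero.mp J'.2) hle
  set w : ℝ := (torsionOrder K : ℝ) with hw
  have hw0 : 0 < w := torsionOrder_pos_real
  set a : ℝ := (Ideal.absNorm (J : Ideal (𝓞 K)) : ℝ) with ha
  set a' : ℝ := (Ideal.absNorm (J' : Ideal (𝓞 K)) : ℝ) with ha'
  set κ : ℝ := (cosetCount (J : Ideal (𝓞 K)) J' : ℝ) with hκ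
  have ha0 : 0 < a := absNorm_pos_real J
  have ha'0 : 0 < a' := absNorm_pos_real J'
  have ha1 : 1 ≤ a := by
    rw [ha]
    exact_mod_cast Ideal.absNorm_pos_of_nonZeroDivisors J
  have hκa : κ * a = a' := by
    rw [hκ, ha, ha']
    exact_mod_cast cosetCount_mul (J : Ideal (𝓞 K)) J' hle
  have hκ0 : 0 < κ := by
    by_contra h
    have : κ = 0 := le_antisymm (not_lt.mp h) (Nat.cast_nonneg _)
    rw [this, zero_mul] at hκa
    exact ha'0.ne hκa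
  refine ⟨a ^ (2 : ℝ) / w * B, fun s hs1 hs2 => ?_⟩
  have h := hB s hs1 hs2
  have hB0 : 0 ≤ B := (abs_nonneg _).trans h
  rw [sumJ_eq_zetaCl J hs1, sumJ_eq_zetaCl J' hs1] at h
  have e : zetaCl (ClassGroup.mk0 J)⁻¹ s - κ ^ (1 - s) * zetaCl (ClassGroup.mk0 J')⁻¹ s =
      a ^ s / w * (w * a ^ (-s) * zetaCl (ClassGroup.mk0 J)⁻¹ s -
        κ * (w * a' ^ (-s) * zetaCl (ClassGroup.mk0 J')⁻¹ s)) := by
    have e1 : a ^ s * a ^ (-s) = 1 := by rw [← Real.rpow_add ha0]; simp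
    have e2 : a ^ s * (κ * a' ^ (-s)) = κ ^ (1 - s) := by
      rw [← hκa, Real.mul_rpow hκ0.le ha0.le, sub_eq_add_neg, Real.rpow_add hκ0, Real.rpow_one]
      calc a ^ s * (κ * (κ ^ (-s) * a ^ (-s))) = (a ^ s * a ^ (-s)) * (κ * κ ^ (-s)) := by ring
        _ = κ * κ ^ (-s) := by rw [e1, one_mul]
    calc zetaCl (ClassGroup.mk0 J)⁻¹ s - κ ^ (1 - s) * zetaCl (ClassGroup.mk0 J')⁻¹ s
        = (a ^ s * a ^ (-s)) * zetaCl (ClassGroup.mk0 J)⁻¹ s -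
          (a ^ s * (κ * a' ^ (-s))) * zetaCl (ClassGroup.mk0 J')⁻¹ s := by rw [e1, e2, one_mul]
      _ = _ := by field_simp
  rw [e, abs_mul, abs_of_nonneg (by positivity)]
  refine mul_le_mul ?_ h (abs_nonneg _) (by positivity)
  exact div_le_div_of_nonneg_right (Real.rpow_le_rpow_of_exponent_le ha1 hs2) hw0.le

/-- the principal ideal generated by a positive integer, as a nonzero ideal -/
noncomputable def natIdeal (K : Type*) [Field K] [NumberField K] (m : ℕ) (hm : m ≠ 0) :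
    (Ideal (𝓞 K))⁰ :=
  ⟨Ideal.span {(m : 𝓞 K)}, mem_nonZeroDivisors_iff_ne_zero.mpr (by
    rw [Ne, Ideal.zero_eq_bot, Ideal.span_singleton_eq_bot]
    exact_mod_cast hm)⟩

theorem mk0_natIdeal (m : ℕ) (hm : m ≠ 0) : ClassGroup.mk0 (natIdeal K m hm) = 1 :=
  (ClassGroup.mk0_eq_one_iff (natIdeal K m hm).2).mpr ⟨(m : 𝓞 K), rfl⟩

theorem zetaCl_one_bound : ∃ (c₀ : ℕ) (B₀ : ℝ), 2 ≤ c₀ ∧ ∀ s : ℝ, 1 < s → s ≤ 2 →
    (1 - (c₀ : ℝ) ^ (1 - s)) * zetaCl (1 : ClassGroup (𝓞 K)) s ≤ B₀ := by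
  obtain ⟨B, hB⟩ := zetaCl_compare (1 : (Ideal (𝓞 K))⁰) (natIdeal K 2 two_ne_zero) (by
    rw [Submonoid.coe_one, Ideal.one_eq_top]
    exact le_top)
  refine ⟨cosetCount ((1 : (Ideal (𝓞 K))⁰) : Ideal (𝓞 K)) (natIdeal K 2 two_ne_zero), B, ?_,
    fun s hs1 hs2 => ?_⟩
  · have h := cosetCount_mul ((1 : (Ideal (𝓞 K))⁰) : Ideal (𝓞 K)) (natIdeal K 2 two_ne_zero) (by
      rw [Submonoid.coe_one, Ideal.one_eq_top]
      exact le_top)
    rw [Submonoid.coe_one, map_one, mul_one] at h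
    rw [Submonoid.coe_one, h]
    have h2 : Ideal.absNorm ((natIdeal K 2 two_ne_zero : (Ideal (𝓞 K))⁰) : Ideal (𝓞 K)) =
        2 ^ Module.finrank ℤ (𝓞 K) := Ideal.absNorm_span_natCast 2
    rw [h2]
    have : 0 < Module.finrank ℤ (𝓞 K) := Module.finrank_pos
    calc 2 = 2 ^ 1 := by norm_num
      _ ≤ 2 ^ Module.finrank ℤ (𝓞 K) := Nat.pow_le_pow_right (by norm_num) this
  · have h := hB s hs1 hs2
    rw [map_one, inv_one, mk0_natIdeal, inv_one] at h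
    have := (le_abs_self _).trans h
    linarith

theorem zetaCl_sub_one_bounded (C : ClassGroup (𝓞 K)) :
    ∃ B : ℝ, ∀ s : ℝ, 1 < s → s ≤ 2 → |zetaCl C s - zetaCl (1 : ClassGroup (𝓞 K)) s| ≤ B := by
  obtain ⟨c₀, B₀, hc₀, hB₀⟩ := zetaCl_one_bound (K := K)
  obtain ⟨J, hJ⟩ := ClassGroup.mk0_surjective C⁻¹
  have hC : C = (ClassGroup.mk0 J)⁻¹ := by rw [hJ, inv_inv]
  have hN : Ideal.absNorm (J : Ideal (𝓞 K)) ≠ 0 := (Ideal.absNorm_pos_of_nonZeroDivisors J).ne'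
  have hle : ((natIdeal K _ hN : (Ideal (𝓞 K))⁰) : Ideal (𝓞 K)) ≤ J :=
    (Ideal.span_singleton_le_iff_mem _).mpr (Ideal.absNorm_mem _)
  obtain ⟨B₁, hB₁⟩ := zetaCl_compare J (natIdeal K _ hN) hle
  set c : ℕ := cosetCount (J : Ideal (𝓞 K)) (natIdeal K _ hN) with hc
  have hc1 : 1 ≤ c := by
    have h := cosetCount_mul (J : Ideal (𝓞 K)) (natIdeal K _ hN) hle
    rw [Nat.one_le_iff_ne_zero]
    intro h0
    rw [← hc, h0, zero_mul] at h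
    exact (Ideal.absNorm_pos_of_nonZeroDivisors (natIdeal K _ hN)).ne h
  refine ⟨B₁ + c * B₀, fun s hs1 hs2 => ?_⟩
  have h1 := hB₁ s hs1 hs2
  rw [← hC, mk0_natIdeal, inv_one] at h1
  have h0 := hB₀ s hs1 hs2
  have hz := zetaCl_nonneg (1 : ClassGroup (𝓞 K)) s
  set z : ℝ := (c₀ : ℝ) ^ (1 - s) with hzdef
  have hc₀0 : (0 : ℝ) < c₀ := by exact_mod_cast (by omega : 0 < c₀)
  have hz0 : 0 < z := Real.rpow_pos_of_pos hc₀0 _
  have hcle : (c : ℝ) ≤ (c₀ : ℝ) ^ c := by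
    have h2 : c < 2 ^ c := Nat.lt_two_pow_self
    have h3 : 2 ^ c ≤ c₀ ^ c := Nat.pow_le_pow_left hc₀ c
    exact_mod_cast (h2.le.trans h3)
  have hc0 : (0 : ℝ) < c := by exact_mod_cast hc1
  have h2 : z ^ c ≤ (c : ℝ) ^ (1 - s) := by
    rw [hzdef, ← Real.rpow_natCast, ← Real.rpow_mul hc₀0.le, mul_comm, Real.rpow_mul hc₀0.le,
      Real.rpow_natCast]
    exact Real.rpow_le_rpow_of_nonpos hc0 hcle (by linarith)
  have h3 : 1 + (c : ℝ) * (z - 1) ≤ z ^ c := by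
    have := one_add_mul_le_pow (by linarith : (-2 : ℝ) ≤ z - 1) c
    simpa using this
  have h4 : (c : ℝ) ^ (1 - s) ≤ 1 :=
    Real.rpow_le_one_of_one_le_of_nonpos (by exact_mod_cast hc1) (by linarith)
  have h5 : (1 - (c : ℝ) ^ (1 - s)) * zetaCl (1 : ClassGroup (𝓞 K)) s ≤ c * B₀ := by
    calc (1 - (c : ℝ) ^ (1 - s)) * zetaCl (1 : ClassGroup (𝓞 K)) s
        ≤ (c * (1 - z)) * zetaCl (1 : ClassGroup (𝓞 K)) s :=
          mul_le_mul_of_nonneg_right (by linarith) hz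
      _ = c * ((1 - z) * zetaCl (1 : ClassGroup (𝓞 K)) s) := by ring
      _ ≤ c * B₀ := mul_le_mul_of_nonneg_left h0 hc0.le
  have h6 : 0 ≤ (1 - (c : ℝ) ^ (1 - s)) * zetaCl (1 : ClassGroup (𝓞 K)) s :=
    mul_nonneg (by linarith) hz
  have e : zetaCl C s - zetaCl (1 : ClassGroup (𝓞 K)) s =
      (zetaCl C s - (c : ℝ) ^ (1 - s) * zetaCl (1 : ClassGroup (𝓞 K)) s) -
      (1 - (c : ℝ) ^ (1 - s)) * zetaCl (1 : ClassGroup (𝓞 K)) s := by ring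
  rw [e]
  refine (abs_sub _ _).trans ?_
  rw [abs_of_nonneg h6]
  linarith

/-- **(C1)** differences of partial zeta functions are bounded on `(1, 2]`. -/
theorem zetaCl_sub_bounded (C₁ C₂ : ClassGroup (𝓞 K)) :
    ∃ B : ℝ, ∀ s : ℝ, 1 < s → s ≤ 2 → |zetaCl C₁ s - zetaCl C₂ s| ≤ B := by
  obtain ⟨B₁, h₁⟩ := zetaCl_sub_one_bounded C₁
  obtain ⟨B₂, h₂⟩ := zetaCl_sub_one_bounded C₂
  refine ⟨B₁ + B₂, fun s hs1 hs2 => ?_⟩
  have e : zetaCl C₁ s - zetaCl C₂ s = (zetaCl C₁ s - zetaCl (1 : ClassGroup (𝓞 K)) s) -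
      (zetaCl C₂ s - zetaCl (1 : ClassGroup (𝓞 K)) s) := by ring
  rw [e]
  exact (abs_sub _ _).trans (add_le_add (h₁ s hs1 hs2) (h₂ s hs1 hs2))

end Fermat.Agent.S14
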