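import Mathlib
import Fermat.Agent.S14.C1Main

/-!
# S14 (C2): the real Dedekind zeta function as a sum over ideals, asymptotics at `s = 1`
-/

set_option autoImplicit false
set_option linter.unusedSectionVars false

namespace Fermat.Agent.S14

open NumberField Filter Topology
open scoped nonZeroDivisors Classical

variable (K : Type*) [Field K] [NumberField K]

/-- `N I ^ (-s)` -/
noncomputable def nrm (s : ℝ) (I : Ideal (𝓞 K)) : ℝ := (Ideal.absNorm I : ℝ) ^ (-s)

/-- the Dedekind zeta function at real `s`, as a sum over the nonzero ideals -/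
noncomputable def zetaR (s : ℝ) : ℝ := ∑' I : (Ideal (𝓞 K))⁰, nrm K s I

variable {K}

theorem nrm_nonneg (s : ℝ) (I : Ideal (𝓞 K)) : 0 ≤ nrm K s I :=
  Real.rpow_nonneg (Nat.cast_nonneg _) _

theorem nrm_one (s : ℝ) : nrm K s 1 = 1 := by
  simp [nrm]

theorem nrm_mul (s : ℝ) (I J : Ideal (𝓞 K)) : nrm K s (I * J) = nrm K s I * nrm K s J := by
  simp only [nrm, map_mul, Nat.cast_mul]
  exact Real.mul_rpow (Nat.cast_nonneg _) (Nat.cast_nonneg _)

theorem summable_nrm {s : ℝ} (hs : 1 < s) :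
    Summable fun I : (Ideal (𝓞 K))⁰ => nrm K s I := by
  have h : (fun I : (Ideal (𝓞 K))⁰ => nrm K s I) = fun I => ∑ C : ClassGroup (𝓞 K),
      Set.indicator {I : (Ideal (𝓞 K))⁰ | ClassGroup.mk0 I = C}
        (fun I : (Ideal (𝓞 K))⁰ => nrm K s I) I := by
    funext I
    simp [Set.indicator_apply]
  rw [h]
  refine summable_sum fun C _ => ?_
  rw [← summable_subtype_iff_indicator]
  exact summable_zetaCl C hs

/-- decomposition of a sum over ideals according to the classes -/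
theorem tsum_eq_sum_class {E : Type*} [NormedAddCommGroup E] [CompleteSpace E]
    (g : (Ideal (𝓞 K))⁰ → E) (hg : Summable g) :
    ∑' I, g I = ∑ C : ClassGroup (𝓞 K),
      ∑' a : {I : (Ideal (𝓞 K))⁰ // ClassGroup.mk0 I = C}, g a.1 := by
  have h := hg.hasSum.tsum_fiberwise (fun I => ClassGroup.mk0 I)
  exact (h.unique (hasSum_fintype _))

theorem zetaR_eq_sum {s : ℝ} (hs : 1 < s) : zetaR K s = ∑ C : ClassGroup (𝓞 K), zetaCl C s :=
  tsum_eq_sum_class _ (summable_nrm hs)

theorem one_le_zetaR {s : ℝ} (hs : 1 < s) : 1 ≤ zetaR K s := by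
  have := (summable_nrm (K := K) hs).le_tsum (1 : (Ideal (𝓞 K))⁰) fun J _ => nrm_nonneg s _
  have h1 : nrm K s ((1 : (Ideal (𝓞 K))⁰) : Ideal (𝓞 K)) = 1 := nrm_one s
  rw [h1] at this
  exact this

theorem zetaR_eq_dedekindZeta {s : ℝ} (hs : 1 < s) :
    ((zetaR K s : ℝ) : ℂ) = dedekindZeta K s := by
  have h := (summable_nrm (K := K) hs).hasSum.tsum_fiberwise
    (fun I : (Ideal (𝓞 K))⁰ => Ideal.absNorm (I : Ideal (𝓞 K)))
  have h2 : zetaR K s = ∑' n : ℕ, ∑' b : ((fun I : (Ideal (𝓞 K))⁰ =>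
      Ideal.absNorm (I : Ideal (𝓞 K))) ⁻¹' {n}), nrm K s (b : (Ideal (𝓞 K))⁰) := h.tsum_eq.symm
  rw [h2, Complex.ofReal_tsum, dedekindZeta, LSeries]
  refine tsum_congr fun n => ?_
  have h3 : ∀ b : ((fun I : (Ideal (𝓞 K))⁰ => Ideal.absNorm (I : Ideal (𝓞 K))) ⁻¹' {n}),
      nrm K s (b : (Ideal (𝓞 K))⁰) = (n : ℝ) ^ (-s) := by
    rintro ⟨b, hb⟩
    have hb' : Ideal.absNorm (b : Ideal (𝓞 K)) = n := hb
    simp [nrm, hb']
  simp_rw [h3]
  rw [tsum_const]
  rcases Nat.eq_zero_or_pos n with rfl | hn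
  · have : IsEmpty ((fun I : (Ideal (𝓞 K))⁰ => Ideal.absNorm (I : Ideal (𝓞 K))) ⁻¹' {0}) := by
      refine ⟨?_⟩
      rintro ⟨b, hb⟩
      have hb' : Ideal.absNorm (b : Ideal (𝓞 K)) = 0 := hb
      exact nonZeroDivisors.coe_ne_zero b (Ideal.absNorm_eq_zero_iff.1 hb')
    simp
  · rw [LSeries.term_of_ne_zero hn.ne']
    have e : ((fun I : (Ideal (𝓞 K))⁰ => Ideal.absNorm (I : Ideal (𝓞 K))) ⁻¹' {n}) ≃
        {I : Ideal (𝓞 K) // Ideal.absNorm I = n} :=
      { toFun := fun b => ⟨b.1.1, b.2⟩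
        invFun := fun I => ⟨⟨I.1, mem_nonZeroDivisors_of_ne_zero (by
          intro h0
          have := I.2
          rw [h0] at this
          simp at this
          omega)⟩, I.2⟩
        left_inv := fun b => rfl
        right_inv := fun I => rfl }
    rw [Nat.card_congr e, nsmul_eq_mul, Complex.ofReal_mul, Complex.ofReal_natCast,
      Complex.ofReal_cpow (Nat.cast_nonneg _), Complex.ofReal_neg, Complex.cpow_neg,
      Complex.ofReal_natCast, div_eq_mul_inv]

theorem tendsto_zetaR :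
    Tendsto (fun s : ℝ => (s - 1) * zetaR K s) (𝓝[>] 1) (𝓝 (dedekindZeta_residue K)) := by
  have h := tendsto_sub_one_mul_dedekindZeta_nhdsGT K
  have h2 := (Complex.continuous_re.tendsto _).comp h
  simp only [Complex.ofReal_re] at h2
  refine h2.congr' ?_
  filter_upwards [self_mem_nhdsWithin] with s hs
  have hs' : 1 < s := hs
  simp only [Function.comp]
  rw [← zetaR_eq_dedekindZeta hs', ← Complex.ofReal_one, ← Complex.ofReal_sub,
    ← Complex.ofReal_mul, Complex.ofReal_re]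

/-- comparison of the logarithmic growth of two zeta functions -/
theorem zetaR_compare (F E : Type*) [Field F] [NumberField F] [Field E] [NumberField E]
    (α β c : ℝ)
    (h : ∀ s : ℝ, 1 < s → s ≤ 2 → α * Real.log (zetaR E s) ≤ β * Real.log (zetaR F s) + c) :
    α ≤ β := by
  by_contra hlt
  push Not at hlt
  have hE := tendsto_zetaR (K := E)
  have hF := tendsto_zetaR (K := F)
  have hlE := hE.log (dedekindZeta_residue_ne_zero E)
  have hlF := hF.log (dedekindZeta_residue_ne_zero F)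
  have hR := ((hlF.const_mul β).sub (hlE.const_mul α)).add_const c
  have h0 : Tendsto (fun s : ℝ => s - 1) (𝓝[>] 1) (𝓝[>] 0) := by
    refine tendsto_nhdsWithin_of_tendsto_nhds_of_eventually_within _ ?_ ?_
    · have : Tendsto (fun s : ℝ => s - 1) (𝓝 1) (𝓝 (1 - 1)) :=
        (continuous_id.sub continuous_const).tendsto 1
      simpa using this.mono_left nhdsWithin_le_nhds
    · filter_upwards [self_mem_nhdsWithin] with s hs
      have hs' : 1 < s := hs
      exact sub_pos.2 hs'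
  have hL : Tendsto (fun s : ℝ => (α - β) * (-Real.log (s - 1))) (𝓝[>] 1) atTop :=
    (tendsto_neg_atBot_atTop.comp (Real.tendsto_log_nhdsGT_zero.comp h0)).const_mul_atTop
      (sub_pos.2 hlt)
  refine not_tendsto_atTop_of_tendsto_nhds hR (tendsto_atTop_mono' _ ?_ hL)
  have hmem : Set.Ioc (1 : ℝ) 2 ∈ 𝓝[>] (1 : ℝ) := Ioc_mem_nhdsGT (by norm_num)
  filter_upwards [hmem] with s hs
  have hs1 : 0 < s - 1 := sub_pos.2 hs.1
  have hzE : 0 < zetaR E s := lt_of_lt_of_le one_pos (one_le_zetaR hs.1)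
  have hzF : 0 < zetaR F s := lt_of_lt_of_le one_pos (one_le_zetaR hs.1)
  rw [Real.log_mul hs1.ne' hzE.ne', Real.log_mul hs1.ne' hzF.ne']
  have := h s hs.1 hs.2
  nlinarith [this]

end Fermat.Agent.S14
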