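import Mathlib
import Fermat.Agent.S14.C2Euler
import Fermat.Agent.S14.C2Zeta

/-!
# S14 (C2): sums over primes
-/

set_option autoImplicit false
set_option linter.unusedSectionVars false

namespace Fermat.Agent.S14

open NumberField Filter Topology IsDedekindDomain
open scoped nonZeroDivisors Classical

/-! ### sums along a map with bounded fibres -/

theorem tsum_comp_le_of_fiber {X Y : Type*} (φ : X → Y) (n : ℕ)
    (hφ : ∀ y, {x | φ x = y}.Finite ∧ {x | φ x = y}.ncard ≤ n) (g : Y → ℝ) (hg0 : ∀ y, 0 ≤ g y)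
    (hg : Summable g) :
    Summable (fun x => g (φ x)) ∧ ∑' x, g (φ x) ≤ n * ∑' y, g y := by
  have key : ∀ A : Finset X, ∑ x ∈ A, g (φ x) ≤ n * ∑' y, g y := by
    intro A
    rw [Finset.sum_comp g φ]
    calc ∑ b ∈ A.image φ, (A.filter fun a => φ a = b).card • g b
        ≤ ∑ b ∈ A.image φ, (n : ℝ) * g b := by
          refine Finset.sum_le_sum fun b _ => ?_
          rw [nsmul_eq_mul]
          refine mul_le_mul_of_nonneg_right ?_ (hg0 b)
          have h1 : (A.filter fun a => φ a = b).card ≤ {x | φ x = b}.ncard := by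
            rw [← Set.ncard_coe_finset]
            refine Set.ncard_le_ncard ?_ (hφ b).1
            intro x hx
            simpa using (Finset.mem_filter.1 hx).2
          exact_mod_cast h1.trans (hφ b).2
      _ = n * ∑ b ∈ A.image φ, g b := by rw [Finset.mul_sum]
      _ ≤ n * ∑' y, g y :=
          mul_le_mul_of_nonneg_left (hg.sum_le_tsum _ fun y _ => hg0 y) (Nat.cast_nonneg n)
  exact ⟨summable_of_sum_le (fun x => hg0 _) key, Real.tsum_le_of_sum_le (fun x => hg0 _) key⟩

theorem le_tsum_of_fiber {X Y : Type*} (φ : X → Y) (n : ℕ) (D : Set Y)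
    (hD : ∀ y ∈ D, {x | φ x = y}.Finite ∧ {x | φ x = y}.ncard = n) (g : Y → ℝ) (f : X → ℝ)
    (hf0 : ∀ x, 0 ≤ f x) (hf : Summable f) (hfg : ∀ x, φ x ∈ D → f x = g (φ x))
    (hg : Summable (D.indicator g)) :
    n * ∑' y, D.indicator g y ≤ ∑' x, f x := by
  have key : ∀ B : Finset Y, ∑ y ∈ B, (n : ℝ) * D.indicator g y ≤ ∑' x, f x := by
    intro B
    have h1 : ∑ y ∈ B, (n : ℝ) * D.indicator g y = ∑ y ∈ B.filter (· ∈ D), (n : ℝ) * g y := by
      rw [Finset.sum_filter]
      refine Finset.sum_congr rfl fun y _ => ?_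
      by_cases hy : y ∈ D <;> simp [hy]
    rw [h1]
    have h2 : ∀ y ∈ B.filter (· ∈ D), (n : ℝ) * g y =
        ∑ x ∈ (if hy : y ∈ D then (hD y hy).1.toFinset else ∅), f x := by
      intro y hy
      have hyD : y ∈ D := (Finset.mem_filter.1 hy).2
      rw [dif_pos hyD]
      have h3 : ∀ x ∈ (hD y hyD).1.toFinset, f x = g y := by
        intro x hx
        have hx' : φ x = y := by simpa using hx
        rw [hfg x (hx' ▸ hyD), hx']
      rw [Finset.sum_congr rfl h3, Finset.sum_const, nsmul_eq_mul,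
        ← Set.ncard_eq_toFinset_card _ (hD y hyD).1, (hD y hyD).2]
    rw [Finset.sum_congr rfl h2, ← Finset.sum_biUnion]
    · exact hf.sum_le_tsum _ fun x _ => hf0 x
    · intro y hy y' hy' hne
      have hyD : y ∈ D := (Finset.mem_filter.1 hy).2
      have hyD' : y' ∈ D := (Finset.mem_filter.1 hy').2
      rw [Function.onFun, Finset.disjoint_left]
      intro x hx hx'
      simp only [dif_pos hyD, dif_pos hyD', Set.Finite.mem_toFinset, Set.mem_ofPred_eq] at hx hx'
      exact hne (hx.symm.trans hx')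
  rw [← tsum_mul_left]
  exact (hg.mul_left _).tsum_le_of_sum_le key

/-! ### primes in an extension of Dedekind domains -/

section generic

variable {R S : Type*} [CommRing R] [IsDedekindDomain R] [Module.Free ℤ R] [Module.Finite ℤ R]
  [CommRing S] [IsDedekindDomain S] [Module.Free ℤ S] [Module.Finite ℤ S] [Algebra R S]
  [Module.Finite R S] [Module.IsTorsionFree R S]

theorem image_fiber_under (q : HeightOneSpectrum R) :
    HeightOneSpectrum.asIdeal '' {Q : HeightOneSpectrum S | Q.under R = q} =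
      q.asIdeal.primesOver S := by
  ext P
  constructor
  · rintro ⟨Q, hQ, rfl⟩
    have hQ' : Q.under R = q := hQ
    exact ⟨Q.isPrime, ⟨by rw [← hQ']; rfl⟩⟩
  · rintro ⟨hP, hPq⟩
    have h0 : P ≠ ⊥ := Ideal.ne_bot_of_liesOver_of_ne_bot q.ne_bot P
    exact ⟨⟨P, hP, h0⟩, HeightOneSpectrum.ext hPq.over.symm, rfl⟩

theorem asIdeal_injective : Function.Injective (HeightOneSpectrum.asIdeal (R := S)) :=
  fun _ _ h => HeightOneSpectrum.ext h

theorem fiber_under_finite (q : HeightOneSpectrum R) :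
    {Q : HeightOneSpectrum S | Q.under R = q}.Finite := by
  have := q.isMaximal
  have h := IsDedekindDomain.primesOver_finite q.asIdeal S
  rw [← image_fiber_under q] at h
  exact h.of_finite_image asIdeal_injective.injOn

theorem ncard_fiber_under (q : HeightOneSpectrum R) :
    {Q : HeightOneSpectrum S | Q.under R = q}.ncard = (q.asIdeal.primesOver S).ncard := by
  rw [← image_fiber_under q, Set.ncard_image_of_injective _ asIdeal_injective]

theorem ncard_primesOver_le (q : HeightOneSpectrum R) :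
    (q.asIdeal.primesOver S).ncard ≤ Module.finrank R S := by
  have := q.isMaximal
  have := q.isPrime
  rw [← Ideal.sum_ramification_inertia_eq_finrank q.asIdeal S, ← Nat.card_coe_set_eq,
    Nat.card_eq_fintype_card, Fintype.card_eq_sum_ones]
  refine Finset.sum_le_sum fun P _ => ?_
  have := P.2.1
  exact Nat.succ_le_of_lt (Nat.mul_pos (Ideal.ramificationIdx_pos _ _) (Ideal.inertiaDeg_pos _ _))

theorem fiber_under (q : HeightOneSpectrum R) :
    {Q : HeightOneSpectrum S | Q.under R = q}.Finite ∧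
      {Q : HeightOneSpectrum S | Q.under R = q}.ncard ≤ Module.finrank R S :=
  ⟨fiber_under_finite q, (ncard_fiber_under q).trans_le (ncard_primesOver_le q)⟩

theorem two_le_absNorm (q : HeightOneSpectrum R) : 2 ≤ Ideal.absNorm q.asIdeal := by
  have h0 : Ideal.absNorm q.asIdeal ≠ 0 := fun h => q.ne_bot (Ideal.absNorm_eq_zero_iff.1 h)
  have h1 : Ideal.absNorm q.asIdeal ≠ 1 := fun h => q.isPrime.ne_top (Ideal.absNorm_eq_one_iff.1 h)
  omega

theorem absNorm_under_pow (Q : HeightOneSpectrum S) :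
    Ideal.absNorm (Q.under R).asIdeal ^ Q.asIdeal.inertiaDeg R = Ideal.absNorm Q.asIdeal := by
  have := Q.isPrime
  have : Q.asIdeal.LiesOver (Q.under R).asIdeal := ⟨rfl⟩
  exact Ideal.absNorm_pow_inertiaDeg _ _

theorem inertiaDeg_eq_one_iff (Q : HeightOneSpectrum S) :
    Q.asIdeal.inertiaDeg R = 1 ↔ Ideal.absNorm Q.asIdeal = Ideal.absNorm (Q.under R).asIdeal := by
  rw [← absNorm_under_pow (R := R) Q]
  constructor
  · intro h
    rw [h, pow_one]
  · intro h
    exact Nat.pow_right_injective (two_le_absNorm (Q.under R)) (by simpa using h)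

/-- the primes of relative degree at least two contribute little -/
theorem rpow_le_of_absNorm_ne (Q : HeightOneSpectrum S)
    (h : Ideal.absNorm Q.asIdeal ≠ Ideal.absNorm (Q.under R).asIdeal) {s : ℝ} (hs : 1 ≤ s) :
    (Ideal.absNorm Q.asIdeal : ℝ) ^ (-s) ≤ (Ideal.absNorm (Q.under R).asIdeal : ℝ) ^ (-(2 : ℝ)) := by
  have := Q.isPrime
  have hf1 : Q.asIdeal.inertiaDeg R ≠ 1 := fun h1 => h ((inertiaDeg_eq_one_iff Q).1 h1)
  have hf0 : 0 < Q.asIdeal.inertiaDeg R := Ideal.inertiaDeg_pos _ _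
  have hf2 : 2 ≤ Q.asIdeal.inertiaDeg R := by omega
  have h2 := two_le_absNorm (Q.under R)
  have hN : (1 : ℝ) ≤ (Ideal.absNorm (Q.under R).asIdeal : ℝ) := by
    exact_mod_cast (by omega : 1 ≤ Ideal.absNorm (Q.under R).asIdeal)
  rw [← absNorm_under_pow (R := R) Q, Nat.cast_pow, ← Real.rpow_natCast, ← Real.rpow_mul (by linarith)]
  refine Real.rpow_le_rpow_of_exponent_le hN ?_
  have hf2' : (2 : ℝ) ≤ (Q.asIdeal.inertiaDeg R : ℝ) := by exact_mod_cast hf2
  nlinarith

end generic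

/-! ### prime sums for number fields -/

section nf

variable (K : Type*) [Field K] [NumberField K]

/-- the sum of `N q ^ (-s)` over the primes -/
noncomputable def primeSum (s : ℝ) : ℝ := ∑' q : HeightOneSpectrum (𝓞 K), nrm K s q.asIdeal

variable {K}

theorem summable_nrm_prime {s : ℝ} (hs : 1 < s) :
    Summable fun q : HeightOneSpectrum (𝓞 K) => nrm K s q.asIdeal := by
  have h := (summable_nrm (K := K) hs).comp_injective (pr0_injective (R := 𝓞 K))
  simpa [Function.comp_def] using h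

theorem nrm_prime_le_half {s : ℝ} (hs : 1 ≤ s) (q : HeightOneSpectrum (𝓞 K)) :
    nrm K s q.asIdeal ≤ 1 / 2 := by
  have h2 : (2 : ℝ) ≤ (Ideal.absNorm q.asIdeal : ℝ) := by exact_mod_cast two_le_absNorm q
  calc nrm K s q.asIdeal ≤ (Ideal.absNorm q.asIdeal : ℝ) ^ (-(1 : ℝ)) :=
        Real.rpow_le_rpow_of_exponent_le (by linarith) (by linarith)
    _ = ((Ideal.absNorm q.asIdeal : ℝ))⁻¹ := Real.rpow_neg_one _
    _ ≤ 1 / 2 := by
        rw [one_div]
        exact inv_anti₀ (by norm_num) h2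

theorem nrm_sq_le {s : ℝ} (hs : 1 ≤ s) (q : HeightOneSpectrum (𝓞 K)) :
    nrm K s q.asIdeal ^ 2 ≤ nrm K 2 q.asIdeal := by
  have h2 : (2 : ℝ) ≤ (Ideal.absNorm q.asIdeal : ℝ) := by exact_mod_cast two_le_absNorm q
  unfold nrm
  rw [← Real.rpow_natCast, ← Real.rpow_mul (by linarith)]
  refine Real.rpow_le_rpow_of_exponent_le (by linarith) ?_
  push_cast
  linarith

theorem log_zetaR_eq {s : ℝ} (hs : 1 < s) :
    Summable (fun q : HeightOneSpectrum (𝓞 K) => Real.log (1 - nrm K s q.asIdeal)) ∧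
    Real.log (zetaR K s) = -∑' q : HeightOneSpectrum (𝓞 K), Real.log (1 - nrm K s q.asIdeal) := by
  have e1 : (fun I : (Ideal (𝓞 K))⁰ => nrm K s (I : Ideal (𝓞 K))) 1 = 1 := nrm_one s
  have e2 : ∀ I J : (Ideal (𝓞 K))⁰, (fun I : (Ideal (𝓞 K))⁰ => nrm K s (I : Ideal (𝓞 K))) (I * J) =
      (fun I : (Ideal (𝓞 K))⁰ => nrm K s (I : Ideal (𝓞 K))) I *
      (fun I : (Ideal (𝓞 K))⁰ => nrm K s (I : Ideal (𝓞 K))) J := by
    intro I J
    simp only [Submonoid.coe_mul]
    exact nrm_mul s _ _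
  have e3 : Summable fun I : (Ideal (𝓞 K))⁰ =>
      ‖(fun I : (Ideal (𝓞 K))⁰ => nrm K s (I : Ideal (𝓞 K))) I‖ := (summable_nrm (K := K) hs).norm
  have e4 : ∀ q : HeightOneSpectrum (𝓞 K),
      (fun I : (Ideal (𝓞 K))⁰ => nrm K s (I : Ideal (𝓞 K))) (pr0 q) < 1 :=
    fun q => lt_of_le_of_lt (nrm_prime_le_half hs.le q) (by norm_num)
  obtain ⟨h1, h2⟩ := euler_exp_real (R := 𝓞 K) _ e1 e2 e3 e4
  simp only [coe_pr0] at h1 h2
  refine ⟨h1, ?_⟩
  have h3 : zetaR K s = Real.exp (-∑' q : HeightOneSpectrum (𝓞 K),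
      Real.log (1 - nrm K s q.asIdeal)) := by
    rw [Real.exp_neg]
    exact eq_inv_of_mul_eq_one_right h2
  rw [h3, Real.log_exp]

theorem primeSum_le_log_zetaR {s : ℝ} (hs : 1 < s) : primeSum K s ≤ Real.log (zetaR K s) := by
  obtain ⟨h1, h2⟩ := log_zetaR_eq (K := K) hs
  rw [h2, ← tsum_neg]
  refine (summable_nrm_prime hs).tsum_le_tsum (fun q => ?_) h1.neg
  have hlt : nrm K s q.asIdeal ≤ 1 / 2 := nrm_prime_le_half hs.le q
  have := Real.log_le_sub_one_of_pos (x := 1 - nrm K s q.asIdeal) (by linarith)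
  linarith

theorem neg_log_one_sub_le {x : ℝ} (h0 : 0 ≤ x) (h1 : x ≤ 1 / 2) :
    -Real.log (1 - x) ≤ x + 2 * x ^ 2 := by
  have h := Real.abs_log_sub_add_sum_range_le (x := x) (by rw [abs_of_nonneg h0]; linarith) 1
  simp only [Finset.range_one, Finset.sum_singleton, Nat.cast_zero, zero_add, pow_one, div_one,
    abs_of_nonneg h0] at h
  have h2 : x ^ (1 + 1) / (1 - x) ≤ 2 * x ^ 2 := by
    rw [div_le_iff₀ (by linarith)]
    norm_num
    nlinarith [mul_nonneg (sq_nonneg x) (by linarith : (0 : ℝ) ≤ 1 - 2 * x)]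
  have := (abs_le.1 (h.trans h2)).1
  linarith

theorem log_zetaR_le {s : ℝ} (hs : 1 < s) :
    Real.log (zetaR K s) ≤ primeSum K s + 2 * primeSum K 2 := by
  obtain ⟨h1, h2⟩ := log_zetaR_eq (K := K) hs
  have hs2 : Summable fun q : HeightOneSpectrum (𝓞 K) => nrm K 2 q.asIdeal :=
    summable_nrm_prime (by norm_num)
  rw [h2, ← tsum_neg, primeSum, primeSum, ← tsum_mul_left,
    ← (summable_nrm_prime hs).tsum_add (hs2.mul_left 2)]
  refine h1.neg.tsum_le_tsum (fun q => ?_) ((summable_nrm_prime hs).add (hs2.mul_left 2))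
  have := neg_log_one_sub_le (nrm_nonneg s q.asIdeal) (nrm_prime_le_half hs.le q)
  have h3 := nrm_sq_le hs.le q
  linarith

end nf

end Fermat.Agent.S14
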