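import Mathlib
import Fermat.Agent.S14.C2Prime

/-!
# S14 (C4): non split primes of degree one
-/

set_option autoImplicit false
set_option linter.unusedSectionVars false

namespace Fermat.Agent.S14

open NumberField Filter Topology IsDedekindDomain Ideal
open scoped nonZeroDivisors Classical

theorem summable_int_primes :
    Summable fun p : HeightOneSpectrum ℤ => (absNorm p.asIdeal : ℝ) ^ (-(2 : ℝ)) := by
  have h : Summable fun n : ℕ => (n : ℝ) ^ (-(2 : ℝ)) := Real.summable_nat_rpow.2 (by norm_num)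
  have hinj : Function.Injective fun p : HeightOneSpectrum ℤ => absNorm p.asIdeal := by
    intro p p' hpp
    refine HeightOneSpectrum.ext ?_
    rw [← Int.ideal_span_absNorm_eq_self p.asIdeal, ← Int.ideal_span_absNorm_eq_self p'.asIdeal]
    have : absNorm p.asIdeal = absNorm p'.asIdeal := hpp
    rw [this]
  exact h.comp_injective hinj

theorem summable_mem_finite' {F : Type*} [Field F] [NumberField F] (S : Set (Ideal (𝓞 F)))
    (hS : S.Finite) :
    Summable fun q : HeightOneSpectrum (𝓞 F) => if q.asIdeal ∈ S then (1 : ℝ) else 0 := by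
  refine summable_of_hasFiniteSupport ?_
  refine (hS.preimage (asIdeal_injective (S := 𝓞 F)).injOn).subset ?_
  intro q hq
  by_contra hq'
  have : q.asIdeal ∉ S := hq'
  simp [this] at hq

/-- the primes of absolute degree one outside a finite set carry the whole prime sum -/
theorem exists_primeSum_deg_one_bound (F : Type*) [Field F] [NumberField F]
    (S : Set (Ideal (𝓞 F))) (hS : S.Finite) : ∃ c : ℝ, ∀ s : ℝ, 1 < s → s ≤ 2 →
    primeSum F s ≤ (∑' q : HeightOneSpectrum (𝓞 F),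
      Set.indicator {q : HeightOneSpectrum (𝓞 F) | q.asIdeal ∉ S ∧ (absNorm q.asIdeal).Prime}
        (fun q => nrm F s q.asIdeal) q) + c := by
  set G' : HeightOneSpectrum ℤ → ℝ := fun p => (absNorm p.asIdeal : ℝ) ^ (-(2 : ℝ)) with hG'
  have hG'0 : ∀ p, 0 ≤ G' p := fun p => Real.rpow_nonneg (Nat.cast_nonneg _) _
  obtain ⟨hφs, -⟩ := tsum_comp_le_of_fiber
    (fun q : HeightOneSpectrum (𝓞 F) => q.under ℤ) (Module.finrank ℤ (𝓞 F))
    (fun p => fiber_under p) G' hG'0 summable_int_primes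
  refine ⟨(∑' q : HeightOneSpectrum (𝓞 F), if q.asIdeal ∈ S then (1 : ℝ) else 0) +
    ∑' q : HeightOneSpectrum (𝓞 F), G' (q.under ℤ), fun s hs1 hs2 => ?_⟩
  set D : Set (HeightOneSpectrum (𝓞 F)) :=
    {q : HeightOneSpectrum (𝓞 F) | q.asIdeal ∉ S ∧ (absNorm q.asIdeal).Prime} with hD
  have hDs : Summable (D.indicator fun q : HeightOneSpectrum (𝓞 F) => nrm F s q.asIdeal) :=
    (summable_nrm_prime hs1).indicator D
  rw [← add_assoc, ← hDs.tsum_add (summable_mem_finite' S hS),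
    ← (hDs.add (summable_mem_finite' S hS)).tsum_add hφs]
  refine (summable_nrm_prime hs1).tsum_le_tsum (fun q => ?_)
    ((hDs.add (summable_mem_finite' S hS)).add hφs)
  have h0 : 0 ≤ D.indicator (fun q : HeightOneSpectrum (𝓞 F) => nrm F s q.asIdeal) q :=
    Set.indicator_nonneg (fun q _ => nrm_nonneg _ _) q
  have h1 := hG'0 (q.under ℤ)
  by_cases hqS : q.asIdeal ∈ S
  · have h2 : nrm F s q.asIdeal ≤ 1 / 2 := nrm_prime_le_half hs1.le q
    simp only [if_pos hqS]
    linarith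
  · simp only [if_neg hqS]
    by_cases hp : (absNorm q.asIdeal).Prime
    · have hqD : q ∈ D := ⟨hqS, hp⟩
      rw [Set.indicator_of_mem hqD]
      linarith
    · have hne : absNorm q.asIdeal ≠ absNorm (q.under ℤ).asIdeal := by
        intro he
        have := q.isPrime
        have : NeZero q.asIdeal := ⟨q.ne_bot⟩
        have hpr := Nat.absNorm_under_prime q.asIdeal
        exact hp (he ▸ hpr)
      have h2 := rpow_le_of_absNorm_ne (R := ℤ) q hne hs1.le
      have h3 : nrm F s q.asIdeal ≤ G' (q.under ℤ) := h2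
      linarith

/-- (C4) there are non split primes of degree one -/
theorem c4 (F E : Type*) [Field F] [NumberField F] [Field E] [NumberField E] [Algebra F E]
    [IsGalois F E] (hn : 1 < Module.finrank F E) (S : Set (Ideal (𝓞 F))) (hS : S.Finite)
    (hunr : ∀ 𝔔 : Ideal (𝓞 E), 𝔔.IsPrime → 𝔔 ≠ ⊥ → 𝔔.under (𝓞 F) ∉ S →
      Ideal.inertia (E ≃ₐ[F] E) 𝔔 = ⊥) :
    ∃ 𝔮 : Ideal (𝓞 F), 𝔮.IsPrime ∧ 𝔮 ≠ ⊥ ∧ 𝔮 ∉ S ∧ (absNorm 𝔮).Prime ∧
      ∀ 𝔔 : Ideal (𝓞 E), 𝔔.IsPrime → 𝔔.under (𝓞 F) = 𝔮 → absNorm 𝔔 ≠ absNorm 𝔮 := by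
  by_contra hcon
  push Not at hcon
  set n := Module.finrank F E with hndef
  set D : Set (HeightOneSpectrum (𝓞 F)) :=
    {q : HeightOneSpectrum (𝓞 F) | q.asIdeal ∉ S ∧ (absNorm q.asIdeal).Prime} with hD
  -- the counting formula
  have hcount : ∀ Q : HeightOneSpectrum (𝓞 E), (Q.under (𝓞 F)).asIdeal ∉ S →
      ((Q.under (𝓞 F)).asIdeal.primesOver (𝓞 E)).ncard * Q.asIdeal.inertiaDeg (𝓞 F) = n := by
    intro Q hQ
    have := Q.isPrime
    have := (Q.under (𝓞 F)).isPrime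
    have : Q.asIdeal.LiesOver (Q.under (𝓞 F)).asIdeal := ⟨rfl⟩
    have h1 := Ideal.ncard_primesOver_mul_card_inertia_mul_finrank (G := E ≃ₐ[F] E)
      (Q.under (𝓞 F)).asIdeal Q.asIdeal
    rw [hunr Q.asIdeal Q.isPrime Q.ne_bot hQ, Subgroup.card_bot, mul_one,
      IsGalois.card_aut_eq_finrank] at h1
    exact h1
  have hfib : ∀ q ∈ D, {Q : HeightOneSpectrum (𝓞 E) | Q.under (𝓞 F) = q}.Finite ∧
      {Q : HeightOneSpectrum (𝓞 E) | Q.under (𝓞 F) = q}.ncard = n := by
    intro q hq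
    refine ⟨fiber_under_finite q, ?_⟩
    obtain ⟨𝔔, h𝔔, hu, hN⟩ := hcon q.asIdeal q.isPrime q.ne_bot hq.1 hq.2
    have h𝔔0 : 𝔔 ≠ ⊥ := by
      rintro rfl
      apply q.ne_bot
      rw [← hu]
      exact Ideal.under_bot _ _
    set Q : HeightOneSpectrum (𝓞 E) := ⟨𝔔, h𝔔, h𝔔0⟩ with hQ
    have hQq : Q.under (𝓞 F) = q := HeightOneSpectrum.ext hu
    have h1 := hcount Q (by rw [hQq]; exact hq.1)
    have h2 : Q.asIdeal.inertiaDeg (𝓞 F) = 1 := by
      rw [inertiaDeg_eq_one_iff, hQq]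
      exact hN
    rw [h2, mul_one, hQq] at h1
    rw [ncard_fiber_under, h1]
  have hnorm : ∀ Q : HeightOneSpectrum (𝓞 E), Q.under (𝓞 F) ∈ D →
      absNorm Q.asIdeal = absNorm (Q.under (𝓞 F)).asIdeal := by
    intro Q hQ
    have h1 := hcount Q hQ.1
    have h2 := (hfib _ hQ).2
    rw [ncard_fiber_under] at h2
    rw [h2] at h1
    rw [← inertiaDeg_eq_one_iff]
    have hn0 : 0 < n := by omega
    exact Nat.eq_of_mul_eq_mul_left hn0 (by rw [h1, mul_one])
  obtain ⟨c, hc⟩ := exists_primeSum_deg_one_bound F S hS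
  have hfin := zetaR_compare E F (n : ℝ) 1 (n * (c + 2 * primeSum F 2)) (by
    intro s hs1 hs2
    have h1 := log_zetaR_le (K := F) hs1
    have h2 := hc s hs1 hs2
    have h3 := le_tsum_of_fiber (fun Q : HeightOneSpectrum (𝓞 E) => Q.under (𝓞 F)) n D hfib
      (fun q => nrm F s q.asIdeal) (fun Q => nrm E s Q.asIdeal) (fun Q => nrm_nonneg _ _)
      (summable_nrm_prime hs1) (fun Q hQ => by
        unfold nrm
        rw [hnorm Q hQ]) ((summable_nrm_prime hs1).indicator D)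
    have h4 := primeSum_le_log_zetaR (K := E) hs1
    have h5 : (∑' Q : HeightOneSpectrum (𝓞 E), nrm E s Q.asIdeal) = primeSum E s := rfl
    rw [h5] at h3
    have hn0 : (0 : ℝ) ≤ n := Nat.cast_nonneg _
    have h6 := mul_le_mul_of_nonneg_left (h1.trans (add_le_add_left h2 _)) hn0
    nlinarith [h6, h3, h4])
  have : n ≤ 1 := by exact_mod_cast hfin
  omega

end Fermat.Agent.S14
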