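import Mathlib

/-!
# S14: common definitions for the class field theory part (A)-(H)
-/

set_option autoImplicit false

namespace Fermat.Agent.S14

open NumberField Ideal
open scoped nonZeroDivisors

/-- the class of an integral ideal (`1` for the zero ideal) -/
noncomputable def cl {R : Type*} [CommRing R] [IsDedekindDomain R] (I : Ideal R) :
    ClassGroup R :=
  open Classical in
  if h : I ≠ ⊥ then ClassGroup.mk0 ⟨I, mem_nonZeroDivisors_iff_ne_zero.2 h⟩ else 1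

section

variable (K L : Type*) [Field K] [NumberField K] [Field L] [NumberField L] [Algebra K L]

/-- every nonzero prime of `𝓞 L` has trivial inertia group in `Gal(L/K)` -/
def Unram : Prop :=
  ∀ Q : Ideal (𝓞 L), Q.IsPrime → Q ≠ ⊥ → Ideal.inertia (L ≃ₐ[K] L) Q = ⊥

/-- the subgroup of the ideal classes of `K` generated by the norms of ideals of `L` -/
noncomputable def normCl : Subgroup (ClassGroup (𝓞 K)) :=
  Subgroup.closure {C | ∃ J : Ideal (𝓞 L), J ≠ ⊥ ∧ C = cl (relNorm (𝓞 K) J)}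

end

section

variable {K L : Type*} [Field K] [NumberField K] [Field L] [NumberField L] [Algebra K L]

/-- `σ x ≡ x ^ q mod R` for all integers `x` -/
def FrobQ (σ : L ≃ₐ[K] L) (R : Ideal (𝓞 L)) (q : ℕ) : Prop :=
  ∀ x : 𝓞 L, σ • x - x ^ q ∈ R

variable {p : ℕ}

/-- `s ^ n` is a Frobenius element at some prime of `L` over `P` -/
def IsFe (s : L ≃ₐ[K] L) (P : Ideal (𝓞 K)) (n : ZMod p) : Prop :=
  ∃ Q : Ideal (𝓞 L), Q.IsPrime ∧ Q.under (𝓞 K) = P ∧ FrobQ (s ^ n.val) Q (absNorm P)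

/-- the Frobenius exponent of the prime `P` with respect to the generator `s` of `Gal(L/K)` -/
noncomputable def fe (s : L ≃ₐ[K] L) (P : Ideal (𝓞 K)) : ZMod p :=
  open Classical in if h : ∃ n : ZMod p, IsFe s P n then h.choose else 0

/-- the Artin map, written additively with respect to the generator `s` -/
noncomputable def art (s : L ≃ₐ[K] L) (I : Ideal (𝓞 K)) : ZMod p :=
  ((UniqueFactorizationMonoid.normalizedFactors I).map (fe s)).sum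

end

/-- The crossing data: `Ω = L(ζ_{r₁ r₂})`, `Gal(Ω/K) = ℤ/p × (ℤ/r₁)ˣ × (ℤ/r₂)ˣ`. -/
structure Cross (p r₁ r₂ : ℕ) (K L Ω : Type) [Field K] [NumberField K] [Field L] [NumberField L]
    [Field Ω] [NumberField Ω] [Algebra K L] [Algebra L Ω] [Algebra K Ω] [IsScalarTower K L Ω]
    [Normal K L] (s : L ≃ₐ[K] L) where
  /-- the coordinates on the Galois group -/
  e : (Ω ≃ₐ[K] Ω) ≃* Multiplicative (ZMod p) × (ZMod r₁)ˣ × (ZMod r₂)ˣ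
  res : ∀ g, AlgEquiv.restrictNormalHom L g = s ^ (Multiplicative.toAdd (e g).1).val
  frob : ∀ R : Ideal (𝓞 Ω), R.IsPrime → ((r₁ * r₂ : ℕ) : 𝓞 Ω) ∉ R → ∀ g : Ω ≃ₐ[K] Ω,
    FrobQ g R (absNorm (R.under (𝓞 K))) →
      Multiplicative.toAdd (e g).1 = fe s (R.under (𝓞 K)) ∧
      (((e g).2.1 : (ZMod r₁)ˣ) : ZMod r₁) = (absNorm (R.under (𝓞 K)) : ZMod r₁) ∧
      (((e g).2.2 : (ZMod r₂)ˣ) : ZMod r₂) = (absNorm (R.under (𝓞 K)) : ZMod r₂)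
  good : ∀ R : Ideal (𝓞 Ω), R.IsPrime → ((r₁ * r₂ : ℕ) : 𝓞 Ω) ∉ R →
    Ideal.inertia (Ω ≃ₐ[K] Ω) R = ⊥
  inert₁ : ∀ R : Ideal (𝓞 Ω), R.IsPrime → (r₁ : 𝓞 Ω) ∈ R → ∀ g : Ω ≃ₐ[K] Ω,
    (e g).1 = 1 → (e g).2.2 = 1 → g ∈ Ideal.inertia (Ω ≃ₐ[K] Ω) R
  inert₂ : ∀ R : Ideal (𝓞 Ω), R.IsPrime → (r₂ : 𝓞 Ω) ∈ R → ∀ g : Ω ≃ₐ[K] Ω,
    (e g).1 = 1 → (e g).2.1 = 1 → g ∈ Ideal.inertia (Ω ≃ₐ[K] Ω) R

namespace Cross

variable {p r₁ r₂ : ℕ} {K L Ω : Type} [Field K] [NumberField K] [Field L] [NumberField L]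
    [Field Ω] [NumberField Ω] [Algebra K L] [Algebra L Ω] [Algebra K Ω] [IsScalarTower K L Ω]
    [Normal K L] {s : L ≃ₐ[K] L}

/-- the projection to `ℤ/p × (ℤ/r₁)ˣ` -/
def pr₁ (c : Cross p r₁ r₂ K L Ω s) : (Ω ≃ₐ[K] Ω) →* Multiplicative (ZMod p) × (ZMod r₁)ˣ :=
  ((MonoidHom.fst _ _).prod ((MonoidHom.fst _ _).comp (MonoidHom.snd _ _))).comp
    c.e.toMonoidHom

/-- the projection to `ℤ/p × (ℤ/r₂)ˣ` -/
def pr₂ (c : Cross p r₁ r₂ K L Ω s) : (Ω ≃ₐ[K] Ω) →* Multiplicative (ZMod p) × (ZMod r₂)ˣ :=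
  ((MonoidHom.fst _ _).prod ((MonoidHom.snd _ _).comp (MonoidHom.snd _ _))).comp
    c.e.toMonoidHom

/-- `H₁ = ⟨g⟩ Z₁`, `Z₁ = {x : x = 1 on L(ζ_{r₁})}` -/
def H₁ (c : Cross p r₁ r₂ K L Ω s) (g : Ω ≃ₐ[K] Ω) : Subgroup (Ω ≃ₐ[K] Ω) :=
  (Subgroup.zpowers (c.pr₁ g)).comap c.pr₁

/-- `H₂ = ⟨g⟩ Z₂`, `Z₂ = {x : x = 1 on L(ζ_{r₂})}` -/
def H₂ (c : Cross p r₁ r₂ K L Ω s) (g : Ω ≃ₐ[K] Ω) : Subgroup (Ω ≃ₐ[K] Ω) :=
  (Subgroup.zpowers (c.pr₂ g)).comap c.pr₂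

end Cross

end Fermat.Agent.S14
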