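import Mathlib
import Fermat.Agent.S14.Defs

/-!
# S14 (CL), basic part: the function `cl`
-/

set_option autoImplicit false

namespace Fermat.Agent.S14

open Ideal
open scoped nonZeroDivisors

variable {R : Type*} [CommRing R] [IsDedekindDomain R]

theorem cl_of_ne {I : Ideal R} (h : I ≠ ⊥) :
    cl I = ClassGroup.mk0 ⟨I, mem_nonZeroDivisors_iff_ne_zero.2 h⟩ := by
  rw [cl, dif_pos h]

theorem cl_eq_mk0 (I : (Ideal R)⁰) : cl (I : Ideal R) = ClassGroup.mk0 I := by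
  rw [cl_of_ne (mem_nonZeroDivisors_iff_ne_zero.1 I.2)]

theorem cl_mul {I J : Ideal R} (hI : I ≠ ⊥) (hJ : J ≠ ⊥) : cl (I * J) = cl I * cl J := by
  rw [cl_of_ne hI, cl_of_ne hJ, cl_of_ne (mul_ne_zero hI hJ), ← map_mul]
  rfl

theorem cl_one : cl (1 : Ideal R) = 1 := by
  rw [cl_of_ne one_ne_zero, ← map_one (ClassGroup.mk0 (R := R))]
  rfl

theorem cl_pow {I : Ideal R} (hI : I ≠ ⊥) (n : ℕ) : cl (I ^ n) = cl I ^ n := by
  induction n with
  | zero => rw [pow_zero, pow_zero, cl_one]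
  | succ n ih => rw [pow_succ, pow_succ, cl_mul (pow_ne_zero n hI) hI, ih]

theorem cl_span_singleton (x : R) : cl (span {x}) = 1 := by
  by_cases hx : x = 0
  · rw [cl, dif_neg]
    rw [hx]
    simp
  · have h : span {x} ≠ (⊥ : Ideal R) := by
      rwa [Ne, Ideal.span_singleton_eq_bot]
    rw [cl_of_ne h, ClassGroup.mk0_eq_one_iff]
    exact ⟨⟨x, rfl⟩⟩

theorem cl_surjective (C : ClassGroup R) : ∃ I : Ideal R, I ≠ ⊥ ∧ cl I = C := by
  obtain ⟨I, rfl⟩ := ClassGroup.mk0_surjective C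
  exact ⟨I, mem_nonZeroDivisors_iff_ne_zero.1 I.2, cl_eq_mk0 I⟩

theorem cl_eq_cl_iff {I J : Ideal R} (hI : I ≠ ⊥) (hJ : J ≠ ⊥) :
    cl I = cl J ↔ ∃ x y : R, x ≠ 0 ∧ y ≠ 0 ∧ span {x} * I = span {y} * J := by
  rw [cl_of_ne hI, cl_of_ne hJ, ClassGroup.mk0_eq_mk0_iff]
  constructor
  · rintro ⟨x, y, hx, hy, h⟩
    exact ⟨x, y, hx, hy, h⟩
  · rintro ⟨x, y, hx, hy, h⟩
    exact ⟨x, y, hx, hy, h⟩

theorem cl_prod {ι : Type*} (t : Finset ι) (I : ι → Ideal R) (hI : ∀ i ∈ t, I i ≠ ⊥) :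
    cl (∏ i ∈ t, I i) = ∏ i ∈ t, cl (I i) := by
  classical
  induction t using Finset.induction_on with
  | empty => rw [Finset.prod_empty, Finset.prod_empty, cl_one]
  | insert a t ha ih =>
    rw [Finset.prod_insert ha, Finset.prod_insert ha,
      cl_mul (hI a (Finset.mem_insert_self a t))
        (Finset.prod_ne_zero_iff.2 fun i hi => hI i (Finset.mem_insert_of_mem hi)),
      ih fun i hi => hI i (Finset.mem_insert_of_mem hi)]

end Fermat.Agent.S14
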