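import Mathlib
import Fermat.Agent.S14.Defs
import Fermat.Agent.S14.ClBasic

/-!
# S14 (A): Frobenius exponents and the Artin map
-/

set_option autoImplicit false
set_option linter.unusedSectionVars false
set_option linter.unusedVariables false

namespace Fermat.Agent.S14

open NumberField Ideal IntermediateField
open scoped nonZeroDivisors Pointwise

section gen

variable {K L : Type*} [Field K] [NumberField K] [Field L] [NumberField L] [Algebra K L]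
  [IsGalois K L]

lemma frobQ_iff (σ : L ≃ₐ[K] L) (Q : Ideal (𝓞 L)) :
    FrobQ σ Q (absNorm (Q.under (𝓞 K))) ↔ IsArithFrobAt (𝓞 K) σ Q := by
  have e : absNorm (Q.under (𝓞 K)) = Nat.card (𝓞 K ⧸ Q.under (𝓞 K)) := by
    rw [Ideal.absNorm_apply, Submodule.cardQuot_apply]
  rw [e]
  rfl

lemma art_finite_quot (Q : Ideal (𝓞 L)) (hQ0 : Q ≠ ⊥) : Finite (𝓞 L ⧸ Q) :=
  Ideal.finiteQuotientOfFreeOfNeBot Q hQ0

lemma frobQ_exists (Q : Ideal (𝓞 L)) (hQ : Q.IsPrime) (hQ0 : Q ≠ ⊥) :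
    ∃ σ : L ≃ₐ[K] L, FrobQ σ Q (absNorm (Q.under (𝓞 K))) := by
  have := art_finite_quot Q hQ0
  obtain ⟨σ, hσ⟩ := IsArithFrobAt.exists_of_isInvariant (𝓞 K) (L ≃ₐ[K] L) Q
  exact ⟨σ, (frobQ_iff σ Q).2 hσ⟩

lemma frobQ_unique (Q : Ideal (𝓞 L)) (hI : Ideal.inertia (L ≃ₐ[K] L) Q = ⊥)
    {σ σ' : L ≃ₐ[K] L} (h : FrobQ σ Q (absNorm (Q.under (𝓞 K))))
    (h' : FrobQ σ' Q (absNorm (Q.under (𝓞 K)))) : σ = σ' := by
  have h1 := IsArithFrobAt.mul_inv_mem_inertia ((frobQ_iff σ Q).1 h) ((frobQ_iff σ' Q).1 h')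
  rw [hI, Subgroup.mem_bot] at h1
  exact mul_inv_eq_one.1 h1

lemma frobQ_conj (Q : Ideal (𝓞 L)) {σ : L ≃ₐ[K] L} {q : ℕ} (h : FrobQ σ Q q) (τ : L ≃ₐ[K] L) :
    FrobQ (τ * σ * τ⁻¹) (τ • Q) q := by
  intro x
  have h1 := h (τ⁻¹ • x)
  have h2 : (τ * σ * τ⁻¹) • x - x ^ q = τ • (σ • (τ⁻¹ • x) - (τ⁻¹ • x) ^ q) := by
    rw [smul_sub, smul_pow', smul_inv_smul, mul_smul, mul_smul]
  rw [h2]
  exact Ideal.smul_mem_pointwise_smul _ _ _ h1

lemma exists_smul_eq (Q Q' : Ideal (𝓞 L)) (hQ : Q.IsPrime) (hQ' : Q'.IsPrime)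
    (h : Q.under (𝓞 K) = Q'.under (𝓞 K)) : ∃ τ : L ≃ₐ[K] L, Q' = τ • Q := by
  exact Algebra.IsInvariant.exists_smul_of_under_eq (𝓞 K) (𝓞 L) (L ≃ₐ[K] L) Q Q' h

lemma exists_prime_over (P : Ideal (𝓞 K)) (hP : P.IsPrime) :
    ∃ Q : Ideal (𝓞 L), Q.IsPrime ∧ Q.under (𝓞 K) = P := by
  obtain ⟨Q, hQ, hQP⟩ := Ideal.exists_ideal_over_prime_of_isIntegral P (⊥ : Ideal (𝓞 L)) (by
    rw [Ideal.comap_bot_of_injective _ (FaithfulSMul.algebraMap_injective (𝓞 K) (𝓞 L))]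
    exact bot_le)
  exact ⟨Q, hQP.1, hQP.2⟩

lemma ne_bot_of_under (Q : Ideal (𝓞 L)) (h : Q.under (𝓞 K) ≠ ⊥) : Q ≠ ⊥ := by
  rintro rfl
  apply h
  exact Ideal.comap_bot_of_injective _ (FaithfulSMul.algebraMap_injective (𝓞 K) (𝓞 L))

/-- if `x ^ q ≡ x mod Q` for all `x` then the residue field has at most `q` elements -/
lemma absNorm_le_of_pow_sub_mem (Q : Ideal (𝓞 L)) (hQ : Q.IsPrime) (hQ0 : Q ≠ ⊥) (q : ℕ)
    (hq : 1 < q) (h : ∀ x : 𝓞 L, x - x ^ q ∈ Q) : absNorm Q ≤ q := by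
  classical
  have := art_finite_quot Q hQ0
  have : Fintype (𝓞 L ⧸ Q) := Fintype.ofFinite _
  have hmax : Q.IsMaximal := hQ.isMaximal hQ0
  let _ : Field (𝓞 L ⧸ Q) := Ideal.Quotient.field Q
  have e : absNorm Q = Fintype.card (𝓞 L ⧸ Q) := by
    rw [Ideal.absNorm_apply, Submodule.cardQuot_apply, Nat.card_eq_fintype_card]
  rw [e, ← Finset.card_univ, ← FiniteField.X_pow_card_sub_X_natDegree_eq (𝓞 L ⧸ Q) hq]
  apply Polynomial.card_le_degree_of_subset_roots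
  intro y _
  rw [Polynomial.mem_roots (FiniteField.X_pow_card_sub_X_ne_zero (𝓞 L ⧸ Q) hq)]
  obtain ⟨x, rfl⟩ := Ideal.Quotient.mk_surjective y
  simp only [Polynomial.IsRoot.def, Polynomial.eval_sub, Polynomial.eval_pow, Polynomial.eval_X]
  rw [← map_pow, ← map_sub, Ideal.Quotient.eq_zero_iff_mem, ← neg_sub]
  exact Q.neg_mem (h x)

lemma one_lt_absNorm (P : Ideal (𝓞 K)) (hP : P.IsPrime) (hP0 : P ≠ ⊥) : 1 < absNorm P := by
  have h0 : absNorm P ≠ 0 := by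
    rw [Ne, Ideal.absNorm_eq_zero_iff]
    exact hP0
  have h1 : absNorm P ≠ 1 := by
    rw [Ne, Ideal.absNorm_eq_one_iff]
    exact hP.ne_top
  omega

lemma relNorm_prime (P : Ideal (𝓞 K)) (hP : P.IsPrime) (hP0 : P ≠ ⊥) (Q : Ideal (𝓞 L))
    (hQ : Q.IsPrime) (hQP : Q.under (𝓞 K) = P) :
    relNorm (𝓞 K) Q = P ^ Q.inertiaDeg (𝓞 K) := by
  have hQ0 : Q ≠ ⊥ := ne_bot_of_under (K := K) Q (hQP ▸ hP0)
  have : Q.IsMaximal := hQ.isMaximal hQ0
  have : P.IsMaximal := hP.isMaximal hP0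
  have : Q.LiesOver P := ⟨hQP.symm⟩
  exact Ideal.relNorm_eq_pow_of_isMaximal Q P

/-- a prime with `x ^ NP ≡ x` has relative norm `P` -/
lemma relNorm_eq_of_pow_sub_mem (P : Ideal (𝓞 K)) (hP : P.IsPrime) (hP0 : P ≠ ⊥)
    (Q : Ideal (𝓞 L)) (hQ : Q.IsPrime) (hQP : Q.under (𝓞 K) = P)
    (h : ∀ x : 𝓞 L, x - x ^ absNorm P ∈ Q) : relNorm (𝓞 K) Q = P ∧ absNorm Q = absNorm P := by
  have hQ0 : Q ≠ ⊥ := ne_bot_of_under (K := K) Q (hQP ▸ hP0)
  have h1 := one_lt_absNorm P hP hP0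
  have h2 := absNorm_le_of_pow_sub_mem Q hQ hQ0 _ h1 h
  have h3 := relNorm_prime P hP hP0 Q hQ hQP
  have h4 : absNorm Q = absNorm P ^ Q.inertiaDeg (𝓞 K) := by
    rw [← Ideal.absNorm_relNorm (𝓞 K) (𝓞 L) Q, h3, map_pow]
  have h5 := one_lt_absNorm Q hQ hQ0
  have h6 : Q.inertiaDeg (𝓞 K) = 1 := by
    rcases Nat.lt_or_ge (Q.inertiaDeg (𝓞 K)) 2 with h | h
    · interval_cases hf : Q.inertiaDeg (𝓞 K)
      · rw [pow_zero] at h4
        omega
      · rfl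
    · exfalso
      have : absNorm P ^ 2 ≤ absNorm P ^ Q.inertiaDeg (𝓞 K) := Nat.pow_le_pow_right (by omega) h
      nlinarith
  rw [h6, pow_one] at h3 h4
  exact ⟨h3, h4⟩

end gen

section A

variable {p : ℕ} [Fact p.Prime] {K L : Type*} [Field K] [NumberField K] [Field L] [NumberField L]
  [Algebra K L] [IsGalois K L] (s : L ≃ₐ[K] L) (hs : ∀ g : L ≃ₐ[K] L, g ∈ Subgroup.zpowers s)
  (hcard : Module.finrank K L = p) (hun : Unram K L)

include hs hcard in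
lemma art_orderOf : orderOf s = p := by
  rw [orderOf_eq_card_of_forall_mem_zpowers hs, IsGalois.card_aut_eq_finrank, hcard]

include hs hcard in
lemma art_exists_pow (g : L ≃ₐ[K] L) : ∃ n : ZMod p, g = s ^ n.val := by
  obtain ⟨k, rfl⟩ := Subgroup.mem_zpowers_iff.1 (hs g)
  refine ⟨(k : ZMod p), ?_⟩
  rw [← zpow_natCast, ← zpow_mod_orderOf s k, art_orderOf s hs hcard, ZMod.val_intCast]

include hs in
lemma art_comm (g h : L ≃ₐ[K] L) : g * h = h * g := by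
  obtain ⟨k, rfl⟩ := Subgroup.mem_zpowers_iff.1 (hs g)
  obtain ⟨l, rfl⟩ := Subgroup.mem_zpowers_iff.1 (hs h)
  rw [← zpow_add, ← zpow_add, add_comm]

include hs hcard in
lemma art_pow_eq_iff (a b : ℕ) : s ^ a = s ^ b ↔ (a : ZMod p) = b := by
  rw [pow_eq_pow_iff_modEq, art_orderOf s hs hcard, ZMod.natCast_eq_natCast_iff]

include hs hcard in
lemma art_pow_val_inj {a b : ZMod p} (h : s ^ a.val = s ^ b.val) : a = b := by
  have := (art_pow_eq_iff s hs hcard a.val b.val).1 h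
  simpa using this

include hs in
lemma frobQ_of_under_eq {Q Q' : Ideal (𝓞 L)} (hQ : Q.IsPrime) (hQ' : Q'.IsPrime)
    (h : Q.under (𝓞 K) = Q'.under (𝓞 K)) {g : L ≃ₐ[K] L} {q : ℕ} (hg : FrobQ g Q q) :
    FrobQ g Q' q := by
  obtain ⟨τ, rfl⟩ := exists_smul_eq Q Q' hQ hQ' h
  have := frobQ_conj Q hg τ
  rwa [art_comm s hs τ g, mul_inv_cancel_right] at this

include hs hcard hun

theorem fe_spec (P : Ideal (𝓞 K)) (hP : P.IsPrime) (hP0 : P ≠ ⊥) (Q : Ideal (𝓞 L)) (hQ : Q.IsPrime)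
    (hQP : Q.under (𝓞 K) = P) : FrobQ (s ^ (fe s P : ZMod p).val) Q (absNorm P) := by
  have hQ0 : Q ≠ ⊥ := ne_bot_of_under (K := K) Q (hQP ▸ hP0)
  have hex : ∃ n : ZMod p, IsFe s P n := by
    obtain ⟨σ, hσ⟩ := frobQ_exists (K := K) Q hQ hQ0
    obtain ⟨n, rfl⟩ := art_exists_pow s hs hcard σ
    exact ⟨n, Q, hQ, hQP, hQP ▸ hσ⟩
  have h1 : IsFe s P (fe s P : ZMod p) := by
    rw [fe, dif_pos hex]
    exact hex.choose_spec
  obtain ⟨Q₀, hQ₀, hQ₀P, hF⟩ := h1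
  exact frobQ_of_under_eq s hs hQ₀ hQ (hQ₀P.trans hQP.symm) hF

theorem fe_unique (P : Ideal (𝓞 K)) (hP : P.IsPrime) (hP0 : P ≠ ⊥) (Q : Ideal (𝓞 L))
    (hQ : Q.IsPrime) (hQP : Q.under (𝓞 K) = P) (g : L ≃ₐ[K] L) (hg : FrobQ g Q (absNorm P)) :
    g = s ^ (fe s P : ZMod p).val := by
  have hQ0 : Q ≠ ⊥ := ne_bot_of_under (K := K) Q (hQP ▸ hP0)
  have h1 := fe_spec s hs hcard hun P hP hP0 Q hQ hQP
  subst hQP
  exact frobQ_unique Q (hun Q hQ hQ0) hg h1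

/-- (A2) -/
theorem exists_relNorm_eq_pow (P : Ideal (𝓞 K)) (hP : P.IsPrime) (hP0 : P ≠ ⊥) (j : ℕ)
    (hj : (j : ZMod p) * fe s P = 0) : ∃ J : Ideal (𝓞 L), J ≠ ⊥ ∧ relNorm (𝓞 K) J = P ^ j := by
  rcases mul_eq_zero.1 hj with h | h
  · rw [ZMod.natCast_eq_zero_iff] at h
    obtain ⟨k, rfl⟩ := h
    refine ⟨(P.map (algebraMap (𝓞 K) (𝓞 L))) ^ k, pow_ne_zero _ ?_, ?_⟩
    · rw [Ne, Ideal.zero_eq_bot, Ideal.map_eq_bot_iff_of_injective
        (FaithfulSMul.algebraMap_injective (𝓞 K) (𝓞 L))]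
      exact hP0
    · rw [map_pow, Ideal.relNorm_algebraMap, pow_mul]
      congr 2
      rw [← hcard]
      exact (IsFractionRing.finrank_eq (𝓞 K) K (𝓞 L) L).symm
  · obtain ⟨Q, hQ, hQP⟩ := exists_prime_over (L := L) P hP
    have h1 := fe_spec s hs hcard hun P hP hP0 Q hQ hQP
    rw [h, ZMod.val_zero, pow_zero] at h1
    have h2 := (relNorm_eq_of_pow_sub_mem P hP hP0 Q hQ hQP fun x => by
      simpa using h1 x).1
    exact ⟨Q ^ j, pow_ne_zero _ (ne_bot_of_under (K := K) Q (hQP ▸ hP0)), by rw [map_pow, h2]⟩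

theorem fe_ne_zero_of_nonsplit (P : Ideal (𝓞 K)) (hP : P.IsPrime) (hP0 : P ≠ ⊥)
    (h : ∀ Q : Ideal (𝓞 L), Q.IsPrime → Q.under (𝓞 K) = P → absNorm Q ≠ absNorm P) :
    (fe s P : ZMod p) ≠ 0 := by
  intro h0
  obtain ⟨Q, hQ, hQP⟩ := exists_prime_over (L := L) P hP
  have h1 := fe_spec s hs hcard hun P hP hP0 Q hQ hQP
  rw [h0, ZMod.val_zero, pow_zero] at h1
  exact h Q hQ hQP (relNorm_eq_of_pow_sub_mem P hP hP0 Q hQ hQP fun x => by
      simpa using h1 x).2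

omit hs hcard hun

theorem art_prime (P : Ideal (𝓞 K)) (hP : P.IsPrime) (hP0 : P ≠ ⊥) :
    (art s P : ZMod p) = fe s P := by
  rw [art, UniqueFactorizationMonoid.normalizedFactors_irreducible
    (Ideal.prime_of_isPrime hP0 hP).irreducible, normalize_eq]
  simp

theorem art_mul {I J : Ideal (𝓞 K)} (hI : I ≠ ⊥) (hJ : J ≠ ⊥) :
    (art s (I * J) : ZMod p) = art s I + art s J := by
  rw [art, art, art, UniqueFactorizationMonoid.normalizedFactors_mul hI hJ, Multiset.map_add,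
    Multiset.sum_add]

theorem art_pow (I : Ideal (𝓞 K)) (n : ℕ) :
    (art s (I ^ n) : ZMod p) = (n : ZMod p) * art s I := by
  rw [art, art, UniqueFactorizationMonoid.normalizedFactors_pow, Multiset.map_nsmul,
    Multiset.sum_nsmul, nsmul_eq_mul]

theorem art_one : (art s (1 : Ideal (𝓞 K)) : ZMod p) = 0 := by
  rw [art, UniqueFactorizationMonoid.normalizedFactors_one]
  simp

theorem art_prod {ι : Type*} (t : Finset ι) (I : ι → Ideal (𝓞 K)) (hI : ∀ i ∈ t, I i ≠ ⊥) :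
    (art s (∏ i ∈ t, I i) : ZMod p) = ∑ i ∈ t, art s (I i) := by
  classical
  induction t using Finset.induction_on with
  | empty => rw [Finset.prod_empty, Finset.sum_empty, art_one]
  | insert a t ha ih =>
    rw [Finset.prod_insert ha, Finset.sum_insert ha,
      art_mul s (hI a (Finset.mem_insert_self a t))
        (Finset.prod_ne_zero_iff.2 fun i hi => hI i (Finset.mem_insert_of_mem hi)),
      ih fun i hi => hI i (Finset.mem_insert_of_mem hi)]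

theorem cl_relNorm_mem_normCl (J : Ideal (𝓞 L)) (hJ : J ≠ ⊥) :
    cl (relNorm (𝓞 K) J) ∈ normCl K L :=
  Subgroup.subset_closure ⟨J, hJ, rfl⟩

theorem pow_mem_normCl (hcard : Module.finrank K L = p) (C : ClassGroup (𝓞 K)) :
    C ^ p ∈ normCl K L := by
  obtain ⟨I, hI, rfl⟩ := cl_surjective C
  have h1 : relNorm (𝓞 K) (I.map (algebraMap (𝓞 K) (𝓞 L))) = I ^ p := by
    rw [Ideal.relNorm_algebraMap, ← hcard, IsFractionRing.finrank_eq (𝓞 K) K (𝓞 L) L]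
  rw [← cl_pow hI, ← h1]
  apply cl_relNorm_mem_normCl
  rw [Ne, Ideal.map_eq_bot_iff_of_injective (FaithfulSMul.algebraMap_injective (𝓞 K) (𝓞 L))]
  exact hI

lemma absNorm_smul' (τ : K ≃ₐ[ℚ] K) (P : Ideal (𝓞 K)) : absNorm (τ • P) = absNorm P := by
  rw [Ideal.absNorm_apply, Ideal.absNorm_apply, Submodule.cardQuot_apply,
    Submodule.cardQuot_apply]
  exact (Nat.card_congr (Ideal.quotientEquiv P (τ • P)
    (MulSemiringAction.toRingEquiv (K ≃ₐ[ℚ] K) (𝓞 K) τ) rfl).toEquiv).symm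

include hs hcard hun in
/-- (A4) -/
theorem fe_smul (τK : K ≃ₐ[ℚ] K) (τL : L ≃ₐ[ℚ] L)
    (hτ : ∀ x : K, τL (algebraMap K L x) = algebraMap K L (τK x)) (n : ℕ)
    (hn : ∀ x : L, τL (s (τL.symm x)) = (s ^ n) x) (P : Ideal (𝓞 K)) (hP : P.IsPrime)
    (hP0 : P ≠ ⊥) : (fe s (τK • P) : ZMod p) = (n : ZMod p) * fe s P := by
  obtain ⟨Q, hQ, hQP⟩ := exists_prime_over (L := L) P hP
  have hP' : (τK • P).IsPrime := Ideal.IsPrime.smul τK
  have hP0' : τK • P ≠ ⊥ := by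
    intro h
    apply hP0
    have := congrArg (fun I => τK⁻¹ • I) h
    simpa using this
  have hQ' : (τL • Q).IsPrime := Ideal.IsPrime.smul τL
  have hinv : ∀ x : 𝓞 K, τL⁻¹ • (algebraMap (𝓞 K) (𝓞 L) x) = algebraMap (𝓞 K) (𝓞 L) (τK⁻¹ • x) := by
    intro x
    apply RingOfIntegers.ext
    change τL.symm (algebraMap K L (x : K)) = algebraMap K L (τK.symm (x : K))
    rw [AlgEquiv.symm_apply_eq, hτ, AlgEquiv.apply_symm_apply]
  have hunder : (τL • Q).under (𝓞 K) = τK • P := by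
    ext x
    rw [Ideal.mem_pointwise_smul_iff_inv_smul_mem, ← hQP, Ideal.under_def, Ideal.mem_comap,
      Ideal.mem_pointwise_smul_iff_inv_smul_mem, hinv, Ideal.under_def, Ideal.mem_comap]
  have hpow : ∀ (f : ℕ) (x : L), τL ((s ^ f) (τL.symm x)) = ((s ^ n) ^ f) x := by
    intro f
    induction f with
    | zero => intro x; simp
    | succ f ih =>
      intro x
      rw [pow_succ, pow_succ, AlgEquiv.mul_apply, AlgEquiv.mul_apply, ← hn x, ← ih,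
        AlgEquiv.symm_apply_apply]
  have h1 := fe_spec s hs hcard hun P hP hP0 Q hQ hQP
  have h2 : FrobQ ((s ^ n) ^ (fe s P : ZMod p).val) (τL • Q) (absNorm (τK • P)) := by
    intro x
    rw [absNorm_smul']
    have h3 := h1 (τL⁻¹ • x)
    have h4 : ((s ^ n) ^ (fe s P : ZMod p).val) • x - x ^ absNorm P =
        τL • ((s ^ (fe s P : ZMod p).val) • (τL⁻¹ • x) - (τL⁻¹ • x) ^ absNorm P) := by
      rw [smul_sub, smul_pow', smul_inv_smul]
      congr 1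
      apply RingOfIntegers.ext
      exact (hpow _ (x : L)).symm
    rw [h4]
    exact Ideal.smul_mem_pointwise_smul _ _ _ h3
  have h5 := fe_unique s hs hcard hun (τK • P) hP' hP0' (τL • Q) hQ' hunder _ h2
  rw [← pow_mul, art_pow_eq_iff s hs hcard] at h5
  rw [ZMod.natCast_zmod_val] at h5
  rw [← h5]
  push_cast
  rw [ZMod.natCast_zmod_val]

end A

end Fermat.Agent.S14
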