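import Mathlib
import Fermat.Agent.S14.Defs

/-!
# S14 (D3): principal ideals of `F₁ = fixedField (H₁ g)` have trivial Artin symbol
-/

set_option autoImplicit false
set_option linter.unusedSectionVars false

namespace Fermat.Agent.S14

open NumberField Ideal IntermediateField
open scoped nonZeroDivisors Pointwise

section Group

variable {p r₁ r₂ : ℕ} [Fact p.Prime] [Fact r₁.Prime] [Fact r₂.Prime]
  {K L Ω : Type} [Field K] [NumberField K] [Field L] [NumberField L]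
  [Field Ω] [NumberField Ω] [Algebra K L] [Algebra L Ω] [Algebra K Ω] [IsScalarTower K L Ω]
  [Normal K L] {s : L ≃ₐ[K] L} (c : Cross p r₁ r₂ K L Ω s)

lemma d3_pr₁_apply (h : Ω ≃ₐ[K] Ω) : c.pr₁ h = ((c.e h).1, (c.e h).2.1) := rfl

/-- a nontrivial element of `ℤ/p` generates -/
lemma d3_exists_pow (a b : Multiplicative (ZMod p)) (ha : a ≠ 1) : ∃ k : ℕ, a ^ k = b := by
  have ha' : Multiplicative.toAdd a ≠ 0 := fun h => ha (Multiplicative.toAdd.injective h)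
  refine ⟨(Multiplicative.toAdd b * (Multiplicative.toAdd a)⁻¹).val, ?_⟩
  apply Multiplicative.toAdd.injective
  rw [toAdd_pow, nsmul_eq_mul, ZMod.natCast_val, ZMod.cast_id', id_eq, mul_assoc,
    inv_mul_cancel₀ ha', mul_one]

/-- `Γ = I₁ H₁` -/
lemma d3_decomp (g : Ω ≃ₐ[K] Ω) (hg1 : (c.e g).1 ≠ 1) (σ : Ω ≃ₐ[K] Ω) :
    ∃ i h : Ω ≃ₐ[K] Ω, σ = i * h ∧ h ∈ c.H₁ g ∧ (c.e i).1 = 1 ∧ (c.e i).2.2 = 1 := by
  obtain ⟨k, hk⟩ := d3_exists_pow (c.e g).1 (c.e σ).1 hg1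
  set i : Ω ≃ₐ[K] Ω := c.e.symm (1, (c.e σ).2.1 * ((c.e g).2.1 ^ k)⁻¹, 1) with hi
  have hei : c.e i = (1, (c.e σ).2.1 * ((c.e g).2.1 ^ k)⁻¹, 1) := by
    rw [hi, MulEquiv.apply_symm_apply]
  refine ⟨i, i⁻¹ * σ, by group, ?_, by rw [hei], by rw [hei]⟩
  rw [Cross.H₁, Subgroup.mem_comap, Subgroup.mem_zpowers_iff]
  refine ⟨k, ?_⟩
  rw [zpow_natCast, d3_pr₁_apply, d3_pr₁_apply, map_mul, map_inv, hei]
  ext
  · simp [hk]
  · simp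

lemma d3_pr₁_surjective : Function.Surjective c.pr₁ := by
  rintro ⟨a, b⟩
  refine ⟨c.e.symm (a, b, 1), ?_⟩
  rw [d3_pr₁_apply, MulEquiv.apply_symm_apply]

lemma d3_index (g : Ω ≃ₐ[K] Ω) (hg1 : (c.e g).1 ≠ 1) (hord : p ∣ orderOf (c.e g).2.1) :
    (c.H₁ g).index * orderOf (c.e g).2.1 = p * (r₁ - 1) := by
  have hp : p.Prime := Fact.out
  have hr : r₁.Prime := Fact.out
  rw [Cross.H₁, Subgroup.index_comap_of_surjective _ (d3_pr₁_surjective c)]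
  have h1 : orderOf (c.pr₁ g) = orderOf (c.e g).2.1 := by
    rw [d3_pr₁_apply, Prod.orderOf]
    have h2 : orderOf (c.e g).1 = p := by
      refine orderOf_eq_prime ?_ hg1
      apply Multiplicative.toAdd.injective
      rw [toAdd_pow, nsmul_eq_mul, ZMod.natCast_self, zero_mul, toAdd_one]
    rw [h2]
    exact Nat.lcm_eq_right hord
  rw [← h1, ← Nat.card_zpowers, Subgroup.index_mul_card, Nat.card_prod, Nat.card_eq_fintype_card,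
    Nat.card_eq_fintype_card, ZMod.card_units_eq_totient, Nat.totient_prime hr]
  congr 1
  rw [Fintype.card_multiplicative]
  exact ZMod.card p

/-- the final step -/
lemma d3_dvd (a : (ZMod r₁)ˣ) (hord : p ∣ orderOf a) (x : ℤ)
    (h : (a ^ x) ^ (orderOf a / p) = 1) : (p : ℤ) ∣ x := by
  have hp : p.Prime := Fact.out
  obtain ⟨m, hm⟩ := hord
  have hd0 : 0 < orderOf a := orderOf_pos a
  have hm0 : 0 < m := by
    rcases Nat.eq_zero_or_pos m with h0 | h0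
    · rw [h0, mul_zero] at hm; omega
    · exact h0
  rw [hm, Nat.mul_div_cancel_left _ hp.pos, ← zpow_natCast, ← zpow_mul] at h
  have h1 := orderOf_dvd_iff_zpow_eq_one.2 h
  rw [hm] at h1
  push_cast at h1
  rw [mul_comm x] at h1
  rw [mul_comm (p : ℤ)] at h1
  exact (mul_dvd_mul_iff_left (by exact_mod_cast hm0.ne')).1 h1

end Group

section Norm

variable {K Ω : Type} [Field K] [NumberField K] [Field Ω] [NumberField Ω] [Algebra K Ω]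
  [IsGalois K Ω]

lemma d3_coe_smul (σ : Ω ≃ₐ[K] Ω) (x : 𝓞 Ω) : ((σ • x : 𝓞 Ω) : Ω) = σ (x : Ω) := rfl

/-- the norm from a totally ramified subextension is a power modulo the ramified prime -/
theorem d3_norm_cong (Φ : Subgroup (Ω ≃ₐ[K] Ω)) [Φ.Normal] (R : Ideal (𝓞 Ω))
    (hdec : ∀ σ : Ω ≃ₐ[K] Ω, ∃ i h : Ω ≃ₐ[K] Ω, σ = i * h ∧ h ∈ Φ ∧
      i ∈ Ideal.inertia (Ω ≃ₐ[K] Ω) R) (γ : 𝓞 (fixedField Φ)) :
    algebraMap (𝓞 K) (𝓞 Ω) (Algebra.intNorm (𝓞 K) (𝓞 (fixedField Φ)) γ) -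
      (algebraMap (𝓞 (fixedField Φ)) (𝓞 Ω) γ) ^ Φ.index ∈ R := by
  classical
  set γΩ : 𝓞 Ω := algebraMap (𝓞 (fixedField Φ)) (𝓞 Ω) γ with hγΩ
  have hγcoe : (γΩ : Ω) = (((γ : (fixedField Φ)) : (fixedField Φ)) : Ω) := rfl
  have hfix : ∀ h ∈ Φ, h • γΩ = γΩ := by
    intro h hh
    apply RingOfIntegers.ext
    rw [d3_coe_smul, hγcoe]
    exact (IntermediateField.mem_fixedField_iff Φ _).1 (γ : (fixedField Φ)).2 h hh
  have hmove : ∀ σ : Ω ≃ₐ[K] Ω, σ • γΩ - γΩ ∈ R := by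
    intro σ
    obtain ⟨i, h, rfl, hh, hi⟩ := hdec σ
    rw [mul_smul, hfix h hh]
    exact hi γΩ
  have hlift : ∀ τ : (fixedField Φ) ≃ₐ[K] (fixedField Φ), ∃ σ : Ω ≃ₐ[K] Ω, AlgEquiv.restrictNormalHom (fixedField Φ) σ = τ :=
    AlgEquiv.restrictNormalHom_surjective (F := K) (K₁ := (fixedField Φ)) Ω
  choose lift hlift using hlift
  have hprod : algebraMap (𝓞 K) (𝓞 Ω) (Algebra.intNorm (𝓞 K) (𝓞 (fixedField Φ)) γ) =
      ∏ τ : (fixedField Φ) ≃ₐ[K] (fixedField Φ), lift τ • γΩ := by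
    apply RingOfIntegers.ext
    have h1 : ((algebraMap (𝓞 K) (𝓞 Ω) (Algebra.intNorm (𝓞 K) (𝓞 (fixedField Φ)) γ) : 𝓞 Ω) : Ω) =
        algebraMap (fixedField Φ) Ω (algebraMap K (fixedField Φ) (Algebra.norm K (γ : (fixedField Φ)))) := by
      rw [← Algebra.algebraMap_intNorm (A := 𝓞 K) (K := K) (L := (fixedField Φ)) (B := 𝓞 (fixedField Φ)) γ]
      rfl
    rw [h1, Algebra.norm_eq_prod_automorphisms, map_prod]
    have h2 : ((∏ τ : (fixedField Φ) ≃ₐ[K] (fixedField Φ), lift τ • γΩ : 𝓞 Ω) : Ω) =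
        ∏ τ : (fixedField Φ) ≃ₐ[K] (fixedField Φ), ((lift τ • γΩ : 𝓞 Ω) : Ω) := map_prod (algebraMap (𝓞 Ω) Ω) _ _
    rw [h2]
    refine Finset.prod_congr rfl fun τ _ => ?_
    rw [d3_coe_smul, hγcoe]
    conv_lhs => rw [← hlift τ]
    exact AlgEquiv.restrictNormal_commutes (lift τ) (fixedField Φ) (γ : (fixedField Φ))
  have hcard : Fintype.card ((fixedField Φ) ≃ₐ[K] (fixedField Φ)) = Φ.index := by
    rw [← Nat.card_eq_fintype_card, IsGalois.card_aut_eq_finrank,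
      IntermediateField.finrank_eq_fixingSubgroup_index,
      IntermediateField.fixingSubgroup_fixedField]
  rw [hprod, ← Ideal.Quotient.eq, map_prod, map_pow, ← hcard, ← Finset.card_univ,
    ← Finset.prod_const]
  refine Finset.prod_congr rfl fun τ _ => ?_
  exact Ideal.Quotient.eq.2 (hmove (lift τ))

/-- every element of the Galois group moves `γ ∈ 𝓞 F` by an element of `R` -/
lemma d3_move (Φ : Subgroup (Ω ≃ₐ[K] Ω)) (R : Ideal (𝓞 Ω))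
    (hdec : ∀ σ : Ω ≃ₐ[K] Ω, ∃ i h : Ω ≃ₐ[K] Ω, σ = i * h ∧ h ∈ Φ ∧
      i ∈ Ideal.inertia (Ω ≃ₐ[K] Ω) R) (γ : 𝓞 (fixedField Φ)) (σ : Ω ≃ₐ[K] Ω) :
    σ • (algebraMap (𝓞 (fixedField Φ)) (𝓞 Ω) γ) - algebraMap (𝓞 (fixedField Φ)) (𝓞 Ω) γ ∈ R := by
  obtain ⟨i, h, rfl, hh, hi⟩ := hdec σ
  have hfix : h • (algebraMap (𝓞 (fixedField Φ)) (𝓞 Ω) γ) =
      algebraMap (𝓞 (fixedField Φ)) (𝓞 Ω) γ := by
    apply RingOfIntegers.ext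
    rw [d3_coe_smul]
    exact (IntermediateField.mem_fixedField_iff Φ _).1 (γ : fixedField Φ).2 h hh
  rw [mul_smul, hfix]
  exact hi _

omit [IsGalois K Ω] [Algebra K Ω] [NumberField Ω] [Field Ω] in
/-- from congruences modulo all the primes over `r` to a congruence for the absolute norm -/
theorem d3_norm_int [IsGalois ℚ K] (r : ℕ) [Fact r.Prime] (β : 𝓞 K) (m : ℕ)
    (h : ∀ 𝔯 : Ideal (𝓞 K), 𝔯.IsPrime → (r : 𝓞 K) ∈ 𝔯 → β ^ m - 1 ∈ 𝔯) :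
    ((Algebra.norm ℤ β : ℤ) : ZMod r) ^ m = 1 := by
  classical
  have hr : r.Prime := Fact.out
  have hrz : Prime (r : ℤ) := Nat.prime_iff_prime_int.1 hr
  have hP : (span {(r : ℤ)} : Ideal ℤ).IsPrime :=
    (Ideal.span_singleton_prime hrz.ne_zero).2 hrz
  obtain ⟨𝔯₀, -, h𝔯₀, hcomap⟩ := Ideal.exists_ideal_over_prime_of_isIntegral
    (span {(r : ℤ)} : Ideal ℤ) (⊥ : Ideal (𝓞 K)) (by
      rw [Ideal.comap_bot_of_injective _ (FaithfulSMul.algebraMap_injective ℤ (𝓞 K))]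
      exact bot_le)
  have hr𝔯 : (r : 𝓞 K) ∈ 𝔯₀ := by
    have h1 : (r : ℤ) ∈ 𝔯₀.comap (algebraMap ℤ (𝓞 K)) := by
      rw [hcomap]; exact Ideal.mem_span_singleton_self _
    simpa using h1
  have hN : algebraMap ℤ (𝓞 K) (Algebra.norm ℤ β) = ∏ τ : K ≃ₐ[ℚ] K, τ • β := by
    apply RingOfIntegers.ext
    have h2 : ((∏ τ : K ≃ₐ[ℚ] K, τ • β : 𝓞 K) : K) = ∏ τ : K ≃ₐ[ℚ] K, τ (β : K) :=
      map_prod (algebraMap (𝓞 K) K) _ _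
    rw [h2, ← Algebra.norm_eq_prod_automorphisms, ← Algebra.coe_norm_int]
    simp
  have hτ : ∀ τ : K ≃ₐ[ℚ] K, (τ • β) ^ m - 1 ∈ 𝔯₀ := by
    intro τ
    have h1 : β ^ m - 1 ∈ τ⁻¹ • 𝔯₀ := by
      refine h _ inferInstance ?_
      rw [Ideal.mem_pointwise_smul_iff_inv_smul_mem, inv_inv]
      have h0 : τ • (r : 𝓞 K) = (r : 𝓞 K) :=
        map_natCast (MulSemiringAction.toRingHom (K ≃ₐ[ℚ] K) (𝓞 K) τ) r
      rw [h0]
      exact hr𝔯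
    rw [Ideal.mem_pointwise_smul_iff_inv_smul_mem, inv_inv] at h1
    simpa [smul_sub, smul_pow'] using h1
  have h3 : algebraMap ℤ (𝓞 K) ((Algebra.norm ℤ β) ^ m - 1) ∈ 𝔯₀ := by
    rw [map_sub, map_pow, map_one, hN, ← Ideal.Quotient.eq, map_pow, map_prod, map_one,
      ← Finset.prod_pow]
    refine Finset.prod_eq_one fun τ _ => ?_
    rw [← map_pow, ← map_one (Ideal.Quotient.mk 𝔯₀)]
    exact Ideal.Quotient.eq.2 (hτ τ)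
  have h4 : (Algebra.norm ℤ β) ^ m - 1 ∈ 𝔯₀.comap (algebraMap ℤ (𝓞 K)) := h3
  rw [hcomap, Ideal.mem_span_singleton] at h4
  have h5 := (ZMod.intCast_zmod_eq_zero_iff_dvd _ r).2 h4
  push_cast at h5
  exact sub_eq_zero.1 h5

end Norm

section Main

variable {p r₁ r₂ : ℕ} [Fact p.Prime] [Fact r₁.Prime] [Fact r₂.Prime]
  {K L Ω : Type} [Field K] [NumberField K] [Field L] [NumberField L]
  [Field Ω] [NumberField Ω] [Algebra K L] [Algebra L Ω] [Algebra K Ω] [IsScalarTower K L Ω]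
  [IsGalois K L] [IsGalois K Ω] {s : L ≃ₐ[K] L}

instance d3_H₁_normal (c : Cross p r₁ r₂ K L Ω s) (g : Ω ≃ₐ[K] Ω) : (c.H₁ g).Normal :=
  inferInstanceAs ((Subgroup.zpowers (c.pr₁ g)).comap c.pr₁).Normal

/-- the congruence `β ^ (d / p) ≡ 1` modulo every prime over `r₁` -/
theorem d3_claimA (c : Cross p r₁ r₂ K L Ω s)
    (hx0 : ∀ P : Ideal (𝓞 K), P.IsPrime → P ≠ ⊥ →
      ∃ (R : Ideal (𝓞 Ω)) (g : Ω ≃ₐ[K] Ω), R.IsPrime ∧ R.under (𝓞 K) = P ∧ FrobQ g R (absNorm P))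
    (hres : ∀ 𝔯 : Ideal (𝓞 K), 𝔯.IsPrime → (r₁ : 𝓞 K) ∈ 𝔯 → absNorm 𝔯 = r₁)
    (g : Ω ≃ₐ[K] Ω) (hg1 : (c.e g).1 ≠ 1) (hord : p ∣ orderOf (c.e g).2.1)
    (γ : 𝓞 (fixedField (c.H₁ g)))
    (hγ : IsCoprime (span {γ}) (span {((r₁ * r₂ : ℕ) : 𝓞 (fixedField (c.H₁ g)))}))
    (𝔯 : Ideal (𝓞 K)) (h𝔯 : 𝔯.IsPrime) (hr𝔯 : (r₁ : 𝓞 K) ∈ 𝔯) :
    (Algebra.intNorm (𝓞 K) (𝓞 (fixedField (c.H₁ g))) γ) ^ (orderOf (c.e g).2.1 / p) - 1 ∈ 𝔯 := by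
  have hp : p.Prime := Fact.out
  have hr : r₁.Prime := Fact.out
  have h𝔯0 : 𝔯 ≠ ⊥ := by
    rintro rfl
    have : (r₁ : 𝓞 K) = 0 := hr𝔯
    exact hr.ne_zero (by exact_mod_cast this)
  obtain ⟨R, φ, hRp, hRu, hφ⟩ := hx0 𝔯 h𝔯 h𝔯0
  rw [hres 𝔯 h𝔯 hr𝔯] at hφ
  have hrR : (r₁ : 𝓞 Ω) ∈ R := by
    have h1 : (r₁ : 𝓞 K) ∈ R.under (𝓞 K) := hRu ▸ hr𝔯
    have h2 : algebraMap (𝓞 K) (𝓞 Ω) (r₁ : 𝓞 K) ∈ R := h1
    simpa using h2
  have hdec : ∀ σ : Ω ≃ₐ[K] Ω, ∃ i h : Ω ≃ₐ[K] Ω, σ = i * h ∧ h ∈ c.H₁ g ∧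
      i ∈ Ideal.inertia (Ω ≃ₐ[K] Ω) R := by
    intro σ
    obtain ⟨i, h, h1, h2, h3, h4⟩ := d3_decomp c g hg1 σ
    exact ⟨i, h, h1, h2, c.inert₁ R hRp hrR i h3 h4⟩
  set γΩ : 𝓞 Ω := algebraMap (𝓞 (fixedField (c.H₁ g))) (𝓞 Ω) γ with hγΩ
  -- `γ` is a unit modulo `R`
  have hγR : γΩ ∉ R := by
    intro hmem
    obtain ⟨i, hi, j, hj, hij⟩ := Ideal.isCoprime_iff_exists.1 hγ
    obtain ⟨a, rfl⟩ := Ideal.mem_span_singleton'.1 hi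
    obtain ⟨b, rfl⟩ := Ideal.mem_span_singleton'.1 hj
    have h1 := congrArg (algebraMap (𝓞 (fixedField (c.H₁ g))) (𝓞 Ω)) hij
    rw [map_add, map_mul, map_mul, map_one, map_natCast, ← hγΩ] at h1
    apply hRp.ne_top
    rw [Ideal.eq_top_iff_one, ← h1]
    refine R.add_mem (R.mul_mem_left _ hmem) (R.mul_mem_left _ ?_)
    push_cast
    exact R.mul_mem_right _ hrR
  have hpow : γΩ ^ (r₁ - 1) - 1 ∈ R := by
    have h1 := hφ γΩ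
    have h2 := d3_move (c.H₁ g) R hdec γ φ
    have h3 : γΩ * (γΩ ^ (r₁ - 1) - 1) ∈ R := by
      have e : γΩ * (γΩ ^ (r₁ - 1) - 1) = (φ • γΩ - γΩ) - (φ • γΩ - γΩ ^ r₁) := by
        obtain ⟨n, hn⟩ : ∃ n, r₁ = n + 1 := ⟨r₁ - 1, by have := hr.pos; omega⟩
        rw [hn, Nat.add_sub_cancel]
        ring
      rw [e]
      exact R.sub_mem h2 h1
    exact (hRp.mem_or_mem h3).resolve_left hγR
  have hcong := d3_norm_cong (c.H₁ g) R hdec γ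
  have hidx := d3_index c g hg1 hord
  obtain ⟨m, hm⟩ := hord
  have hem : (c.H₁ g).index * m = r₁ - 1 := by
    rw [hm] at hidx
    have : p * ((c.H₁ g).index * m) = p * (r₁ - 1) := by rw [← hidx]; ring
    exact Nat.eq_of_mul_eq_mul_left hp.pos this
  rw [hm, Nat.mul_div_cancel_left _ hp.pos]
  rw [← hRu]
  change algebraMap (𝓞 K) (𝓞 Ω) _ ∈ R
  rw [map_sub, map_pow, map_one]
  rw [← Ideal.Quotient.eq] at hcong hpow ⊢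
  rw [map_pow, hcong, map_pow, ← pow_mul, hem, ← map_pow, hpow]

/-- (D3), with (X0), (X1) and `art_pow` as hypotheses -/
theorem d3_of (c : Cross p r₁ r₂ K L Ω s) (hp2 : p ≠ 2) [IsGalois ℚ K]
    (hx0 : ∀ P : Ideal (𝓞 K), P.IsPrime → P ≠ ⊥ →
      ∃ (R : Ideal (𝓞 Ω)) (g : Ω ≃ₐ[K] Ω), R.IsPrime ∧ R.under (𝓞 K) = P ∧ FrobQ g R (absNorm P))
    (hx1 : ∀ (Φ : Subgroup (Ω ≃ₐ[K] Ω)) (𝔠 : Ideal (𝓞 (fixedField Φ))), 𝔠 ≠ ⊥ →
      IsCoprime 𝔠 (span {((r₁ * r₂ : ℕ) : 𝓞 (fixedField Φ))}) →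
      ∃ ψ ∈ Φ, Multiplicative.toAdd (c.e ψ).1 = art s (relNorm (𝓞 K) 𝔠) ∧
        (((c.e ψ).2.1 : (ZMod r₁)ˣ) : ZMod r₁) = (absNorm 𝔠 : ZMod r₁) ∧
        (((c.e ψ).2.2 : (ZMod r₂)ˣ) : ZMod r₂) = (absNorm 𝔠 : ZMod r₂))
    (hartpow : ∀ (I : Ideal (𝓞 K)) (n : ℕ), (art s (I ^ n) : ZMod p) = (n : ZMod p) * art s I)
    (hres : ∀ 𝔯 : Ideal (𝓞 K), 𝔯.IsPrime → (r₁ : 𝓞 K) ∈ 𝔯 → absNorm 𝔯 = r₁)
    (g : Ω ≃ₐ[K] Ω) (hg1 : (c.e g).1 ≠ 1) (hord : p ∣ orderOf (c.e g).2.1)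
    (γ : 𝓞 (fixedField (c.H₁ g))) (hγ0 : γ ≠ 0)
    (hγ : IsCoprime (span {γ}) (span {((r₁ * r₂ : ℕ) : 𝓞 (fixedField (c.H₁ g)))})) :
    (art s (relNorm (𝓞 K) (span {γ})) : ZMod p) = 0 := by
  have hp : p.Prime := Fact.out
  set β := Algebra.intNorm (𝓞 K) (𝓞 (fixedField (c.H₁ g))) γ with hβ
  set m := orderOf (c.e g).2.1 / p with hm
  have hB : ((Algebra.norm ℤ β : ℤ) : ZMod r₁) ^ m = 1 :=
    d3_norm_int r₁ β m fun 𝔯 h𝔯 hr𝔯 => d3_claimA c hx0 hres g hg1 hord γ hγ 𝔯 h𝔯 hr𝔯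
  have hsq : (span {γ} : Ideal (𝓞 (fixedField (c.H₁ g)))) ^ 2 ≠ ⊥ :=
    pow_ne_zero 2 (by rwa [Ne, Ideal.zero_eq_bot, Ideal.span_singleton_eq_bot])
  obtain ⟨ψ, hψ, h1, h2, -⟩ := hx1 (c.H₁ g) (span {γ} ^ 2) hsq hγ.pow_left
  -- the norm of `(γ)²`
  have hn : ((absNorm ((span {γ} : Ideal (𝓞 (fixedField (c.H₁ g)))) ^ 2) : ℕ) : ZMod r₁) =
      ((Algebra.norm ℤ β : ℤ) : ZMod r₁) ^ 2 := by
    rw [map_pow, ← Ideal.absNorm_relNorm (R := 𝓞 K), Ideal.relNorm_singleton, ← hβ,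
      Ideal.absNorm_span_singleton]
    have : (((Algebra.norm ℤ β).natAbs : ℕ) : ℤ) ^ 2 = (Algebra.norm ℤ β) ^ 2 :=
      Int.natAbs_sq _
    have h3 := congrArg (Int.cast : ℤ → ZMod r₁) this
    rw [Int.cast_pow, Int.cast_pow, Int.cast_natCast] at h3
    rw [Nat.cast_pow]
    exact h3
  rw [Cross.H₁, Subgroup.mem_comap, Subgroup.mem_zpowers_iff] at hψ
  obtain ⟨x, hx⟩ := hψ
  rw [d3_pr₁_apply, d3_pr₁_apply, Prod.pow_mk, Prod.mk.injEq] at hx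
  obtain ⟨hx1', hx2'⟩ := hx
  have hdvd : (p : ℤ) ∣ x := by
    refine d3_dvd (c.e g).2.1 hord x ?_
    rw [hx2']
    apply Units.ext
    rw [Units.val_pow_eq_pow_val, h2, hn, Units.val_one, ← pow_mul, mul_comm, pow_mul, hB, one_pow]
  have h4 : (c.e ψ).1 = 1 := by
    rw [← hx1']
    obtain ⟨y, rfl⟩ := hdvd
    apply Multiplicative.toAdd.injective
    rw [toAdd_zpow, toAdd_one, zsmul_eq_mul]
    push_cast
    rw [ZMod.natCast_self, zero_mul, zero_mul]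
  rw [h4, toAdd_one, map_pow, hartpow] at h1
  have h20 : ((2 : ℕ) : ZMod p) ≠ 0 := by
    intro h0
    rw [ZMod.natCast_eq_zero_iff] at h0
    exact hp2 ((Nat.prime_dvd_prime_iff_eq hp Nat.prime_two).1 h0)
  exact (mul_eq_zero.1 h1.symm).resolve_left h20

end Main

end Fermat.Agent.S14

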