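import Mathlib

/-!
# S14 (B), part I: index computations for a finitely generated abelian group with an
automorphism of prime order (Herbrand quotient inequality `[A : NM] < [B : DM]`)
-/

set_option autoImplicit false

namespace Fermat.Agent.S14

open Module

section L1

variable (X : Type*) [AddCommGroup X] [Module.Finite ℤ X]

lemma herb_finite_torsion : Finite (Submodule.torsion ℤ X) := by
  have : Module.Finite ℤ (Submodule.torsion ℤ X) := Module.Finite.of_fg (IsNoetherian.noetherian _)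
  exact Module.finite_of_fg_torsion _ (Submodule.torsion_isTorsion)

lemma herb_finrank_quot_torsion :
    finrank ℤ (X ⧸ Submodule.torsion ℤ X) = finrank ℤ X := by
  have h1 := Submodule.finrank_quotient_add_finrank (Submodule.torsion ℤ X)
  have : Module.Finite ℤ (Submodule.torsion ℤ X) := Module.Finite.of_fg (IsNoetherian.noetherian _)
  have h2 : finrank ℤ (Submodule.torsion ℤ X) = 0 :=
    (Module.finrank_eq_zero_iff_isTorsion).mpr Submodule.torsion_isTorsion
  omega

/-- for a finite abelian group, kernel and cokernel of an endomorphism have the same size -/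
lemma herb_index_range_eq_card_ker {T : Type*} [AddCommGroup T] [Finite T] (f : T →+ T) :
    f.range.index = Nat.card f.ker := by
  have h1 := AddSubgroup.card_mul_index f.range
  have h2 := AddSubgroup.card_mul_index f.ker
  rw [AddSubgroup.index_ker] at h2
  have h3 : Nat.card f.range ≠ 0 := Nat.card_pos.ne'
  have h4 : Nat.card f.range * f.range.index = Nat.card f.range * Nat.card f.ker := by
    rw [h1, ← h2, mul_comm]
  exact Nat.eq_of_mul_eq_mul_left (Nat.pos_of_ne_zero h3) h4

theorem herb_index_nsmul (p : ℕ) (hp : p ≠ 0) :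
    (nsmulAddMonoidHom (α := X) p).range.index =
      p ^ finrank ℤ X * Nat.card (nsmulAddMonoidHom (α := X) p).ker := by
  set T : AddSubgroup X := (Submodule.torsion ℤ X).toAddSubgroup with hT
  set R : AddSubgroup X := (nsmulAddMonoidHom (α := X) p).range with hR
  have hmemT : ∀ x : X, x ∈ T ↔ ∃ n : ℕ, n ≠ 0 ∧ n • x = 0 := by
    intro x
    rw [hT, Submodule.mem_toAddSubgroup, Submodule.mem_torsion_iff]
    constructor
    · rintro ⟨a, ha⟩
      refine ⟨(a : ℤ).natAbs, by simpa using nonZeroDivisors.ne_zero a.2, ?_⟩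
      have h1 : (a : ℤ) • x = 0 := ha
      rcases Int.natAbs_eq (a : ℤ) with h | h
      · rw [h] at h1; simpa using h1
      · rw [h] at h1; simpa using h1
    · rintro ⟨n, hn, hx⟩
      refine ⟨⟨(n : ℤ), mem_nonZeroDivisors_of_ne_zero (by exact_mod_cast hn)⟩, ?_⟩
      show (n : ℤ) • x = 0
      simpa using hx
  have h1 : R.relIndex (R ⊔ T) * (R ⊔ T).index = R.index :=
    AddSubgroup.relIndex_mul_index le_sup_left
  -- the free quotient
  have hfree : Module.Free ℤ (X ⧸ Submodule.torsion ℤ X) := inferInstance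
  have h2 : (R ⊔ T).index = p ^ finrank ℤ X := by
    rw [← herb_finrank_quot_torsion X, ← AddSubgroup.index_range_nsmul (X ⧸ Submodule.torsion ℤ X) p]
    have hsurj : Function.Surjective ((Submodule.torsion ℤ X).mkQ.toAddMonoidHom) :=
      Submodule.mkQ_surjective _
    rw [← AddSubgroup.index_comap_of_surjective _ hsurj]
    congr 1
    ext x
    simp only [AddSubgroup.mem_comap, AddMonoidHom.mem_range, nsmulAddMonoidHom_apply,
      LinearMap.toAddMonoidHom_coe, Submodule.mkQ_apply]
    constructor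
    · intro hx
      obtain ⟨a, ha, b, hb, rfl⟩ := AddSubgroup.mem_sup.mp hx
      obtain ⟨y, rfl⟩ := ha
      refine ⟨Submodule.Quotient.mk y, ?_⟩
      rw [Submodule.Quotient.mk_add, (Submodule.Quotient.mk_eq_zero _).mpr hb, add_zero]
      rfl
    · rintro ⟨y, hy⟩
      obtain ⟨y, rfl⟩ := Submodule.Quotient.mk_surjective _ y
      have h3 : x - p • y ∈ Submodule.torsion ℤ X := by
        rw [← Submodule.Quotient.mk_eq_zero, Submodule.Quotient.mk_sub, ← hy]
        simp
      have : x = p • y + (x - p • y) := by abel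
      rw [this]
      exact AddSubgroup.add_mem _ (AddSubgroup.mem_sup_left ⟨y, rfl⟩) (AddSubgroup.mem_sup_right h3)
  have h3 : R.relIndex (R ⊔ T) = R.relIndex T := AddSubgroup.relIndex_sup_left _ _
  have hfin : Finite T := herb_finite_torsion X
  have h4 : R.relIndex T = Nat.card (nsmulAddMonoidHom (α := X) p).ker := by
    have h5 : R.addSubgroupOf T = (nsmulAddMonoidHom (α := T) p).range := by
      ext ⟨x, hx⟩
      simp only [AddSubgroup.mem_addSubgroupOf, AddMonoidHom.mem_range, nsmulAddMonoidHom_apply, hR]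
      constructor
      · rintro ⟨y, rfl⟩
        have hy : y ∈ T := by
          obtain ⟨n, hn, hn'⟩ := (hmemT _).mp hx
          exact (hmemT _).mpr ⟨n * p, Nat.mul_ne_zero hn hp, by rw [mul_smul]; exact hn'⟩
        exact ⟨⟨y, hy⟩, rfl⟩
      · rintro ⟨y, hy⟩
        exact ⟨y, congrArg Subtype.val hy⟩
    rw [AddSubgroup.relIndex, h5, herb_index_range_eq_card_ker]
    refine Nat.card_congr ⟨fun x => ⟨x.1.1, ?_⟩, fun x => ⟨⟨x.1, ?_⟩, ?_⟩, ?_, ?_⟩
    · have := x.2
      rw [AddMonoidHom.mem_ker] at this ⊢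
      exact congrArg Subtype.val this
    · exact (hmemT _).mpr ⟨p, hp, x.2⟩
    · rw [AddMonoidHom.mem_ker]
      exact Subtype.ext x.2
    · intro x; rfl
    · intro x; rfl
  rw [← h1, h2, h3, h4, mul_comm]

end L1

section Ia

variable {M : Type*} [AddCommGroup M] (s : AddMonoid.End M) (p : ℕ)

/-- the norm endomorphism `1 + s + ... + s^(p-1)` -/
def herbN : M →+ M := (∑ i ∈ Finset.range p, s ^ i : AddMonoid.End M)

/-- the endomorphism `1 - s` -/
def herbD : M →+ M := (1 - s : AddMonoid.End M)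

lemma herbD_apply (x : M) : herbD s x = x - s x := rfl

lemma herbN_apply (x : M) : herbN s p x = ∑ i ∈ Finset.range p, (s ^ i) x := by
  unfold herbN
  induction p with
  | zero => rfl
  | succ n ih => rw [Finset.sum_range_succ, Finset.sum_range_succ, ← ih]; rfl

lemma herb_poly (hp : p.Prime) : ∃ w : Polynomial ℤ,
    (1 - Polynomial.X) ^ (p - 1) = (∑ i ∈ Finset.range p, Polynomial.X ^ i) + Polynomial.C (p : ℤ) * w := by
  have : Fact p.Prime := ⟨hp⟩
  have h : Polynomial.C (p : ℤ) ∣ (1 - Polynomial.X) ^ (p - 1) - (∑ i ∈ Finset.range p, Polynomial.X ^ i) := by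
    rw [Polynomial.C_dvd_iff_dvd_coeff]
    intro i
    rw [← ZMod.intCast_zmod_eq_zero_iff_dvd]
    have h1 : ((1 - Polynomial.X) ^ (p - 1) - (∑ i ∈ Finset.range p, Polynomial.X ^ i) : Polynomial ℤ).map (Int.castRingHom (ZMod p)) = 0 := by
      simp only [Polynomial.map_sub, Polynomial.map_pow, Polynomial.map_one, Polynomial.map_X, Polynomial.map_sum]
      have h2 : (1 - Polynomial.X : Polynomial (ZMod p)) ≠ 0 := by
        intro h
        have := congrArg (Polynomial.eval 0) h
        simp at this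
      apply mul_left_cancel₀ h2
      rw [mul_zero, mul_sub, ← pow_succ', Nat.sub_add_cancel hp.one_le, mul_neg_geom_sum, sub_pow_char, one_pow, sub_self]
    have := congrArg (fun f => Polynomial.coeff f i) h1
    simp only [Polynomial.coeff_map, Polynomial.coeff_zero, eq_intCast] at this
    exact this
  obtain ⟨w, hw⟩ := h
  exact ⟨w, by rw [← hw]; ring⟩

variable {s p}

lemma herb_DN (hs : s ^ p = 1) (x : M) : herbD s (herbN s p x) = 0 := by
  have h : ((1 - s) * ∑ i ∈ Finset.range p, s ^ i : AddMonoid.End M) = 0 := by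
    rw [mul_neg_geom_sum, hs, sub_self]
  exact DFunLike.congr_fun h x

lemma herb_ND (hs : s ^ p = 1) (x : M) : herbN s p (herbD s x) = 0 := by
  have h : ((∑ i ∈ Finset.range p, s ^ i) * (1 - s) : AddMonoid.End M) = 0 := by
    rw [geom_sum_mul_neg, hs, sub_self]
  exact DFunLike.congr_fun h x

lemma herb_range_N_le (hs : s ^ p = 1) : (herbN s p).range ≤ (herbD s).ker := by
  rintro _ ⟨x, rfl⟩
  exact herb_DN hs x

lemma herb_range_D_le (hs : s ^ p = 1) : (herbD s).range ≤ (herbN s p).ker := by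
  rintro _ ⟨x, rfl⟩
  exact herb_ND hs x

lemma herb_pow_fixed {x : M} (hx : x ∈ (herbD s).ker) (i : ℕ) : (s ^ i) x = x := by
  have h1 : s x = x := by
    rw [AddMonoidHom.mem_ker, herbD_apply, sub_eq_zero] at hx
    exact hx.symm
  induction i with
  | zero => rfl
  | succ n ih => rw [pow_succ]; show (s ^ n) (s x) = x; rw [h1, ih]

lemma herb_N_fixed {x : M} (hx : x ∈ (herbD s).ker) : herbN s p x = p • x := by
  rw [herbN_apply, Finset.sum_congr rfl (fun i _ => herb_pow_fixed hx i)]
  simp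

lemma herb_map_N : (herbD s).ker.map (herbN s p) = (herbD s).ker.map (nsmulAddMonoidHom p) := by
  ext y
  simp only [AddSubgroup.mem_map]
  constructor
  · rintro ⟨x, hx, rfl⟩; exact ⟨x, hx, (herb_N_fixed hx).symm⟩
  · rintro ⟨x, hx, rfl⟩; exact ⟨x, hx, herb_N_fixed hx⟩

/-- `[A : NM] [M : A + B] = [A : pA]` -/
lemma herb_claim1 (hs : s ^ p = 1) :
    (herbN s p).range.relIndex (herbD s).ker * ((herbD s).ker ⊔ (herbN s p).ker).index =
      ((herbD s).ker.map (nsmulAddMonoidHom p)).relIndex (herbD s).ker := by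
  have h1 : ((herbD s).ker.map (herbN s p)).relIndex (herbN s p).range =
      ((herbD s).ker ⊔ (herbN s p).ker).index := by
    rw [AddMonoidHom.range_eq_map (herbN s p), AddSubgroup.relIndex_map_map, top_sup_eq, AddSubgroup.relIndex_top_right]
  rw [← h1, mul_comm, ← herb_map_N]
  refine AddSubgroup.relIndex_mul_relIndex _ _ _ ?_ (herb_range_N_le hs)
  rintro _ ⟨x, _, rfl⟩
  exact ⟨x, rfl⟩

/-- `[B : DM] [M : A + B] = [B : DB]` -/
lemma herb_claim2 (hs : s ^ p = 1) :
    (herbD s).range.relIndex (herbN s p).ker * ((herbD s).ker ⊔ (herbN s p).ker).index =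
      ((herbN s p).ker.map (herbD s)).relIndex (herbN s p).ker := by
  have h1 : ((herbN s p).ker.map (herbD s)).relIndex (herbD s).range =
      ((herbD s).ker ⊔ (herbN s p).ker).index := by
    rw [AddMonoidHom.range_eq_map (herbD s), AddSubgroup.relIndex_map_map, top_sup_eq, AddSubgroup.relIndex_top_right, sup_comm]
  rw [← h1, mul_comm]
  refine AddSubgroup.relIndex_mul_relIndex _ _ _ ?_ (herb_range_D_le hs)
  rintro _ ⟨x, _, rfl⟩
  exact ⟨x, rfl⟩



/-- the endomorphism `(1 - s)^i` -/
def herbDp (s : AddMonoid.End M) (i : ℕ) : M →+ M := ((1 - s) ^ i : AddMonoid.End M)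

lemma herbDp_succ (i : ℕ) (x : M) : herbDp s (i + 1) x = herbDp s i (herbD s x) := by
  unfold herbDp herbD
  rw [pow_succ]; rfl

lemma herbDp_succ' (i : ℕ) (x : M) : herbDp s (i + 1) x = herbD s (herbDp s i x) := by
  unfold herbDp herbD
  rw [pow_succ']; rfl

lemma herb_aeval_mem (f : Polynomial ℤ) {x : M} (hx : x ∈ (herbN s p).ker) :
    (Polynomial.aeval s f : AddMonoid.End M) x ∈ (herbN s p).ker := by
  rw [AddMonoidHom.mem_ker] at hx ⊢
  have h1 : (∑ i ∈ Finset.range p, s ^ i : AddMonoid.End M) =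
      Polynomial.aeval s (∑ i ∈ Finset.range p, Polynomial.X ^ i : Polynomial ℤ) := by
    simp
  have h2 : (∑ i ∈ Finset.range p, s ^ i : AddMonoid.End M) * Polynomial.aeval s f =
      Polynomial.aeval s f * (∑ i ∈ Finset.range p, s ^ i : AddMonoid.End M) := by
    rw [h1, ← map_mul, ← map_mul, mul_comm]
  have h3 := DFunLike.congr_fun h2 x
  calc herbN s p ((Polynomial.aeval s f : AddMonoid.End M) x)
      = (Polynomial.aeval s f : AddMonoid.End M) (herbN s p x) := h3
    _ = 0 := by rw [hx, map_zero]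

lemma herb_map_D_le (hs : s ^ p = 1) : (herbN s p).ker.map (herbD s) ≤ (herbN s p).ker := by
  rintro _ ⟨x, _, rfl⟩
  exact herb_range_D_le hs ⟨x, rfl⟩

lemma herb_map_Dp_le (hs : s ^ p = 1) (i : ℕ) :
    (herbN s p).ker.map (herbDp s i) ≤ (herbN s p).ker := by
  rintro _ ⟨x, hx, rfl⟩
  cases i with
  | zero => exact hx
  | succ n => rw [herbDp_succ']; exact herb_range_D_le hs ⟨_, rfl⟩

lemma herb_map_Dp_succ_le (hs : s ^ p = 1) (i : ℕ) :
    (herbN s p).ker.map (herbDp s (i + 1)) ≤ (herbN s p).ker.map (herbDp s i) := by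
  rintro _ ⟨x, hx, rfl⟩
  rw [herbDp_succ]
  exact ⟨herbD s x, herb_map_D_le hs ⟨x, hx, rfl⟩, rfl⟩

lemma herb_relIndex_Dp (hs : s ^ p = 1) (i : ℕ) :
    ((herbN s p).ker.map (herbDp s i)).relIndex (herbN s p).ker ∣
      (((herbN s p).ker.map (herbD s)).relIndex (herbN s p).ker) ^ i := by
  induction i with
  | zero =>
    have : (herbN s p).ker.map (herbDp s 0) = (herbN s p).ker := by
      ext y
      constructor
      · rintro ⟨x, hx, rfl⟩; exact hx
      · intro hy; exact ⟨y, hy, rfl⟩
    rw [this, AddSubgroup.relIndex_self, pow_zero]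
  | succ n ih =>
    rw [← AddSubgroup.relIndex_mul_relIndex _ _ _ (herb_map_Dp_succ_le hs n) (herb_map_Dp_le hs n),
      pow_succ, mul_comm]
    refine mul_dvd_mul ih ?_
    have h1 : (herbN s p).ker.map (herbDp s (n + 1)) =
        ((herbN s p).ker.map (herbD s)).map (herbDp s n) := by
      ext y
      simp only [AddSubgroup.mem_map]
      constructor
      · rintro ⟨x, hx, rfl⟩; exact ⟨herbD s x, ⟨x, hx, rfl⟩, (herbDp_succ n x).symm⟩
      · rintro ⟨_, ⟨x, hx, rfl⟩, rfl⟩; exact ⟨x, hx, herbDp_succ n x⟩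
    rw [h1, AddSubgroup.relIndex_map_map]
    have h2 : (herbN s p).ker ⊔ (herbDp s n).ker =
        (herbN s p).ker ⊔ ((herbN s p).ker.map (herbD s) ⊔ (herbDp s n).ker) := by
      rw [← sup_assoc, sup_eq_left.mpr (herb_map_D_le hs)]
    rw [h2, AddSubgroup.relIndex_sup_right]
    exact AddSubgroup.relIndex_dvd_of_le_left _ le_sup_left

lemma herb_map_Dp_le_nsmul (hp : p.Prime) :
    (herbN s p).ker.map (herbDp s (p - 1)) ≤ (herbN s p).ker.map (nsmulAddMonoidHom p) := by
  obtain ⟨w, hw⟩ := herb_poly p hp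
  rintro _ ⟨x, hx, rfl⟩
  refine ⟨(Polynomial.aeval s w : AddMonoid.End M) x, herb_aeval_mem w hx, ?_⟩
  have h1 := congrArg (Polynomial.aeval s) hw
  simp only [map_pow, map_sub, map_one, Polynomial.aeval_X, map_add, map_sum, map_mul,
    Polynomial.aeval_C] at h1
  have h2 := DFunLike.congr_fun h1 x
  replace hx : herbN s p x = 0 := hx
  have h3 : herbDp s (p - 1) x = herbN s p x +
      ((algebraMap ℤ (AddMonoid.End M) (p : ℤ)) * (Polynomial.aeval s w : AddMonoid.End M)) x := h2
  rw [h3, hx, zero_add]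
  simp

/-- `[B : pB]` divides `[B : DB]^(p-1)` -/
lemma herb_claim3 (hp : p.Prime) (hs : s ^ p = 1) :
    ((herbN s p).ker.map (nsmulAddMonoidHom p)).relIndex (herbN s p).ker ∣
      (((herbN s p).ker.map (herbD s)).relIndex (herbN s p).ker) ^ (p - 1) :=
  (AddSubgroup.relIndex_dvd_of_le_left _ (herb_map_Dp_le_nsmul hp)).trans (herb_relIndex_Dp hs _)

lemma herb_nsmul_le_map_D :
    (herbN s p).ker.map (nsmulAddMonoidHom p) ≤ (herbN s p).ker.map (herbD s) := by
  have h : (Polynomial.X - Polynomial.C (1 : ℤ)) ∣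
      (∑ i ∈ Finset.range p, Polynomial.X ^ i) - Polynomial.C (p : ℤ) := by
    rw [Polynomial.dvd_iff_isRoot]
    simp [Polynomial.eval_finsetSum]
  obtain ⟨v, hv⟩ := h
  rintro _ ⟨x, hx, rfl⟩
  refine ⟨(Polynomial.aeval s v : AddMonoid.End M) x, herb_aeval_mem v hx, ?_⟩
  have h1 := congrArg (Polynomial.aeval s) hv
  simp only [map_pow, map_sub, map_one, Polynomial.aeval_X, map_sum, map_mul,
    Polynomial.aeval_C] at h1
  have h2 := DFunLike.congr_fun h1 x
  replace hx : herbN s p x = 0 := hx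
  have h3 : herbN s p x - (algebraMap ℤ (AddMonoid.End M) (p : ℤ)) x =
      s ((Polynomial.aeval s v : AddMonoid.End M) x) - (Polynomial.aeval s v : AddMonoid.End M) x := h2
  rw [hx, zero_sub] at h3
  rw [herbD_apply, ← neg_sub, ← h3]
  simp

end Ia

section Ib

variable {M : Type*} [AddCommGroup M] [Module.Finite ℤ M] {s : AddMonoid.End M} {p : ℕ}

theorem herb_finite_addSubgroup (S : AddSubgroup M) : Module.Finite ℤ S :=
  (inferInstance : Module.Finite ℤ (AddSubgroup.toIntSubmodule S))

attribute [local instance] herb_finite_addSubgroup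

lemma herb_relIndex_nsmul (S : AddSubgroup M) (hp : p ≠ 0) :
    (S.map (nsmulAddMonoidHom p)).relIndex S =
      p ^ finrank ℤ S * Nat.card (nsmulAddMonoidHom (α := S) p).ker := by
  rw [AddSubgroup.relIndex, AddSubgroup.addSubgroupOf_map_nsmulAddMonoidHom_eq_range,
    herb_index_nsmul S p hp]

lemma herb_finite_ker_nsmul (X : Type*) [AddCommGroup X] [Module.Finite ℤ X] (hp : p ≠ 0) :
    Finite (nsmulAddMonoidHom (α := X) p).ker := by
  have := herb_finite_torsion X
  refine Finite.of_injective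
    (fun x : (nsmulAddMonoidHom (α := X) p).ker => (⟨x.1, ?_⟩ : Submodule.torsion ℤ X)) ?_
  · rw [Submodule.mem_torsion_iff]
    refine ⟨⟨(p : ℤ), mem_nonZeroDivisors_of_ne_zero (by exact_mod_cast hp)⟩, ?_⟩
    show (p : ℤ) • x.1 = 0
    have := x.2
    rw [AddMonoidHom.mem_ker, nsmulAddMonoidHom_apply] at this
    simpa using this
  · intro x y h
    exact Subtype.ext (congrArg (fun z : Submodule.torsion ℤ X => z.1) h)

lemma herb_finrank_ker_ge (hs : s ^ p = 1) :
    finrank ℤ M ≤ finrank ℤ (herbN s p).ker + finrank ℤ (herbD s).ker := by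
  set f : M →ₗ[ℤ] M := (herbN s p).toIntLinearMap with hf
  have h1 := Submodule.finrank_quotient_add_finrank (LinearMap.ker f)
  have h2 : finrank ℤ (M ⧸ LinearMap.ker f) = finrank ℤ (LinearMap.range f) :=
    (f.quotKerEquivRange).finrank_eq
  have h3 : finrank ℤ (LinearMap.range f) ≤ finrank ℤ (AddSubgroup.toIntSubmodule (herbD s).ker) := by
    apply Submodule.finrank_mono
    rintro _ ⟨x, rfl⟩
    exact herb_range_N_le hs ⟨x, rfl⟩
  have h4 : finrank ℤ (LinearMap.ker f) = finrank ℤ (herbN s p).ker := rfl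
  have h5 : finrank ℤ (AddSubgroup.toIntSubmodule (herbD s).ker) = finrank ℤ (herbD s).ker := rfl
  omega

/-- **Herbrand quotient inequality**: `[A : NM] < [B : DM]`. -/
theorem herb_index_lt (hp : p.Prime) (hs : s ^ p = 1) (r : ℕ)
    (hM : finrank ℤ M + 1 = p * r) (hA : finrank ℤ (herbD s).ker + 1 = r)
    (hMp : Nat.card (nsmulAddMonoidHom (α := M) p).ker ≤ p)
    (hB : ∃ z : M, herbN s p z = 0 ∧ z ≠ 0 ∧ p • z = 0) :
    (herbN s p).range.relIndex (herbD s).ker ≠ 0 ∧
      (herbN s p).range.relIndex (herbD s).ker < (herbD s).range.relIndex (herbN s p).ker := by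
  have hp0 : p ≠ 0 := hp.ne_zero
  set A := (herbD s).ker with hAdef
  set B := (herbN s p).ker with hBdef
  set a := (herbN s p).range.relIndex A with ha
  set b := (herbD s).range.relIndex B with hb
  set m := (A ⊔ B).index with hm
  have c1 : a * m = (A.map (nsmulAddMonoidHom p)).relIndex A := herb_claim1 hs
  have c2 : b * m = (B.map (herbD s)).relIndex B := herb_claim2 hs
  have c3 : (B.map (nsmulAddMonoidHom p)).relIndex B ∣ (b * m) ^ (p - 1) := by
    rw [c2]; exact herb_claim3 hp hs
  -- sizes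
  have hfinM := herb_finite_ker_nsmul (p := p) M hp0
  have eA : (A.map (nsmulAddMonoidHom p)).relIndex A =
      p ^ finrank ℤ A * Nat.card (nsmulAddMonoidHom (α := A) p).ker := herb_relIndex_nsmul A hp0
  have eB : (B.map (nsmulAddMonoidHom p)).relIndex B =
      p ^ finrank ℤ B * Nat.card (nsmulAddMonoidHom (α := B) p).ker := herb_relIndex_nsmul B hp0
  have hfinA := herb_finite_ker_nsmul (p := p) A hp0
  have hfinB := herb_finite_ker_nsmul (p := p) B hp0
  have kA : Nat.card (nsmulAddMonoidHom (α := A) p).ker ≤ p := by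
    refine le_trans (Nat.card_le_card_of_injective
      (fun x : (nsmulAddMonoidHom (α := A) p).ker =>
        (⟨x.1.1, ?_⟩ : (nsmulAddMonoidHom (α := M) p).ker)) ?_) hMp
    · have := x.2
      rw [AddMonoidHom.mem_ker] at this ⊢
      exact congrArg Subtype.val this
    · intro x y h
      exact Subtype.ext (Subtype.ext (congrArg (fun z : (nsmulAddMonoidHom (α := M) p).ker => z.1) h))
  have kA0 : 0 < Nat.card (nsmulAddMonoidHom (α := A) p).ker := Nat.card_pos
  have kB : p ≤ Nat.card (nsmulAddMonoidHom (α := B) p).ker := by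
    obtain ⟨z, hz1, hz2, hz3⟩ := hB
    let z' : (nsmulAddMonoidHom (α := B) p).ker := ⟨⟨z, hz1⟩, by
      rw [AddMonoidHom.mem_ker]; exact Subtype.ext hz3⟩
    have ho : addOrderOf z' = p := by
      have : Fact p.Prime := ⟨hp⟩
      apply addOrderOf_eq_prime
      · exact Subtype.ext (Subtype.ext hz3)
      · intro h
        exact hz2 (congrArg (fun w : (nsmulAddMonoidHom (α := B) p).ker => w.1.1) h)
    have := addOrderOf_dvd_natCard z'
    rw [ho] at this
    exact Nat.le_of_dvd Nat.card_pos this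
  have hrk : finrank ℤ M ≤ finrank ℤ B + finrank ℤ A := herb_finrank_ker_ge hs
  have hp1 : 1 ≤ p := hp.one_le
  have hr1 : 1 ≤ r := by omega
  have hrB : (p - 1) * r ≤ finrank ℤ B := by
    have : (p - 1) * r + r = p * r := by
      rw [← Nat.succ_mul, Nat.succ_eq_add_one, Nat.sub_add_cancel hp1]
    omega
  have hAle : a * m ≤ p ^ r := by
    rw [c1, eA, ← hA, pow_succ]
    exact Nat.mul_le_mul_left _ kA
  have hApos : 0 < a * m := by
    rw [c1, eA]
    exact Nat.mul_pos (pow_pos hp.pos _) kA0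
  have hBge : p ^ ((p - 1) * r + 1) ≤ (B.map (nsmulAddMonoidHom p)).relIndex B := by
    rw [eB, pow_succ]
    exact Nat.mul_le_mul (Nat.pow_le_pow_right hp.pos hrB) kB
  have hBpos : 0 < (B.map (nsmulAddMonoidHom p)).relIndex B := lt_of_lt_of_le (pow_pos hp.pos _) hBge
  -- `b * m ≠ 0`
  have hbm : b * m ≠ 0 := by
    rw [c2]
    intro h0
    have := AddSubgroup.relIndex_dvd_of_le_left B (herb_nsmul_le_map_D (s := s) (p := p))
    rw [h0, zero_dvd_iff] at this
    exact hBpos.ne' this
  have hle : (B.map (nsmulAddMonoidHom p)).relIndex B ≤ (b * m) ^ (p - 1) :=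
    Nat.le_of_dvd (pow_pos (Nat.pos_of_ne_zero hbm) _) c3
  have hlt : (a * m) ^ (p - 1) < (b * m) ^ (p - 1) := by
    calc (a * m) ^ (p - 1) ≤ (p ^ r) ^ (p - 1) := Nat.pow_le_pow_left hAle _
      _ = p ^ ((p - 1) * r) := by rw [← pow_mul, mul_comm]
      _ < p ^ ((p - 1) * r + 1) := Nat.pow_lt_pow_right hp.one_lt (Nat.lt_succ_self _)
      _ ≤ _ := hBge.trans hle
  have hlt' : a * m < b * m := lt_of_pow_lt_pow_left₀ _ (Nat.zero_le _) hlt
  refine ⟨fun h => ?_, lt_of_mul_lt_mul_right hlt' (Nat.zero_le _)⟩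
  rw [h, zero_mul] at hApos
  exact lt_irrefl _ hApos

end Ib

end Fermat.Agent.S14
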