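import Mathlib
import Fermat.Agent.S14.BIndex

/-!
# S14 (B), part II: a cyclic extension `S / R` of Dedekind domains in which invariant ideals are
extended from `R`: if the unit group satisfies `[A : NM] < [B : DM]` then the norm on ideal classes
is not surjective.
-/

set_option autoImplicit false
set_option linter.unusedSectionVars false

namespace Fermat.Agent.S14

open scoped Pointwise nonZeroDivisors

section Cls

variable {R : Type*} [CommRing R] [IsDedekindDomain R]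

/-- the class of an ideal (junk value `1` for the zero ideal) -/
noncomputable def herbCls (I : Ideal R) : ClassGroup R :=
  if h : I = ⊥ then 1 else ClassGroup.mk0 ⟨I, mem_nonZeroDivisors_of_ne_zero h⟩

lemma herbCls_of_ne {I : Ideal R} (h : I ≠ ⊥) :
    herbCls I = ClassGroup.mk0 ⟨I, mem_nonZeroDivisors_of_ne_zero h⟩ := dif_neg h

lemma herbCls_mul {I J : Ideal R} (hI : I ≠ ⊥) (hJ : J ≠ ⊥) :
    herbCls (I * J) = herbCls I * herbCls J := by
  rw [herbCls_of_ne hI, herbCls_of_ne hJ, herbCls_of_ne (mul_ne_zero hI hJ), ← map_mul]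
  rfl

lemma herbCls_span {x : R} (hx : x ≠ 0) : herbCls (Ideal.span {x}) = 1 := by
  have h : Ideal.span {x} ≠ (⊥ : Ideal R) := by
    rwa [Ne, Ideal.span_singleton_eq_bot]
  rw [herbCls_of_ne h, ClassGroup.mk0_eq_one_iff]
  exact ⟨⟨x, rfl⟩⟩

lemma herbCls_eq_iff {I J : Ideal R} (hI : I ≠ ⊥) (hJ : J ≠ ⊥) :
    herbCls I = herbCls J ↔
      ∃ x y : R, x ≠ 0 ∧ y ≠ 0 ∧ Ideal.span {x} * I = Ideal.span {y} * J := by
  rw [herbCls_of_ne hI, herbCls_of_ne hJ, ClassGroup.mk0_eq_mk0_iff]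
  constructor
  · rintro ⟨x, y, hx, hy, h⟩; exact ⟨x, y, hx, hy, h⟩
  · rintro ⟨x, y, hx, hy, h⟩; exact ⟨x, y, hx, hy, h⟩

lemma herbCls_surj (c : ClassGroup R) : ∃ I : Ideal R, I ≠ ⊥ ∧ herbCls I = c := by
  obtain ⟨I, rfl⟩ := ClassGroup.mk0_surjective c
  have h : (I : Ideal R) ≠ ⊥ := nonZeroDivisors.ne_zero I.2
  exact ⟨I, h, herbCls_of_ne h⟩

lemma herb_span_ne_bot {x : R} (hx : x ≠ 0) : Ideal.span {x} ≠ (⊥ : Ideal R) := by
  rwa [Ne, Ideal.span_singleton_eq_bot]

theorem herb_lift {G : Type*} [CommGroup G] (f : Ideal R → G)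
    (hmul : ∀ I J : Ideal R, I ≠ ⊥ → J ≠ ⊥ → f (I * J) = f I * f J)
    (hpr : ∀ x : R, x ≠ 0 → f (Ideal.span {x}) = 1) :
    ∃ F : ClassGroup R →* G, ∀ I : Ideal R, I ≠ ⊥ → F (herbCls I) = f I := by
  have hwd : ∀ I J : Ideal R, I ≠ ⊥ → J ≠ ⊥ → herbCls I = herbCls J → f I = f J := by
    intro I J hI hJ h
    obtain ⟨x, y, hx, hy, hxy⟩ := (herbCls_eq_iff hI hJ).mp h
    have h1 := congrArg f hxy
    rw [hmul _ _ (herb_span_ne_bot hx) hI, hmul _ _ (herb_span_ne_bot hy) hJ, hpr x hx, hpr y hy,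
      one_mul, one_mul] at h1
    exact h1
  choose rep hrep hrep' using (herbCls_surj (R := R))
  have key : ∀ I : Ideal R, I ≠ ⊥ → f (rep (herbCls I)) = f I :=
    fun I hI => hwd _ _ (hrep _) hI (hrep' _)
  refine ⟨MonoidHom.mk' (fun c => f (rep c)) ?_, key⟩
  intro a b
  have h1 := key (rep a * rep b) (mul_ne_zero (hrep a) (hrep b))
  rw [herbCls_mul (hrep a) (hrep b), hrep', hrep', hmul _ _ (hrep a) (hrep b)] at h1
  exact h1

end Cls

section Main

variable {R S G : Type*} [CommRing R] [IsDedekindDomain R] [CommRing S] [IsDedekindDomain S]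
  [Algebra R S] [Group G] [MulSemiringAction G S] (σ : G) (p : ℕ)

/-- the norm `∏_{i<p} σ^i x` -/
def herbNrm (x : S) : S := ∏ i ∈ Finset.range p, (σ ^ i) • x

/-- the norm `∏_{i<p} σ^i J` of an ideal, as an ideal of `S` -/
def herbP (J : Ideal S) : Ideal S := ∏ i ∈ Finset.range p, (σ ^ i) • J

variable (R S) in
/-- the hypotheses on the cyclic extension `S / R` -/
structure HerbData : Prop where
  pos : 0 < p
  pow : σ ^ p = 1
  alg : ∀ r : R, σ • algebraMap R S r = algebraMap R S r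
  fixed : ∀ x : S, σ • x = x → ∃ r : R, algebraMap R S r = x
  h90 : ∀ x y : S, x ≠ 0 → y ≠ 0 → herbNrm σ p x = herbNrm σ p y →
    ∃ b : S, b ≠ 0 ∧ x * σ • b = y * b
  inv : ∀ J : Ideal S, J ≠ ⊥ → σ • J = J → ∃ 𝔞 : Ideal R, 𝔞.map (algebraMap R S) = J

lemma herb_prod_shift {M : Type*} [CommMonoid M] (f : ℕ → M) (n : ℕ) (h : f n = f 0) :
    ∏ i ∈ Finset.range n, f (i + 1) = ∏ i ∈ Finset.range n, f i := by
  cases n with
  | zero => simp
  | succ n => rw [Finset.prod_range_succ, h, Finset.prod_range_succ']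

variable {σ p}

omit [IsDedekindDomain S] in
lemma herbNrm_mul (x y : S) : herbNrm σ p (x * y) = herbNrm σ p x * herbNrm σ p y := by
  simp only [herbNrm, smul_mul', Finset.prod_mul_distrib]

omit [IsDedekindDomain S] in
lemma herbNrm_one : herbNrm σ p (1 : S) = 1 := by
  simp [herbNrm]

lemma herbNrm_ne_zero {x : S} (hx : x ≠ 0) : herbNrm σ p x ≠ 0 := by
  rw [herbNrm, Finset.prod_ne_zero_iff]
  intro i _
  rwa [Ne, smul_eq_zero_iff_eq]

omit [IsDedekindDomain S] in
lemma herb_smul_nrm (hpow : σ ^ p = 1) (x : S) : σ • herbNrm σ p x = herbNrm σ p x := by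
  rw [herbNrm, Finset.smul_prod']
  have : ∀ i, σ • (σ ^ i) • x = (σ ^ (i + 1)) • x := fun i => by rw [smul_smul, pow_succ']
  simp only [this]
  exact herb_prod_shift (fun i => (σ ^ i) • x) p (by simp [hpow])

lemma herbP_mul (I J : Ideal S) : herbP σ p (I * J) = herbP σ p I * herbP σ p J := by
  simp only [herbP, smul_mul', Finset.prod_mul_distrib]

omit [IsDedekindDomain S] in
lemma herb_smul_span (τ : G) (x : S) : τ • Ideal.span {x} = Ideal.span {τ • x} := by
  rw [Ideal.smul_closure, Set.smul_set_singleton]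

omit [IsDedekindDomain S] in
lemma herbP_span (x : S) : herbP σ p (Ideal.span {x}) = Ideal.span {herbNrm σ p x} := by
  simp only [herbP, herbNrm, herb_smul_span, Ideal.prod_span_singleton]

omit [IsDedekindDomain S] in
lemma herb_smul_ne_bot (τ : G) {J : Ideal S} (hJ : J ≠ ⊥) : τ • J ≠ ⊥ := by
  intro h
  apply hJ
  have := congrArg (fun I => τ⁻¹ • I) h
  simpa using this

lemma herbP_ne_bot {J : Ideal S} (hJ : J ≠ ⊥) : herbP σ p J ≠ ⊥ := by
  rw [herbP, ← Ideal.zero_eq_bot, Finset.prod_ne_zero_iff]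
  intro i _
  exact herb_smul_ne_bot _ hJ

omit [IsDedekindDomain S] in
lemma herbP_smul (hpow : σ ^ p = 1) (J : Ideal S) : herbP σ p (σ • J) = herbP σ p J := by
  rw [herbP, herbP]
  have : ∀ i, (σ ^ i) • σ • J = (σ ^ (i + 1)) • J := fun i => by rw [smul_smul, pow_succ]
  simp only [this]
  exact herb_prod_shift (fun i => (σ ^ i) • J) p (by simp [hpow])



lemma herb_map_ne_bot (hinj : Function.Injective (algebraMap R S)) {𝔞 : Ideal R} (h𝔞 : 𝔞 ≠ ⊥) :
    𝔞.map (algebraMap R S) ≠ ⊥ := by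
  obtain ⟨a, ha, ha0⟩ := Submodule.exists_mem_ne_zero_of_ne_bot h𝔞
  intro h
  have h1 : algebraMap R S a ∈ 𝔞.map (algebraMap R S) := Ideal.mem_map_of_mem _ ha
  rw [h, Ideal.mem_bot] at h1
  exact ha0 (hinj (by rw [h1, map_zero]))

theorem herb_exists_iota (hinj : Function.Injective (algebraMap R S)) :
    ∃ ι : ClassGroup R →* ClassGroup S, ∀ 𝔞 : Ideal R, 𝔞 ≠ ⊥ →
      ι (herbCls 𝔞) = herbCls (𝔞.map (algebraMap R S)) := by
  apply herb_lift
  · intro I J hI hJ
    rw [Ideal.map_mul, herbCls_mul (herb_map_ne_bot hinj hI) (herb_map_ne_bot hinj hJ)]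
  · intro x hx
    rw [Ideal.map_span, Set.image_singleton]
    exact herbCls_span (fun h => hx (hinj (by rw [h, map_zero])))

variable (σ) in
theorem herb_exists_tau :
    ∃ τ : ClassGroup S →* ClassGroup S, ∀ J : Ideal S, J ≠ ⊥ →
      τ (herbCls J) = herbCls (σ • J) := by
  apply herb_lift
  · intro I J hI hJ
    rw [smul_mul', herbCls_mul (herb_smul_ne_bot σ hI) (herb_smul_ne_bot σ hJ)]
  · intro x hx
    rw [herb_smul_span]
    exact herbCls_span (by rwa [Ne, smul_eq_zero_iff_eq])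

lemma herb_nrm_mem (hpos : 0 < p) {J : Ideal S} {z : S} (hz : z ∈ J) : herbNrm σ p z ∈ J := by
  have h1 : (σ ^ 0) • z ∣ herbNrm σ p z :=
    Finset.dvd_prod_of_mem (fun i => (σ ^ i) • z) (Finset.mem_range.mpr hpos)
  rw [pow_zero, one_smul] at h1
  obtain ⟨c, hc⟩ := h1
  rw [hc]
  exact J.mul_mem_right c hz

section withData

variable (h : HerbData R S σ p) (hinj : Function.Injective (algebraMap R S))
  (ι : ClassGroup R →* ClassGroup S)
  (hι : ∀ 𝔞 : Ideal R, 𝔞 ≠ ⊥ → ι (herbCls 𝔞) = herbCls (𝔞.map (algebraMap R S)))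

include h hι

lemma herb_cls_of_inv {J : Ideal S} (hJ : J ≠ ⊥) (hinv : σ • J = J) :
    ∃ d, herbCls J = ι d := by
  obtain ⟨𝔞, h𝔞⟩ := h.inv J hJ hinv
  have h0 : 𝔞 ≠ ⊥ := by
    rintro rfl
    rw [Ideal.map_bot] at h𝔞
    exact hJ h𝔞.symm
  exact ⟨herbCls 𝔞, by rw [hι 𝔞 h0, h𝔞]⟩

lemma herb_ratio {J₁ J₂ : Ideal S} (h1 : J₁ ≠ ⊥) (h2 : J₂ ≠ ⊥)
    (hJ : J₁ * σ • J₂ = σ • J₁ * J₂) : ∃ d, herbCls J₁ = herbCls J₂ * ι d := by
  obtain ⟨z, hz, hz0⟩ := Submodule.exists_mem_ne_zero_of_ne_bot h2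
  set n := herbNrm σ p z with hn
  have hnJ : n ∈ J₂ := herb_nrm_mem h.pos hz
  have hn0 : n ≠ 0 := herbNrm_ne_zero hz0
  have hnσ : σ • Ideal.span {n} = Ideal.span {n} := by
    rw [herb_smul_span, hn, herb_smul_nrm h.pow]
  have hle : Ideal.span {n} ≤ J₂ := (Ideal.span_singleton_le_iff_mem _).mpr hnJ
  obtain ⟨J₂', hJ₂'⟩ := Ideal.dvd_iff_le.mpr hle
  have hJ₂'0 : J₂' ≠ ⊥ := by
    rintro rfl
    rw [Ideal.mul_bot] at hJ₂'
    exact herb_span_ne_bot hn0 hJ₂'
  have h7 : J₁ * J₂' ≠ ⊥ := mul_ne_zero h1 hJ₂'0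
  have hinv : σ • (J₁ * J₂') = J₁ * J₂' := by
    have hne : σ • J₂ * J₂ ≠ 0 := mul_ne_zero (herb_smul_ne_bot σ h2) h2
    apply mul_right_cancel₀ hne
    calc σ • (J₁ * J₂') * (σ • J₂ * J₂) = (σ • J₁ * J₂) * (σ • (J₂ * J₂')) := by
          rw [smul_mul', smul_mul']; ring
      _ = (J₁ * σ • J₂) * (J₂ * J₂') := by rw [← hJ, ← hJ₂', hnσ]
      _ = J₁ * J₂' * (σ • J₂ * J₂) := by ring
  obtain ⟨d, hd⟩ := herb_cls_of_inv h ι hι h7 hinv
  refine ⟨d, ?_⟩
  have h8 : herbCls (J₁ * J₂' * J₂) = herbCls J₁ := by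
    have : J₁ * J₂' * J₂ = J₁ * Ideal.span {n} := by rw [hJ₂']; ring
    rw [this, herbCls_mul h1 (herb_span_ne_bot hn0), herbCls_span hn0, mul_one]
  rw [← h8, herbCls_mul h7 h2, hd, mul_comm]


variable (σ p) in
/-- `u = N(y/x)` where `σ I = (y/x) I`, `c = [I]` -/
def HerbRelA (c : ClassGroup S) (u : Sˣ) : Prop :=
  ∃ (I : Ideal S) (x y : S), I ≠ ⊥ ∧ x ≠ 0 ∧ y ≠ 0 ∧ herbCls I = c ∧
    Ideal.span {x} * σ • I = Ideal.span {y} * I ∧ herbNrm σ p y = u * herbNrm σ p x

omit hι in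
lemma herb_relA_exists (τ : ClassGroup S →* ClassGroup S)
    (hτ : ∀ J : Ideal S, J ≠ ⊥ → τ (herbCls J) = herbCls (σ • J))
    (c : ClassGroup S) (hc : τ c = c) : ∃ u : Sˣ, σ • (u : S) = u ∧ HerbRelA σ p c u := by
  obtain ⟨I, hI, rfl⟩ := herbCls_surj c
  rw [hτ I hI] at hc
  obtain ⟨x, y, hx, hy, hxy⟩ := (herbCls_eq_iff (herb_smul_ne_bot σ hI) hI).mp hc
  have h1 := congrArg (herbP σ p) hxy
  rw [herbP_mul, herbP_mul, herbP_span, herbP_span, herbP_smul h.pow] at h1
  have h2 := mul_right_cancel₀ (herbP_ne_bot hI) h1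
  obtain ⟨u, hu⟩ := Ideal.span_singleton_eq_span_singleton.mp h2
  refine ⟨u, ?_, I, x, y, hI, hx, hy, rfl, hxy, by rw [← hu, mul_comm]⟩
  have h3 := congrArg (fun z => σ • z) hu
  simp only [smul_mul', herb_smul_nrm h.pow] at h3
  rw [← hu] at h3
  exact mul_left_cancel₀ (herbNrm_ne_zero hx) h3

lemma herb_relA_inj {c c' : ClassGroup S} {u u' : Sˣ} (hc : HerbRelA σ p c u)
    (hc' : HerbRelA σ p c' u') (huu : ∃ v : Sˣ, (u : S) = u' * herbNrm σ p (v : S)) :
    ∃ d, c = c' * ι d := by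
  obtain ⟨I, x, y, hI, hx, hy, rfl, hxy, hu⟩ := hc
  obtain ⟨I', x', y', hI', hx', hy', rfl, hxy', hu'⟩ := hc'
  obtain ⟨v, hv⟩ := huu
  have hv0 : (v : S) ≠ 0 := v.ne_zero
  have hN : herbNrm σ p (y * x') = herbNrm σ p (v * y' * x) := by
    rw [herbNrm_mul, herbNrm_mul, herbNrm_mul, hu, hu', hv]
    ring
  obtain ⟨b, hb, hb'⟩ := h.h90 (y * x') (v * y' * x) (mul_ne_zero hy hx')
    (mul_ne_zero (mul_ne_zero hv0 hy') hx) hN
  have hJ1 : Ideal.span {b} * I ≠ ⊥ := mul_ne_zero (herb_span_ne_bot hb) hI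
  have hJ : Ideal.span {b} * I * σ • I' = σ • (Ideal.span {b} * I) * I' := by
    have hne : Ideal.span {x} * Ideal.span {x'} ≠ (0 : Ideal S) :=
      mul_ne_zero (herb_span_ne_bot hx) (herb_span_ne_bot hx')
    apply mul_left_cancel₀ hne
    calc Ideal.span {x} * Ideal.span {x'} * (Ideal.span {b} * I * σ • I')
        = Ideal.span {b} * Ideal.span {x} * I * (Ideal.span {x'} * σ • I') := by ring
      _ = Ideal.span {b} * Ideal.span {x} * I * (Ideal.span {y'} * I') := by rw [hxy']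
      _ = (Ideal.span {y'} * Ideal.span {x} * Ideal.span {b}) * (I * I') := by ring
      _ = Ideal.span {y' * x * b} * (I * I') := by
          rw [Ideal.span_singleton_mul_span_singleton, Ideal.span_singleton_mul_span_singleton]
      _ = Ideal.span {(v : S) * (y' * x * b)} * (I * I') := by
          rw [Ideal.span_singleton_mul_left_unit v.isUnit]
      _ = Ideal.span {y * x' * σ • b} * (I * I') := by
          rw [show (v : S) * (y' * x * b) = y * x' * σ • b by rw [hb']; ring]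
      _ = (Ideal.span {y} * Ideal.span {x'} * Ideal.span {σ • b}) * (I * I') := by
          rw [Ideal.span_singleton_mul_span_singleton, Ideal.span_singleton_mul_span_singleton]
      _ = Ideal.span {σ • b} * (Ideal.span {y} * I) * Ideal.span {x'} * I' := by ring
      _ = Ideal.span {σ • b} * (Ideal.span {x} * σ • I) * Ideal.span {x'} * I' := by rw [hxy]
      _ = Ideal.span {x} * Ideal.span {x'} * (σ • (Ideal.span {b} * I) * I') := by
          rw [smul_mul', herb_smul_span]; ring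
  obtain ⟨d, hd⟩ := herb_ratio h ι hι hJ1 hI' hJ
  refine ⟨d, ?_⟩
  rw [← hd, herbCls_mul (herb_span_ne_bot hb) hI, herbCls_span hb, one_mul]

variable (R σ) in
/-- `u = b/σ b`, `(b) = 𝔞 S`, `d = [𝔞]` -/
def HerbRelB (u : Sˣ) (d : ClassGroup R) : Prop :=
  ∃ (b : S) (𝔞 : Ideal R), b ≠ 0 ∧ (u : S) * σ • b = b ∧ 𝔞 ≠ ⊥ ∧
    𝔞.map (algebraMap R S) = Ideal.span {b} ∧ herbCls 𝔞 = d

lemma herb_relB_exists (u : Sˣ) (hu : herbNrm σ p (u : S) = 1) :
    ∃ d, ι d = 1 ∧ HerbRelB R σ u d := by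
  obtain ⟨b, hb, hb'⟩ := h.h90 (u : S) 1 u.ne_zero one_ne_zero (by rw [hu, herbNrm_one])
  rw [one_mul] at hb'
  have hinv : σ • Ideal.span {b} = Ideal.span {b} := by
    rw [herb_smul_span]
    conv_rhs => rw [← hb', Ideal.span_singleton_mul_left_unit u.isUnit]
  obtain ⟨𝔞, h𝔞⟩ := h.inv _ (herb_span_ne_bot hb) hinv
  have h0 : 𝔞 ≠ ⊥ := by
    rintro rfl
    rw [Ideal.map_bot] at h𝔞
    exact herb_span_ne_bot hb h𝔞.symm
  exact ⟨herbCls 𝔞, by rw [hι 𝔞 h0, h𝔞, herbCls_span hb], b, 𝔞, hb, hb', h0, h𝔞, rfl⟩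

omit hι in
include hinj in
lemma herb_relB_inj {u u' : Sˣ} {d : ClassGroup R} (hu : HerbRelB R σ u d)
    (hu' : HerbRelB R σ u' d) : ∃ w : Sˣ, (u' : S) * σ • (w : S) = u * w := by
  obtain ⟨b, 𝔞, hb, hub, h𝔞0, h𝔞, rfl⟩ := hu
  obtain ⟨b', 𝔞', hb', hub', h𝔞0', h𝔞', hd⟩ := hu'
  obtain ⟨α', α, hα', hα, hαα⟩ := (herbCls_eq_iff h𝔞0' h𝔞0).mp hd
  have h1 := congrArg (Ideal.map (algebraMap R S)) hαα
  rw [Ideal.map_mul, Ideal.map_mul, h𝔞, h𝔞', Ideal.map_span, Ideal.map_span, Set.image_singleton,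
    Set.image_singleton, Ideal.span_singleton_mul_span_singleton,
    Ideal.span_singleton_mul_span_singleton] at h1
  obtain ⟨w, hw⟩ := Ideal.span_singleton_eq_span_singleton.mp h1.symm
  -- `α b w = α' b'`
  refine ⟨w, ?_⟩
  have hα0 : algebraMap R S α ≠ 0 := fun h0 => hα (hinj (by rw [h0, map_zero]))
  have hσb : σ • b ≠ 0 := by rwa [Ne, smul_eq_zero_iff_eq]
  have h2 := congrArg (fun z => σ • z) hw
  simp only [smul_mul', h.alg] at h2
  apply mul_left_cancel₀ (mul_ne_zero hα0 hσb)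
  calc algebraMap R S α * σ • b * ((u' : S) * σ • (w : S))
      = (u' : S) * (algebraMap R S α * σ • b * σ • (w : S)) := by ring
    _ = (u' : S) * (algebraMap R S α' * σ • b') := by rw [h2]
    _ = algebraMap R S α' * ((u' : S) * σ • b') := by ring
    _ = algebraMap R S α' * b' := by rw [hub']
    _ = algebraMap R S α * b * w := hw.symm
    _ = algebraMap R S α * ((u : S) * σ • b) * w := by rw [hub]
    _ = algebraMap R S α * σ • b * ((u : S) * w) := by ring

end withData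

/-! ### the unit group -/

variable (S σ) in
/-- the action of `σ` on the units -/
def herbU : Sˣ →* Sˣ := Units.map (MulSemiringAction.toRingHom G S σ : S →* S)

variable (S σ) in
/-- the action of `σ` on the units, additively -/
def herbS : AddMonoid.End (Additive Sˣ) := MonoidHom.toAdditive (herbU S σ)

lemma herbU_coe (u : Sˣ) : ((herbU S σ u : Sˣ) : S) = σ • (u : S) := rfl

lemma herbS_apply (u : Sˣ) : herbS S σ (Additive.ofMul u) = Additive.ofMul (herbU S σ u) := rfl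

lemma herbS_pow_apply (i : ℕ) (u : Sˣ) :
    (((herbS S σ ^ i) (Additive.ofMul u)).toMul : S) = (σ ^ i) • (u : S) := by
  induction i with
  | zero => simp
  | succ n ih =>
    rw [pow_succ']
    show ((herbS S σ ((herbS S σ ^ n) (Additive.ofMul u))).toMul : S) = _
    have : (herbS S σ ^ n) (Additive.ofMul u) =
        Additive.ofMul ((herbS S σ ^ n) (Additive.ofMul u)).toMul := rfl
    rw [this, herbS_apply, toMul_ofMul, herbU_coe, ih, smul_smul, pow_succ']

lemma herbN_coe (u : Sˣ) :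
    ((herbN (herbS S σ) p (Additive.ofMul u)).toMul : S) = herbNrm σ p (u : S) := by
  rw [herbN_apply, toMul_sum, Units.coe_prod, herbNrm]
  exact Finset.prod_congr rfl fun i _ => herbS_pow_apply i u

lemma herbD_coe (u : Sˣ) :
    ((herbD (herbS S σ) (Additive.ofMul u)).toMul : S) * σ • (u : S) = u := by
  rw [herbD_apply, herbS_apply, toMul_sub, toMul_ofMul, toMul_ofMul, ← herbU_coe, ← Units.val_mul,
    div_mul_cancel]

lemma herb_mem_kerD (u : Sˣ) :
    Additive.ofMul u ∈ (herbD (herbS S σ)).ker ↔ σ • (u : S) = u := by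
  rw [AddMonoidHom.mem_ker]
  constructor
  · intro h0
    have := herbD_coe (σ := σ) u
    rw [h0] at this
    simpa using this
  · intro h0
    have := herbD_coe (σ := σ) u
    rw [h0] at this
    have h1 : ((herbD (herbS S σ) (Additive.ofMul u)).toMul : S) = 1 :=
      mul_right_cancel₀ u.ne_zero (by rw [this, one_mul])
    have h2 : (herbD (herbS S σ) (Additive.ofMul u)).toMul = 1 := Units.ext h1
    exact h2

lemma herb_mem_kerN (u : Sˣ) :
    Additive.ofMul u ∈ (herbN (herbS S σ) p).ker ↔ herbNrm σ p (u : S) = 1 := by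
  rw [AddMonoidHom.mem_ker, ← herbN_coe]
  constructor
  · intro h0; rw [h0]; rfl
  · intro h0
    have h2 : (herbN (herbS S σ) p (Additive.ofMul u)).toMul = 1 := Units.ext h0
    exact h2



/-! ### counting -/

section count

variable (h : HerbData R S σ p) (hinj : Function.Injective (algebraMap R S))
  (ι : ClassGroup R →* ClassGroup S)
  (hι : ∀ 𝔞 : Ideal R, 𝔞 ≠ ⊥ → ι (herbCls 𝔞) = herbCls (𝔞.map (algebraMap R S)))

include h hinj hι

/-- `[B : DM] ≤ # ker(Cl_R → Cl_S)` -/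
lemma herb_count_B [Finite (ClassGroup R)] :
    (herbD (herbS S σ)).range.relIndex (herbN (herbS S σ) p).ker ≤ Nat.card ι.ker := by
  classical
  set B := (herbN (herbS S σ) p).ker with hB
  set DM := (herbD (herbS S σ)).range with hDM
  rw [AddSubgroup.relIndex, AddSubgroup.index_eq_card]
  have hex : ∀ x : B, ∃ d, ι d = 1 ∧ HerbRelB R σ (x.1.toMul) d := fun x =>
    herb_relB_exists h ι hι x.1.toMul ((herb_mem_kerN _).mp x.2)
  choose g hg1 hg2 using hex
  refine Nat.card_le_card_of_injective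
    (fun q : B ⧸ DM.addSubgroupOf B => (⟨g q.out, hg1 q.out⟩ : ι.ker)) ?_
  intro q q' hqq
  have h1 : g q.out = g q'.out := congrArg Subtype.val hqq
  have h2 := hg2 q.out
  have h3 := hg2 q'.out
  rw [← h1] at h3
  obtain ⟨w, hw⟩ := herb_relB_inj h hinj h2 h3
  rw [← q.out_eq', ← q'.out_eq']
  apply (QuotientAddGroup.eq).mpr
  rw [AddSubgroup.mem_addSubgroupOf]
  refine ⟨Additive.ofMul w, ?_⟩
  -- `w / σ w = u' / u`
  have h4 := herbD_coe (σ := σ) w
  have h5 : ((herbD (herbS S σ) (Additive.ofMul w)).toMul : S) * (q.out.1.toMul : S) =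
      (q'.out.1.toMul : S) := by
    have hσw : σ • (w : S) ≠ 0 := by rw [Ne, smul_eq_zero_iff_eq]; exact w.ne_zero
    apply mul_right_cancel₀ hσw
    calc ((herbD (herbS S σ) (Additive.ofMul w)).toMul : S) * (q.out.1.toMul : S) * σ • (w : S)
        = (((herbD (herbS S σ) (Additive.ofMul w)).toMul : S) * σ • (w : S)) *
            (q.out.1.toMul : S) := by ring
      _ = (q.out.1.toMul : S) * w := by rw [h4]; ring
      _ = (q'.out.1.toMul : S) * σ • (w : S) := hw.symm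
  have h6 : (herbD (herbS S σ) (Additive.ofMul w)).toMul * q.out.1.toMul = q'.out.1.toMul :=
    Units.ext h5
  have h7 : herbD (herbS S σ) (Additive.ofMul w) + q.out.1 = q'.out.1 := h6
  rw [AddSubgroup.coe_add, AddSubgroup.coe_neg, ← h7]
  abel

/-- `# Cl_S^σ ≤ [A : NM] # im(Cl_R → Cl_S)` -/
lemma herb_count_A [Finite (ClassGroup S)] (τ : ClassGroup S →* ClassGroup S)
    (hτ : ∀ J : Ideal S, J ≠ ⊥ → τ (herbCls J) = herbCls (σ • J))
    (ha : (herbN (herbS S σ) p).range.relIndex (herbD (herbS S σ)).ker ≠ 0) :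
    Nat.card (τ / MonoidHom.id _).ker ≤
      (herbN (herbS S σ) p).range.relIndex (herbD (herbS S σ)).ker * Nat.card ι.range := by
  classical
  set A := (herbD (herbS S σ)).ker with hA
  set NM := (herbN (herbS S σ) p).range with hNM
  set F := (τ / MonoidHom.id _).ker with hF
  have hfin : Finite (A ⧸ NM.addSubgroupOf A) := by
    rw [AddSubgroup.relIndex, AddSubgroup.index_eq_card] at ha
    exact Nat.finite_of_card_ne_zero ha
  have hFmem : ∀ c : F, τ c.1 = c.1 := by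
    intro c
    have h0 : c.1 ∈ (τ / MonoidHom.id _).ker := c.2
    rw [MonoidHom.mem_ker, MonoidHom.div_apply, MonoidHom.id_apply, div_eq_one] at h0
    exact h0
  have hex : ∀ c : F, ∃ u : Sˣ, σ • (u : S) = u ∧ HerbRelA σ p c.1 u := fun c =>
    herb_relA_exists h τ hτ c.1 (hFmem c)
  choose g hg1 hg2 using hex
  have h1 : Nat.card (F ⧸ ι.range.subgroupOf F) ≤ Nat.card (A ⧸ NM.addSubgroupOf A) := by
    refine Nat.card_le_card_of_injective
      (fun q : F ⧸ ι.range.subgroupOf F =>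
        (QuotientAddGroup.mk (⟨Additive.ofMul (g q.out), (herb_mem_kerD _).mpr (hg1 q.out)⟩ : A) :
          A ⧸ NM.addSubgroupOf A)) ?_
    intro q q' hqq
    have h2 := (QuotientAddGroup.eq).mp hqq
    rw [AddSubgroup.mem_addSubgroupOf] at h2
    obtain ⟨v, hv⟩ := h2
    have hv' : (herbN (herbS S σ) p v).toMul = (g q.out)⁻¹ * g q'.out := by
      rw [hv]; rfl
    have hv'' : ((g q'.out : Sˣ) : S) = g q.out * herbNrm σ p (v.toMul : S) := by
      have h3 := herbN_coe (σ := σ) (p := p) v.toMul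
      rw [← h3]
      have : herbN (herbS S σ) p (Additive.ofMul v.toMul) = herbN (herbS S σ) p v := rfl
      rw [this, hv', ← Units.val_mul, mul_inv_cancel_left]
    obtain ⟨d, hd⟩ := herb_relA_inj h ι hι (hg2 q'.out) (hg2 q.out) ⟨v.toMul, hv''⟩
    rw [← q.out_eq', ← q'.out_eq']
    apply (QuotientGroup.eq).mpr
    rw [Subgroup.mem_subgroupOf]
    refine ⟨d, ?_⟩
    rw [Subgroup.coe_mul, Subgroup.coe_inv, hd, inv_mul_cancel_left]
  have h2 : Nat.card (ι.range.subgroupOf F) ≤ Nat.card ι.range := by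
    refine Nat.card_le_card_of_injective
      (fun x : ι.range.subgroupOf F => (⟨x.1.1, x.2⟩ : ι.range)) ?_
    intro x y hxy
    exact Subtype.ext (Subtype.ext (congrArg (fun z : ι.range => z.1) hxy))
  rw [Subgroup.card_eq_card_quotient_mul_card_subgroup (ι.range.subgroupOf F)]
  rw [AddSubgroup.relIndex, AddSubgroup.index_eq_card]
  exact Nat.mul_le_mul h1 h2

end count

/-- **(B), abstract form**: the norm map on ideal classes is not surjective. -/
theorem herb_not_surjective (h : HerbData R S σ p) (hinj : Function.Injective (algebraMap R S))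
    [Finite (ClassGroup R)] [Finite (ClassGroup S)]
    (hidx : (herbN (herbS S σ) p).range.relIndex (herbD (herbS S σ)).ker ≠ 0 ∧
      (herbN (herbS S σ) p).range.relIndex (herbD (herbS S σ)).ker <
        (herbD (herbS S σ)).range.relIndex (herbN (herbS S σ) p).ker)
    (nm : Ideal S → Ideal R) (nm_mul : ∀ I J, nm (I * J) = nm I * nm J)
    (nm_ne : ∀ I, I ≠ ⊥ → nm I ≠ ⊥)
    (nm_span : ∀ x : S, x ≠ 0 → ∃ r : R, r ≠ 0 ∧ nm (Ideal.span {x}) = Ideal.span {r})
    (nm_smul : ∀ I, nm (σ • I) = nm I) :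
    ∃ C : ClassGroup R, ∀ J : Ideal S, J ≠ ⊥ → herbCls (nm J) ≠ C := by
  obtain ⟨ι, hι⟩ := herb_exists_iota (R := R) (S := S) hinj
  obtain ⟨τ, hτ⟩ := herb_exists_tau (S := S) σ
  obtain ⟨φ, hφ⟩ : ∃ φ : ClassGroup S →* ClassGroup R, ∀ J : Ideal S, J ≠ ⊥ →
      φ (herbCls J) = herbCls (nm J) := by
    apply herb_lift
    · intro I J hI hJ
      rw [nm_mul, herbCls_mul (nm_ne I hI) (nm_ne J hJ)]
    · intro x hx
      obtain ⟨r, hr, hr'⟩ := nm_span x hx
      rw [hr', herbCls_span hr]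
  by_contra hcon
  push Not at hcon
  have hsurj : Function.Surjective φ := by
    intro C
    obtain ⟨J, hJ, hJC⟩ := hcon C
    exact ⟨herbCls J, by rw [hφ J hJ, hJC]⟩
  set κ := τ / MonoidHom.id (ClassGroup S) with hκ
  have hκφ : κ.range ≤ φ.ker := by
    rintro _ ⟨c, rfl⟩
    obtain ⟨J, hJ, rfl⟩ := herbCls_surj c
    rw [MonoidHom.mem_ker, hκ, MonoidHom.div_apply, MonoidHom.id_apply, map_div, hτ J hJ,
      hφ _ (herb_smul_ne_bot σ hJ), hφ J hJ, nm_smul, div_self']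
  have c1 : Nat.card φ.ker * Nat.card φ.range = Nat.card (ClassGroup S) := by
    rw [← Subgroup.index_ker]; exact Subgroup.card_mul_index _
  have c2 : Nat.card κ.ker * Nat.card κ.range = Nat.card (ClassGroup S) := by
    rw [← Subgroup.index_ker]; exact Subgroup.card_mul_index _
  have c3 : Nat.card ι.ker * Nat.card ι.range = Nat.card (ClassGroup R) := by
    rw [← Subgroup.index_ker]; exact Subgroup.card_mul_index _
  have c4 : Nat.card κ.range ≤ Nat.card φ.ker := Subgroup.card_le_of_le hκφ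
  have c5 : Nat.card φ.range = Nat.card (ClassGroup R) := by
    rw [MonoidHom.range_eq_top.mpr hsurj]; exact Subgroup.card_top
  have c6 := herb_count_A h hinj ι hι τ hτ hidx.1
  have c7 := herb_count_B h hinj ι hι
  have c8 : 0 < Nat.card φ.ker := Nat.card_pos
  have c9 : 0 < Nat.card ι.range := Nat.card_pos
  have c10 : Nat.card φ.range ≤ Nat.card κ.ker := by
    apply Nat.le_of_mul_le_mul_left _ c8
    rw [c1, ← c2, mul_comm]
    exact Nat.mul_le_mul_right _ c4
  have c11 : Nat.card κ.ker < Nat.card (ClassGroup R) := by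
    calc Nat.card κ.ker ≤ _ := c6
      _ < (herbD (herbS S σ)).range.relIndex (herbN (herbS S σ) p).ker * Nat.card ι.range :=
          Nat.mul_lt_mul_of_pos_right hidx.2 c9
      _ ≤ Nat.card ι.ker * Nat.card ι.range := Nat.mul_le_mul_right _ c7
      _ = _ := c3
  omega

end Main

end Fermat.Agent.S14
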