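import Mathlib
import Fermat.Agent.S14.BClass

/-!
# S14 (B), part III: for an unramified cyclic extension `L/K` of prime degree `p` of a totally
complex number field `K` containing the `p`-th roots of unity, the norm `Cl_L → Cl_K` is not
surjective.
-/

set_option autoImplicit false
set_option linter.unusedSectionVars false

namespace Fermat.Agent.S14

open NumberField Module
open scoped Pointwise

section inv

variable {K L : Type} [Field K] [Field L] [NumberField K] [NumberField L] [Algebra K L]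
  [IsGalois K L]

lemma herb_smul_map (g : Gal(L/K)) (𝔞 : Ideal (𝓞 K)) :
    g • 𝔞.map (algebraMap (𝓞 K) (𝓞 L)) = 𝔞.map (algebraMap (𝓞 K) (𝓞 L)) := by
  rw [Ideal.pointwise_smul_def, Ideal.map_map]
  congr 1
  ext x
  simp [smul_algebraMap]

/-- if `L/K` is unramified at `P` then `𝔭 𝓞_L` divides every invariant ideal contained in `P` -/
lemma herb_map_dvd (hunr : ∀ P : Ideal (𝓞 L), P.IsPrime → P ≠ ⊥ → Ideal.inertia Gal(L/K) P = ⊥)
    (J : Ideal (𝓞 L)) (hinv : ∀ g : Gal(L/K), g • J = J) (P : Ideal (𝓞 L)) [P.IsMaximal]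
    (hP0 : P ≠ ⊥) (hJP : J ≤ P) :
    (P.under (𝓞 K)).map (algebraMap (𝓞 K) (𝓞 L)) ∣ J := by
  set 𝔭 := P.under (𝓞 K) with h𝔭
  have h𝔭max : 𝔭.IsMaximal := inferInstance
  have h𝔭0 : 𝔭 ≠ 0 := Ideal.under_ne_bot _ hP0
  rw [Ideal.map_algebraMap_eq_finsetProd_pow h𝔭0]
  have he : ∀ Q ∈ 𝔭.primesOver (𝓞 L), Q.ramificationIdx (𝓞 K) = 1 := by
    intro Q hQ
    have hQp : Q.IsPrime := hQ.1
    have hQl : Q.LiesOver 𝔭 := hQ.2
    have hQ0 : Q ≠ ⊥ := by
      rintro rfl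
      apply h𝔭0
      rw [hQl.over]
      exact Ideal.under_bot _ _ 
    rw [← Ideal.ramificationIdxIn_eq_ramificationIdx 𝔭 Q Gal(L/K),
      ← Ideal.card_inertia_eq_ramificationIdxIn (G := Gal(L/K)) 𝔭 Q, hunr Q hQp hQ0]
    simp
  have h1 : ∏ Q ∈ 𝔭.primesOver (𝓞 L), Q ^ Q.ramificationIdx (𝓞 K) = ∏ Q ∈ 𝔭.primesOver (𝓞 L), Q := by
    refine Finset.prod_congr rfl fun Q hQ => ?_
    rw [he Q (by simpa using hQ), pow_one]
  rw [h1]
  apply Finset.prod_primes_dvd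
  · intro Q hQ
    have hQ' : Q ∈ 𝔭.primesOver (𝓞 L) := by simpa using hQ
    have hQp : Q.IsPrime := hQ'.1
    have hQl : Q.LiesOver 𝔭 := hQ'.2
    have hQ0 : Q ≠ ⊥ := by
      rintro rfl
      apply h𝔭0
      rw [hQl.over]
      exact Ideal.under_bot _ _
    exact Ideal.prime_of_isPrime hQ0 hQp
  · intro Q hQ
    have hQ' : Q ∈ 𝔭.primesOver (𝓞 L) := by simpa using hQ
    have hQp : Q.IsPrime := hQ'.1
    have hQl : Q.LiesOver 𝔭 := hQ'.2
    have hPl : P.LiesOver 𝔭 := ⟨rfl⟩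
    obtain ⟨g, rfl⟩ := Ideal.exists_smul_eq_of_isGaloisGroup 𝔭 P Q Gal(L/K)
    rw [Ideal.dvd_iff_le, ← hinv g]
    exact Ideal.pointwise_smul_le_pointwise_smul_iff.mpr hJP

theorem herb_inv (hunr : ∀ P : Ideal (𝓞 L), P.IsPrime → P ≠ ⊥ → Ideal.inertia Gal(L/K) P = ⊥)
    (J : Ideal (𝓞 L)) (hJ : J ≠ ⊥) (hinv : ∀ g : Gal(L/K), g • J = J) :
    ∃ 𝔞 : Ideal (𝓞 K), 𝔞.map (algebraMap (𝓞 K) (𝓞 L)) = J := by
  induction J using IsNoetherian.induction with
  | hgt J ih =>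
    by_cases htop : J = ⊤
    · exact ⟨⊤, by rw [Ideal.map_top, htop]⟩
    obtain ⟨P, hPmax, hJP⟩ := Ideal.exists_le_maximal J htop
    have hP0 : P ≠ ⊥ := fun h => hJ (le_bot_iff.mp (h ▸ hJP))
    obtain ⟨J', hJ'⟩ := herb_map_dvd hunr J hinv P hP0 hJP
    set M := (P.under (𝓞 K)).map (algebraMap (𝓞 K) (𝓞 L)) with hM
    have hM0 : M ≠ 0 := by
      rintro h0
      rw [h0, zero_mul] at hJ'
      exact hJ hJ'
    have hJ'0 : J' ≠ ⊥ := by
      rintro rfl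
      rw [Ideal.mul_bot] at hJ'
      exact hJ hJ'
    have hMP : M ≤ P := Ideal.map_comap_le
    have hlt : J < J' := by
      refine lt_of_le_of_ne (hJ' ▸ Ideal.mul_le_right) ?_
      intro heq
      have h1 : M * J' = 1 * J' := by rw [one_mul, ← hJ', heq]
      have h2 : M = 1 := mul_right_cancel₀ hJ'0 h1
      rw [h2, Ideal.one_eq_top, top_le_iff] at hMP
      exact hPmax.ne_top hMP
    have hinv' : ∀ g : Gal(L/K), g • J' = J' := by
      intro g
      have h1 := hinv g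
      rw [hJ', smul_mul', hM, herb_smul_map] at h1
      exact mul_left_cancel₀ hM0 h1
    obtain ⟨𝔞, h𝔞⟩ := ih J' hlt hJ'0 hinv'
    exact ⟨P.under (𝓞 K) * 𝔞, by rw [Ideal.map_mul, h𝔞, hJ']⟩

end inv

section data

variable {K L : Type} [Field K] [Field L] [NumberField K] [NumberField L] [Algebra K L]
  [IsGalois K L] {σ : Gal(L/K)} {p : ℕ}

lemma herb_coe_smul (g : Gal(L/K)) (x : 𝓞 L) : ((g • x : 𝓞 L) : L) = g (x : L) := rfl

lemma herb_coe_nrm (x : 𝓞 L) :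
    ((herbNrm σ p x : 𝓞 L) : L) = ∏ i ∈ Finset.range p, (σ ^ i) (x : L) := by
  rw [herbNrm]
  rw [show ((∏ i ∈ Finset.range p, (σ ^ i) • x : 𝓞 L) : L) =
    algebraMap (𝓞 L) L (∏ i ∈ Finset.range p, (σ ^ i) • x) from rfl, map_prod]
  rfl

lemma herb_orderOf (hσ : ∀ g, g ∈ Subgroup.zpowers σ) (hdeg : Module.finrank K L = p) :
    orderOf σ = p := by
  rw [orderOf_eq_card_of_forall_mem_zpowers hσ, IsGalois.card_aut_eq_finrank, hdeg]

lemma herb_prod_gal (hσ : ∀ g, g ∈ Subgroup.zpowers σ) (hdeg : Module.finrank K L = p)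
    (f : Gal(L/K) → L) : ∏ g : Gal(L/K), f g = ∏ i ∈ Finset.range p, f (σ ^ i) := by
  classical
  rw [← IsCyclic.image_range_orderOf hσ, herb_orderOf hσ hdeg, Finset.prod_image]
  intro i hi j hj hij
  rw [← herb_orderOf hσ hdeg] at hi hj
  exact pow_injOn_Iio_orderOf (by simpa using hi) (by simpa using hj) hij

lemma herb_all_of_gen {α : Type*} [MulAction Gal(L/K) α] (hσ : ∀ g, g ∈ Subgroup.zpowers σ)
    {a : α} (ha : σ • a = a) (g : Gal(L/K)) : g • a = a := by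
  have h1 : Subgroup.zpowers σ ≤ MulAction.stabilizer Gal(L/K) a := by
    rw [Subgroup.zpowers_le]; exact ha
  exact h1 (hσ g)

lemma herb_h90 (hσ : ∀ g, g ∈ Subgroup.zpowers σ) (hdeg : Module.finrank K L = p)
    (x y : 𝓞 L) (hx : x ≠ 0) (hy : y ≠ 0) (hxy : herbNrm σ p x = herbNrm σ p y) :
    ∃ b : 𝓞 L, b ≠ 0 ∧ x * σ • b = y * b := by
  have hx' : (x : L) ≠ 0 := by simpa using hx
  have hy' : (y : L) ≠ 0 := by simpa using hy
  have hcyc : IsCyclic Gal(L/K) := ⟨σ, hσ⟩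
  have hnorm : Algebra.norm K ((x : L) / (y : L)) = 1 := by
    apply (algebraMap K L).injective
    rw [Algebra.norm_eq_prod_automorphisms, herb_prod_gal hσ hdeg, map_one]
    simp only [map_div₀, Finset.prod_div_distrib]
    rw [← herb_coe_nrm, ← herb_coe_nrm, hxy, div_self]
    have := herbNrm_ne_zero (σ := σ) (p := p) hy
    simpa using this
  obtain ⟨ε, hε⟩ := groupCohomology.exists_div_of_norm_eq_one hσ hnorm
  have halg : IsAlgebraic ℤ (ε : L) := by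
    have : Algebra.IsAlgebraic ℚ L := inferInstance
    exact (IsFractionRing.isAlgebraic_iff ℤ ℚ L).mpr (Algebra.IsAlgebraic.isAlgebraic _)
  obtain ⟨n, hn, hint⟩ := halg.exists_integral_multiple
  refine ⟨⟨n • (ε : L), hint⟩, ?_, ?_⟩
  · intro h0
    have h1 : n • (ε : L) = 0 := congrArg (fun z : 𝓞 L => (z : L)) h0
    rw [smul_eq_zero] at h1
    exact h1.elim hn ε.ne_zero
  · apply RingOfIntegers.ext
    show (x : L) * σ (n • (ε : L)) = (y : L) * (n • (ε : L))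
    have hσε : σ (ε : L) ≠ 0 := by simp
    rw [div_eq_div_iff hσε hy'] at hε
    rw [map_zsmul, mul_smul_comm, mul_smul_comm, ← hε, mul_comm]

theorem herb_data (hp : p.Prime) (hσ : ∀ g, g ∈ Subgroup.zpowers σ)
    (hdeg : Module.finrank K L = p)
    (hinvs : ∀ J : Ideal (𝓞 L), J ≠ ⊥ → (∀ g : Gal(L/K), g • J = J) →
      ∃ 𝔞 : Ideal (𝓞 K), 𝔞.map (algebraMap (𝓞 K) (𝓞 L)) = J) :
    HerbData (𝓞 K) (𝓞 L) σ p where
  pos := hp.pos
  pow := by rw [← herb_orderOf hσ hdeg]; exact pow_orderOf_eq_one σ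
  alg r := smul_algebraMap σ r
  fixed x hx := Algebra.IsInvariant.isInvariant (A := 𝓞 K) (G := Gal(L/K)) x
    (fun g => herb_all_of_gen hσ hx g)
  h90 := herb_h90 hσ hdeg
  inv J hJ hJσ := hinvs J hJ (fun g => herb_all_of_gen hσ hJσ g)

end data

section units

lemma herb_rank_complex (F : Type) [Field F] [NumberField F] [IsTotallyComplex F] :
    2 * (Units.rank F + 1) = finrank ℚ F := by
  have h1 := IsTotallyComplex.finrank F
  have h2 := InfinitePlace.card_eq_nrRealPlaces_add_nrComplexPlaces F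
  have h3 := IsTotallyComplex.nrRealPlaces_eq_zero F
  have h4 : 0 < Fintype.card (InfinitePlace F) := Fintype.card_pos
  rw [Units.rank]
  omega

variable {K L : Type} [Field K] [Field L] [NumberField K] [NumberField L] [Algebra K L]
  [IsGalois K L] {σ : Gal(L/K)} {p : ℕ}

lemma herbS_pow_eq_one (hpow : σ ^ p = 1) : herbS (𝓞 L) σ ^ p = 1 := by
  refine DFunLike.ext _ _ fun u => ?_
  have h1 := herbS_pow_apply (S := 𝓞 L) (σ := σ) p u.toMul
  rw [hpow, one_smul] at h1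
  have h2 : ((herbS (𝓞 L) σ ^ p) (Additive.ofMul u.toMul)).toMul = u.toMul := Units.ext h1
  exact h2

lemma herb_card_torsion (hp : p ≠ 0) :
    Nat.card (nsmulAddMonoidHom (α := Additive (𝓞 L)ˣ) p).ker ≤ p := by
  have : NeZero p := ⟨hp⟩
  refine le_trans (le_of_eq ?_) (card_rootsOfUnity (𝓞 L) p)
  refine Nat.card_congr ⟨fun x => ⟨x.1.toMul, ?_⟩, fun x => ⟨Additive.ofMul x.1, ?_⟩, ?_, ?_⟩
  · rw [mem_rootsOfUnity]
    exact x.2
  · rw [AddMonoidHom.mem_ker]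
    exact (mem_rootsOfUnity _ _).mp x.2
  · intro x; rfl
  · intro x; rfl

/-- the fixed units are the units of `𝓞 K` -/
lemma herb_finrank_fixed (hfix : ∀ x : 𝓞 L, σ • x = x → ∃ r : 𝓞 K, algebraMap (𝓞 K) (𝓞 L) r = x) :
    finrank ℤ (herbD (herbS (𝓞 L) σ)).ker = Units.rank K := by
  rw [← Units.finrank_eq K]
  have hinj : Function.Injective (algebraMap (𝓞 K) (𝓞 L)) := FaithfulSMul.algebraMap_injective _ _
  let f : Additive (𝓞 K)ˣ →+ (herbD (herbS (𝓞 L) σ)).ker :=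
    { toFun := fun u => ⟨Additive.ofMul (Units.map (algebraMap (𝓞 K) (𝓞 L) : 𝓞 K →* 𝓞 L) u.toMul),
        (herb_mem_kerD _).mpr (smul_algebraMap σ _)⟩
      map_zero' := by
        apply Subtype.ext
        show Additive.ofMul (Units.map (algebraMap (𝓞 K) (𝓞 L) : 𝓞 K →* 𝓞 L) 1) = 0
        rw [map_one]; rfl
      map_add' := fun u v => by
        apply Subtype.ext
        show Additive.ofMul (Units.map (algebraMap (𝓞 K) (𝓞 L) : 𝓞 K →* 𝓞 L) (u.toMul * v.toMul)) = _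
        rw [map_mul]; rfl }
  have hbij : Function.Bijective f := by
    constructor
    · intro u v huv
      have h1 : Units.map (algebraMap (𝓞 K) (𝓞 L) : 𝓞 K →* 𝓞 L) u.toMul =
          Units.map (algebraMap (𝓞 K) (𝓞 L) : 𝓞 K →* 𝓞 L) v.toMul := congrArg (fun z => z.1.toMul) huv
      have h2 : u.toMul = v.toMul := Units.map_injective (f := (algebraMap (𝓞 K) (𝓞 L) : 𝓞 K →* 𝓞 L)) hinj h1
      exact h2
    · rintro ⟨v, hv⟩
      have hv1 : σ • (v.toMul : 𝓞 L) = v.toMul := (herb_mem_kerD v.toMul).mp hv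
      have hv2 : σ • ((v.toMul⁻¹ : (𝓞 L)ˣ) : 𝓞 L) = (v.toMul⁻¹ : (𝓞 L)ˣ) := by
        have h3 : σ • ((v.toMul : 𝓞 L) * ((v.toMul⁻¹ : (𝓞 L)ˣ) : 𝓞 L)) = 1 := by simp
        rw [smul_mul', hv1] at h3
        apply mul_left_cancel₀ v.toMul.ne_zero
        rw [h3]; simp
      obtain ⟨r, hr⟩ := hfix _ hv1
      obtain ⟨r', hr'⟩ := hfix _ hv2
      have hrr : r * r' = 1 := by
        apply hinj
        rw [map_mul, hr, hr', map_one]; simp
      refine ⟨Additive.ofMul ⟨r, r', hrr, by rw [mul_comm]; exact hrr⟩, ?_⟩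
      apply Subtype.ext
      have : Units.map (algebraMap (𝓞 K) (𝓞 L) : 𝓞 K →* 𝓞 L) ⟨r, r', hrr, by rw [mul_comm]; exact hrr⟩ = v.toMul :=
        Units.ext hr
      exact this
  exact ((AddEquiv.ofBijective f hbij).toIntLinearEquiv.finrank_eq).symm

lemma herb_exists_z (hp : p.Prime) (ζ : K) (hζ : IsPrimitiveRoot ζ p) :
    ∃ z : Additive (𝓞 L)ˣ, herbN (herbS (𝓞 L) σ) p z = 0 ∧ z ≠ 0 ∧ p • z = 0 := by
  have : NeZero p := ⟨hp.ne_zero⟩
  have hζ' := hζ.toInteger_isPrimitiveRoot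
  set u : (𝓞 K)ˣ := (hζ'.isUnit hp.ne_zero).unit with hu
  have hu1 : (u : 𝓞 K) = hζ.toInteger := rfl
  have hinj : Function.Injective (algebraMap (𝓞 K) (𝓞 L)) := FaithfulSMul.algebraMap_injective _ _
  set w : (𝓞 L)ˣ := Units.map (algebraMap (𝓞 K) (𝓞 L) : 𝓞 K →* 𝓞 L) u with hw
  have hw1 : (w : 𝓞 L) = algebraMap (𝓞 K) (𝓞 L) hζ.toInteger := rfl
  have hwp : w ^ p = 1 := by
    apply Units.ext
    rw [Units.val_pow_eq_pow_val, hw1, ← map_pow, hζ'.pow_eq_one, map_one]; rfl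
  refine ⟨Additive.ofMul w, ?_, ?_, hwp⟩
  · have : Additive.ofMul w ∈ (herbN (herbS (𝓞 L) σ) p).ker := by
      rw [herb_mem_kerN, herbNrm, hw1]
      simp only [smul_algebraMap, Finset.prod_const, Finset.card_range]
      rw [← map_pow, hζ'.pow_eq_one, map_one]
    exact this
  · intro h0
    have h1 : w = 1 := h0
    have h2 : algebraMap (𝓞 K) (𝓞 L) hζ.toInteger = 1 := by rw [← hw1, h1]; rfl
    have h3 : hζ.toInteger = 1 := hinj (by rw [h2, map_one])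
    exact hζ'.ne_one hp.one_lt h3

end units

section final

variable {K L : Type} [Field K] [Field L] [NumberField K] [NumberField L] [Algebra K L]
  [IsGalois K L] [IsTotallyComplex K] {p : ℕ}

/-- **(B)** the norm on ideal classes is not surjective. -/
theorem herb_main (hp : p.Prime) (hdeg : Module.finrank K L = p) (ζ : K)
    (hζ : IsPrimitiveRoot ζ p)
    (hunr : ∀ P : Ideal (𝓞 L), P.IsPrime → P ≠ ⊥ → Ideal.inertia Gal(L/K) P = ⊥) :
    ∃ C : ClassGroup (𝓞 K), ∀ J : Ideal (𝓞 L), J ≠ ⊥ →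
      herbCls (Ideal.relNorm (𝓞 K) J) ≠ C := by
  have hcard : Nat.card Gal(L/K) = p := by rw [IsGalois.card_aut_eq_finrank, hdeg]
  have : Fact p.Prime := ⟨hp⟩
  have hcyc : IsCyclic Gal(L/K) := isCyclic_of_prime_card hcard
  obtain ⟨σ, hσ⟩ := hcyc.exists_generator
  have hdata : HerbData (𝓞 K) (𝓞 L) σ p := herb_data hp hσ hdeg (herb_inv hunr)
  have hinj : Function.Injective (algebraMap (𝓞 K) (𝓞 L)) := FaithfulSMul.algebraMap_injective _ _
  have hLc : IsTotallyComplex L := isTotallyComplex_of_algebra K L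
  have hrK := herb_rank_complex K
  have hrL := herb_rank_complex L
  have htower : finrank ℚ K * finrank K L = finrank ℚ L := Module.finrank_mul_finrank ℚ K L
  have hidx := herb_index_lt (M := Additive (𝓞 L)ˣ) (s := herbS (𝓞 L) σ) hp
    (herbS_pow_eq_one hdata.pow) (Units.rank K + 1)
    (by
      rw [Units.finrank_eq L]
      rw [hdeg, ← hrK, ← hrL] at htower
      have : 2 * (Units.rank L + 1) = 2 * (p * (Units.rank K + 1)) := by rw [← htower]; ring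
      omega)
    (by rw [herb_finrank_fixed hdata.fixed])
    (herb_card_torsion hp.ne_zero) (herb_exists_z hp ζ hζ)
  refine herb_not_surjective hdata hinj hidx (fun J => Ideal.relNorm (𝓞 K) J)
    (fun I J => map_mul _ I J) (fun I hI => ?_) (fun x hx => ?_)
    (fun I => Ideal.relNorm_smul (𝓞 K) σ I)
  · rwa [Ne, Ideal.relNorm_eq_bot_iff]
  · refine ⟨Algebra.intNorm (𝓞 K) (𝓞 L) x, ?_, Ideal.relNorm_singleton _ x⟩
    rwa [Ne, Algebra.intNorm_eq_zero]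

/-- **(B)**, prime version: some nonzero prime of `𝓞 K` is not, up to principal ideals, the norm
of an ideal of `𝓞 L`. -/
theorem herb_exists_prime (hp : p.Prime) (hdeg : Module.finrank K L = p) (ζ : K)
    (hζ : IsPrimitiveRoot ζ p)
    (hunr : ∀ P : Ideal (𝓞 L), P.IsPrime → P ≠ ⊥ → Ideal.inertia Gal(L/K) P = ⊥) :
    ∃ P₀ : Ideal (𝓞 K), P₀.IsPrime ∧ P₀ ≠ ⊥ ∧ ∀ J : Ideal (𝓞 L), J ≠ ⊥ →
      herbCls (Ideal.relNorm (𝓞 K) J) ≠ herbCls P₀ := by
  obtain ⟨C, hC⟩ := herb_main hp hdeg ζ hζ hunr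
  by_contra hcon
  push Not at hcon
  have key : ∀ 𝔞 : Ideal (𝓞 K), 𝔞 ≠ ⊥ → ∃ J : Ideal (𝓞 L), J ≠ ⊥ ∧
      herbCls (Ideal.relNorm (𝓞 K) J) = herbCls 𝔞 := by
    intro 𝔞
    induction 𝔞 using UniqueFactorizationMonoid.induction_on_prime with
    | h₁ => intro h; exact absurd rfl h
    | h₂ x hx =>
      intro _
      rw [Ideal.isUnit_iff] at hx
      exact ⟨⊤, top_ne_bot, by rw [Ideal.relNorm_top, hx]⟩
    | h₃ a q ha hq ih =>
      intro _
      obtain ⟨J, hJ, hJa⟩ := ih ha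
      obtain ⟨J', hJ', hJq⟩ := hcon q (Ideal.isPrime_of_prime hq) hq.ne_zero
      refine ⟨J' * J, mul_ne_zero hJ' hJ, ?_⟩
      rw [map_mul, herbCls_mul (by rwa [Ne, Ideal.relNorm_eq_bot_iff])
        (by rwa [Ne, Ideal.relNorm_eq_bot_iff]), hJq, hJa, herbCls_mul hq.ne_zero ha]
  obtain ⟨𝔞, h𝔞, rfl⟩ := herbCls_surj C
  obtain ⟨J, hJ, hJ'⟩ := key 𝔞 h𝔞
  exact hC J hJ hJ'

/-- **(B)**, prime version, without class groups. -/
theorem herb_exists_prime' (hp : p.Prime) (hdeg : Module.finrank K L = p) (ζ : K)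
    (hζ : IsPrimitiveRoot ζ p)
    (hunr : ∀ P : Ideal (𝓞 L), P.IsPrime → P ≠ ⊥ → Ideal.inertia Gal(L/K) P = ⊥) :
    ∃ P₀ : Ideal (𝓞 K), P₀.IsPrime ∧ P₀ ≠ ⊥ ∧ ∀ (J : Ideal (𝓞 L)) (x y : 𝓞 K), J ≠ ⊥ →
      x ≠ 0 → y ≠ 0 → Ideal.span {x} * Ideal.relNorm (𝓞 K) J ≠ Ideal.span {y} * P₀ := by
  obtain ⟨P₀, h1, h2, h3⟩ := herb_exists_prime hp hdeg ζ hζ hunr
  refine ⟨P₀, h1, h2, fun J x y hJ hx hy h => h3 J hJ ?_⟩
  exact (herbCls_eq_iff (by rwa [Ne, Ideal.relNorm_eq_bot_iff]) h2).mpr ⟨x, y, hx, hy, h⟩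

end final

end Fermat.Agent.S14
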