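import Mathlib
import Fermat.Agent.S14.Defs
import Fermat.Agent.S14.BField

/-!
# S14 (B): `normCl K L ≠ ⊤` (the first inequality), in the shape of the skeleton
-/

set_option autoImplicit false

namespace Fermat.Agent.S14

open NumberField Ideal
open scoped nonZeroDivisors Pointwise

lemma cl_eq_herbCls {R : Type*} [CommRing R] [IsDedekindDomain R] (I : Ideal R) :
    cl I = herbCls I := by
  by_cases h : I = ⊥
  · rw [cl, herbCls, dif_neg (not_not.mpr h), dif_pos h]
  · rw [cl, herbCls, dif_pos h, dif_neg h]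

/-- the norm on ideal classes -/
theorem herb_exists_relNormCl (K F : Type*) [Field K] [NumberField K] [Field F] [NumberField F]
    [Algebra K F] :
    ∃ f : ClassGroup (𝓞 F) →* ClassGroup (𝓞 K),
      ∀ I : Ideal (𝓞 F), I ≠ ⊥ → f (cl I) = cl (relNorm (𝓞 K) I) := by
  simp only [cl_eq_herbCls]
  apply herb_lift
  · intro I J hI hJ
    rw [map_mul, herbCls_mul (by rwa [Ne, Ideal.relNorm_eq_bot_iff])
      (by rwa [Ne, Ideal.relNorm_eq_bot_iff])]
  · intro x hx
    rw [Ideal.relNorm_singleton]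
    exact herbCls_span (by rwa [Ne, Algebra.intNorm_eq_zero])

/-- `normCl K L` is the range of the norm on ideal classes -/
theorem herb_normCl_eq_range (K L : Type*) [Field K] [NumberField K] [Field L] [NumberField L]
    [Algebra K L] (f : ClassGroup (𝓞 L) →* ClassGroup (𝓞 K))
    (hf : ∀ I : Ideal (𝓞 L), I ≠ ⊥ → f (cl I) = cl (relNorm (𝓞 K) I)) :
    normCl K L = f.range := by
  have h : {C | ∃ J : Ideal (𝓞 L), J ≠ ⊥ ∧ C = cl (relNorm (𝓞 K) J)} = (f.range : Set _) := by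
    ext C
    constructor
    · rintro ⟨J, hJ, rfl⟩
      exact ⟨cl J, hf J hJ⟩
    · rintro ⟨c, rfl⟩
      obtain ⟨J, hJ, rfl⟩ := herbCls_surj c
      exact ⟨J, hJ, by rw [← cl_eq_herbCls, hf J hJ]⟩
  rw [normCl, h, Subgroup.closure_eq]

/-- membership in `normCl` -/
theorem herb_mem_normCl_iff (K L : Type*) [Field K] [NumberField K] [Field L] [NumberField L]
    [Algebra K L] (C : ClassGroup (𝓞 K)) :
    C ∈ normCl K L ↔ ∃ J : Ideal (𝓞 L), J ≠ ⊥ ∧ C = cl (relNorm (𝓞 K) J) := by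
  obtain ⟨f, hf⟩ := herb_exists_relNormCl K L
  rw [herb_normCl_eq_range K L f hf]
  constructor
  · rintro ⟨c, rfl⟩
    obtain ⟨J, hJ, rfl⟩ := herbCls_surj c
    exact ⟨J, hJ, by rw [← cl_eq_herbCls, hf J hJ]⟩
  · rintro ⟨J, hJ, rfl⟩
    exact ⟨cl J, hf J hJ⟩

/-- **(B)** the first inequality -/
theorem normCl_ne_top (p : ℕ) [Fact p.Prime] (hp2 : p ≠ 2) (K L : Type) [Field K] [NumberField K]
    [Field L] [NumberField L] [Algebra K L] [IsGalois K L] [IsCyclotomicExtension {p} ℚ K]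
    (hcard : Module.finrank K L = p) (hun : Unram K L) : normCl K L ≠ ⊤ := by
  have hp : p.Prime := Fact.out
  have : NeZero p := ⟨hp.ne_zero⟩
  have hp3 : 2 < p := lt_of_le_of_ne hp.two_le (Ne.symm hp2)
  have hc : IsTotallyComplex K :=
    nrRealPlaces_eq_zero_iff.mp (IsCyclotomicExtension.Rat.nrRealPlaces_eq_zero K hp3)
  obtain ⟨C, hC⟩ := herb_main hp hcard (IsCyclotomicExtension.zeta p ℚ K)
    (IsCyclotomicExtension.zeta_spec p ℚ K) hun
  intro htop
  have h1 : C ∈ normCl K L := by rw [htop]; trivial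
  obtain ⟨J, hJ, hJC⟩ := (herb_mem_normCl_iff K L C).mp h1
  exact hC J hJ (by rw [hJC, cl_eq_herbCls])

end Fermat.Agent.S14
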