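import Mathlib
import Fermat.Agent.S14.Defs
import Fermat.Agent.S14.ClBasic
import Fermat.Agent.S14.BMain

/-!
# S14 (CL): ideals prime to a modulus and the class group
-/

set_option autoImplicit false

namespace Fermat.Agent.S14

open NumberField Ideal
open scoped nonZeroDivisors

section CL

variable {R : Type*} [CommRing R] [IsDedekindDomain R]

/-- every class contains an integral ideal prime to `𝔪` -/
theorem cop_rep (𝔪 : Ideal R) (h𝔪 : 𝔪 ≠ ⊥) (C : ClassGroup R) :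
    ∃ I : Ideal R, I ≠ ⊥ ∧ IsCoprime I 𝔪 ∧ cl I = C := by
  obtain ⟨J, hJ, hJC⟩ := cl_surjective C⁻¹
  obtain ⟨a, ha⟩ := IsDedekindDomain.exists_sup_span_eq (I := J * 𝔪) (J := J) Ideal.mul_le_left
    (mul_ne_zero hJ h𝔪)
  by_cases ha0 : a = 0
  · -- then `𝔪 = ⊤`
    rw [ha0, Ideal.span_singleton_eq_bot.mpr rfl, sup_bot_eq] at ha
    have h1 : J * 𝔪 = J * 1 := by rw [ha, mul_one]
    have h2 : 𝔪 = 1 := mul_left_cancel₀ hJ h1
    obtain ⟨I, hI, hIC⟩ := cl_surjective C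
    exact ⟨I, hI, by rw [h2]; exact isCoprime_one_right, hIC⟩
  have haJ : span {a} ≤ J := by rw [← ha]; exact le_sup_right
  obtain ⟨I, hI⟩ := Ideal.dvd_iff_le.mpr haJ
  have hI0 : I ≠ ⊥ := by
    rintro rfl
    rw [Ideal.mul_bot, Ideal.span_singleton_eq_bot] at hI
    exact ha0 hI
  refine ⟨I, hI0, ?_, ?_⟩
  · rw [hI, ← Ideal.add_eq_sup, ← mul_add] at ha
    have h1 : J * (𝔪 + I) = J * 1 := by rw [ha, mul_one]
    have h2 : 𝔪 + I = 1 := mul_left_cancel₀ hJ h1
    rw [Ideal.isCoprime_iff_add, add_comm]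
    exact h2
  · have h1 := congrArg cl hI
    rw [cl_span_singleton, cl_mul hJ hI0, hJC] at h1
    rw [eq_comm, inv_mul_eq_one] at h1
    exact h1.symm

/-- (COP) an additive function on the ideals prime to `𝔪` which kills the principal ideals
prime to `𝔪` factors through the class group -/
theorem cop (𝔪 : Ideal R) (h𝔪 : 𝔪 ≠ ⊥) {A : Type*} [AddCommGroup A] (a : Ideal R → A)
    (hmul : ∀ I J, IsCoprime I 𝔪 → IsCoprime J 𝔪 → I ≠ ⊥ → J ≠ ⊥ → a (I * J) = a I + a J)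
    (hprin : ∀ γ : R, γ ≠ 0 → IsCoprime (span {γ}) 𝔪 → a (span {γ}) = 0) :
    ∃ f : ClassGroup R →* Multiplicative A,
      ∀ I, I ≠ ⊥ → IsCoprime I 𝔪 → f (cl I) = Multiplicative.ofAdd (a I) := by
  -- ideals prime to `𝔪` with trivial class
  have h1 : ∀ I : Ideal R, I ≠ ⊥ → IsCoprime I 𝔪 → cl I = 1 → a I = 0 := by
    intro I hI hc h
    rw [cl_of_ne hI, ClassGroup.mk0_eq_one_iff] at h
    have h2 : span {h.generator} = I := Ideal.span_singleton_generator I
    have h3 : h.generator ≠ 0 := by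
      intro h0
      rw [h0, Ideal.span_singleton_eq_bot.mpr rfl] at h2
      exact hI h2.symm
    rw [← h2]
    exact hprin _ h3 (by rw [h2]; exact hc)
  have hwd : ∀ I J : Ideal R, I ≠ ⊥ → J ≠ ⊥ → IsCoprime I 𝔪 → IsCoprime J 𝔪 → cl I = cl J →
      a I = a J := by
    intro I J hI hJ hIc hJc h
    obtain ⟨I', hI', hI'c, hI'C⟩ := cop_rep 𝔪 h𝔪 (cl I)⁻¹
    have e1 := h1 (I * I') (mul_ne_zero hI hI') (hIc.mul_left hI'c)
      (by rw [cl_mul hI hI', hI'C, mul_inv_cancel])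
    have e2 := h1 (J * I') (mul_ne_zero hJ hI') (hJc.mul_left hI'c)
      (by rw [cl_mul hJ hI', hI'C, h, mul_inv_cancel])
    rw [hmul I I' hIc hI'c hI hI'] at e1
    rw [hmul J I' hJc hI'c hJ hI'] at e2
    exact add_right_cancel (e1.trans e2.symm)
  choose rep hrep0 hrepc hrepC using cop_rep 𝔪 h𝔪
  refine ⟨MonoidHom.mk' (fun C => Multiplicative.ofAdd (a (rep C))) ?_, ?_⟩
  · intro C C'
    have h2 := hwd (rep (C * C')) (rep C * rep C') (hrep0 _) (mul_ne_zero (hrep0 _) (hrep0 _))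
      (hrepc _) ((hrepc C).mul_left (hrepc C'))
      (by rw [hrepC, cl_mul (hrep0 _) (hrep0 _), hrepC, hrepC])
    rw [hmul _ _ (hrepc C) (hrepc C') (hrep0 C) (hrep0 C')] at h2
    show Multiplicative.ofAdd (a (rep (C * C'))) = _
    rw [h2]; rfl
  · intro I hI hIc
    show Multiplicative.ofAdd (a (rep (cl I))) = _
    rw [hwd (rep (cl I)) I (hrep0 _) hI (hrepc _) hIc (hrepC _)]

end CL

/-- the norm on ideal classes -/
theorem exists_relNormCl (K F : Type*) [Field K] [NumberField K] [Field F] [NumberField F]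
    [Algebra K F] :
    ∃ f : ClassGroup (𝓞 F) →* ClassGroup (𝓞 K),
      ∀ I : Ideal (𝓞 F), I ≠ ⊥ → f (cl I) = cl (relNorm (𝓞 K) I) :=
  herb_exists_relNormCl K F

end Fermat.Agent.S14
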