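import Mathlib
import Fermat.Agent.S14.Defs
import Fermat.Agent.S14.ClBasic
import Fermat.Agent.S14.Cop

/-!
# S14 (D4): ideals of `F = fixedField Φ` with the same Artin symbol have norms in the same class
modulo norms from `L`
-/

set_option autoImplicit false

namespace Fermat.Agent.S14

open NumberField Ideal IntermediateField
open scoped nonZeroDivisors Pointwise

section D4

variable {p : ℕ} [Fact p.Prime]
  {K L F : Type} [Field K] [NumberField K] [Field L] [NumberField L]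
  [Field F] [NumberField F] [Algebra K L] [Algebra K F] {s : L ≃ₐ[K] L}

/-- (D4), abstract form: `F/K` any extension of number fields, `𝔪` any modulus. -/
theorem d4_of (𝔪 : Ideal (𝓞 F)) (h𝔪 : 𝔪 ≠ ⊥)
    (hA2 : ∀ (P : Ideal (𝓞 K)), P.IsPrime → P ≠ ⊥ → ∀ j : ℕ, (j : ZMod p) * fe s P = 0 →
      ∃ J : Ideal (𝓞 L), J ≠ ⊥ ∧ relNorm (𝓞 K) J = P ^ j)
    (hart_prime : ∀ (P : Ideal (𝓞 K)), P.IsPrime → P ≠ ⊥ → (art s P : ZMod p) = fe s P)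
    (hart_mul : ∀ {I J : Ideal (𝓞 K)}, I ≠ ⊥ → J ≠ ⊥ →
      (art s (I * J) : ZMod p) = art s I + art s J)
    (hart_pow : ∀ (I : Ideal (𝓞 K)) (n : ℕ), (art s (I ^ n) : ZMod p) = (n : ZMod p) * art s I)
    (hxc3 : ∀ H : Subgroup (ClassGroup (𝓞 F)),
      (∀ 𝔮 : Ideal (𝓞 F), 𝔮.IsPrime → 𝔮 ≠ ⊥ → IsCoprime 𝔮 𝔪 →
        (art s (relNorm (𝓞 K) 𝔮) : ZMod p) = 0 → cl 𝔮 ∈ H) → H.index ≤ p)
    (hprin : ∀ γ : 𝓞 F, γ ≠ 0 → IsCoprime (span {γ}) 𝔪 →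
      (art s (relNorm (𝓞 K) (span {γ})) : ZMod p) = 0)
    (h1 : ∃ 𝔓 : Ideal (𝓞 F), 𝔓 ≠ ⊥ ∧ IsCoprime 𝔓 𝔪 ∧ (art s (relNorm (𝓞 K) 𝔓) : ZMod p) ≠ 0)
    (𝔠 𝔠' : Ideal (𝓞 F)) (h0 : 𝔠 ≠ ⊥) (h0' : 𝔠' ≠ ⊥)
    (h𝔠 : IsCoprime 𝔠 𝔪) (h𝔠' : IsCoprime 𝔠' 𝔪)
    (h : (art s (relNorm (𝓞 K) 𝔠) : ZMod p) = art s (relNorm (𝓞 K) 𝔠')) :
    cl (relNorm (𝓞 K) 𝔠) / cl (relNorm (𝓞 K) 𝔠') ∈ normCl K L := by
  have hp : p.Prime := Fact.out
  have hne : ∀ I : Ideal (𝓞 F), I ≠ ⊥ → relNorm (𝓞 K) I ≠ ⊥ := fun I hI => by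
    rwa [Ne, Ideal.relNorm_eq_bot_iff]
  obtain ⟨f, hf⟩ := cop 𝔪 h𝔪 (fun I => (art s (relNorm (𝓞 K) I) : ZMod p))
    (fun I J _ _ hI hJ => by
      show (art s (relNorm (𝓞 K) (I * J)) : ZMod p) = _
      rw [map_mul, hart_mul (hne I hI) (hne J hJ)]) hprin
  obtain ⟨N, hN⟩ := exists_relNormCl K F
  set H' : Subgroup (ClassGroup (𝓞 F)) := Subgroup.closure
    {C | ∃ 𝔮 : Ideal (𝓞 F), 𝔮.IsPrime ∧ 𝔮 ≠ ⊥ ∧ IsCoprime 𝔮 𝔪 ∧
      (art s (relNorm (𝓞 K) 𝔮) : ZMod p) = 0 ∧ C = cl 𝔮} with hH'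
  have hidx : H'.index ≤ p := hxc3 H' fun 𝔮 h1 h2 h3 h4 =>
    Subgroup.subset_closure ⟨𝔮, h1, h2, h3, h4, rfl⟩
  have hker : H' ≤ f.ker := by
    rw [hH', Subgroup.closure_le]
    rintro _ ⟨𝔮, _, h2, h3, h4, rfl⟩
    show f (cl 𝔮) = 1
    rw [hf 𝔮 h2 h3, h4]; rfl
  have hcomap : H' ≤ (normCl K L).comap N := by
    rw [hH', Subgroup.closure_le]
    rintro _ ⟨𝔮, h1, h2, _, h4, rfl⟩
    show N (cl 𝔮) ∈ normCl K L
    rw [hN 𝔮 h2]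
    set P := 𝔮.under (𝓞 K) with hP
    have hPprime : P.IsPrime := inferInstance
    have hP0 : P ≠ ⊥ := Ideal.under_ne_bot _ h2
    have hlies : 𝔮.LiesOver P := ⟨rfl⟩
    obtain ⟨j, hj⟩ := Ideal.exists_relNorm_eq_pow_of_isPrime 𝔮 P
    rw [hj, hart_pow, hart_prime P hPprime hP0] at h4
    obtain ⟨J, hJ, hJ'⟩ := hA2 P hPprime hP0 j h4
    rw [hj, ← hJ']
    exact Subgroup.subset_closure ⟨J, hJ, rfl⟩
  -- the index of the kernel is `p`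
  have hcardZ : Nat.card (Multiplicative (ZMod p)) = p := by
    rw [Nat.card_eq_fintype_card, Fintype.card_multiplicative, ZMod.card]
  have hkidx : f.ker.index = p := by
    rw [Subgroup.index_ker]
    have hdvd : Nat.card f.range ∣ p := by
      have := Subgroup.card_subgroup_dvd_card f.range
      rwa [hcardZ] at this
    rcases (Nat.dvd_prime hp).mp hdvd with h2 | h2
    · exfalso
      obtain ⟨𝔓, hP0, hPc, hPa⟩ := h1
      have h3 : f.range = ⊥ := Subgroup.card_eq_one.mp h2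
      have h4 : f (cl 𝔓) ∈ f.range := ⟨_, rfl⟩
      rw [h3, Subgroup.mem_bot, hf 𝔓 hP0 hPc] at h4
      exact hPa h4
    · exact h2
  have hle : f.ker ≤ H' := by
    rw [← Subgroup.relIndex_eq_one]
    have h2 := Subgroup.relIndex_mul_index hker
    rw [hkidx] at h2
    have h3 : H'.index ≠ 0 := Subgroup.index_ne_zero_of_finite
    have h4 : H'.relIndex f.ker ≠ 0 := by
      intro h5; rw [h5, zero_mul] at h2; exact h3 h2.symm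
    have h5 : H'.relIndex f.ker * p ≤ 1 * p := by rw [h2, one_mul]; exact hidx
    have h6 := Nat.le_of_mul_le_mul_right h5 hp.pos
    omega
  have hmem : cl 𝔠 / cl 𝔠' ∈ f.ker := by
    rw [MonoidHom.mem_ker, map_div, hf 𝔠 h0 h𝔠, hf 𝔠' h0' h𝔠', h, div_self']
  have := hcomap (hle hmem)
  rw [Subgroup.mem_comap, map_div, hN 𝔠 h0, hN 𝔠' h0'] at this
  exact this

end D4

end Fermat.Agent.S14
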