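import Mathlib
import Fermat.Agent.S14.Defs
import Fermat.Agent.S14.Art
import Fermat.Agent.S14.D4

/-!
# S14 (D4): the statement `d4` of the skeleton, with (XC3) as a hypothesis
-/

set_option autoImplicit false

namespace Fermat.Agent.S14

open NumberField Ideal IntermediateField
open scoped nonZeroDivisors Pointwise

section X

variable {p r₁ r₂ : ℕ} [Fact p.Prime] [Fact r₁.Prime] [Fact r₂.Prime]
  {K L Ω : Type} [Field K] [NumberField K] [Field L] [NumberField L]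
  [Field Ω] [NumberField Ω] [Algebra K L] [Algebra K Ω]
  [IsGalois K L] {s : L ≃ₐ[K] L}

variable (hs : ∀ g : L ≃ₐ[K] L, g ∈ Subgroup.zpowers s)
  (hcard : Module.finrank K L = p) (hun : Unram K L)
  (Φ : Subgroup (Ω ≃ₐ[K] Ω))

include hs hcard hun

theorem d4_of_xc3
    (hxc3 : ∀ H : Subgroup (ClassGroup (𝓞 (fixedField Φ))),
      (∀ 𝔮 : Ideal (𝓞 (fixedField Φ)), 𝔮.IsPrime → 𝔮 ≠ ⊥ →
        IsCoprime 𝔮 (span {((r₁ * r₂ : ℕ) : 𝓞 (fixedField Φ))}) →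
        (art s (relNorm (𝓞 K) 𝔮) : ZMod p) = 0 → cl 𝔮 ∈ H) → H.index ≤ p)
    (hprin : ∀ γ : 𝓞 (fixedField Φ), γ ≠ 0 →
      IsCoprime (span {γ}) (span {((r₁ * r₂ : ℕ) : 𝓞 (fixedField Φ))}) →
      (art s (relNorm (𝓞 K) (span {γ})) : ZMod p) = 0)
    (h1 : ∃ 𝔓 : Ideal (𝓞 (fixedField Φ)), 𝔓 ≠ ⊥ ∧
      IsCoprime 𝔓 (span {((r₁ * r₂ : ℕ) : 𝓞 (fixedField Φ))}) ∧
      (art s (relNorm (𝓞 K) 𝔓) : ZMod p) ≠ 0)
    (𝔠 𝔠' : Ideal (𝓞 (fixedField Φ))) (h0 : 𝔠 ≠ ⊥) (h0' : 𝔠' ≠ ⊥)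
    (h𝔠 : IsCoprime 𝔠 (span {((r₁ * r₂ : ℕ) : 𝓞 (fixedField Φ))}))
    (h𝔠' : IsCoprime 𝔠' (span {((r₁ * r₂ : ℕ) : 𝓞 (fixedField Φ))}))
    (h : (art s (relNorm (𝓞 K) 𝔠) : ZMod p) = art s (relNorm (𝓞 K) 𝔠')) :
    cl (relNorm (𝓞 K) 𝔠) / cl (relNorm (𝓞 K) 𝔠') ∈ normCl K L := by
  have hr₁ : r₁.Prime := Fact.out
  have hr₂ : r₂.Prime := Fact.out
  refine d4_of (p := p) (s := s) (span {((r₁ * r₂ : ℕ) : 𝓞 (fixedField Φ))}) ?_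
    (fun P hP hP0 j hj => exists_relNorm_eq_pow s hs hcard hun P hP hP0 j hj)
    (fun P hP hP0 => art_prime s P hP hP0)
    (fun hI hJ => art_mul s hI hJ) (fun I n => art_pow s I n) hxc3 hprin h1 𝔠 𝔠' h0 h0' h𝔠 h𝔠' h
  rw [Ne, Ideal.span_singleton_eq_bot, Nat.cast_eq_zero]
  exact mul_ne_zero hr₁.ne_zero hr₂.ne_zero

end X

end Fermat.Agent.S14
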