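import Mathlib
import Fermat.Agent.S14.Defs

/-!
# S14: the symmetry `r₁ ↔ r₂` of the crossing data
-/

set_option autoImplicit false
set_option linter.unusedSectionVars false

namespace Fermat.Agent.S14

open NumberField Ideal IntermediateField
open scoped nonZeroDivisors Pointwise

section X

variable {p r₁ r₂ : ℕ} [Fact p.Prime] [Fact r₁.Prime] [Fact r₂.Prime]
  {K L Ω : Type} [Field K] [NumberField K] [Field L] [NumberField L]
  [Field Ω] [NumberField Ω] [Algebra K L] [Algebra L Ω] [Algebra K Ω] [IsScalarTower K L Ω]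
  [IsGalois K L] [IsGalois K Ω] {s : L ≃ₐ[K] L}

/-- the symmetry `r₁ ↔ r₂` -/
theorem Cross.exists_swap (c : Cross p r₁ r₂ K L Ω s) :
    ∃ c' : Cross p r₂ r₁ K L Ω s, ∀ g, (c'.e g).1 = (c.e g).1 ∧ (c'.e g).2.1 = (c.e g).2.2 ∧
      (c'.e g).2.2 = (c.e g).2.1 := by
  have hm : ∀ R : Ideal (𝓞 Ω), ((r₂ * r₁ : ℕ) : 𝓞 Ω) ∉ R → ((r₁ * r₂ : ℕ) : 𝓞 Ω) ∉ R := by
    intro R h
    rwa [mul_comm]
  refine ⟨{ e := c.e.trans (MulEquiv.prodCongr (MulEquiv.refl _) MulEquiv.prodComm)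
            res := fun g => c.res g
            frob := fun R hR h g hg => ?_
            good := fun R hR h => c.good R hR (hm R h)
            inert₁ := fun R hR h g h1 h2 => c.inert₂ R hR h g h1 h2
            inert₂ := fun R hR h g h1 h2 => c.inert₁ R hR h g h1 h2 }, fun g => ⟨rfl, rfl, rfl⟩⟩
  obtain ⟨h1, h2, h3⟩ := c.frob R hR (hm R h) g hg
  exact ⟨h1, h3, h2⟩

end X

end Fermat.Agent.S14
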