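import Mathlib
import Fermat.Agent.S14.Defs

/-!
# S14 (CF): the Frobenius forms of (C3) and (C4)
-/

set_option autoImplicit false
set_option linter.unusedSectionVars false

namespace Fermat.Agent.S14

open NumberField Ideal IntermediateField
open scoped nonZeroDivisors Pointwise

theorem cf_card_le {k : Type*} [CommRing k] [IsDomain k] [Finite k] (q : ℕ) (hq : 1 < q)
    (h : ∀ x : k, x ^ q = x) : Nat.card k ≤ q := by
  classical
  have _ := Fintype.ofFinite k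
  have h1 : (Polynomial.X : Polynomial k).degree < (Polynomial.X ^ q : Polynomial k).degree := by
    rw [Polynomial.degree_X_pow, Polynomial.degree_X]
    exact mod_cast hq
  have hdeg : (Polynomial.X ^ q - Polynomial.X : Polynomial k).natDegree = q := by
    rw [Polynomial.natDegree_eq_of_degree_eq (Polynomial.degree_sub_eq_left_of_degree_lt h1),
      Polynomial.natDegree_X_pow]
  have hne : (Polynomial.X ^ q - Polynomial.X : Polynomial k) ≠ 0 := by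
    intro h0
    rw [h0, Polynomial.natDegree_zero] at hdeg
    omega
  have hsub : (Finset.univ : Finset k).val ⊆
      (Polynomial.X ^ q - Polynomial.X : Polynomial k).roots := by
    intro y _
    rw [Polynomial.mem_roots hne, Polynomial.IsRoot.def]
    simp [h y]
  have := Polynomial.card_le_degree_of_subset_roots hsub
  rw [hdeg, Finset.card_univ] at this
  rwa [Nat.card_eq_fintype_card]

section basic

variable (K Ω : Type*) [Field K] [NumberField K] [Field Ω] [NumberField Ω] [Algebra K Ω]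

theorem cf_exists_over (P : Ideal (𝓞 K)) (hP : P.IsPrime) :
    ∃ R : Ideal (𝓞 Ω), R.IsPrime ∧ R.under (𝓞 K) = P := by
  obtain ⟨⟨R, hR1, hR2⟩⟩ := Ideal.nonempty_primesOver (S := 𝓞 Ω) P
  exact ⟨R, hR1, hR2.over.symm⟩

variable {K Ω}

theorem cf_ne_bot_of_under {R : Ideal (𝓞 Ω)} (h : R.under (𝓞 K) ≠ ⊥) : R ≠ ⊥ := by
  rintro rfl
  apply h
  rw [Ideal.under_def, Ideal.comap_bot_of_injective _ (FaithfulSMul.algebraMap_injective _ _)]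

theorem cf_under_ne_bot {R : Ideal (𝓞 Ω)} (h : R ≠ ⊥) : R.under (𝓞 K) ≠ ⊥ :=
  fun h' => h (Ideal.eq_bot_of_comap_eq_bot h')

theorem cf_exists_frob [IsGalois K Ω] (R : Ideal (𝓞 Ω)) (hR : R.IsPrime) (hR0 : R ≠ ⊥) :
    ∃ g : Ω ≃ₐ[K] Ω, FrobQ g R (absNorm (R.under (𝓞 K))) := by
  have : Finite (𝓞 Ω ⧸ R) := finiteQuotientOfFreeOfNeBot R hR0
  obtain ⟨g, hg⟩ := IsArithFrobAt.exists_of_isInvariant (𝓞 K) (Ω ≃ₐ[K] Ω) R
  refine ⟨g, fun x => ?_⟩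
  have := hg x
  rwa [← Submodule.cardQuot_apply, ← Ideal.absNorm_apply] at this

/-- if `x ^ q ≡ x` modulo `𝔔` for all `x`, `q` the norm of the prime below, then `𝔔` has
degree one -/
theorem cf_absNorm_eq (𝔔 : Ideal (𝓞 Ω)) (h𝔔 : 𝔔.IsPrime) (h0 : 𝔔 ≠ ⊥)
    (h : ∀ x : 𝓞 Ω, x - x ^ absNorm (𝔔.under (𝓞 K)) ∈ 𝔔) :
    absNorm 𝔔 = absNorm (𝔔.under (𝓞 K)) := by
  classical
  set q := absNorm (𝔔.under (𝓞 K)) with hq
  have hfin : Finite (𝓞 Ω ⧸ 𝔔) := finiteQuotientOfFreeOfNeBot 𝔔 h0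
  have hprime : (𝔔.under (𝓞 K)).IsPrime := Ideal.IsPrime.under _ _
  have hq1 : 1 < q := by
    have h1 : q ≠ 0 := by
      rw [hq, Ne, Ideal.absNorm_eq_zero_iff]
      exact cf_under_ne_bot h0
    have h2 : q ≠ 1 := by
      rw [hq, Ne, Ideal.absNorm_eq_one_iff]
      exact hprime.ne_top
    omega
  apply le_antisymm
  · have _ : IsDomain (𝓞 Ω ⧸ 𝔔) := Ideal.Quotient.isDomain 𝔔
    rw [Ideal.absNorm_apply, Submodule.cardQuot_apply]
    apply cf_card_le q hq1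
    intro y
    obtain ⟨x, rfl⟩ := Ideal.Quotient.mk_surjective y
    rw [← map_pow, eq_comm, Ideal.Quotient.eq]
    exact h x
  · rw [hq, Ideal.absNorm_apply, Submodule.cardQuot_apply, Ideal.absNorm_apply,
      Submodule.cardQuot_apply]
    exact Nat.card_le_card_of_injective _
      (Ideal.algebraMap_quotient_injective (R := 𝓞 K) (A := 𝓞 Ω) (I := 𝔔))

end basic

section tower

variable {F E Ω : Type*} [Field F] [NumberField F] [Field E] [NumberField E] [Field Ω]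
  [NumberField Ω] [Algebra F Ω] [Algebra F E] [Algebra E Ω] [IsScalarTower F E Ω]
  [IsGalois F Ω] [IsGalois F E] [IsGalois E Ω]

theorem cf_inertia_bot (R : Ideal (𝓞 Ω)) (hR : R.IsPrime)
    (h : Ideal.inertia (Ω ≃ₐ[F] Ω) R = ⊥) :
    Ideal.inertia (E ≃ₐ[F] E) (R.under (𝓞 E)) = ⊥ := by
  set 𝔔 := R.under (𝓞 E) with h𝔔
  set 𝔮 := R.under (𝓞 F) with h𝔮
  have _ : 𝔔.IsPrime := Ideal.IsPrime.under _ _
  have _ : 𝔮.IsPrime := Ideal.IsPrime.under _ _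
  have _ : R.LiesOver 𝔮 := ⟨rfl⟩
  have _ : R.LiesOver 𝔔 := ⟨rfl⟩
  have _ : 𝔔.LiesOver 𝔮 := ⟨by rw [h𝔮, h𝔔, Ideal.under_under]⟩
  have h1 := Ideal.card_inertia_eq_ramificationIdxIn (G := Ω ≃ₐ[F] Ω) 𝔮 R
  have h2 := Ideal.card_inertia_eq_ramificationIdxIn (G := E ≃ₐ[F] E) 𝔮 𝔔
  have h3 := Ideal.ramificationIdxIn_mul_ramificationIdxIn (p := 𝔮) 𝔔 (E ≃ₐ[F] E) (𝓞 Ω)
    (Ω ≃ₐ[F] Ω) (Ω ≃ₐ[E] Ω)
  rw [h, Subgroup.card_bot] at h1
  rw [← h1, ← h2] at h3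
  exact (Subgroup.card_eq_one).1 (Nat.eq_one_of_mul_eq_one_right h3)

end tower

section main

variable (F Ω : Type*) [Field F] [NumberField F] [Field Ω] [NumberField Ω] [Algebra F Ω]
    [IsGalois F Ω] (N : Subgroup (Ω ≃ₐ[F] Ω))

theorem cf_finrank : Module.finrank F (fixedField N) = N.index := by
  rw [finrank_eq_fixingSubgroup_index, fixingSubgroup_fixedField]

theorem cf_restrictScalars_mem (g : Ω ≃ₐ[fixedField N] Ω) : g.restrictScalars F ∈ N := by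
  have : g.restrictScalars F ∈ (fixedField N).fixingSubgroup := by
    rw [IntermediateField.mem_fixingSubgroup_iff]
    intro x hx
    exact g.commutes ⟨x, hx⟩
  rwa [fixingSubgroup_fixedField] at this

/-- (C3F) from the instance of (C3) for `E = fixedField N` -/
theorem c3F_of (H : Subgroup (ClassGroup (𝓞 F))) (S : Set (Ideal (𝓞 F)))
    (hc3 : (∀ 𝔔 : Ideal (𝓞 (fixedField N)), 𝔔.IsPrime → 𝔔 ≠ ⊥ →
      absNorm 𝔔 = absNorm (𝔔.under (𝓞 F)) → 𝔔.under (𝓞 F) ∉ S → cl (𝔔.under (𝓞 F)) ∈ H) →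
      H.index ≤ Module.finrank F (fixedField N))
    (h : ∀ R : Ideal (𝓞 Ω), R.IsPrime → R ≠ ⊥ → R.under (𝓞 F) ∉ S → ∀ σ ∈ N,
      FrobQ σ R (absNorm (R.under (𝓞 F))) → cl (R.under (𝓞 F)) ∈ H) :
    H.index ≤ N.index := by
  rw [← cf_finrank F Ω N]
  apply hc3
  intro 𝔔 h𝔔 h0 hN hS
  obtain ⟨R, hR, hRQ⟩ := cf_exists_over (fixedField N) Ω 𝔔 h𝔔
  have hR0 : R ≠ ⊥ := cf_ne_bot_of_under (K := fixedField N) (hRQ ▸ h0)
  obtain ⟨g, hg⟩ := cf_exists_frob (K := fixedField N) R hR hR0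
  have hu : R.under (𝓞 F) = 𝔔.under (𝓞 F) := by rw [← hRQ, Ideal.under_under]
  rw [← hu]
  refine h R hR hR0 (hu ▸ hS) (g.restrictScalars F) (cf_restrictScalars_mem F Ω N g) ?_
  intro x
  have := hg x
  rw [hRQ, hN, ← hu] at this
  exact this

/-- (C4F) from the instance of (C4) for `E = fixedField N` -/
theorem c4F_of [N.Normal] (hN : N ≠ ⊤) (S : Set (Ideal (𝓞 F)))
    (hc4 : 1 < Module.finrank F (fixedField N) →
      (∀ 𝔔 : Ideal (𝓞 (fixedField N)), 𝔔.IsPrime → 𝔔 ≠ ⊥ → 𝔔.under (𝓞 F) ∉ S →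
        Ideal.inertia ((fixedField N) ≃ₐ[F] (fixedField N)) 𝔔 = ⊥) →
      ∃ 𝔮 : Ideal (𝓞 F), 𝔮.IsPrime ∧ 𝔮 ≠ ⊥ ∧ 𝔮 ∉ S ∧ (absNorm 𝔮).Prime ∧
        ∀ 𝔔 : Ideal (𝓞 (fixedField N)), 𝔔.IsPrime → 𝔔.under (𝓞 F) = 𝔮 → absNorm 𝔔 ≠ absNorm 𝔮)
    (hunr : ∀ R : Ideal (𝓞 Ω), R.IsPrime → R ≠ ⊥ → R.under (𝓞 F) ∉ S →
      Ideal.inertia (Ω ≃ₐ[F] Ω) R = ⊥) :
    ∃ (R : Ideal (𝓞 Ω)) (σ : Ω ≃ₐ[F] Ω), R.IsPrime ∧ R ≠ ⊥ ∧ R.under (𝓞 F) ∉ S ∧
      (absNorm (R.under (𝓞 F))).Prime ∧ σ ∉ N ∧ FrobQ σ R (absNorm (R.under (𝓞 F))) := by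
  have _ : IsGalois F (fixedField N) := IsGalois.of_fixedField_normal_subgroup N
  have h1 : 1 < Module.finrank F (fixedField N) := by
    rw [cf_finrank]
    have h2 : N.index ≠ 1 := fun h => hN (Subgroup.index_eq_one.1 h)
    have h3 : N.index ≠ 0 := Subgroup.FiniteIndex.index_ne_zero
    omega
  obtain ⟨𝔮, h𝔮, h𝔮0, h𝔮S, hpr, hns⟩ := hc4 h1 (by
    intro 𝔔 h𝔔 h0 hS
    obtain ⟨R, hR, hRQ⟩ := cf_exists_over (fixedField N) Ω 𝔔 h𝔔
    have hR0 : R ≠ ⊥ := cf_ne_bot_of_under (K := fixedField N) (hRQ ▸ h0)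
    have hu : R.under (𝓞 F) = 𝔔.under (𝓞 F) := by rw [← hRQ, Ideal.under_under]
    rw [← hRQ]
    exact cf_inertia_bot R hR (hunr R hR hR0 (hu ▸ hS)))
  obtain ⟨R, hR, hRq⟩ := cf_exists_over F Ω 𝔮 h𝔮
  have hR0 : R ≠ ⊥ := cf_ne_bot_of_under (K := F) (hRq ▸ h𝔮0)
  obtain ⟨σ, hσ⟩ := cf_exists_frob (K := F) R hR hR0
  refine ⟨R, σ, hR, hR0, hRq ▸ h𝔮S, hRq ▸ hpr, ?_, hσ⟩
  intro hσN
  have hu : (R.under (𝓞 (fixedField N))).under (𝓞 F) = 𝔮 := by rw [Ideal.under_under, hRq]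
  refine hns (R.under (𝓞 (fixedField N))) (Ideal.IsPrime.under _ _) hu ?_
  rw [← hu]
  apply cf_absNorm_eq _ (Ideal.IsPrime.under _ _) (cf_under_ne_bot hR0)
  intro x
  rw [hu, ← hRq, Ideal.under_def, Ideal.mem_comap, map_sub, map_pow]
  have h2 := hσ (algebraMap (𝓞 (fixedField N)) (𝓞 Ω) x)
  have h3 : σ • (algebraMap (𝓞 (fixedField N)) (𝓞 Ω) x) = algebraMap (𝓞 (fixedField N)) (𝓞 Ω) x := by
    apply Subtype.ext
    exact (x : fixedField N).2 ⟨σ, hσN⟩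
  rwa [h3] at h2

end main

end Fermat.Agent.S14
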