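import Mathlib
import Fermat.Agent.S14.Defs
import Fermat.Agent.S14.Art
import Fermat.Agent.S14.CF

/-!
# S14 (X0), (X1): Frobenius elements in the crossing field
-/

set_option autoImplicit false
set_option linter.unusedSectionVars false
set_option linter.unusedVariables false

namespace Fermat.Agent.S14

open NumberField Ideal IntermediateField
open scoped nonZeroDivisors Pointwise

section gen

variable {K Ω : Type*} [Field K] [NumberField K] [Field Ω] [NumberField Ω] [Algebra K Ω]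

/-- (X0) -/
theorem x0 [IsGalois K Ω] (P : Ideal (𝓞 K)) (hP : P.IsPrime) (hP0 : P ≠ ⊥) :
    ∃ (R : Ideal (𝓞 Ω)) (g : Ω ≃ₐ[K] Ω), R.IsPrime ∧ R.under (𝓞 K) = P ∧
      FrobQ g R (absNorm P) := by
  obtain ⟨R, hR, hRP⟩ := cf_exists_over K Ω P hP
  have hR0 : R ≠ ⊥ := cf_ne_bot_of_under (K := K) (hRP ▸ hP0)
  obtain ⟨g, hg⟩ := cf_exists_frob (K := K) R hR hR0
  exact ⟨R, g, hR, hRP, hRP ▸ hg⟩

theorem x1_smul_mem {g : Ω ≃ₐ[K] Ω} {R : Ideal (𝓞 Ω)} {q : ℕ} (hq : q ≠ 0) (h : FrobQ g R q)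
    {y : 𝓞 Ω} (hy : y ∈ R) : g • y ∈ R := by
  have h1 := h y
  have h2 : y ^ q ∈ R := Ideal.pow_mem_of_mem R hy q (Nat.pos_of_ne_zero hq)
  have := R.add_mem h1 h2
  rwa [sub_add_cancel] at this

theorem x1_frobQ_pow {g : Ω ≃ₐ[K] Ω} {R : Ideal (𝓞 Ω)} {q : ℕ} (hq : q ≠ 0) (h : FrobQ g R q)
    (n : ℕ) : FrobQ (g ^ n) R (q ^ n) := by
  induction n with
  | zero => intro x; simp
  | succ n ih =>
    intro x
    have h1 : g • ((g ^ n) • x - x ^ q ^ n) ∈ R := x1_smul_mem hq h (ih x)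
    have h2 := h (x ^ q ^ n)
    have h3 : (g ^ (n + 1)) • x - x ^ q ^ (n + 1) =
        g • ((g ^ n) • x - x ^ q ^ n) + (g • (x ^ q ^ n) - (x ^ q ^ n) ^ q) := by
      rw [pow_succ' g, mul_smul, smul_sub, pow_succ q, pow_mul]
      ring
    rw [h3]
    exact R.add_mem h1 h2

theorem x1_frobQ_unique {g g' : Ω ≃ₐ[K] Ω} {R : Ideal (𝓞 Ω)} {q : ℕ}
    (hI : Ideal.inertia (Ω ≃ₐ[K] Ω) R = ⊥) (h : FrobQ g R q) (h' : FrobQ g' R q) : g = g' := by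
  have h1 : g * g'⁻¹ ∈ Ideal.inertia (Ω ≃ₐ[K] Ω) R := by
    intro x
    have h2 := h (g'⁻¹ • x)
    have h3 := h' (g'⁻¹ • x)
    rw [smul_inv_smul] at h3
    have := R.sub_mem h2 h3
    rw [sub_sub_sub_cancel_right] at this
    rwa [mul_smul]
  rw [hI, Subgroup.mem_bot] at h1
  exact mul_inv_eq_one.1 h1

end gen

section X

variable {p r₁ r₂ : ℕ} [Fact p.Prime] [Fact r₁.Prime] [Fact r₂.Prime]
  {K L Ω : Type} [Field K] [NumberField K] [Field L] [NumberField L]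
  [Field Ω] [NumberField Ω] [Algebra K L] [Algebra L Ω] [Algebra K Ω] [IsScalarTower K L Ω]
  [IsGalois K L] [IsGalois K Ω] {s : L ≃ₐ[K] L}

/-- the Frobenius over `F = fixedField Φ` is a power of the Frobenius over `K` -/
theorem x1_frob (c : Cross p r₁ r₂ K L Ω s) (Φ : Subgroup (Ω ≃ₐ[K] Ω))
    (R : Ideal (𝓞 Ω)) (hR : R.IsPrime) (hR0 : R ≠ ⊥) (hm : ((r₁ * r₂ : ℕ) : 𝓞 Ω) ∉ R)
    (σ : Ω ≃ₐ[fixedField Φ] Ω) (hσ : FrobQ σ R (absNorm (R.under (𝓞 (fixedField Φ)))))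
    (g : Ω ≃ₐ[K] Ω) (hg : FrobQ g R (absNorm (R.under (𝓞 K)))) :
    ∃ f : ℕ, 0 < f ∧ σ.restrictScalars K = g ^ f ∧
      relNorm (𝓞 K) (R.under (𝓞 (fixedField Φ))) = (R.under (𝓞 K)) ^ f ∧
      absNorm (R.under (𝓞 (fixedField Φ))) = absNorm (R.under (𝓞 K)) ^ f := by
  set 𝔮 := R.under (𝓞 (fixedField Φ)) with h𝔮
  set P := R.under (𝓞 K) with hP
  have h𝔮p : 𝔮.IsPrime := Ideal.IsPrime.under _ _
  have hPp : P.IsPrime := Ideal.IsPrime.under _ _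
  have h𝔮0 : 𝔮 ≠ ⊥ := cf_under_ne_bot hR0
  have hP0 : P ≠ ⊥ := cf_under_ne_bot hR0
  have h𝔮m : 𝔮.IsMaximal := h𝔮p.isMaximal h𝔮0
  have hPm : P.IsMaximal := hPp.isMaximal hP0
  have hlies : 𝔮.LiesOver P := ⟨by rw [hP, h𝔮, Ideal.under_under]⟩
  have hrel := Ideal.relNorm_eq_pow_of_isMaximal 𝔮 P
  set f := 𝔮.inertiaDeg (𝓞 K) with hf
  have habs : absNorm 𝔮 = absNorm P ^ f := by
    rw [← Ideal.absNorm_relNorm (𝓞 K) (𝓞 (fixedField Φ)) 𝔮, hrel, map_pow]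
  have hNP : absNorm P ≠ 0 := by
    rw [Ne, Ideal.absNorm_eq_zero_iff]; exact hP0
  have hf0 : 0 < f := by
    rcases Nat.eq_zero_or_pos f with h | h
    · exfalso
      rw [h, pow_zero, Ideal.absNorm_eq_one_iff] at habs
      exact h𝔮p.ne_top habs
    · exact h
  refine ⟨f, hf0, ?_, hrel, habs⟩
  apply x1_frobQ_unique (c.good R hR hm) (q := absNorm 𝔮)
  · intro x
    exact hσ x
  · rw [habs]
    exact x1_frobQ_pow hNP hg f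

theorem x1_not_mem {R : Type*} [CommRing R] {𝔮 : Ideal R} (h𝔮 : 𝔮.IsPrime) {n : R}
    (h : IsCoprime 𝔮 (span {n})) : n ∉ 𝔮 := by
  intro hn
  rw [Ideal.isCoprime_iff_sup_eq] at h
  have : span {n} ≤ 𝔮 := (Ideal.span_singleton_le_iff_mem _).2 hn
  rw [sup_eq_left.2 this] at h
  exact h𝔮.ne_top h

theorem x1_prime (c : Cross p r₁ r₂ K L Ω s) (Φ : Subgroup (Ω ≃ₐ[K] Ω))
    (𝔮 : Ideal (𝓞 (fixedField Φ))) (h𝔮 : 𝔮.IsPrime) (h0 : 𝔮 ≠ ⊥)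
    (hm : ((r₁ * r₂ : ℕ) : 𝓞 (fixedField Φ)) ∉ 𝔮) :
    ∃ ψ ∈ Φ, Multiplicative.toAdd (c.e ψ).1 = art s (relNorm (𝓞 K) 𝔮) ∧
      (((c.e ψ).2.1 : (ZMod r₁)ˣ) : ZMod r₁) = (absNorm 𝔮 : ZMod r₁) ∧
      (((c.e ψ).2.2 : (ZMod r₂)ˣ) : ZMod r₂) = (absNorm 𝔮 : ZMod r₂) := by
  obtain ⟨R, hR, hR𝔮⟩ := cf_exists_over (fixedField Φ) Ω 𝔮 h𝔮
  have hR0 : R ≠ ⊥ := cf_ne_bot_of_under (K := fixedField Φ) (hR𝔮 ▸ h0)
  have hmR : ((r₁ * r₂ : ℕ) : 𝓞 Ω) ∉ R := by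
    intro h
    apply hm
    rw [← hR𝔮, Ideal.under_def, Ideal.mem_comap, map_natCast]
    exact h
  obtain ⟨σ, hσ⟩ := cf_exists_frob (K := fixedField Φ) R hR hR0
  obtain ⟨g, hg⟩ := cf_exists_frob (K := K) R hR hR0
  obtain ⟨f, _, h1, h2, h3⟩ := x1_frob c Φ R hR hR0 hmR σ hσ g hg
  obtain ⟨e1, e2, e3⟩ := c.frob R hR hmR g hg
  have hPp : (R.under (𝓞 K)).IsPrime := Ideal.IsPrime.under _ _
  have hP0 : R.under (𝓞 K) ≠ ⊥ := cf_under_ne_bot hR0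
  rw [hR𝔮] at h2 h3
  refine ⟨σ.restrictScalars K, cf_restrictScalars_mem K Ω Φ σ, ?_, ?_, ?_⟩
  · rw [h1, h2, map_pow, art_pow, art_prime s _ hPp hP0, ← e1]
    simp [Prod.pow_fst, toAdd_pow]
  · rw [h1, h3, map_pow]
    simp [Prod.pow_snd, Prod.pow_fst, e2]
  · rw [h1, h3, map_pow]
    simp [Prod.pow_snd, e3]

/-- (X1), without the unused hypotheses -/
theorem x1_core (c : Cross p r₁ r₂ K L Ω s) (Φ : Subgroup (Ω ≃ₐ[K] Ω))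
    (𝔠 : Ideal (𝓞 (fixedField Φ))) (h0 : 𝔠 ≠ ⊥)
    (h𝔠 : IsCoprime 𝔠 (span {((r₁ * r₂ : ℕ) : 𝓞 (fixedField Φ))})) :
    ∃ ψ ∈ Φ, Multiplicative.toAdd (c.e ψ).1 = art s (relNorm (𝓞 K) 𝔠) ∧
      (((c.e ψ).2.1 : (ZMod r₁)ˣ) : ZMod r₁) = (absNorm 𝔠 : ZMod r₁) ∧
      (((c.e ψ).2.2 : (ZMod r₂)ˣ) : ZMod r₂) = (absNorm 𝔠 : ZMod r₂) := by
  induction 𝔠 using UniqueFactorizationMonoid.induction_on_prime with
  | h₁ => exact absurd rfl h0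
  | h₂ x hx =>
    rw [Ideal.isUnit_iff] at hx
    subst hx
    refine ⟨1, Φ.one_mem, ?_, ?_, ?_⟩
    · rw [Ideal.relNorm_top, ← Ideal.one_eq_top, art_one]
      simp
    · simp
    · simp
  | h₃ a 𝔮 ha h𝔮 ih =>
    rw [IsCoprime.mul_left_iff] at h𝔠
    obtain ⟨ψ₁, hψ₁, a1, a2, a3⟩ := ih ha h𝔠.2
    have h𝔮0 : 𝔮 ≠ ⊥ := h𝔮.ne_zero
    have h𝔮p : 𝔮.IsPrime := Ideal.isPrime_of_prime h𝔮
    obtain ⟨ψ₂, hψ₂, b1, b2, b3⟩ := x1_prime c Φ 𝔮 h𝔮p h𝔮0 (x1_not_mem h𝔮p h𝔠.1)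
    have hne : ∀ I : Ideal (𝓞 (fixedField Φ)), I ≠ ⊥ → relNorm (𝓞 K) I ≠ ⊥ := fun I hI => by
      rwa [Ne, Ideal.relNorm_eq_bot_iff]
    refine ⟨ψ₂ * ψ₁, Φ.mul_mem hψ₂ hψ₁, ?_, ?_, ?_⟩
    · rw [map_mul, map_mul, art_mul s (hne _ h𝔮0) (hne _ ha), ← a1, ← b1]
      simp
    · rw [map_mul, map_mul]
      simp [a2, b2]
    · rw [map_mul, map_mul]
      simp [a3, b3]

/-- (X1), in the shape of the skeleton -/
theorem x1 (hs : ∀ g : L ≃ₐ[K] L, g ∈ Subgroup.zpowers s)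
    (hcard : Module.finrank K L = p) (hun : Unram K L) (c : Cross p r₁ r₂ K L Ω s)
    (Φ : Subgroup (Ω ≃ₐ[K] Ω))
    (𝔠 : Ideal (𝓞 (fixedField Φ))) (h0 : 𝔠 ≠ ⊥)
    (h𝔠 : IsCoprime 𝔠 (span {((r₁ * r₂ : ℕ) : 𝓞 (fixedField Φ))})) :
    ∃ ψ ∈ Φ, Multiplicative.toAdd (c.e ψ).1 = art s (relNorm (𝓞 K) 𝔠) ∧
      (((c.e ψ).2.1 : (ZMod r₁)ˣ) : ZMod r₁) = (absNorm 𝔠 : ZMod r₁) ∧
      (((c.e ψ).2.2 : (ZMod r₂)ˣ) : ZMod r₂) = (absNorm 𝔠 : ZMod r₂) :=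
  x1_core c Φ 𝔠 h0 h𝔠

end X

end Fermat.Agent.S14
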