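import Mathlib
import Fermat.Agent.S14.C2Prime

/-!
# S14 (C3): `L`-functions of characters of `Cl / H`, upper bound for the primes in `H`
-/

set_option autoImplicit false
set_option linter.unusedSectionVars false

namespace Fermat.Agent.S14

open NumberField Filter Topology IsDedekindDomain
open scoped nonZeroDivisors Classical

theorem char_log_bound {A : Type*} [AddCommGroup A] [Fintype A] (g : A) (a : ℝ) (h0 : 0 ≤ a)
    (h1 : a < 1) :
    (if g = 0 then (Fintype.card A : ℝ) * a else 0) ≤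
      (∑ ψ : AddChar A ℂ, -Complex.log (1 - ψ g * (a : ℂ))).re := by
  have hn : ∀ ψ : AddChar A ℂ, ‖ψ g * (a : ℂ)‖ < 1 := by
    intro ψ
    rw [norm_mul, AddChar.norm_apply, one_mul, Complex.norm_real, Real.norm_of_nonneg h0]
    exact h1
  have hs := hasSum_sum (s := Finset.univ) fun (ψ : AddChar A ℂ) _ =>
    Complex.hasSum_taylorSeries_neg_log (hn ψ)
  have hterm : ∀ m : ℕ, ∑ ψ : AddChar A ℂ, (ψ g * (a : ℂ)) ^ m / (m : ℂ) =
      (((if m • g = 0 then (Fintype.card A : ℝ) else 0) * a ^ m / m : ℝ) : ℂ) := by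
    intro m
    simp_rw [mul_pow, ← AddChar.map_nsmul_eq_pow]
    rw [← Finset.sum_div, ← Finset.sum_mul, AddChar.sum_apply_eq_ite]
    split_ifs <;> push_cast <;> ring
  simp_rw [hterm] at hs
  have hre := Complex.hasSum_re hs
  simp only [Complex.ofReal_re] at hre
  have := le_hasSum hre 1 (by
    intro m _
    split_ifs <;> positivity)
  simpa using this

section

variable {F : Type*} [Field F] [NumberField F] (H : Subgroup (ClassGroup (𝓞 F)))

/-- the class of an ideal in `Cl / H`, written additively -/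
noncomputable def clH (I : (Ideal (𝓞 F))⁰) : Additive (ClassGroup (𝓞 F) ⧸ H) :=
  Additive.ofMul (QuotientGroup.mk (ClassGroup.mk0 I))

theorem clH_one : clH H 1 = 0 := by
  simp [clH]

theorem clH_mul (I J : (Ideal (𝓞 F))⁰) : clH H (I * J) = clH H I + clH H J := by
  simp [clH]

theorem clH_eq_zero_iff (I : (Ideal (𝓞 F))⁰) : clH H I = 0 ↔ ClassGroup.mk0 I ∈ H := by
  unfold clH
  rw [← ofMul_one, Additive.ofMul.injective.eq_iff, QuotientGroup.eq_one_iff]

/-- the terms of the `L`-series -/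
noncomputable def fchi (ψ : AddChar (Additive (ClassGroup (𝓞 F) ⧸ H)) ℂ) (s : ℝ)
    (I : (Ideal (𝓞 F))⁰) : ℂ := ψ (clH H I) * ((nrm F s I : ℝ) : ℂ)

/-- the `L`-series -/
noncomputable def Lchi (ψ : AddChar (Additive (ClassGroup (𝓞 F) ⧸ H)) ℂ) (s : ℝ) : ℂ :=
  ∑' I, fchi H ψ s I

variable (ψ : AddChar (Additive (ClassGroup (𝓞 F) ⧸ H)) ℂ)

theorem fchi_one (s : ℝ) : fchi H ψ s 1 = 1 := by
  have h1 : nrm F s ((1 : (Ideal (𝓞 F))⁰) : Ideal (𝓞 F)) = 1 := nrm_one s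
  rw [fchi, clH_one, h1]
  simp

theorem fchi_mul (s : ℝ) (I J : (Ideal (𝓞 F))⁰) :
    fchi H ψ s (I * J) = fchi H ψ s I * fchi H ψ s J := by
  rw [fchi, fchi, fchi, clH_mul, AddChar.map_add_eq_mul, Submonoid.coe_mul, nrm_mul]
  push_cast
  ring

theorem norm_fchi (s : ℝ) (I : (Ideal (𝓞 F))⁰) : ‖fchi H ψ s I‖ = nrm F s I := by
  rw [fchi, norm_mul, AddChar.norm_apply, one_mul, Complex.norm_real,
    Real.norm_of_nonneg (nrm_nonneg _ _)]

theorem summable_norm_fchi {s : ℝ} (hs : 1 < s) : Summable fun I => ‖fchi H ψ s I‖ := by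
  simp_rw [norm_fchi]
  exact summable_nrm hs

theorem Lchi_eq_sum {s : ℝ} (hs : 1 < s) :
    Lchi H ψ s = ∑ C : ClassGroup (𝓞 F),
      ψ (Additive.ofMul (QuotientGroup.mk C)) * ((zetaCl C s : ℝ) : ℂ) := by
  rw [Lchi, tsum_eq_sum_class _ (summable_norm_fchi H ψ hs).of_norm]
  refine Finset.sum_congr rfl fun C _ => ?_
  rw [zetaCl, Complex.ofReal_tsum, ← tsum_mul_left]
  refine tsum_congr fun a => ?_
  rw [fchi, clH, a.2]
  rfl

theorem Lchi_zero {s : ℝ} (hs : 1 < s) : Lchi H 0 s = ((zetaR F s : ℝ) : ℂ) := by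
  rw [Lchi_eq_sum H 0 hs, zetaR_eq_sum hs]
  simp

theorem sum_char_eq_zero (hψ : ψ ≠ 0) :
    ∑ C : ClassGroup (𝓞 F), ψ (Additive.ofMul (QuotientGroup.mk C)) = 0 := by
  obtain ⟨x, hx⟩ := AddChar.ne_zero_iff.1 hψ
  obtain ⟨C₀, hC₀⟩ := QuotientGroup.mk_surjective (Additive.toMul x)
  have hx' : ψ (Additive.ofMul (QuotientGroup.mk C₀)) ≠ 1 := by
    rw [hC₀]
    exact hx
  have h := Fintype.sum_equiv (Equiv.mulLeft C₀)
    (fun C : ClassGroup (𝓞 F) => ψ (Additive.ofMul (QuotientGroup.mk (C₀ * C) :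
      ClassGroup (𝓞 F) ⧸ H)))
    (fun C : ClassGroup (𝓞 F) => ψ (Additive.ofMul (QuotientGroup.mk C))) (fun C => rfl)
  simp only [QuotientGroup.mk_mul, ofMul_mul, AddChar.map_add_eq_mul] at h
  rw [← Finset.mul_sum] at h
  have h2 : (ψ (Additive.ofMul (QuotientGroup.mk C₀)) - 1) *
      ∑ C : ClassGroup (𝓞 F), ψ (Additive.ofMul (QuotientGroup.mk C)) = 0 := by
    rw [sub_mul, h, one_mul, sub_self]
  rcases mul_eq_zero.1 h2 with h3 | h3
  · exact absurd (sub_eq_zero.1 h3) hx'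
  · exact h3

/-- the `L`-functions of the nontrivial characters are bounded on `(1, 2]` -/
theorem exists_Lchi_bound : ∃ B : ℝ, 1 ≤ B ∧
    ∀ ψ : AddChar (Additive (ClassGroup (𝓞 F) ⧸ H)) ℂ, ψ ≠ 0 → ∀ s : ℝ, 1 < s → s ≤ 2 →
      ‖Lchi H ψ s‖ ≤ B := by
  choose B hB using fun C : ClassGroup (𝓞 F) => zetaCl_sub_bounded C 1
  refine ⟨1 + ∑ C, |B C|, ?_, fun ψ hψ s hs1 hs2 => ?_⟩
  · have : 0 ≤ ∑ C, |B C| := Finset.sum_nonneg fun C _ => abs_nonneg _
    linarith
  have e : Lchi H ψ s = ∑ C : ClassGroup (𝓞 F), ψ (Additive.ofMul (QuotientGroup.mk C)) *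
      ((zetaCl C s - zetaCl (1 : ClassGroup (𝓞 F)) s : ℝ) : ℂ) := by
    rw [Lchi_eq_sum H ψ hs1]
    have : ∑ C : ClassGroup (𝓞 F), ψ (Additive.ofMul (QuotientGroup.mk C)) *
        ((zetaCl C s - zetaCl (1 : ClassGroup (𝓞 F)) s : ℝ) : ℂ) =
        ∑ C : ClassGroup (𝓞 F), ψ (Additive.ofMul (QuotientGroup.mk C)) * ((zetaCl C s : ℝ) : ℂ) -
        (∑ C : ClassGroup (𝓞 F), ψ (Additive.ofMul (QuotientGroup.mk C))) *
          ((zetaCl (1 : ClassGroup (𝓞 F)) s : ℝ) : ℂ) := by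
      rw [Finset.sum_mul, ← Finset.sum_sub_distrib]
      refine Finset.sum_congr rfl fun C _ => ?_
      push_cast
      ring
    rw [this, sum_char_eq_zero H ψ hψ]
    simp
  rw [e]
  refine (norm_sum_le _ _).trans ?_
  have : ∑ C : ClassGroup (𝓞 F), ‖ψ (Additive.ofMul (QuotientGroup.mk C)) *
      ((zetaCl C s - zetaCl (1 : ClassGroup (𝓞 F)) s : ℝ) : ℂ)‖ ≤ ∑ C, |B C| := by
    refine Finset.sum_le_sum fun C _ => ?_
    rw [norm_mul, AddChar.norm_apply, one_mul, Complex.norm_real, Real.norm_eq_abs]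
    exact (hB C s hs1 hs2).trans (le_abs_self _)
  linarith

/-- the sum of `N q ^ (-s)` over the primes whose class lies in `H` -/
noncomputable def primeSumH (s : ℝ) : ℝ :=
  ∑' q : HeightOneSpectrum (𝓞 F), if ClassGroup.mk0 (pr0 q) ∈ H then nrm F s q.asIdeal else 0

theorem summable_primeSumH {s : ℝ} (hs : 1 < s) : Summable fun q : HeightOneSpectrum (𝓞 F) =>
    if ClassGroup.mk0 (pr0 q) ∈ H then nrm F s q.asIdeal else 0 := by
  refine Summable.of_nonneg_of_le (fun q => ?_) (fun q => ?_) (summable_nrm_prime hs)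
  · split_ifs
    · exact nrm_nonneg _ _
    · exact le_rfl
  · split_ifs
    · exact le_rfl
    · exact nrm_nonneg _ _

theorem exp_primeSumH_le {s : ℝ} (hs : 1 < s) :
    Real.exp (Fintype.card (Additive (ClassGroup (𝓞 F) ⧸ H)) * primeSumH H s) ≤
      ∏ ψ : AddChar (Additive (ClassGroup (𝓞 F) ⧸ H)) ℂ, ‖Lchi H ψ s‖ := by
  have hE := fun ψ : AddChar (Additive (ClassGroup (𝓞 F) ⧸ H)) ℂ =>
    euler_exp_complex (R := 𝓞 F) (fchi H ψ s) (fchi_one H ψ s) (fchi_mul H ψ s)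
      (summable_norm_fchi H ψ hs) (fun q => by
        rw [norm_fchi]
        exact lt_of_le_of_lt (nrm_prime_le_half hs.le q) (by norm_num))
  have hprod : Complex.exp (∑ ψ : AddChar (Additive (ClassGroup (𝓞 F) ⧸ H)) ℂ,
      ∑' q : HeightOneSpectrum (𝓞 F), Complex.log (1 - fchi H ψ s (pr0 q))) *
      ∏ ψ : AddChar (Additive (ClassGroup (𝓞 F) ⧸ H)) ℂ, Lchi H ψ s = 1 := by
    rw [Complex.exp_sum, ← Finset.prod_mul_distrib]
    exact Finset.prod_eq_one fun ψ _ => (hE ψ).2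
  have hnorm := congrArg norm hprod
  rw [norm_mul, Complex.norm_exp, norm_prod, norm_one] at hnorm
  set Λ : ℝ := (∑ ψ : AddChar (Additive (ClassGroup (𝓞 F) ⧸ H)) ℂ,
      ∑' q : HeightOneSpectrum (𝓞 F), Complex.log (1 - fchi H ψ s (pr0 q))).re with hΛ
  have hΛle : Fintype.card (Additive (ClassGroup (𝓞 F) ⧸ H)) * primeSumH H s ≤ -Λ := by
    rw [hΛ, ← Summable.tsum_finsetSum fun ψ _ => (hE ψ).1,
      Complex.re_tsum (summable_sum fun ψ _ => (hE ψ).1), ← tsum_neg, primeSumH, ← tsum_mul_left]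
    refine ((summable_primeSumH H hs).mul_left _).tsum_le_tsum (fun q => ?_)
      (Complex.hasSum_re (summable_sum fun ψ _ => (hE ψ).1).hasSum).summable.neg
    have := char_log_bound (clH H (pr0 q)) (nrm F s q.asIdeal) (nrm_nonneg _ _)
      (lt_of_le_of_lt (nrm_prime_le_half hs.le q) (by norm_num))
    rw [Finset.sum_neg_distrib, Complex.neg_re] at this
    simp only [clH_eq_zero_iff] at this
    refine le_trans (le_of_eq ?_) this
    split_ifs <;> simp
  have hpos : 0 < Real.exp Λ := Real.exp_pos _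
  calc Real.exp (Fintype.card (Additive (ClassGroup (𝓞 F) ⧸ H)) * primeSumH H s)
      ≤ Real.exp (-Λ) := Real.exp_le_exp.2 hΛle
    _ = ∏ ψ : AddChar (Additive (ClassGroup (𝓞 F) ⧸ H)) ℂ, ‖Lchi H ψ s‖ := by
        rw [Real.exp_neg]
        exact (eq_inv_of_mul_eq_one_right hnorm).symm

/-- the upper bound for the primes in `H` -/
theorem exists_primeSumH_bound : ∃ c : ℝ, ∀ s : ℝ, 1 < s → s ≤ 2 →
    H.index * primeSumH H s ≤ Real.log (zetaR F s) + c := by
  obtain ⟨B, hB1, hB⟩ := exists_Lchi_bound H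
  refine ⟨((Finset.univ : Finset (AddChar (Additive (ClassGroup (𝓞 F) ⧸ H)) ℂ)).erase 0).card *
    Real.log B, fun s hs1 hs2 => ?_⟩
  have h := exp_primeSumH_le H hs1
  have hidx : (H.index : ℝ) = Fintype.card (Additive (ClassGroup (𝓞 F) ⧸ H)) := by
    rw [Subgroup.index_eq_card, Nat.card_eq_fintype_card]
    exact_mod_cast Fintype.card_congr Additive.ofMul
  rw [hidx]
  have hz : 0 < zetaR F s := lt_of_lt_of_le one_pos (one_le_zetaR hs1)
  have h2 : ∏ ψ : AddChar (Additive (ClassGroup (𝓞 F) ⧸ H)) ℂ, ‖Lchi H ψ s‖ ≤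
      zetaR F s * B ^ ((Finset.univ : Finset (AddChar (Additive (ClassGroup (𝓞 F) ⧸ H)) ℂ)).erase
        0).card := by
    rw [← Finset.mul_prod_erase Finset.univ _ (Finset.mem_univ (0 : AddChar _ ℂ)), Lchi_zero H hs1,
      Complex.norm_real, Real.norm_of_nonneg hz.le]
    refine mul_le_mul_of_nonneg_left ?_ hz.le
    rw [← Finset.prod_const]
    exact Finset.prod_le_prod (fun _ _ => norm_nonneg _)
      fun ψ hψ => hB ψ (Finset.ne_of_mem_erase hψ) s hs1 hs2
  have h3 := Real.log_le_log (Real.exp_pos _) (h.trans h2)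
  rw [Real.log_exp, Real.log_mul hz.ne' (by positivity), Real.log_pow] at h3
  exact h3

end

end Fermat.Agent.S14
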