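import Mathlib
import Fermat.Agent.S14.Defs
import Fermat.Agent.S14.C3Char

/-!
# S14 (C3): the second inequality
-/

set_option autoImplicit false
set_option linter.unusedSectionVars false

namespace Fermat.Agent.S14

open NumberField Filter Topology IsDedekindDomain Ideal
open scoped nonZeroDivisors Classical

theorem cl_asIdeal {F : Type*} [Field F] [NumberField F] (q : HeightOneSpectrum (𝓞 F)) :
    cl q.asIdeal = ClassGroup.mk0 (pr0 q) := by
  unfold cl
  rw [dif_pos q.ne_bot]
  rfl

theorem summable_mem_finite {F : Type*} [Field F] [NumberField F] (S : Set (Ideal (𝓞 F)))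
    (hS : S.Finite) :
    Summable fun q : HeightOneSpectrum (𝓞 F) => if q.asIdeal ∈ S then (1 : ℝ) else 0 := by
  refine summable_of_hasFiniteSupport ?_
  refine (hS.preimage (asIdeal_injective (S := 𝓞 F)).injOn).subset ?_
  intro q hq
  by_contra hq'
  have : q.asIdeal ∉ S := hq'
  simp [this] at hq

/-- (C3) the second inequality -/
theorem c3 (F E : Type*) [Field F] [NumberField F] [Field E] [NumberField E] [Algebra F E]
    (H : Subgroup (ClassGroup (𝓞 F))) (S : Set (Ideal (𝓞 F))) (hS : S.Finite)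
    (h : ∀ 𝔔 : Ideal (𝓞 E), 𝔔.IsPrime → 𝔔 ≠ ⊥ → absNorm 𝔔 = absNorm (𝔔.under (𝓞 F)) →
      𝔔.under (𝓞 F) ∉ S → cl (𝔔.under (𝓞 F)) ∈ H) :
    H.index ≤ Module.finrank F E := by
  have hn : Module.finrank (𝓞 F) (𝓞 E) = Module.finrank F E :=
    (IsFractionRing.finrank_eq (𝓞 F) F (𝓞 E) E).symm
  rw [← hn]
  set n := Module.finrank (𝓞 F) (𝓞 E) with hndef
  obtain ⟨c, hc⟩ := exists_primeSumH_bound H
  set cS : ℝ := ∑' q : HeightOneSpectrum (𝓞 F), if q.asIdeal ∈ S then (1 : ℝ) else 0 with hcS
  have hmain : ∀ s : ℝ, 1 < s → s ≤ 2 →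
      primeSum E s ≤ n * (primeSumH H s + cS + primeSum F 2) := by
    intro s hs1 hs2
    set G : HeightOneSpectrum (𝓞 F) → ℝ := fun q =>
      (if ClassGroup.mk0 (pr0 q) ∈ H then nrm F s q.asIdeal else 0) +
        (if q.asIdeal ∈ S then (1 : ℝ) else 0) + nrm F 2 q.asIdeal with hG
    have hG1 : ∀ q : HeightOneSpectrum (𝓞 F),
        0 ≤ (if ClassGroup.mk0 (pr0 q) ∈ H then nrm F s q.asIdeal else 0) := by
      intro q
      split_ifs
      · exact nrm_nonneg _ _
      · exact le_rfl
    have hG2 : ∀ q : HeightOneSpectrum (𝓞 F), 0 ≤ (if q.asIdeal ∈ S then (1 : ℝ) else 0) := by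
      intro q
      split_ifs <;> norm_num
    have hG0 : ∀ q, 0 ≤ G q := fun q => add_nonneg (add_nonneg (hG1 q) (hG2 q)) (nrm_nonneg _ _)
    have hs2' : Summable fun q : HeightOneSpectrum (𝓞 F) => nrm F 2 q.asIdeal :=
      summable_nrm_prime (by norm_num)
    have hGs : Summable G := ((summable_primeSumH H hs1).add (summable_mem_finite S hS)).add hs2'
    have hGt : ∑' q, G q = primeSumH H s + cS + primeSum F 2 := by
      rw [hG, ((summable_primeSumH H hs1).add (summable_mem_finite S hS)).tsum_add hs2',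
        (summable_primeSumH H hs1).tsum_add (summable_mem_finite S hS)]
      rfl
    obtain ⟨hφs, hφ⟩ := tsum_comp_le_of_fiber
      (fun Q : HeightOneSpectrum (𝓞 E) => Q.under (𝓞 F)) n (fun q => fiber_under q) G hG0 hGs
    rw [hGt] at hφ
    refine le_trans ?_ hφ
    refine (summable_nrm_prime hs1).tsum_le_tsum (fun Q => ?_) hφs
    by_cases hN : absNorm Q.asIdeal = absNorm (Q.under (𝓞 F)).asIdeal
    · by_cases hQS : (Q.under (𝓞 F)).asIdeal ∈ S
      · have h1 : nrm E s Q.asIdeal ≤ 1 / 2 := nrm_prime_le_half hs1.le Q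
        have h2 := hG1 (Q.under (𝓞 F))
        have h3 := nrm_nonneg (K := F) 2 (Q.under (𝓞 F)).asIdeal
        simp only [hG, if_pos hQS]
        linarith
      · have h1 := h Q.asIdeal Q.isPrime Q.ne_bot hN hQS
        have h1' : ClassGroup.mk0 (pr0 (Q.under (𝓞 F))) ∈ H := by
          rw [← cl_asIdeal]
          exact h1
        have h2 := hG2 (Q.under (𝓞 F))
        have h3 := nrm_nonneg (K := F) 2 (Q.under (𝓞 F)).asIdeal
        have h4 : nrm E s Q.asIdeal = nrm F s (Q.under (𝓞 F)).asIdeal := by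
          unfold nrm
          rw [hN]
        simp only [hG, if_pos h1']
        linarith
    · have h1 := rpow_le_of_absNorm_ne (R := 𝓞 F) Q hN hs1.le
      have h2 := hG1 (Q.under (𝓞 F))
      have h3 := hG2 (Q.under (𝓞 F))
      have h4 : nrm E s Q.asIdeal ≤ nrm F 2 (Q.under (𝓞 F)).asIdeal := h1
      simp only [hG]
      linarith
  have hfin := zetaR_compare F E (H.index : ℝ) (n : ℝ)
    (n * c + H.index * n * (cS + primeSum F 2) + H.index * (2 * primeSum E 2)) (by
      intro s hs1 hs2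
      have h1 := log_zetaR_le (K := E) hs1
      have h2 := hmain s hs1 hs2
      have h3 := hc s hs1 hs2
      have hi : (0 : ℝ) ≤ H.index := Nat.cast_nonneg _
      have hn0 : (0 : ℝ) ≤ n := Nat.cast_nonneg _
      have h4 := mul_le_mul_of_nonneg_left (h1.trans (add_le_add_left h2 _)) hi
      have h5 := mul_le_mul_of_nonneg_left h3 hn0
      nlinarith [h4, h5])
  exact_mod_cast hfin

end Fermat.Agent.S14
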