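import Mathlib
import Fermat.Agent.S14.CF
import Fermat.Agent.S14.C3
import Fermat.Agent.S14.C4

/-!
# S14 (CF): the Frobenius forms of (C3) and (C4), final statements
-/

set_option autoImplicit false

namespace Fermat.Agent.S14

open NumberField Ideal IntermediateField
open scoped nonZeroDivisors Pointwise

/-- (C3F) Frobenius form of (C3): apply (C3) to `E = fixedField N` -/
theorem c3F (F Ω : Type*) [Field F] [NumberField F] [Field Ω] [NumberField Ω] [Algebra F Ω]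
    [IsGalois F Ω] (N : Subgroup (Ω ≃ₐ[F] Ω)) (H : Subgroup (ClassGroup (𝓞 F)))
    (S : Set (Ideal (𝓞 F))) (hS : S.Finite)
    (h : ∀ R : Ideal (𝓞 Ω), R.IsPrime → R ≠ ⊥ → R.under (𝓞 F) ∉ S → ∀ σ ∈ N,
      FrobQ σ R (absNorm (R.under (𝓞 F))) → cl (R.under (𝓞 F)) ∈ H) :
    H.index ≤ N.index :=
  c3F_of F Ω N H S (c3 F (fixedField N) H S hS) h

/-- (C4F) Frobenius form of (C4): apply (C4) to `E = fixedField N` -/
theorem c4F (F Ω : Type*) [Field F] [NumberField F] [Field Ω] [NumberField Ω] [Algebra F Ω]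
    [IsGalois F Ω] (N : Subgroup (Ω ≃ₐ[F] Ω)) [N.Normal] (hN : N ≠ ⊤)
    (S : Set (Ideal (𝓞 F))) (hS : S.Finite)
    (hunr : ∀ R : Ideal (𝓞 Ω), R.IsPrime → R ≠ ⊥ → R.under (𝓞 F) ∉ S →
      Ideal.inertia (Ω ≃ₐ[F] Ω) R = ⊥) :
    ∃ (R : Ideal (𝓞 Ω)) (σ : Ω ≃ₐ[F] Ω), R.IsPrime ∧ R ≠ ⊥ ∧ R.under (𝓞 F) ∉ S ∧
      (absNorm (R.under (𝓞 F))).Prime ∧ σ ∉ N ∧ FrobQ σ R (absNorm (R.under (𝓞 F))) :=
  have _ : IsGalois F (fixedField N) := IsGalois.of_fixedField_normal_subgroup N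
  c4F_of F Ω N hN S (fun hn hu => c4 F (fixedField N) hn S hS hu) hunr

end Fermat.Agent.S14
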