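import Mathlib
import Fermat.Agent.S14.Defs
import Fermat.Agent.S14.Art
import Fermat.Agent.S14.CF
import Fermat.Agent.S14.CFMain

/-!
# S14 (XC): the analytic statements (C3F), (C4F) for the fields between `K` and `Ω`
-/

set_option autoImplicit false
set_option linter.unusedSectionVars false
set_option linter.unusedVariables false

namespace Fermat.Agent.S14

open NumberField Ideal IntermediateField
open scoped nonZeroDivisors Pointwise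

section gen

variable {K Ω : Type*} [Field K] [NumberField K] [Field Ω] [NumberField Ω] [Algebra K Ω]

theorem xc_frobQ_pow {g : Ω ≃ₐ[K] Ω} {R : Ideal (𝓞 Ω)} {q : ℕ} (h : FrobQ g R q) (n : ℕ) :
    FrobQ (g ^ n) R (q ^ n) := by
  induction n with
  | zero =>
    intro x
    simp
  | succ n ih =>
    intro x
    have h1 := ih (g • x)
    have h2 : (g • x) ^ q ^ n - (x ^ q) ^ q ^ n ∈ R :=
      Ideal.mem_of_dvd R (sub_dvd_pow_sub_pow _ _ _) (h x)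
    have e : g ^ (n + 1) • x - x ^ q ^ (n + 1) =
        (g ^ n • g • x - (g • x) ^ q ^ n) + ((g • x) ^ q ^ n - (x ^ q) ^ q ^ n) := by
      rw [pow_succ, mul_smul, pow_succ' q n, pow_mul]
      ring
    rw [e]
    exact R.add_mem h1 h2

theorem xc_eq_of_frobQ {R : Ideal (𝓞 Ω)} (hI : Ideal.inertia (Ω ≃ₐ[K] Ω) R = ⊥)
    {a b : Ω ≃ₐ[K] Ω} {q : ℕ} (ha : FrobQ a R q) (hb : FrobQ b R q) : a = b := by
  have h1 : a * b⁻¹ ∈ Ideal.inertia (Ω ≃ₐ[K] Ω) R := by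
    intro x
    have h2 := ha (b⁻¹ • x)
    have h3 := hb (b⁻¹ • x)
    rw [smul_inv_smul] at h3
    have e : (a * b⁻¹) • x - x = (a • b⁻¹ • x - (b⁻¹ • x) ^ q) - (x - (b⁻¹ • x) ^ q) := by
      rw [mul_smul]
      ring
    rw [e]
    exact R.sub_mem h2 h3
  rw [hI, Subgroup.mem_bot] at h1
  exact mul_inv_eq_one.1 h1

theorem xc_relNorm_prime (Q : Ideal (𝓞 Ω)) (hQ : Q.IsPrime) (hQ0 : Q ≠ ⊥) :
    relNorm (𝓞 K) Q = (Q.under (𝓞 K)) ^ Q.inertiaDeg (𝓞 K) ∧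
      absNorm Q = absNorm (Q.under (𝓞 K)) ^ Q.inertiaDeg (𝓞 K) ∧ 0 < Q.inertiaDeg (𝓞 K) := by
  have hP0 : Q.under (𝓞 K) ≠ ⊥ := cf_under_ne_bot hQ0
  have hP : (Q.under (𝓞 K)).IsPrime := Ideal.IsPrime.under _ _
  have : Q.IsMaximal := hQ.isMaximal hQ0
  have : (Q.under (𝓞 K)).IsMaximal := hP.isMaximal hP0
  have : Q.LiesOver (Q.under (𝓞 K)) := ⟨rfl⟩
  have h3 : relNorm (𝓞 K) Q = (Q.under (𝓞 K)) ^ Q.inertiaDeg (𝓞 K) :=
    Ideal.relNorm_eq_pow_of_isMaximal Q (Q.under (𝓞 K))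
  refine ⟨h3, ?_, ?_⟩
  · rw [← Ideal.absNorm_relNorm (𝓞 K) (𝓞 Ω) Q, h3, map_pow]
  · exact Ideal.inertiaDeg_pos Q (𝓞 K)

end gen

section tower

variable {K F Ω : Type*} [Field K] [NumberField K] [Field F] [NumberField F] [Field Ω]
  [NumberField Ω] [Algebra K F] [Algebra F Ω] [Algebra K Ω] [IsScalarTower K F Ω]
  [IsGalois K Ω]

/-- a Frobenius element over `F` is a power of a Frobenius element over `K` -/
theorem xc_frob (R : Ideal (𝓞 Ω)) (hR : R.IsPrime) (hR0 : R ≠ ⊥)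
    (hI : Ideal.inertia (Ω ≃ₐ[K] Ω) R = ⊥) (σ : Ω ≃ₐ[F] Ω)
    (hσ : FrobQ σ R (absNorm (R.under (𝓞 F)))) :
    ∃ (g : Ω ≃ₐ[K] Ω) (f : ℕ), 0 < f ∧ FrobQ g R (absNorm (R.under (𝓞 K))) ∧
      σ.restrictScalars K = g ^ f ∧
      relNorm (𝓞 K) (R.under (𝓞 F)) = (R.under (𝓞 K)) ^ f := by
  obtain ⟨g, hg⟩ := cf_exists_frob (K := K) R hR hR0
  obtain ⟨h1, h2, h3⟩ := xc_relNorm_prime (K := K) (R.under (𝓞 F)) (Ideal.IsPrime.under _ _)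
    (cf_under_ne_bot hR0)
  rw [Ideal.under_under] at h1 h2
  refine ⟨g, _, h3, hg, ?_, h1⟩
  refine xc_eq_of_frobQ hI (q := absNorm (R.under (𝓞 F))) ?_ ?_
  · intro x
    exact hσ x
  · rw [h2]
    exact xc_frobQ_pow hg _

end tower

section X

variable {p r₁ r₂ : ℕ} [Fact p.Prime] [Fact r₁.Prime] [Fact r₂.Prime]
  {K L Ω : Type} [Field K] [NumberField K] [Field L] [NumberField L]
  [Field Ω] [NumberField Ω] [Algebra K L] [Algebra L Ω] [Algebra K Ω] [IsScalarTower K L Ω]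
  [IsGalois K L] [IsGalois K Ω] {s : L ≃ₐ[K] L}

variable (c : Cross p r₁ r₂ K L Ω s) (Φ : Subgroup (Ω ≃ₐ[K] Ω))

/-- the first coordinate on `Gal(Ω/F)` -/
noncomputable def xcTheta : (Ω ≃ₐ[fixedField Φ] Ω) →* Multiplicative (ZMod p) :=
  ((MonoidHom.fst _ _).comp c.e.toMonoidHom).comp (AlgEquiv.restrictScalarsHom K)

theorem xcTheta_apply (σ : Ω ≃ₐ[fixedField Φ] Ω) :
    xcTheta c Φ σ = (c.e (σ.restrictScalars K)).1 := rfl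

theorem xc_index_le : (xcTheta c Φ).ker.index ≤ p := by
  rw [Subgroup.index_ker]
  have h := Subgroup.card_le_card_group (xcTheta c Φ).range
  rwa [Nat.card_eq_fintype_card (α := Multiplicative (ZMod p)), Fintype.card_multiplicative,
    ZMod.card] at h

/-- the bad primes -/
def xcS (F : Type*) [Field F] [NumberField F] (m : ℕ) : Set (Ideal (𝓞 F)) :=
  {𝔮 | 𝔮.IsPrime ∧ (m : 𝓞 F) ∈ 𝔮}

theorem xcS_finite (F : Type*) [Field F] [NumberField F] (m : ℕ) (hm : m ≠ 0) :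
    (xcS F m).Finite := by
  classical
  have h0 : span {(m : 𝓞 F)} ≠ ⊥ := by
    rw [Ne, Ideal.span_singleton_eq_bot]
    exact_mod_cast hm
  refine (UniqueFactorizationMonoid.normalizedFactors
    (span {(m : 𝓞 F)})).toFinset.finite_toSet.subset ?_
  rintro 𝔮 ⟨h1, h2⟩
  rw [Finset.mem_coe, Multiset.mem_toFinset, Ideal.mem_normalizedFactors_iff h0]
  exact ⟨h1, (Ideal.span_singleton_le_iff_mem _).2 h2⟩

theorem xc_isCoprime {F : Type*} [Field F] [NumberField F] (m : ℕ) (𝔮 : Ideal (𝓞 F))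
    (h𝔮 : 𝔮.IsPrime) (h0 : 𝔮 ≠ ⊥) (h : 𝔮 ∉ xcS F m) : IsCoprime 𝔮 (span {(m : 𝓞 F)}) := by
  have hmax : 𝔮.IsMaximal := h𝔮.isMaximal h0
  rw [Ideal.isCoprime_iff_sup_eq]
  by_contra hne
  have h1 := hmax.eq_of_le hne le_sup_left
  apply h
  refine ⟨h𝔮, ?_⟩
  rw [h1]
  exact Ideal.mem_sup_right (Ideal.mem_span_singleton_self _)

theorem xc_not_mem {F : Type*} [Field F] [NumberField F] [Algebra F Ω] (m : ℕ) (R : Ideal (𝓞 Ω))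
    (hR : R.IsPrime) (h : R.under (𝓞 F) ∉ xcS F m) : (m : 𝓞 Ω) ∉ R := by
  intro hm
  apply h
  refine ⟨Ideal.IsPrime.under _ _, ?_⟩
  rw [Ideal.under_def, Ideal.mem_comap, map_natCast]
  exact hm

include c in
/-- (XC3) from the instance of (C3F) -/
theorem xc3_of
    (hc3F : ∀ (N : Subgroup (Ω ≃ₐ[fixedField Φ] Ω)) (H : Subgroup (ClassGroup (𝓞 (fixedField Φ))))
      (S : Set (Ideal (𝓞 (fixedField Φ)))), S.Finite →
      (∀ R : Ideal (𝓞 Ω), R.IsPrime → R ≠ ⊥ → R.under (𝓞 (fixedField Φ)) ∉ S → ∀ σ ∈ N,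
        FrobQ σ R (absNorm (R.under (𝓞 (fixedField Φ)))) →
        cl (R.under (𝓞 (fixedField Φ))) ∈ H) → H.index ≤ N.index)
    (H : Subgroup (ClassGroup (𝓞 (fixedField Φ))))
    (h : ∀ 𝔮 : Ideal (𝓞 (fixedField Φ)), 𝔮.IsPrime → 𝔮 ≠ ⊥ →
      IsCoprime 𝔮 (span {((r₁ * r₂ : ℕ) : 𝓞 (fixedField Φ))}) →
      (art s (relNorm (𝓞 K) 𝔮) : ZMod p) = 0 → cl 𝔮 ∈ H) : H.index ≤ p := by
  have hm : r₁ * r₂ ≠ 0 :=
    Nat.mul_ne_zero (Fact.out : r₁.Prime).ne_zero (Fact.out : r₂.Prime).ne_zero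
  refine le_trans (hc3F (xcTheta c Φ).ker H (xcS (fixedField Φ) (r₁ * r₂))
    (xcS_finite _ _ hm) ?_) (xc_index_le c Φ)
  intro R hR hR0 hS σ hσN hσ
  have hmR := xc_not_mem (r₁ * r₂) R hR hS
  refine h _ (Ideal.IsPrime.under _ _) (cf_under_ne_bot hR0)
    (xc_isCoprime _ _ (Ideal.IsPrime.under _ _) (cf_under_ne_bot hR0) hS) ?_
  obtain ⟨g, f, hf, hg, hσg, hrel⟩ := xc_frob (K := K) R hR hR0 (c.good R hR hmR) σ hσ
  rw [hrel, art_pow, art_prime s _ (Ideal.IsPrime.under _ _) (cf_under_ne_bot hR0),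
    ← (c.frob R hR hmR g hg).1]
  rw [MonoidHom.mem_ker, xcTheta_apply, hσg, map_pow] at hσN
  have h2 := congrArg Multiplicative.toAdd hσN
  rw [Prod.pow_fst, toAdd_pow, toAdd_one, nsmul_eq_mul] at h2
  exact h2

/-- (XC4) from the instance of (C4F) -/
theorem xc4_of
    (hc4F : ∀ (N : Subgroup (Ω ≃ₐ[fixedField Φ] Ω)) [N.Normal], N ≠ ⊤ →
      ∀ (S : Set (Ideal (𝓞 (fixedField Φ)))), S.Finite →
      (∀ R : Ideal (𝓞 Ω), R.IsPrime → R ≠ ⊥ → R.under (𝓞 (fixedField Φ)) ∉ S →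
        Ideal.inertia (Ω ≃ₐ[fixedField Φ] Ω) R = ⊥) →
      ∃ (R : Ideal (𝓞 Ω)) (σ : Ω ≃ₐ[fixedField Φ] Ω), R.IsPrime ∧ R ≠ ⊥ ∧
        R.under (𝓞 (fixedField Φ)) ∉ S ∧ (absNorm (R.under (𝓞 (fixedField Φ)))).Prime ∧ σ ∉ N ∧
        FrobQ σ R (absNorm (R.under (𝓞 (fixedField Φ)))))
    (hΦ : ∃ g ∈ Φ, (c.e g).1 ≠ 1) :
    ∃ (R : Ideal (𝓞 Ω)) (g : Ω ≃ₐ[K] Ω) (j : ℕ), R.IsPrime ∧ R ≠ ⊥ ∧
      ((r₁ * r₂ : ℕ) : 𝓞 Ω) ∉ R ∧ FrobQ g R (absNorm (R.under (𝓞 K))) ∧ 0 < j ∧ g ^ j ∈ Φ ∧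
      (c.e (g ^ j)).1 ≠ 1 := by
  have hm : r₁ * r₂ ≠ 0 :=
    Nat.mul_ne_zero (Fact.out : r₁.Prime).ne_zero (Fact.out : r₂.Prime).ne_zero
  have hN : (xcTheta c Φ).ker ≠ ⊤ := by
    obtain ⟨g, hgΦ, hg1⟩ := hΦ
    intro htop
    have hg' : g ∈ (fixedField Φ).fixingSubgroup := by
      rw [fixingSubgroup_fixedField]
      exact hgΦ
    have h1 : (fixingSubgroupEquiv (fixedField Φ) ⟨g, hg'⟩) ∈ (xcTheta c Φ).ker := by
      rw [htop]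
      trivial
    rw [MonoidHom.mem_ker, xcTheta_apply] at h1
    apply hg1
    rw [← h1]
    congr 2
  obtain ⟨R, σ, hR, hR0, hS, -, hσN, hσ⟩ := hc4F (xcTheta c Φ).ker hN
    (xcS (fixedField Φ) (r₁ * r₂)) (xcS_finite _ _ hm) (by
      intro R hR hR0 hS
      have hmR := xc_not_mem (r₁ * r₂) R hR hS
      have hI := c.good R hR hmR
      rw [eq_bot_iff]
      intro σ hσ
      have h1 : σ.restrictScalars K ∈ Ideal.inertia (Ω ≃ₐ[K] Ω) R := fun x => hσ x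
      rw [hI, Subgroup.mem_bot] at h1
      rw [Subgroup.mem_bot]
      ext x
      exact DFunLike.congr_fun h1 x)
  have hmR := xc_not_mem (r₁ * r₂) R hR hS
  obtain ⟨g, f, hf, hg, hσg, hrel⟩ := xc_frob (K := K) R hR hR0 (c.good R hR hmR) σ hσ
  refine ⟨R, g, f, hR, hR0, hmR, hg, hf, ?_, ?_⟩
  · rw [← hσg]
    exact cf_restrictScalars_mem K Ω Φ σ
  · rw [← hσg]
    exact hσN

end X

section Final

variable {p r₁ r₂ : ℕ} [Fact p.Prime] [Fact r₁.Prime] [Fact r₂.Prime]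
  {K L Ω : Type} [Field K] [NumberField K] [Field L] [NumberField L]
  [Field Ω] [NumberField Ω] [Algebra K L] [Algebra L Ω] [Algebra K Ω] [IsScalarTower K L Ω]
  [IsGalois K L] [IsGalois K Ω] {s : L ≃ₐ[K] L}

variable (hs : ∀ g : L ≃ₐ[K] L, g ∈ Subgroup.zpowers s)
  (hcard : Module.finrank K L = p) (hun : Unram K L) (c : Cross p r₁ r₂ K L Ω s)
  (Φ : Subgroup (Ω ≃ₐ[K] Ω))

include hs hcard hun c

/-- (XC3) -/
theorem xc3 (H : Subgroup (ClassGroup (𝓞 (fixedField Φ))))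
    (h : ∀ 𝔮 : Ideal (𝓞 (fixedField Φ)), 𝔮.IsPrime → 𝔮 ≠ ⊥ →
      IsCoprime 𝔮 (span {((r₁ * r₂ : ℕ) : 𝓞 (fixedField Φ))}) →
      (art s (relNorm (𝓞 K) 𝔮) : ZMod p) = 0 → cl 𝔮 ∈ H) : H.index ≤ p :=
  xc3_of c Φ (fun N H S hS h => c3F (fixedField Φ) Ω N H S hS h) H h

/-- (XC4) -/
theorem xc4 (hΦ : ∃ g ∈ Φ, (c.e g).1 ≠ 1) :
    ∃ (R : Ideal (𝓞 Ω)) (g : Ω ≃ₐ[K] Ω) (j : ℕ), R.IsPrime ∧ R ≠ ⊥ ∧
      ((r₁ * r₂ : ℕ) : 𝓞 Ω) ∉ R ∧ FrobQ g R (absNorm (R.under (𝓞 K))) ∧ 0 < j ∧ g ^ j ∈ Φ ∧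
      (c.e (g ^ j)).1 ≠ 1 :=
  xc4_of c Φ (fun N _ hN S hS hunr => c4F (fixedField Φ) Ω N hN S hS hunr) hΦ

end Final

end Fermat.Agent.S14
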