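import Mathlib
import Fermat.Agent.S14.Defs
import Fermat.Agent.S14.CF
import Fermat.Agent.S14.XC

/-!
# S14 (X2): ideals of `fixedField Φ` with prescribed norm
-/

set_option autoImplicit false
set_option linter.unusedSectionVars false

namespace Fermat.Agent.S14

open NumberField Ideal IntermediateField
open scoped nonZeroDivisors Pointwise

theorem x2_of {K Ω : Type*} [Field K] [NumberField K] [Field Ω] [NumberField Ω] [Algebra K Ω]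
    [IsGalois K Ω] (Φ : Subgroup (Ω ≃ₐ[K] Ω)) (m : ℕ)
    (R : Ideal (𝓞 Ω)) (hR : R.IsPrime) (hm : (m : 𝓞 Ω) ∉ R) (hR0 : R ≠ ⊥)
    (hI : Ideal.inertia (Ω ≃ₐ[K] Ω) R = ⊥)
    (g : Ω ≃ₐ[K] Ω) (hg : FrobQ g R (absNorm (R.under (𝓞 K)))) (j : ℕ)
    (hgj : g ^ j ∈ Φ) :
    ∃ 𝔠 : Ideal (𝓞 (fixedField Φ)), 𝔠 ≠ ⊥ ∧
      IsCoprime 𝔠 (span {(m : 𝓞 (fixedField Φ))}) ∧
      relNorm (𝓞 K) 𝔠 = (R.under (𝓞 K)) ^ j := by
  set 𝔮 := R.under (𝓞 (fixedField Φ)) with h𝔮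
  set q := absNorm (R.under (𝓞 K)) with hq
  have h𝔮p : 𝔮.IsPrime := Ideal.IsPrime.under _ _
  have h𝔮0 : 𝔮 ≠ ⊥ := cf_under_ne_bot hR0
  have hP0 : R.under (𝓞 K) ≠ ⊥ := cf_under_ne_bot hR0
  have hPp : (R.under (𝓞 K)).IsPrime := Ideal.IsPrime.under _ _
  have hq1 : 1 < q := by
    have h1 : q ≠ 0 := by
      rw [hq, Ne, Ideal.absNorm_eq_zero_iff]
      exact hP0
    have h2 : q ≠ 1 := by
      rw [hq, Ne, Ideal.absNorm_eq_one_iff]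
      exact hPp.ne_top
    omega
  obtain ⟨σ, hσ⟩ := cf_exists_frob (K := fixedField Φ) R hR hR0
  obtain ⟨g', f, hf, hg', hσg, hrel⟩ := xc_frob (K := K) R hR hR0 hI σ hσ
  obtain rfl : g' = g := xc_eq_of_frobQ hI hg' hg
  have hN : absNorm 𝔮 = q ^ f := by
    rw [← Ideal.absNorm_relNorm (𝓞 K) (𝓞 (fixedField Φ)) 𝔮, hrel, map_pow]
  have hgf : g' ^ f ∈ Φ := hσg ▸ cf_restrictScalars_mem K Ω Φ σ
  have hgv : g' ^ (j % f) ∈ Φ := by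
    have e : g' ^ (j % f) = ((g' ^ f) ^ (j / f))⁻¹ * g' ^ j := by
      rw [eq_inv_mul_iff_mul_eq, ← pow_mul, ← pow_add, Nat.div_add_mod]
    rw [e]
    exact Φ.mul_mem (Φ.inv_mem (Φ.pow_mem hgf _)) hgj
  have hv : j % f = 0 := by
    by_contra hv
    have hfin : Finite (𝓞 (fixedField Φ) ⧸ 𝔮) := finiteQuotientOfFreeOfNeBot 𝔮 h𝔮0
    have _ : IsDomain (𝓞 (fixedField Φ) ⧸ 𝔮) := Ideal.Quotient.isDomain 𝔮
    have hle : Nat.card (𝓞 (fixedField Φ) ⧸ 𝔮) ≤ q ^ (j % f) := by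
      apply cf_card_le _ (Nat.one_lt_pow hv hq1)
      intro y
      obtain ⟨x, rfl⟩ := Ideal.Quotient.mk_surjective y
      rw [← map_pow, eq_comm, Ideal.Quotient.eq, h𝔮, Ideal.under_def, Ideal.mem_comap, map_sub,
        map_pow]
      have h2 := xc_frobQ_pow hg (j % f) (algebraMap (𝓞 (fixedField Φ)) (𝓞 Ω) x)
      have h3 : g' ^ (j % f) • (algebraMap (𝓞 (fixedField Φ)) (𝓞 Ω) x) =
          algebraMap (𝓞 (fixedField Φ)) (𝓞 Ω) x := by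
        apply Subtype.ext
        exact (x : fixedField Φ).2 ⟨g' ^ (j % f), hgv⟩
      rwa [h3] at h2
    rw [← Submodule.cardQuot_apply, ← Ideal.absNorm_apply, hN,
      Nat.pow_le_pow_iff_right hq1] at hle
    have := Nat.mod_lt j hf
    omega
  obtain ⟨u, rfl⟩ := Nat.dvd_of_mod_eq_zero hv
  refine ⟨𝔮 ^ u, pow_ne_zero _ h𝔮0, IsCoprime.pow_left (xc_isCoprime m 𝔮 h𝔮p h𝔮0 ?_), ?_⟩
  · rintro ⟨-, h⟩
    apply hm
    rw [h𝔮, Ideal.under_def, Ideal.mem_comap, map_natCast] at h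
    exact h
  · rw [map_pow, hrel, pow_mul]

section X

variable {p r₁ r₂ : ℕ} [Fact p.Prime] [Fact r₁.Prime] [Fact r₂.Prime]
  {K L Ω : Type} [Field K] [NumberField K] [Field L] [NumberField L]
  [Field Ω] [NumberField Ω] [Algebra K L] [Algebra L Ω] [Algebra K Ω] [IsScalarTower K L Ω]
  [IsGalois K L] [IsGalois K Ω] {s : L ≃ₐ[K] L}

variable (hs : ∀ g : L ≃ₐ[K] L, g ∈ Subgroup.zpowers s)
  (hcard : Module.finrank K L = p) (hun : Unram K L) (c : Cross p r₁ r₂ K L Ω s)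
  (Φ : Subgroup (Ω ≃ₐ[K] Ω))

include hs hcard hun c

/-- (X2) -/
theorem x2 (R : Ideal (𝓞 Ω)) (hR : R.IsPrime) (hm : ((r₁ * r₂ : ℕ) : 𝓞 Ω) ∉ R) (hR0 : R ≠ ⊥)
    (g : Ω ≃ₐ[K] Ω) (hg : FrobQ g R (absNorm (R.under (𝓞 K)))) (j : ℕ) (hj : 0 < j)
    (hgj : g ^ j ∈ Φ) :
    ∃ 𝔠 : Ideal (𝓞 (fixedField Φ)), 𝔠 ≠ ⊥ ∧
      IsCoprime 𝔠 (span {((r₁ * r₂ : ℕ) : 𝓞 (fixedField Φ))}) ∧
      relNorm (𝓞 K) 𝔠 = (R.under (𝓞 K)) ^ j :=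
  x2_of Φ (r₁ * r₂) R hR hm hR0 (c.good R hR hm) g hg j hgj

end X

end Fermat.Agent.S14
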