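import Mathlib
import Fermat.Agent.S14.Defs
import Fermat.Agent.S14.Art
import Fermat.Agent.S14.D3
import Fermat.Agent.S14.D4X
import Fermat.Agent.S14.XC
import Fermat.Agent.S14.X1
import Fermat.Agent.S14.X2
import Fermat.Agent.S14.Swap

/-!
# S14 (E): comparison of two inert primes
-/

set_option autoImplicit false
set_option linter.unusedSectionVars false
set_option linter.unusedVariables false

namespace Fermat.Agent.S14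

open NumberField Ideal IntermediateField
open scoped nonZeroDivisors Pointwise

section X

variable {p r₁ r₂ : ℕ} [Fact p.Prime] [Fact r₁.Prime] [Fact r₂.Prime]
  {K L Ω : Type} [Field K] [NumberField K] [Field L] [NumberField L]
  [Field Ω] [NumberField Ω] [Algebra K L] [Algebra L Ω] [Algebra K Ω] [IsScalarTower K L Ω]
  [IsGalois K L] [IsGalois K Ω] {s : L ≃ₐ[K] L}

/-- an element whose `k`-th and `p`-th powers lie in a subgroup, `k` prime to `p` -/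
lemma mem_of_pow_mem {G : Type*} [CommGroup G] (N : Subgroup G) (x : G) (k : ℕ)
    (hk : ¬ p ∣ k) (h1 : x ^ k ∈ N) (h2 : x ^ p ∈ N) : x ∈ N := by
  have hp : p.Prime := Fact.out
  have hc : Nat.Coprime p k := (Nat.Prime.coprime_iff_not_dvd hp).2 hk
  have h3 : (p : ℤ) * Nat.gcdA p k + (k : ℤ) * Nat.gcdB p k = 1 := by
    have := Nat.gcd_eq_gcd_ab p k
    rw [hc] at this
    exact_mod_cast this.symm
  have h4 : x = (x ^ p) ^ (Nat.gcdA p k) * (x ^ k) ^ (Nat.gcdB p k) := by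
    rw [← zpow_natCast x p, ← zpow_natCast x k, ← zpow_mul, ← zpow_mul, ← zpow_add, h3, zpow_one]
  rw [h4]
  exact N.mul_mem (N.zpow_mem h2 _) (N.zpow_mem h1 _)

lemma natCast_mem_under {A B : Type*} [CommRing A] [CommRing B] [Algebra A B] (R : Ideal B)
    (m : ℕ) : (m : A) ∈ R.under A ↔ (m : B) ∈ R := by
  rw [Ideal.under_def, Ideal.mem_comap, map_natCast]

variable (hs : ∀ g : L ≃ₐ[K] L, g ∈ Subgroup.zpowers s)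
  (hcard : Module.finrank K L = p) (hun : Unram K L)

include hs hcard hun

lemma e_half (c : Cross p r₁ r₂ K L Ω s) (hp2 : p ≠ 2) [IsGalois ℚ K]
    (hres₁ : ∀ 𝔯 : Ideal (𝓞 K), 𝔯.IsPrime → (r₁ : 𝓞 K) ∈ 𝔯 → absNorm 𝔯 = r₁)
    (R₁ : Ideal (𝓞 Ω)) (hR₁ : R₁.IsPrime) (hR₁0 : R₁ ≠ ⊥) (hm₁ : ((r₁ * r₂ : ℕ) : 𝓞 Ω) ∉ R₁)
    (g₁ : Ω ≃ₐ[K] Ω) (hg₁ : FrobQ g₁ R₁ (absNorm (R₁.under (𝓞 K))))
    (hP₁0 : R₁.under (𝓞 K) ≠ ⊥)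
    (hf₁ : (fe s (R₁.under (𝓞 K)) : ZMod p) ≠ 0)
    (ho₁ : p ∣ orderOf (absNorm (R₁.under (𝓞 K)) : ZMod r₁))
    (R : Ideal (𝓞 Ω)) (hR : R.IsPrime) (hR0 : R ≠ ⊥) (hm : ((r₁ * r₂ : ℕ) : 𝓞 Ω) ∉ R)
    (hl0 : R.under (𝓞 K) ≠ ⊥)
    (g : Ω ≃ₐ[K] Ω) (hg : FrobQ g R (absNorm (R.under (𝓞 K)))) (j : ℕ) (hj : 0 < j)
    (hgj : g ^ j ∈ c.H₁ g₁) :
    cl (R.under (𝓞 K)) ^ (j * (fe s (R₁.under (𝓞 K)) : ZMod p).val) /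
      cl (R₁.under (𝓞 K)) ^ ((j : ZMod p) * fe s (R.under (𝓞 K)) : ZMod p).val ∈ normCl K L := by
  set P₁ := R₁.under (𝓞 K) with hP₁
  set l := R.under (𝓞 K) with hl
  have hP₁p : P₁.IsPrime := Ideal.IsPrime.under (𝓞 K) R₁
  have hlp : l.IsPrime := Ideal.IsPrime.under (𝓞 K) R
  obtain ⟨hF1, hF2, -⟩ := c.frob R₁ hR₁ hm₁ g₁ hg₁
  have hg1 : (c.e g₁).1 ≠ 1 := by
    intro h
    apply hf₁
    rw [← hF1, h]
    rfl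
  have hord : p ∣ orderOf (c.e g₁).2.1 := by
    rw [← orderOf_units, hF2]
    exact ho₁
  have hprin := d3_of c hp2 x0 (fun Φ 𝔠 h0 h => x1 hs hcard hun c Φ 𝔠 h0 h) (art_pow s) hres₁ g₁ hg1
    hord
  obtain ⟨𝔠, h𝔠0, h𝔠c, h𝔠N⟩ := x2 hs hcard hun c (c.H₁ g₁) R hR hm hR0 g hg j hj hgj
  obtain ⟨𝔓, h𝔓0, h𝔓c, h𝔓N⟩ := x2 hs hcard hun c (c.H₁ g₁) R₁ hR₁ hm₁ hR₁0 g₁ hg₁ 1 one_pos (by
    rw [pow_one]
    exact Subgroup.mem_zpowers _)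
  rw [pow_one] at h𝔓N
  have h1 := d4_of_xc3 hs hcard hun (c.H₁ g₁) (xc3 hs hcard hun c (c.H₁ g₁)) hprin ⟨𝔓, h𝔓0, h𝔓c, by
      rw [h𝔓N, art_prime s P₁ hP₁p hP₁0]
      exact hf₁⟩
    (𝔠 ^ (fe s P₁ : ZMod p).val) (𝔓 ^ ((j : ZMod p) * fe s l : ZMod p).val)
    (pow_ne_zero _ h𝔠0) (pow_ne_zero _ h𝔓0) h𝔠c.pow_left h𝔓c.pow_left (by
      rw [map_pow, map_pow, h𝔠N, h𝔓N, art_pow, art_pow, art_pow, art_prime s P₁ hP₁p hP₁0,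
        art_prime s l hlp hl0, ZMod.natCast_zmod_val, ZMod.natCast_zmod_val]
      ring)
  rw [map_pow, map_pow, h𝔠N, h𝔓N, ← pow_mul, cl_pow hl0, cl_pow hP₁0] at h1
  exact h1

theorem e_main (c : Cross p r₁ r₂ K L Ω s) (hp2 : p ≠ 2) [IsGalois ℚ K]
    (hres₁ : ∀ 𝔯 : Ideal (𝓞 K), 𝔯.IsPrime → (r₁ : 𝓞 K) ∈ 𝔯 → absNorm 𝔯 = r₁)
    (hres₂ : ∀ 𝔯 : Ideal (𝓞 K), 𝔯.IsPrime → (r₂ : 𝓞 K) ∈ 𝔯 → absNorm 𝔯 = r₂)
    (P₁ P₂ : Ideal (𝓞 K)) (hP₁ : P₁.IsPrime) (hP₂ : P₂.IsPrime) (h₁ : P₁ ≠ ⊥) (h₂ : P₂ ≠ ⊥)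
    (hm₁ : ((r₁ * r₂ : ℕ) : 𝓞 K) ∉ P₁) (hm₂ : ((r₁ * r₂ : ℕ) : 𝓞 K) ∉ P₂)
    (hf₁ : (fe s P₁ : ZMod p) ≠ 0) (hf₂ : (fe s P₂ : ZMod p) ≠ 0)
    (ho₁ : p ∣ orderOf (absNorm P₁ : ZMod r₁)) (ho₂ : p ∣ orderOf (absNorm P₂ : ZMod r₂)) :
    cl P₁ ^ (fe s P₂ : ZMod p).val / cl P₂ ^ (fe s P₁ : ZMod p).val ∈ normCl K L := by
  obtain ⟨c', hc'⟩ := c.exists_swap
  obtain ⟨R₁, g₁, hR₁, rfl, hg₁⟩ := x0 (Ω := Ω) P₁ hP₁ h₁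
  obtain ⟨R₂, g₂, hR₂, rfl, hg₂⟩ := x0 (Ω := Ω) P₂ hP₂ h₂
  rw [natCast_mem_under] at hm₁ hm₂
  have hR₁0 : R₁ ≠ ⊥ := ne_bot_of_under (K := K) R₁ h₁
  have hR₂0 : R₂ ≠ ⊥ := ne_bot_of_under (K := K) R₂ h₂
  obtain ⟨hF1, -, -⟩ := c.frob R₁ hR₁ hm₁ g₁ hg₁
  obtain ⟨hF2, -, -⟩ := c.frob R₂ hR₂ hm₂ g₂ hg₂
  set d₁ : ZMod p := fe s (R₁.under (𝓞 K)) with hd₁
  set d₂ : ZMod p := fe s (R₂.under (𝓞 K)) with hd₂
  -- the element of `H₁ ∩ H₂`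
  set h : Ω ≃ₐ[K] Ω := c.e.symm (Multiplicative.ofAdd (d₁ * d₂), (c.e g₁).2.1 ^ d₂.val,
    (c.e g₂).2.2 ^ d₁.val) with hh
  have heh : c.e h = (Multiplicative.ofAdd (d₁ * d₂), (c.e g₁).2.1 ^ d₂.val,
    (c.e g₂).2.2 ^ d₁.val) := c.e.apply_symm_apply _
  have hpow : ∀ (a b : ZMod p), (Multiplicative.ofAdd a) ^ b.val = Multiplicative.ofAdd (a * b) := by
    intro a b
    rw [← ofAdd_nsmul, nsmul_eq_mul, ZMod.natCast_zmod_val, mul_comm]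
  have hh1 : h ∈ c.H₁ g₁ := by
    refine Subgroup.mem_zpowers_iff.2 ⟨(d₂.val : ℤ), ?_⟩
    rw [zpow_natCast]
    change ((c.e g₁).1, (c.e g₁).2.1) ^ d₂.val = ((c.e h).1, (c.e h).2.1)
    rw [heh, Prod.pow_mk]
    congr 1
    rw [← hpow, ← hF1]
    rfl
  have hh2 : h ∈ c'.H₁ g₂ := by
    refine Subgroup.mem_zpowers_iff.2 ⟨(d₁.val : ℤ), ?_⟩
    rw [zpow_natCast]
    change ((c'.e g₂).1, (c'.e g₂).2.1) ^ d₁.val = ((c'.e h).1, (c'.e h).2.1)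
    rw [(hc' g₂).1, (hc' g₂).2.1, (hc' h).1, (hc' h).2.1, heh, Prod.pow_mk]
    congr 1
    rw [mul_comm d₁ d₂, ← hpow, ← hF2]
    rfl
  obtain ⟨R, g, j, hR, hR0, hm, hg, hj, hgj, hne⟩ := xc4 hs hcard hun c (c.H₁ g₁ ⊓ c'.H₁ g₂)
    ⟨h, ⟨hh1, hh2⟩, by
      rw [heh]
      intro h0
      exact mul_ne_zero hf₁ hf₂ (Multiplicative.ofAdd.injective h0)⟩
  have hl0 : R.under (𝓞 K) ≠ ⊥ := by
    have : R.IsMaximal := hR.isMaximal hR0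
    exact Ideal.under_ne_bot (𝓞 K) hR0
  obtain ⟨hF, -, -⟩ := c.frob R hR hm g hg
  set k : ℕ := ((j : ZMod p) * fe s (R.under (𝓞 K)) : ZMod p).val with hk
  have hkp : ¬ p ∣ k := by
    intro hdvd
    apply hne
    rw [map_pow, Prod.pow_fst]
    have h0 : ((j : ZMod p) * fe s (R.under (𝓞 K)) : ZMod p) = 0 := by
      rw [← ZMod.natCast_zmod_val ((j : ZMod p) * fe s (R.under (𝓞 K)) : ZMod p), ← hk,
        ZMod.natCast_eq_zero_iff]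
      exact hdvd
    have h1 : (c.e g).1 = Multiplicative.ofAdd (fe s (R.under (𝓞 K)) : ZMod p) := by
      rw [← hF]
      rfl
    rw [h1, ← ofAdd_nsmul, nsmul_eq_mul, h0]
    rfl
  have e1 := e_half hs hcard hun c hp2 hres₁ R₁ hR₁ hR₁0 hm₁ g₁ hg₁ h₁ hf₁ ho₁ R hR hR0 hm hl0 g hg
    j hj hgj.1
  have e2 := e_half hs hcard hun c' hp2 hres₂ R₂ hR₂ hR₂0 (by rwa [mul_comm]) g₂ hg₂ h₂ hf₂ ho₂
    R hR hR0 (by rwa [mul_comm]) hl0 g hg j hj hgj.2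
  rw [← hd₁, ← hk] at e1
  rw [← hd₂, ← hk] at e2
  set A := cl (R.under (𝓞 K))
  set B₁ := cl (R₁.under (𝓞 K))
  set B₂ := cl (R₂.under (𝓞 K))
  apply mem_of_pow_mem (p := p) (normCl K L) _ k hkp _ (pow_mem_normCl hcard _)
  have e3 := (normCl K L).mul_mem ((normCl K L).pow_mem e2 d₁.val)
    ((normCl K L).inv_mem ((normCl K L).pow_mem e1 d₂.val))
  have e4 : (A ^ (j * d₂.val) / B₂ ^ k) ^ d₁.val * ((A ^ (j * d₁.val) / B₁ ^ k) ^ d₂.val)⁻¹ =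
      (B₁ ^ d₂.val / B₂ ^ d₁.val) ^ k := by
    simp only [div_pow, ← pow_mul]
    have : j * d₂.val * d₁.val = j * d₁.val * d₂.val := by ring
    rw [this, mul_comm k d₁.val, mul_comm k d₂.val, inv_div, div_mul_div_comm,
      mul_comm (A ^ (j * d₁.val * d₂.val)) (B₁ ^ (d₂.val * k)), mul_div_mul_right_eq_div]
  rwa [e4] at e3

end X

end Fermat.Agent.S14
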