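import Mathlib
import Fermat.Agent.S14.G3

/-!
# S14 (G4): repackaging of `BadData` with `K = ℚ(ζ)`
-/

set_option autoImplicit false
set_option linter.unusedSectionVars false

namespace Fermat.Agent.S14

open NumberField IntermediateField
open scoped Pointwise

variable {p : ℕ} [Fact p.Prime] {L : Type} [Field L] [NumberField L] {ζ : L}

/-- `K = ℚ(ζ)` inside `L` -/
abbrev g4K (ζ : L) : IntermediateField ℚ L := ℚ⟮ζ⟯

lemma g4_zeta_mem (ζ : L) : ζ ∈ g4K ζ := mem_adjoin_simple_self ℚ ζ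

example : NumberField (g4K ζ) := inferInstance

lemma g4_fix_iff (t : L ≃ₐ[ℚ] L) : t ∈ (g4K ζ).fixingSubgroup ↔ t ζ = ζ := by
  rw [IntermediateField.mem_fixingSubgroup_iff]
  constructor
  · intro h
    exact h ζ (g4_zeta_mem ζ)
  · intro h x hx
    have h1 : g4K ζ ≤ IntermediateField.fixedField (Subgroup.zpowers t) := by
      rw [IntermediateField.adjoin_le_iff, Set.singleton_subset_iff, SetLike.mem_coe,
        IntermediateField.mem_fixedField_iff]
      intro f hf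
      obtain ⟨n, rfl⟩ := Subgroup.mem_zpowers_iff.1 hf
      have h2 : t ∈ MulAction.stabilizer (L ≃ₐ[ℚ] L) ζ := h
      exact (MulAction.stabilizer (L ≃ₐ[ℚ] L) ζ).zpow_mem h2 n
    exact (IntermediateField.mem_fixedField_iff _ _).1 (h1 hx) t (Subgroup.mem_zpowers t)

lemma g4_restrict_zeta (t : L ≃ₐ[g4K ζ] L) : (t.restrictScalars ℚ) ζ = ζ :=
  t.commutes ⟨ζ, g4_zeta_mem ζ⟩

lemma g4_restrict_injective :
    Function.Injective (fun t : L ≃ₐ[g4K ζ] L => t.restrictScalars ℚ) :=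
  AlgEquiv.restrictScalars_injective ℚ

lemma g4_restrict_pow (t : L ≃ₐ[g4K ζ] L) (m : ℕ) :
    (t ^ m).restrictScalars ℚ = (t.restrictScalars ℚ) ^ m := by
  induction m with
  | zero => rfl
  | succ m ih =>
    rw [pow_succ, pow_succ, ← ih]
    rfl

variable (h : BadData p L ζ)

include h

lemma g4_isGalois : IsGalois (g4K ζ) L :=
  have := h.gal
  inferInstance

lemma g4_cyc : IsCyclotomicExtension {p} ℚ (g4K ζ) := by
  have h1 := IsPrimitiveRoot.intermediateField_adjoin_isCyclotomicExtension ℚ h.prim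
  have e : ((g4K ζ).algebra' : Algebra ℚ ↥(g4K ζ)) = DivisionRing.toRatAlgebra :=
    Subsingleton.elim _ _
  rw [← e]
  exact h1

lemma g4_card : Nat.card (L ≃ₐ[g4K ζ] L) = p := by
  rw [← h.card, ← Nat.card_congr (IntermediateField.fixingSubgroupEquiv (g4K ζ)).toEquiv]
  exact Nat.card_congr (Equiv.subtypeEquivRight fun t => g4_fix_iff t)

lemma g4_finrank : Module.finrank (g4K ζ) L = p := by
  have := g4_isGalois h
  rw [← IsGalois.card_aut_eq_finrank, g4_card h]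

lemma g4_stabilizer (Q : Ideal (𝓞 L)) [Q.IsPrime] (hQ : (p : 𝓞 L) ∈ Q) :
    MulAction.stabilizer (L ≃ₐ[g4K ζ] L) Q = ⊥ := by
  rw [eq_bot_iff]
  intro t ht
  rw [Subgroup.mem_bot]
  apply g4_restrict_injective
  refine h.split Q inferInstance hQ _ (g4_restrict_zeta t) fun x => ?_
  rw [MulAction.mem_stabilizer_iff] at ht
  change x ∈ Q ↔ t • x ∈ Q
  conv_rhs => rw [← ht]
  exact (Ideal.smul_mem_pointwise_smul_iff).symm

lemma g4_inertia (Q : Ideal (𝓞 L)) [Q.IsPrime] (hQ : Q ≠ ⊥) :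
    Ideal.inertia (L ≃ₐ[g4K ζ] L) Q = ⊥ := by
  rw [eq_bot_iff]
  intro t ht
  by_cases hp : (p : 𝓞 L) ∈ Q
  · rw [← g4_stabilizer h Q hp]
    exact Ideal.inertia_le_stabilizer Q ht
  · rw [Subgroup.mem_bot]
    apply g4_restrict_injective
    exact h.unram Q inferInstance hQ hp _ fun x => ht x

lemma g4_conj (s : L ≃ₐ[ℚ] L) (t : L ≃ₐ[g4K ζ] L) (m : ℕ) (hs : s ζ ^ m = ζ) :
    s * t.restrictScalars ℚ * s⁻¹ = (t ^ m).restrictScalars ℚ := by
  rw [h.conj s _ m (g4_restrict_zeta t) hs, g4_restrict_pow]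

end Fermat.Agent.S14
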