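import Fermat.Agent.S14.FIdeal

/-!
# S14 (F): the factorisation of the Jacobi sum in `ℤ[ζ_p]`
-/

set_option autoImplicit false
set_option linter.style.haveILetI false

namespace Fermat.Agent.S14

open NumberField Ideal
open scoped Pointwise

theorem jacobi_factor (p : ℕ) [Fact p.Prime] (hp2 : p ≠ 2) (K : Type*) [Field K] [NumberField K]
    [IsCyclotomicExtension {p} ℚ K] (Q : Ideal (𝓞 K)) (hQ : Q.IsPrime) (ℓ : ℕ) (hℓ : ℓ.Prime)
    (hℓp : ℓ ≠ p) (hN : absNorm Q = ℓ) (σ : ℕ → (K ≃ₐ[ℚ] K))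
    (hσ : ∀ t ∈ Finset.Icc 1 ((p - 1) / 2), ∀ ζ : K, ζ ^ p = 1 → σ t (ζ ^ t) = ζ) :
    ∃ J : 𝓞 K, J ≠ 0 ∧ span {J} = ∏ t ∈ Finset.Icc 1 ((p - 1) / 2), (σ t • Q) := by
  classical
  have hp : p.Prime := Fact.out
  have hne : NeZero p := ⟨hp.ne_zero⟩
  have hζ₀ : IsPrimitiveRoot (IsCyclotomicExtension.zeta p ℚ K) p :=
    IsCyclotomicExtension.zeta_spec p ℚ K
  have haut : ∀ t : ℕ, t.Coprime p → ∃ τ : K ≃ₐ[ℚ] K,
      τ (IsCyclotomicExtension.zeta p ℚ K) = IsCyclotomicExtension.zeta p ℚ K ^ t := fun t ht =>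
    ⟨IsCyclotomicExtension.fromZetaAut (hζ₀.pow_of_coprime t ht)
      (Polynomial.cyclotomic.irreducible_rat hp.pos), IsCyclotomicExtension.fromZetaAut_spec _ _⟩
  generalize IsCyclotomicExtension.zeta p ℚ K = ζ₀ at hζ₀ haut
  have hz : hζ₀.toInteger ^ p = 1 := hζ₀.toInteger_isPrimitiveRoot.pow_eq_one
  have hQ0 : Q ≠ ⊥ := by
    intro h0
    rw [h0, Ideal.absNorm_bot] at hN
    exact hℓ.ne_zero hN.symm
  have hQmax : Q.IsMaximal := hQ.isMaximal hQ0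
  letI : Field (𝓞 K ⧸ Q) := Ideal.Quotient.field Q
  have hfin : Finite (𝓞 K ⧸ Q) := (Ideal.absNorm_ne_zero_iff Q).1 (by rw [hN]; exact hℓ.ne_zero)
  letI : Fintype (𝓞 K ⧸ Q) := Fintype.ofFinite _
  have hcard : Fintype.card (𝓞 K ⧸ Q) = ℓ := by
    rw [← Nat.card_eq_fintype_card, ← hN]
    rfl
  have hπ : Ideal.Quotient.mk Q hζ₀.toInteger ≠ 1 := by
    intro h
    have h1 : hζ₀.toInteger - 1 ∈ Q := by
      rw [← Ideal.Quotient.eq_zero_iff_mem, map_sub, h, map_one, sub_self]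
    have h2 : (p : 𝓞 K) ∈ Q := Ideal.mem_of_dvd Q hζ₀.toInteger_sub_one_dvd_prime' h1
    have h3 : (ℓ : 𝓞 K) ∈ Q := hN ▸ Ideal.absNorm_mem Q
    have hcop : Nat.Coprime p ℓ := (Nat.coprime_primes hp hℓ).2 hℓp.symm
    have h4 : ((1 : ℤ) : 𝓞 K) ∈ Q := by
      rw [← Int.natCast_one, ← hcop.gcd_eq_one, Nat.gcd_eq_gcd_ab]
      push_cast
      exact Q.add_mem (Q.mul_mem_right _ h2) (Q.mul_mem_right _ h3)
    rw [Int.cast_one] at h4
    exact hQ.ne_top ((Ideal.eq_top_iff_one Q).2 h4)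
  have hrank : Module.finrank ℤ (𝓞 K) = p - 1 := by
    rw [RingOfIntegers.rank, IsCyclotomicExtension.Rat.finrank p K, Nat.totient_prime hp]
  obtain ⟨J, hJ⟩ := jac_main_aux (Ideal.Quotient.mk Q) hp hp2 hℓ hcard hrank hz hπ Q
    (fun x => Ideal.Quotient.eq_zero_iff_mem.symm) hN
  -- the family of automorphisms
  have hfam : ∀ t : ℕ, ∃ τ : K ≃ₐ[ℚ] K, (t ∈ Finset.Icc 1 ((p - 1) / 2) → τ = (σ t)⁻¹) ∧
      (t ∈ Finset.Icc 1 (p - 1) → τ ζ₀ = ζ₀ ^ t) := by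
    intro t
    by_cases h1 : t ∈ Finset.Icc 1 ((p - 1) / 2)
    · refine ⟨(σ t)⁻¹, fun _ => rfl, fun _ => ?_⟩
      have := hσ t h1 ζ₀ hζ₀.pow_eq_one
      conv_lhs => rw [← this]
      exact (σ t).symm_apply_apply _
    · by_cases h2 : t ∈ Finset.Icc 1 (p - 1)
      · rw [Finset.mem_Icc] at h2
        obtain ⟨τ, hτ⟩ := haut t ((Nat.coprime_comm.1
          ((Nat.Prime.coprime_iff_not_dvd hp).2 (Nat.not_dvd_of_pos_of_lt (by omega) (by omega)))))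
        exact ⟨τ, fun h => absurd h h1, fun _ => hτ⟩
      · exact ⟨1, fun h => absurd h h1, fun h => absurd h h2⟩
  choose τ hτ1 hτ2 using hfam
  have hJ' := hJ (fun t => MulSemiringAction.toRingEquiv (K ≃ₐ[ℚ] K) (𝓞 K) (τ t)) (by
    intro t ht
    apply RingOfIntegers.ext
    have := hτ2 t ht
    rw [RingOfIntegers.coe_eq_algebraMap (hζ₀.toInteger ^ t), map_pow]
    exact this)
  refine ⟨J, ?_, ?_⟩
  · intro h0
    have h1 := congrArg Ideal.absNorm hJ'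
    rw [h0, Ideal.span_singleton_eq_bot.2 rfl, Ideal.absNorm_bot, map_prod,
      Finset.prod_congr rfl fun t _ => (jac_absNorm_comap _ Q).trans hN, Finset.prod_const] at h1
    exact (pow_ne_zero _ hℓ.ne_zero) h1.symm
  · rw [hJ']
    refine Finset.prod_congr rfl fun t ht => ?_
    ext x
    rw [Ideal.mem_pointwise_smul_iff_inv_smul_mem, Ideal.mem_comap, hτ1 t ht]
    rfl

end Fermat.Agent.S14
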