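import Mathlib
import Fermat.Agent.S14.Defs
import Fermat.Agent.S14.G4
import Fermat.Agent.S14.Art
import Fermat.Agent.S14.Jac

/-!
# S14 (H): the end of the argument (Stickelberger via the Jacobi sum + reciprocity)
-/

set_option autoImplicit false
set_option linter.unusedSectionVars false

namespace Fermat.Agent.S14

open NumberField Ideal IntermediateField
open scoped nonZeroDivisors Pointwise

theorem h_exists_aut (p : ℕ) [Fact p.Prime] (K : Type*) [Field K] [NumberField K]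
    [IsCyclotomicExtension {p} ℚ K] (u : ℕ) (hu : u.Coprime p) :
    ∃ τ : K ≃ₐ[ℚ] K, ∀ z : K, z ^ p = 1 → τ z = z ^ u := by
  have hp : p.Prime := Fact.out
  have hne : NeZero p := ⟨hp.ne_zero⟩
  have hζ₀ : IsPrimitiveRoot (IsCyclotomicExtension.zeta p ℚ K) p :=
    IsCyclotomicExtension.zeta_spec p ℚ K
  refine ⟨IsCyclotomicExtension.fromZetaAut (hζ₀.pow_of_coprime u hu)
      (Polynomial.cyclotomic.irreducible_rat hp.pos), fun z hz => ?_⟩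
  obtain ⟨i, -, rfl⟩ := hζ₀.eq_pow_of_pow_eq_one hz
  rw [map_pow, IsCyclotomicExtension.fromZetaAut_spec, ← pow_mul, ← pow_mul, mul_comm]

theorem h_exists_sigma (p : ℕ) [Fact p.Prime] (K : Type*) [Field K] [NumberField K]
    [IsCyclotomicExtension {p} ℚ K] (t : ℕ) (ht : ¬ p ∣ t) :
    ∃ τ : K ≃ₐ[ℚ] K, ∀ z : K, z ^ p = 1 → τ (z ^ t) = z := by
  have hp : p.Prime := Fact.out
  have hcop : t.Coprime p := ((Nat.Prime.coprime_iff_not_dvd hp).2 ht).symm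
  obtain ⟨u, -, hu⟩ := Nat.exists_mul_mod_eq_one_of_coprime hcop hp.one_lt
  have hucop : u.Coprime p := by
    rw [Nat.coprime_comm, Nat.Prime.coprime_iff_not_dvd hp]
    intro h
    rw [Nat.mul_mod, Nat.mod_eq_zero_of_dvd h, mul_zero, Nat.zero_mod] at hu
    omega
  obtain ⟨τ, hτ⟩ := h_exists_aut p K u hucop
  refine ⟨τ, fun z hz => ?_⟩
  rw [hτ _ (by rw [← pow_mul, mul_comm, pow_mul, hz, one_pow]), ← pow_mul,
    ← Nat.div_add_mod (t * u) p, hu, pow_add, pow_mul, hz, one_pow, one_mul, pow_one]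

theorem h_two_mul_sum (m : ℕ) : 2 * ∑ t ∈ Finset.Icc 1 m, t = m * (m + 1) := by
  induction m with
  | zero => simp
  | succ m ih =>
    rw [Finset.sum_Icc_succ_top (by omega), mul_add, ih]
    ring

theorem h_sum_ne_zero (p : ℕ) [Fact p.Prime] (h3 : 3 ≤ p) :
    (∑ t ∈ Finset.Icc 1 ((p - 1) / 2), (t : ZMod p)) ≠ 0 := by
  have hp : p.Prime := Fact.out
  intro h
  rw [← Nat.cast_sum, ZMod.natCast_eq_zero_iff] at h
  have h1 : p ∣ ((p - 1) / 2) * ((p - 1) / 2 + 1) := by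
    rw [← h_two_mul_sum]
    exact Dvd.dvd.mul_left h 2
  rcases (Nat.Prime.dvd_mul hp).1 h1 with h2 | h2
  · have := Nat.le_of_dvd (by omega) h2
    omega
  · have := Nat.le_of_dvd (by omega) h2
    omega

/-- the abstract form: `L/K` cyclic unramified of degree `p`, `K = ℚ(ζ_p)`, `Gal(K/ℚ)` acting on
`Gal(L/K)` through `ω⁻¹`, reciprocity, and a non split prime of degree one. -/
theorem h_main (p : ℕ) [Fact p.Prime] (h3 : 3 ≤ p) (K L : Type*) [Field K] [NumberField K]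
    [Field L] [NumberField L] [Algebra K L] [IsGalois K L] [IsGalois ℚ L]
    [IsCyclotomicExtension {p} ℚ K]
    (s : L ≃ₐ[K] L) (hs : ∀ g : L ≃ₐ[K] L, g ∈ Subgroup.zpowers s)
    (hcard : Module.finrank K L = p) (hun : Unram K L)
    (ζ : K) (hζ₀ : IsPrimitiveRoot ζ p)
    (hconj : ∀ (τ : L ≃ₐ[ℚ] L) (m : ℕ),
      τ (algebraMap K L ζ) ^ m = algebraMap K L ζ → ∀ x : L, τ (s (τ.symm x)) = (s ^ m) x)
    (hrec : ∀ x : 𝓞 K, x ≠ 0 → (art s (span {x}) : ZMod p) = 0)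
    (hc4 : ∃ 𝔮 : Ideal (𝓞 K), 𝔮.IsPrime ∧ 𝔮 ≠ ⊥ ∧ absNorm 𝔮 ≠ p ∧ (absNorm 𝔮).Prime ∧
      ∀ 𝔔 : Ideal (𝓞 L), 𝔔.IsPrime → 𝔔.under (𝓞 K) = 𝔮 → absNorm 𝔔 ≠ absNorm 𝔮) : False := by
  have hp : p.Prime := Fact.out
  have hne : NeZero p := ⟨hp.ne_zero⟩
  obtain ⟨𝔮, h𝔮, h𝔮0, hℓp, hℓ, hns⟩ := hc4
  have hf : (fe s 𝔮 : ZMod p) ≠ 0 := fe_ne_zero_of_nonsplit s hs hcard hun 𝔮 h𝔮 h𝔮0 hns
  have hex : ∀ t : ℕ, ∃ τ : K ≃ₐ[ℚ] K, t ∈ Finset.Icc 1 ((p - 1) / 2) →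
      ∀ z : K, z ^ p = 1 → τ (z ^ t) = z := by
    intro t
    by_cases ht : t ∈ Finset.Icc 1 ((p - 1) / 2)
    · rw [Finset.mem_Icc] at ht
      obtain ⟨τ, hτ⟩ := h_exists_sigma p K t (fun h => by
        have := Nat.le_of_dvd (by omega) h
        omega)
      exact ⟨τ, fun _ => hτ⟩
    · exact ⟨1, fun h => absurd h ht⟩
  choose σ hσ using hex
  obtain ⟨J, hJ0, hJ⟩ := jacobi_factor p (by omega) K 𝔮 h𝔮 _ hℓ hℓp rfl σ hσ
  have h1 := hrec J hJ0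
  have hne0 : ∀ t, σ t • 𝔮 ≠ ⊥ := by
    intro t h
    apply h𝔮0
    have := congrArg (fun I => (σ t)⁻¹ • I) h
    simpa using this
  rw [hJ, art_prod s _ _ (fun t _ => hne0 t)] at h1
  have h2 : ∀ t ∈ Finset.Icc 1 ((p - 1) / 2),
      (art s (σ t • 𝔮) : ZMod p) = (t : ZMod p) * fe s 𝔮 := by
    intro t ht
    rw [art_prime s _ (Ideal.IsPrime.smul (σ t)) (hne0 t)]
    refine fe_smul s hs hcard hun (σ t) ((σ t).liftNormal L)
      (fun x => AlgEquiv.liftNormal_commutes (σ t) L x) t ?_ 𝔮 h𝔮 h𝔮0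
    apply hconj _ t
    rw [AlgEquiv.liftNormal_commutes, ← map_pow, ← map_pow, hσ t ht _ hζ₀.pow_eq_one]
  rw [Finset.sum_congr rfl h2, ← Finset.sum_mul] at h1
  rcases mul_eq_zero.1 h1 with h | h
  · exact h_sum_ne_zero p h3 h
  · exact hf h

theorem no_badData_of (p : ℕ) [Fact p.Prime] (h3 : 3 ≤ p) (L : Type) [Field L] [NumberField L]
    (ζ : L) (h : BadData p L ζ)
    (hrec : ∀ s : L ≃ₐ[g4K ζ] L, (∀ g : L ≃ₐ[g4K ζ] L, g ∈ Subgroup.zpowers s) →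
      ∀ x : 𝓞 (g4K ζ), x ≠ 0 → (art s (span {x}) : ZMod p) = 0)
    (hc4 : ∃ 𝔮 : Ideal (𝓞 (g4K ζ)), 𝔮.IsPrime ∧ 𝔮 ≠ ⊥ ∧
      𝔮 ∉ {𝔮 : Ideal (𝓞 (g4K ζ)) | absNorm 𝔮 = p} ∧ (absNorm 𝔮).Prime ∧
      ∀ 𝔔 : Ideal (𝓞 L), 𝔔.IsPrime → 𝔔.under (𝓞 (g4K ζ)) = 𝔮 → absNorm 𝔔 ≠ absNorm 𝔮) :
    False := by
  have _ := h.gal
  have _ := g4_isGalois h
  have _ := g4_cyc h
  have hcyc : IsCyclic (L ≃ₐ[g4K ζ] L) := isCyclic_of_prime_card (g4_card h)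
  obtain ⟨s, hs⟩ := hcyc.exists_generator
  have hζK : IsPrimitiveRoot (⟨ζ, g4_zeta_mem ζ⟩ : g4K ζ) p :=
    IsPrimitiveRoot.of_map_of_injective (f := algebraMap (g4K ζ) L)
      (hf := FaithfulSMul.algebraMap_injective _ _) h.prim
  refine h_main p h3 (g4K ζ) L s hs (g4_finrank h) (fun Q hQ hQ0 => g4_inertia h Q hQ0)
    ⟨ζ, g4_zeta_mem ζ⟩ hζK ?_ (hrec s hs) hc4
  intro τ m hm x
  have := g4_conj h τ s m hm
  have h2 := congrArg (fun g : L ≃ₐ[ℚ] L => g x) this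
  exact h2

end Fermat.Agent.S14
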