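import Mathlib

/-!
# S14 (NT): primes `r` such that `p` divides the order of `a` modulo `r`
-/

set_option autoImplicit false

namespace Fermat.Agent.S14

/-- the cyclotomic-like quotient `(b ^ p - 1) / (b - 1)` is not divisible by `p ^ 2`,
for odd `p` -/
theorem nt_not_sq_dvd_odd (p : ℕ) [hp : Fact p.Prime] (hp2 : p ≠ 2) (b : ℕ) (hb : 1 < b) :
    ¬ p ^ 2 ∣ ∑ i ∈ Finset.range p, b ^ i := by
  intro h
  have hpp := hp.out
  have hodd : Odd p := hpp.odd_of_ne_two hp2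
  have hQ : (∑ i ∈ Finset.range p, b ^ i) * (b - 1) = b ^ p - 1 := by
    have := Nat.geomSum_eq (m := b) (by omega) p
    have h2 : (b - 1) ∣ b ^ p - 1 := by
      simpa only [one_pow] using Nat.sub_dvd_pow_sub_pow b 1 p
    rw [this, Nat.div_mul_cancel h2]
  have hpQ : p ∣ ∑ i ∈ Finset.range p, b ^ i := dvd_trans (dvd_pow_self p two_ne_zero) h
  -- `b ≡ 1 mod p`
  have hb1 : ((b : ZMod p)) = 1 := by
    have h1 : ((b : ZMod p)) ^ p = 1 := by
      have h3 : ((b ^ p - 1 : ℕ) : ZMod p) = 0 := by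
        rw [← hQ, Nat.cast_mul, (ZMod.natCast_eq_zero_iff _ _).2 hpQ, zero_mul]
      rw [Nat.cast_sub (Nat.one_le_pow _ _ (by omega))] at h3
      push_cast at h3
      exact sub_eq_zero.1 h3
    rwa [ZMod.pow_card] at h1
  have hdvd : p ∣ b - 1 := by
    rw [← ZMod.natCast_eq_zero_iff, Nat.cast_sub hb.le, hb1]
    simp
  have hnb : ¬ p ∣ b := by
    intro hd
    rw [← ZMod.natCast_eq_zero_iff, hb1] at hd
    exact one_ne_zero hd
  have hv := padicValNat.pow_sub_pow (p := p) hodd hb hdvd hnb (n := p) hpp.ne_zero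
  rw [one_pow, ← hQ, padicValNat_self] at hv
  have hQ0 : (∑ i ∈ Finset.range p, b ^ i) ≠ 0 := by
    intro h0
    rw [h0, zero_mul] at hQ
    have : 1 < b ^ p := Nat.one_lt_pow hpp.ne_zero hb
    omega
  rw [padicValNat.mul hQ0 (by omega)] at hv
  have h2 : 2 ≤ padicValNat p (∑ i ∈ Finset.range p, b ^ i) :=
    (padicValNat_dvd_iff_le hQ0).1 h
  omega

theorem nt_exists_prime_dvd (p : ℕ) [hp : Fact p.Prime] (x : ℕ) (hx : 1 < x) :
    ∃ r : ℕ, r.Prime ∧ r ≠ p ∧ r ∣ ∑ i ∈ Finset.range p, (x ^ p) ^ i := by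
  by_contra hcon
  push Not at hcon
  have hpp := hp.out
  set b := x ^ p with hbdef
  have hb : 1 < b := Nat.one_lt_pow hpp.ne_zero hx
  set Q := ∑ i ∈ Finset.range p, b ^ i with hQdef
  have hQp : p < Q := by
    have h1 : ∑ i ∈ Finset.range p, 1 < ∑ i ∈ Finset.range p, b ^ i := by
      apply Finset.sum_lt_sum
      · intro i _
        exact Nat.one_le_pow _ _ (by omega)
      · exact ⟨1, Finset.mem_range.2 hpp.one_lt, by simpa using hb⟩
    simpa using h1
  have hQ0 : Q ≠ 0 := by omega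
  have hpow : Q = p ^ Q.primeFactorsList.length :=
    Nat.eq_prime_pow_of_unique_prime_dvd hQ0 (fun {d} hd hdQ => by
      by_contra hne
      exact hcon d hd hne hdQ)
  have h2 : p ^ 2 ∣ Q := by
    rw [hpow]
    apply pow_dvd_pow
    by_contra hlt
    have hle : Q.primeFactorsList.length ≤ 1 := by omega
    have h5 : p ^ Q.primeFactorsList.length ≤ p ^ 1 := Nat.pow_le_pow_right hpp.pos hle
    rw [← hpow, pow_one] at h5
    omega
  by_cases hp2 : p = 2
  · subst hp2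
    have hQ2 : Q = 1 + x ^ 2 := by
      rw [hQdef, Finset.sum_range_succ, Finset.sum_range_one]
      simp [hbdef]
    rw [hQ2] at h2
    have h4 : (1 + x ^ 2) % 4 = 0 := Nat.mod_eq_zero_of_dvd (by simpa using h2)
    have hx4 : x % 4 = 0 ∨ x % 4 = 1 ∨ x % 4 = 2 ∨ x % 4 = 3 := by omega
    rcases hx4 with h | h | h | h <;>
      simp [Nat.add_mod, Nat.pow_mod, h] at h4
  · exact nt_not_sq_dvd_odd p hp2 b hb h2

theorem exists_prime_dvd_orderOf (p : ℕ) [Fact p.Prime] (a : ℕ) (ha : 1 < a) (S : Finset ℕ) :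
    ∃ r : ℕ, r.Prime ∧ r ∉ S ∧ a.Coprime r ∧ p ∣ orderOf (a : ZMod r) := by
  have hpp : p.Prime := Fact.out
  set k := S.sup id with hk
  obtain ⟨r, hr, hrp, hrQ⟩ := nt_exists_prime_dvd p (a ^ p ^ k)
    (Nat.one_lt_pow (pow_ne_zero _ hpp.ne_zero) ha)
  have : Fact r.Prime := ⟨hr⟩
  have hbe : (a ^ p ^ k) ^ p = a ^ p ^ (k + 1) := by rw [← pow_mul, ← pow_succ]
  rw [hbe] at hrQ
  have hsum : ∑ i ∈ Finset.range p, ((a : ZMod r) ^ p ^ (k + 1)) ^ i = 0 := by
    have := (ZMod.natCast_eq_zero_iff _ _).2 hrQ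
    push_cast at this
    exact this
  have h1 : (a : ZMod r) ^ p ^ (k + 1 + 1) = 1 := by
    have := geom_sum_mul ((a : ZMod r) ^ p ^ (k + 1)) p
    rw [hsum, zero_mul, ← pow_mul, ← pow_succ] at this
    exact (sub_eq_zero.1 this.symm)
  have h2 : (a : ZMod r) ^ p ^ (k + 1) ≠ 1 := by
    intro h
    rw [h] at hsum
    simp only [one_pow, Finset.sum_const, Finset.card_range, nsmul_eq_mul, mul_one] at hsum
    rw [ZMod.natCast_eq_zero_iff] at hsum
    exact hrp ((Nat.prime_dvd_prime_iff_eq hr hpp).1 hsum)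
  have hord : orderOf (a : ZMod r) = p ^ (k + 1 + 1) := orderOf_eq_prime_pow h2 h1
  refine ⟨r, hr, ?_, ?_, ?_⟩
  · intro hrS
    have hle : r ≤ k := Finset.le_sup (f := id) hrS
    have h3 : orderOf (a : ZMod r) ≤ Fintype.card (ZMod r) := orderOf_le_card_univ
    rw [ZMod.card, hord] at h3
    have h4 : k + 1 + 1 < p ^ (k + 1 + 1) := Nat.lt_pow_self hpp.one_lt
    omega
  · rw [Nat.coprime_comm, Nat.Prime.coprime_iff_not_dvd hr]
    intro hd
    rw [← ZMod.natCast_eq_zero_iff] at hd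
    rw [hd, zero_pow (pow_ne_zero _ hpp.ne_zero)] at h1
    exact zero_ne_one h1
  · rw [hord]
    exact dvd_pow_self p (by omega)

end Fermat.Agent.S14
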