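import Mathlib
import Fermat.Agent.S14.Defs

/-!
# S14 (RAM), part 1: `ram_numberField`, `ram_isGalois`, `absNorm_eq_of_modEq_one`
-/

set_option autoImplicit false
set_option linter.unusedSectionVars false

namespace Fermat.Agent.S14

open NumberField Ideal IntermediateField
open scoped nonZeroDivisors Pointwise

section RAM

variable {p : ℕ} [Fact p.Prime] {K L : Type} [Field K] [NumberField K] [Field L] [NumberField L]
  [Algebra K L] [IsGalois K L] [IsGalois ℚ L] [IsCyclotomicExtension {p} ℚ K]

instance ram_numberField (m : ℕ) [NeZero m] : NumberField (CyclotomicField m L) :=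
  IsCyclotomicExtension.numberField {m} L _

theorem ram_isGalois (m : ℕ) [NeZero m] : IsGalois K (CyclotomicField m L) := by
  obtain ⟨f, hf, hsp⟩ := IsGalois.is_separable_splitting_field K L
  have h1 : Polynomial.IsSplittingField L (CyclotomicField m L)
      (Polynomial.map (algebraMap K L) (Polynomial.X ^ m - 1)) := by
    have := IsCyclotomicExtension.isSplittingField_X_pow_sub_one m L (CyclotomicField m L)
    simpa using this
  have h2 : Polynomial.IsSplittingField K (CyclotomicField m L) (f * (Polynomial.X ^ m - 1)) :=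
    Polynomial.IsSplittingField.mul (K := L) (CyclotomicField m L) f (Polynomial.X ^ m - 1)
      hf.ne_zero (Polynomial.X_pow_sub_C_ne_zero (NeZero.pos m) 1)
  have : Normal K (CyclotomicField m L) := Normal.of_isSplittingField (f * (Polynomial.X ^ m - 1))
  have : CharZero K := inferInstance
  exact ⟨⟩

/-- residue degree one -/
theorem absNorm_eq_of_modEq_one (r : ℕ) [Fact r.Prime] (hr : r % p = 1) (𝔯 : Ideal (𝓞 K))
    (h𝔯 : 𝔯.IsPrime) (hmem : (r : 𝓞 K) ∈ 𝔯) : absNorm 𝔯 = r := by
  have hrp : (Fact.out : r.Prime) = Fact.out := rfl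
  have hr' : Prime (r : ℤ) := Nat.prime_iff_prime_int.1 Fact.out
  have hmax : (span {(r : ℤ)}).IsMaximal :=
    (Ideal.span_singleton_prime hr'.ne_zero).2 hr' |>.isMaximal (by simpa using hr'.ne_zero)
  have hlo : 𝔯.LiesOver (span {(r : ℤ)}) := by
    constructor
    refine (hmax.eq_of_le ?_ ?_)
    · exact (Ideal.IsPrime.under ℤ 𝔯).ne_top
    · rw [Ideal.span_singleton_le_iff_mem, Ideal.mem_comap]
      simpa using hmem
  have hnd : ¬ r ∣ p := by
    intro h
    have hp : p.Prime := Fact.out
    have hrpr : r.Prime := Fact.out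
    have := (Nat.prime_dvd_prime_iff_eq hrpr hp).1 h
    subst this
    simp at hr
  have h1 := IsCyclotomicExtension.Rat.inertiaDeg_eq_of_not_dvd (m := p) r K 𝔯 hnd
  have h2 : ((r : ℕ) : ZMod p) = 1 := by
    have : (r : ZMod p) = ((r % p : ℕ) : ZMod p) := by simp
    rw [this, hr]; simp
  rw [h2, orderOf_one] at h1
  have h3 := Ideal.absNorm_eq_pow_inertiaDeg 𝔯 hr'
  have : 𝔯.IsMaximal := h𝔯.isMaximal (by
    rintro rfl
    simp at hmem
    exact (Fact.out : r.Prime).ne_zero hmem)
  rw [Ideal.inertiaDeg'_eq_inertiaDeg, h1] at h3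
  simpa using h3

end RAM
end Fermat.Agent.S14
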