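import Mathlib
import Fermat.Agent.S14.RamBasic
import Fermat.Agent.S14.Art

/-!
# S14 (RAM), part 2: auxiliary lemmas (roots of unity mod primes, restriction, inertia)
-/

set_option autoImplicit false
set_option linter.unusedSectionVars false

namespace Fermat.Agent.S14

open NumberField Ideal IntermediateField
open scoped nonZeroDivisors Pointwise

lemma ram_eq_one_of_sub_mem {S : Type*} [CommRing S] [IsDomain S] (Q : Ideal S) {η : S} {m : ℕ}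
    (hη : η ^ m = 1) (hm : (m : S) ∉ Q) (h : η - 1 ∈ Q) : η = 1 := by
  have h₂ := geom_sum_mul η m
  rw [hη, sub_self, mul_eq_zero, sub_eq_zero] at h₂
  rcases h₂ with h₂ | h₂
  · exfalso
    apply hm
    have h3 : ∀ j : ℕ, η ^ j - 1 ∈ Q := fun j =>
      Q.mem_of_dvd (by simpa using sub_dvd_pow_sub_pow η 1 j) h
    have h4 := sum_mem (t := Finset.range m) fun j _ ↦ h3 j
    rw [Finset.sum_sub_distrib, h₂] at h4
    simpa using h4
  · exact h₂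

lemma ram_liesOver_span {F : Type} [Field F] [NumberField F] (r : ℕ) [Fact r.Prime]
    (𝔯 : Ideal (𝓞 F)) (h𝔯 : 𝔯.IsPrime) (hmem : (r : 𝓞 F) ∈ 𝔯) : 𝔯.LiesOver (span {(r : ℤ)}) := by
  have hr' : Prime (r : ℤ) := Nat.prime_iff_prime_int.1 Fact.out
  have hmax : (span {(r : ℤ)}).IsMaximal :=
    (Ideal.span_singleton_prime hr'.ne_zero).2 hr' |>.isMaximal (by simpa using hr'.ne_zero)
  constructor
  refine (hmax.eq_of_le ?_ ?_)
  · exact (Ideal.IsPrime.under ℤ 𝔯).ne_top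
  · rw [Ideal.span_singleton_le_iff_mem, Ideal.mem_comap]
    simpa using hmem

theorem ram_dvd_card_inertia {p : ℕ} [Fact p.Prime] {K Ω : Type} [Field K] [NumberField K]
    [Field Ω] [NumberField Ω] [Algebra K Ω] [IsGalois K Ω] [IsCyclotomicExtension {p} ℚ K]
    (r : ℕ) [Fact r.Prime] (hrp : r ≠ p) (ξ : Ω) (hξ : IsPrimitiveRoot ξ r) (R : Ideal (𝓞 Ω))
    (hR : R.IsPrime) (hmem : (r : 𝓞 Ω) ∈ R) :
    (r - 1) ∣ Nat.card (Ideal.inertia (Ω ≃ₐ[K] Ω) R) := by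
  have hrpr : r.Prime := Fact.out
  have hp : p.Prime := Fact.out
  set 𝔭 := R.under (𝓞 K) with h𝔭
  have h𝔭p : 𝔭.IsPrime := inferInstance
  have hl : R.LiesOver 𝔭 := ⟨rfl⟩
  have hmem𝔭 : (r : 𝓞 K) ∈ 𝔭 := by
    rw [h𝔭, Ideal.mem_comap]; simpa using hmem
  have hlo := ram_liesOver_span r 𝔭 h𝔭p hmem𝔭
  have h1 : 𝔭.ramificationIdx ℤ = 1 :=
    IsCyclotomicExtension.Rat.ramificationIdx_eq_of_not_dvd (m := p) r K 𝔭
      (fun h => hrp ((Nat.prime_dvd_prime_iff_eq hrpr hp).1 h))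
  have h2 : R.ramificationIdx ℤ = 𝔭.ramificationIdx ℤ * R.ramificationIdx (𝓞 K) :=
    Ideal.ramificationIdx_tower 𝔭 R
  have h3 : Nat.card (Ideal.inertia (Ω ≃ₐ[K] Ω) R) = R.ramificationIdx (𝓞 K) := by
    rw [← Ideal.ramificationIdxIn_eq_ramificationIdx 𝔭 R (Ω ≃ₐ[K] Ω),
      ← Ideal.card_inertia_eq_ramificationIdxIn (G := (Ω ≃ₐ[K] Ω)) 𝔭 R]
  rw [h3]
  rw [h1, one_mul] at h2
  rw [← h2]
  let M : IntermediateField ℚ Ω := IntermediateField.adjoin ℚ {ξ}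
  have hM : IsCyclotomicExtension {r} ℚ M := hξ.intermediateField_adjoin_isCyclotomicExtension ℚ
  set 𝔮 := R.under (𝓞 M) with h𝔮
  have h𝔮p : 𝔮.IsPrime := inferInstance
  have hl' : R.LiesOver 𝔮 := ⟨rfl⟩
  have hmem𝔮 : (r : 𝓞 M) ∈ 𝔮 := by
    rw [h𝔮, Ideal.mem_comap]; simpa using hmem
  have hlo' := ram_liesOver_span r 𝔮 h𝔮p hmem𝔮
  have h4 : 𝔮.ramificationIdx ℤ = r - 1 :=
    IsCyclotomicExtension.Rat.ramificationIdx_eq_of_prime r M 𝔮
  rw [← h4]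
  exact Ideal.ramificationIdx_below_dvd 𝔮 R

section cross

variable {K L Ω : Type} [Field K] [NumberField K] [Field L] [NumberField L]
  [Field Ω] [NumberField Ω] [Algebra K L] [Algebra L Ω] [Algebra K Ω] [IsScalarTower K L Ω]
  [IsGalois K L] 

lemma ram_coe_smul (g : Ω ≃ₐ[K] Ω) (x : 𝓞 Ω) : ((g • x : 𝓞 Ω) : Ω) = g (x : Ω) := rfl

/-- `g x ≡ x ^ k mod R` forces `g ξ = ξ ^ k` for roots of unity of order prime to `R` -/
lemma ram_apply_root (R : Ideal (𝓞 Ω)) (n : ℕ) (hn : (n : 𝓞 Ω) ∉ R) (ξ : Ω) (hξ : ξ ^ n = 1)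
    (g : Ω ≃ₐ[K] Ω) (k : ℕ) (hg : ∀ x : 𝓞 Ω, g • x - x ^ k ∈ R) : g ξ = ξ ^ k := by
  have hn0 : n ≠ 0 := by rintro rfl; exact hn (by simp)
  have hint : IsIntegral ℤ ξ :=
    ⟨Polynomial.X ^ n - 1, Polynomial.monic_X_pow_sub_C 1 hn0, by simp [hξ]⟩
  let x : 𝓞 Ω := ⟨ξ, hint⟩
  have hxc : (x : Ω) = ξ := rfl
  have hx : x ^ n = 1 := by
    apply RingOfIntegers.ext
    change algebraMap (𝓞 Ω) Ω (x ^ n) = algebraMap (𝓞 Ω) Ω 1
    rw [map_pow, map_one]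
    exact hξ
  have hgx : (g • x) ^ n = 1 := by
    rw [← smul_pow', hx, smul_one]
  have hk : x ^ k * x ^ (k * (n - 1)) = 1 := by
    rw [← pow_add]
    have : k + k * (n - 1) = n * k := by
      obtain ⟨n', rfl⟩ := Nat.exists_eq_succ_of_ne_zero hn0
      simp; ring
    rw [this, pow_mul, hx, one_pow]
  have h1 : (g • x) * x ^ (k * (n - 1)) = 1 := by
    apply ram_eq_one_of_sub_mem R (m := n) _ hn
    · have : (g • x) * x ^ (k * (n - 1)) - 1 = (g • x - x ^ k) * x ^ (k * (n - 1)) := by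
        rw [sub_mul, hk]
      rw [this]
      exact R.mul_mem_right _ (hg x)
    · rw [mul_pow, hgx, one_mul, pow_right_comm, hx, one_pow]
  have h2 : g • x = x ^ k := by
    calc g • x = g • x * (x ^ k * x ^ (k * (n - 1))) := by rw [hk, mul_one]
      _ = (g • x * x ^ (k * (n - 1))) * x ^ k := by ring
      _ = x ^ k := by rw [h1, one_mul]
  have h3 := congrArg (fun y : 𝓞 Ω => (y : Ω)) h2
  simp only [map_pow, ram_coe_smul, hxc] at h3
  exact h3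

lemma ram_res_smul (g : Ω ≃ₐ[K] Ω) (x : 𝓞 L) :
    algebraMap (𝓞 L) (𝓞 Ω) (AlgEquiv.restrictNormalHom L g • x) = g • algebraMap (𝓞 L) (𝓞 Ω) x := by
  apply RingOfIntegers.ext
  exact AlgEquiv.restrictNormal_commutes g L (x : L)

lemma ram_frobQ_res (R : Ideal (𝓞 Ω)) (g : Ω ≃ₐ[K] Ω) (q : ℕ) (hg : FrobQ g R q) :
    FrobQ (AlgEquiv.restrictNormalHom L g) (R.under (𝓞 L)) q := by
  intro x
  rw [Ideal.mem_comap, map_sub, map_pow, ram_res_smul]
  exact hg _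

lemma ram_res_inertia (hun : Unram K L) (R : Ideal (𝓞 Ω)) (hR : R.IsPrime) (hR0 : R ≠ ⊥)
    (g : Ω ≃ₐ[K] Ω) (hg : g ∈ Ideal.inertia (Ω ≃ₐ[K] Ω) R) :
    AlgEquiv.restrictNormalHom L g = 1 := by
  have h1 : AlgEquiv.restrictNormalHom L g ∈ Ideal.inertia (L ≃ₐ[K] L) (R.under (𝓞 L)) := by
    intro x
    change _ ∈ R.under (𝓞 L)
    rw [Ideal.mem_comap, map_sub, ram_res_smul]
    exact hg _
  rw [hun _ inferInstance (Ideal.under_ne_bot _ hR0)] at h1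
  exact h1

lemma ram_fix_root (R : Ideal (𝓞 Ω)) (n : ℕ) (hn : (n : 𝓞 Ω) ∉ R) (ξ : Ω) (hξ : ξ ^ n = 1)
    (g : Ω ≃ₐ[K] Ω) (hg : g ∈ Ideal.inertia (Ω ≃ₐ[K] Ω) R) : g ξ = ξ := by
  have := ram_apply_root R n hn ξ hξ g 1 (fun x => by rw [pow_one]; exact hg x)
  rwa [pow_one] at this

/-- an automorphism of `Ω = L(ζ)` is determined by its restriction to `L` and its value at `ζ` -/
lemma ram_eq_one (m : ℕ) [NeZero m] [IsCyclotomicExtension {m} L Ω] (ζ : Ω)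
    (hζ : IsPrimitiveRoot ζ m) (g : Ω ≃ₐ[K] Ω) (h1 : AlgEquiv.restrictNormalHom L g = 1)
    (h2 : g ζ = ζ) : g = 1 := by
  have hfix : ∀ x : L, g (algebraMap L Ω x) = algebraMap L Ω x := by
    intro x
    rw [← AlgEquiv.restrictNormal_commutes g L x]
    have : g.restrictNormal L = 1 := h1
    rw [this]; rfl
  let g' : Ω →ₐ[L] Ω := { (g : Ω →+* Ω) with commutes' := hfix }
  have htop := IsCyclotomicExtension.adjoin_primitive_root_eq_top (A := L) hζ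
  have : g' = AlgHom.id L Ω := by
    apply AlgHom.ext_of_adjoin_eq_top htop
    intro x hx
    rw [Set.mem_singleton_iff] at hx
    subst hx
    exact h2
  ext x
  exact DFunLike.congr_fun this x

end cross

end Fermat.Agent.S14
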