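import Mathlib
import Fermat.Agent.S14.RamAux

/-!
# S14 (RAM), part 3: the inertia groups above `r` in `L(ζ_r, ζ_{r'})`
-/

set_option autoImplicit false
set_option linter.unusedSectionVars false

namespace Fermat.Agent.S14

open NumberField Ideal IntermediateField
open scoped nonZeroDivisors Pointwise

lemma ram_count {G U : Type*} [Group G] [Finite G] [Group U] [Finite U] (χ : G →* U)
    (I Z : Subgroup G) (hIZ : I ≤ Z) (hinj : ∀ g ∈ Z, χ g = 1 → g = 1)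
    (hdvd : Nat.card U ∣ Nat.card I) : Z ≤ I ∧ ∀ u : U, ∃ g ∈ Z, χ g = u := by
  have hf : Function.Injective (χ.comp Z.subtype) := by
    rw [injective_iff_map_eq_one]
    intro g hg
    exact Subtype.ext (hinj g g.2 hg)
  have h1 : Nat.card Z ≤ Nat.card U := Nat.card_le_card_of_injective _ hf
  have h2 : Nat.card U ≤ Nat.card I := Nat.le_of_dvd Nat.card_pos hdvd
  have h3 : Nat.card I ≤ Nat.card Z := Subgroup.card_le_of_le hIZ
  constructor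
  · exact (Subgroup.eq_of_le_of_card_ge hIZ (h1.trans h2)).ge
  · intro u
    obtain ⟨g, hg⟩ := (hf.bijective_of_nat_card_le (h2.trans h3)).2 u
    exact ⟨g, g.2, hg⟩

section cross

variable {K L Ω : Type} [Field K] [NumberField K] [Field L] [NumberField L]
  [Field Ω] [NumberField Ω] [Algebra K L] [Algebra L Ω] [Algebra K Ω] [IsScalarTower K L Ω]
  [IsGalois K L] 

lemma ram_autToPow_iff {n : ℕ} [NeZero n] (ξ : Ω) (hξ : IsPrimitiveRoot ξ n) (g : Ω ≃ₐ[K] Ω)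
    (k : ℕ) : ((hξ.autToPow K g : (ZMod n)ˣ) : ZMod n) = k ↔ g ξ = ξ ^ k := by
  have h := hξ.autToPow_spec K g
  have hfin : IsOfFinOrder ξ := isOfFinOrder_iff_pow_eq_one.2 ⟨n, NeZero.pos n, hξ.pow_eq_one⟩
  rw [← h, hfin.pow_eq_pow_iff_modEq, ← hξ.eq_orderOf, ← ZMod.natCast_eq_natCast_iff,
    ZMod.natCast_zmod_val]

lemma ram_autToPow_eq_one_iff {n : ℕ} [NeZero n] (ξ : Ω) (hξ : IsPrimitiveRoot ξ n)
    (g : Ω ≃ₐ[K] Ω) : hξ.autToPow K g = 1 ↔ g ξ = ξ := by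
  have := ram_autToPow_iff ξ hξ g 1
  rw [pow_one, Nat.cast_one] at this
  rw [← this, Units.ext_iff, Units.val_one]

lemma ram_not_mem_of_ne (R : Ideal (𝓞 Ω)) (hR : R.IsPrime) (r r' : ℕ) (hr : r.Prime)
    (hr' : r'.Prime) (hne : r ≠ r') (hmem : (r : 𝓞 Ω) ∈ R) : (r' : 𝓞 Ω) ∉ R := by
  intro h
  have hc : IsCoprime (r : ℤ) (r' : ℤ) := Nat.isCoprime_iff_coprime.2 ((Nat.coprime_primes hr hr').2 hne)
  obtain ⟨a, b, hab⟩ := hc
  apply hR.ne_top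
  rw [Ideal.eq_top_iff_one]
  have h1 : ((a * r + b * r' : ℤ) : 𝓞 Ω) = 1 := by rw [hab]; simp
  rw [← h1]
  push_cast
  exact R.add_mem (R.mul_mem_left _ hmem) (R.mul_mem_left _ h)

theorem ram_key {p : ℕ} [Fact p.Prime] [IsGalois K Ω] [IsCyclotomicExtension {p} ℚ K]
    (hun : Unram K L) (r r' : ℕ) [Fact r.Prime] [Fact r'.Prime]
    (hrr' : r ≠ r') (hrp : r ≠ p) (ξ ξ' : Ω) (hξ : IsPrimitiveRoot ξ r)
    (hξ' : IsPrimitiveRoot ξ' r')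
    (hinj : ∀ g : Ω ≃ₐ[K] Ω, AlgEquiv.restrictNormalHom L g = 1 → g ξ = ξ → g ξ' = ξ' → g = 1)
    (R : Ideal (𝓞 Ω)) (hR : R.IsPrime) (hmem : (r : 𝓞 Ω) ∈ R) :
    (∀ g : Ω ≃ₐ[K] Ω, AlgEquiv.restrictNormalHom L g = 1 → g ξ' = ξ' →
      g ∈ Ideal.inertia (Ω ≃ₐ[K] Ω) R) ∧
    (∀ u : (ZMod r)ˣ, ∃ g : Ω ≃ₐ[K] Ω, AlgEquiv.restrictNormalHom L g = 1 ∧ g ξ' = ξ' ∧
      hξ.autToPow K g = u) := by
  have hrpr : r.Prime := Fact.out
  have hR0 : R ≠ ⊥ := by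
    rintro rfl
    simp at hmem
    exact hrpr.ne_zero hmem
  let Z : Subgroup (Ω ≃ₐ[K] Ω) :=
    (AlgEquiv.restrictNormalHom L).ker ⊓ (hξ'.autToPow K).ker
  have hZ : ∀ g, g ∈ Z ↔ AlgEquiv.restrictNormalHom L g = 1 ∧ g ξ' = ξ' := by
    intro g
    rw [Subgroup.mem_inf, MonoidHom.mem_ker, MonoidHom.mem_ker, ram_autToPow_eq_one_iff]
  have hIZ : Ideal.inertia (Ω ≃ₐ[K] Ω) R ≤ Z := by
    intro g hg
    rw [hZ]
    exact ⟨ram_res_inertia hun R hR hR0 g hg,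
      ram_fix_root R r' (ram_not_mem_of_ne R hR r r' hrpr Fact.out hrr' hmem) ξ' hξ'.pow_eq_one g hg⟩
  have hcard : Nat.card (ZMod r)ˣ = r - 1 := by
    rw [Nat.card_eq_fintype_card, ZMod.card_units_eq_totient, Nat.totient_prime hrpr]
  have := ram_count (hξ.autToPow K) (Ideal.inertia (Ω ≃ₐ[K] Ω) R) Z hIZ
    (fun g hg h1 => hinj g ((hZ g).1 hg).1 ((ram_autToPow_eq_one_iff ξ hξ g).1 h1) ((hZ g).1 hg).2)
    (by rw [hcard]; exact ram_dvd_card_inertia (p := p) r hrp ξ hξ R hR hmem)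
  refine ⟨fun g h1 h2 => this.1 ((hZ g).2 ⟨h1, h2⟩), fun u => ?_⟩
  obtain ⟨g, hg, hu⟩ := this.2 u
  exact ⟨g, ((hZ g).1 hg).1, ((hZ g).1 hg).2, hu⟩

end cross

end Fermat.Agent.S14
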