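import Mathlib
import Fermat.Agent.S14.RamKey

/-!
# S14 (RAM), part 4: `exists_cross`
-/

set_option autoImplicit false
set_option linter.unusedVariables false
set_option linter.unusedSectionVars false

namespace Fermat.Agent.S14

open NumberField Ideal IntermediateField
open scoped nonZeroDivisors Pointwise

section cyc

variable {p : ℕ} [Fact p.Prime] {K L : Type} [Field K] [NumberField K] [Field L] [NumberField L]
  [Algebra K L] [IsGalois K L] (s : L ≃ₐ[K] L) (hs : ∀ g : L ≃ₐ[K] L, g ∈ Subgroup.zpowers s)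
  (hcard : Module.finrank K L = p)

/-- `a ↦ s ^ a` -/
noncomputable def ramCycHom : Multiplicative (ZMod p) →* (L ≃ₐ[K] L) where
  toFun := fun a => s ^ (Multiplicative.toAdd a).val
  map_one' := by simp
  map_mul' := fun a b => by
    rw [← pow_add, art_pow_eq_iff s hs hcard]
    simp

/-- `a ↦ s ^ a` -/
noncomputable def ramCyc : Multiplicative (ZMod p) ≃* (L ≃ₐ[K] L) :=
  MulEquiv.ofBijective (ramCycHom s hs hcard)
    ⟨fun a b h => by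
      have := art_pow_val_inj s hs hcard h
      exact this,
     fun g => by
      obtain ⟨n, hn⟩ := art_exists_pow s hs hcard g
      exact ⟨Multiplicative.ofAdd n, hn.symm⟩⟩

lemma ramCyc_apply (a : Multiplicative (ZMod p)) :
    ramCyc s hs hcard a = s ^ (Multiplicative.toAdd a).val := rfl

end cyc

section cross

variable {K L Ω : Type} [Field K] [NumberField K] [Field L] [NumberField L]
  [Field Ω] [NumberField Ω] [Algebra K L] [Algebra L Ω] [Algebra K Ω] [IsScalarTower K L Ω]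
  [IsGalois K L]

lemma ram_exists_prime (r : ℕ) [Fact r.Prime] : ∃ R : Ideal (𝓞 Ω), R.IsPrime ∧ (r : 𝓞 Ω) ∈ R := by
  have hr' : Prime (r : ℤ) := Nat.prime_iff_prime_int.1 Fact.out
  have hP : (span {(r : ℤ)}).IsPrime := (Ideal.span_singleton_prime hr'.ne_zero).2 hr'
  obtain ⟨Q, hQ, hQP⟩ := Ideal.exists_ideal_over_prime_of_isIntegral (span {(r : ℤ)})
    (⊥ : Ideal (𝓞 Ω)) (by
      rw [Ideal.comap_bot_of_injective _ (FaithfulSMul.algebraMap_injective ℤ (𝓞 Ω))]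
      exact bot_le)
  refine ⟨Q, hQP.1, ?_⟩
  have : (r : ℤ) ∈ Q.comap (algebraMap ℤ (𝓞 Ω)) := by
    rw [hQP.2]; exact Ideal.mem_span_singleton_self _
  simpa using this

theorem ram_cross {p : ℕ} [Fact p.Prime] [IsGalois K Ω] [IsCyclotomicExtension {p} ℚ K]
    (s : L ≃ₐ[K] L) (hs : ∀ g : L ≃ₐ[K] L, g ∈ Subgroup.zpowers s)
    (hcard : Module.finrank K L = p) (hun : Unram K L)
    (r₁ r₂ : ℕ) [Fact r₁.Prime] [Fact r₂.Prime] (h12 : r₁ ≠ r₂) (h1 : r₁ ≠ p) (h2 : r₂ ≠ p)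
    [IsCyclotomicExtension {r₁ * r₂} L Ω] :
    Nonempty (Cross p r₁ r₂ K L Ω s) := by
  have hr₁ : r₁.Prime := Fact.out
  have hr₂ : r₂.Prime := Fact.out
  have hm : 0 < r₁ * r₂ := Nat.mul_pos hr₁.pos hr₂.pos
  have : NeZero (r₁ * r₂) := ⟨hm.ne'⟩
  obtain ⟨ζ, hζ⟩ : ∃ ζ : Ω, IsPrimitiveRoot ζ (r₁ * r₂) :=
    ⟨_, IsCyclotomicExtension.zeta_spec (r₁ * r₂) L Ω⟩
  have hζ0 : ζ ≠ 0 := hζ.ne_zero hm.ne'
  have hζ₁ : IsPrimitiveRoot (ζ ^ r₂) r₁ := hζ.pow hm (mul_comm _ _)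
  have hζ₂ : IsPrimitiveRoot (ζ ^ r₁) r₂ := hζ.pow hm rfl
  have hinj : ∀ g : Ω ≃ₐ[K] Ω, AlgEquiv.restrictNormalHom L g = 1 → g (ζ ^ r₂) = ζ ^ r₂ →
      g (ζ ^ r₁) = ζ ^ r₁ → g = 1 := by
    intro g hg hg1 hg2
    apply ram_eq_one (L := L) (r₁ * r₂) ζ hζ g hg
    have hc : IsCoprime (r₂ : ℤ) (r₁ : ℤ) :=
      Nat.isCoprime_iff_coprime.2 ((Nat.coprime_primes hr₂ hr₁).2 h12.symm)
    obtain ⟨a, b, hab⟩ := hc
    have h3 : ζ = (ζ ^ r₂) ^ a * (ζ ^ r₁) ^ b := by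
      rw [← zpow_natCast ζ r₂, ← zpow_natCast ζ r₁, ← zpow_mul, ← zpow_mul, ← zpow_add₀ hζ0,
        mul_comm (r₂ : ℤ), mul_comm (r₁ : ℤ), hab, zpow_one]
    rw [h3, map_mul, map_zpow₀, map_zpow₀, hg1, hg2]
  let ρ : (Ω ≃ₐ[K] Ω) →* (L ≃ₐ[K] L) := AlgEquiv.restrictNormalHom L
  let χ₁ : (Ω ≃ₐ[K] Ω) →* (ZMod r₁)ˣ := hζ₁.autToPow K
  let χ₂ : (Ω ≃ₐ[K] Ω) →* (ZMod r₂)ˣ := hζ₂.autToPow K
  let e₀ : (Ω ≃ₐ[K] Ω) →* (L ≃ₐ[K] L) × (ZMod r₁)ˣ × (ZMod r₂)ˣ := ρ.prod (χ₁.prod χ₂)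
  have key₁ := fun R hR hmem => ram_key (p := p) (L := L) hun r₁ r₂ h12 h1 (ζ ^ r₂) (ζ ^ r₁) hζ₁ hζ₂ hinj
    R hR hmem
  have key₂ := fun R hR hmem => ram_key (p := p) (L := L) hun r₂ r₁ h12.symm h2 (ζ ^ r₁) (ζ ^ r₂) hζ₂ hζ₁
    (fun g h a b => hinj g h b a) R hR hmem
  have he₀ : Function.Bijective e₀ := by
    constructor
    · rw [injective_iff_map_eq_one]
      intro g hg
      have h3 : ρ g = 1 := congrArg Prod.fst hg
      have h4 : χ₁ g = 1 := congrArg (fun x => x.2.1) hg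
      have h5 : χ₂ g = 1 := congrArg (fun x => x.2.2) hg
      exact hinj g h3 ((ram_autToPow_eq_one_iff _ hζ₁ g).1 h4)
        ((ram_autToPow_eq_one_iff _ hζ₂ g).1 h5)
    · rintro ⟨t, u₁, u₂⟩
      obtain ⟨g₀, hg₀⟩ := AlgEquiv.restrictNormalHom_surjective (F := K) (K₁ := L) Ω t
      obtain ⟨R₁, hR₁, hm₁⟩ := ram_exists_prime (Ω := Ω) r₁
      obtain ⟨R₂, hR₂, hm₂⟩ := ram_exists_prime (Ω := Ω) r₂
      obtain ⟨z₁, hz₁, hz₁', hz₁''⟩ := (key₁ R₁ hR₁ hm₁).2 (u₁ * (χ₁ g₀)⁻¹)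
      obtain ⟨z₂, hz₂, hz₂', hz₂''⟩ := (key₂ R₂ hR₂ hm₂).2 (u₂ * (χ₂ g₀)⁻¹)
      refine ⟨g₀ * z₁ * z₂, ?_⟩
      have a1 : ρ (g₀ * z₁ * z₂) = t := by
        rw [map_mul, map_mul]
        change ρ g₀ * AlgEquiv.restrictNormalHom L z₁ * AlgEquiv.restrictNormalHom L z₂ = t
        rw [hz₁, hz₂, mul_one, mul_one]
        exact hg₀
      have a2 : χ₁ (g₀ * z₁ * z₂) = u₁ := by
        rw [map_mul, map_mul]
        have : χ₁ z₂ = 1 := (ram_autToPow_eq_one_iff _ hζ₁ z₂).2 hz₂'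
        rw [this, mul_one]
        change χ₁ g₀ * hζ₁.autToPow K z₁ = u₁
        rw [hz₁'', mul_comm u₁, mul_inv_cancel_left]
      have a3 : χ₂ (g₀ * z₁ * z₂) = u₂ := by
        rw [map_mul, map_mul]
        have : χ₂ z₁ = 1 := (ram_autToPow_eq_one_iff _ hζ₂ z₁).2 hz₁'
        rw [this, mul_one]
        change χ₂ g₀ * hζ₂.autToPow K z₂ = u₂
        rw [hz₂'', mul_comm u₂, mul_inv_cancel_left]
      exact Prod.ext a1 (Prod.ext a2 a3)
  let e : (Ω ≃ₐ[K] Ω) ≃* Multiplicative (ZMod p) × (ZMod r₁)ˣ × (ZMod r₂)ˣ :=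
    (MulEquiv.ofBijective e₀ he₀).trans
      (MulEquiv.prodCongr (ramCyc s hs hcard).symm (MulEquiv.refl _))
  have he1 : ∀ g, AlgEquiv.restrictNormalHom L g = s ^ (Multiplicative.toAdd (e g).1).val := by
    intro g
    rw [← ramCyc_apply s hs hcard]
    change ρ g = ramCyc s hs hcard ((ramCyc s hs hcard).symm (ρ g))
    rw [MulEquiv.apply_symm_apply]
  have he1' : ∀ g, (e g).1 = 1 → AlgEquiv.restrictNormalHom L g = 1 := by
    intro g hg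
    rw [he1 g, hg]
    simp
  have he2 : ∀ g, (e g).2.1 = hζ₁.autToPow K g := fun g => rfl
  have he3 : ∀ g, (e g).2.2 = hζ₂.autToPow K g := fun g => rfl
  have hnm : ∀ R : Ideal (𝓞 Ω), ((r₁ * r₂ : ℕ) : 𝓞 Ω) ∉ R → (r₁ : 𝓞 Ω) ∉ R ∧ (r₂ : 𝓞 Ω) ∉ R := by
    intro R hR
    constructor
    · intro h
      apply hR
      rw [Nat.cast_mul]
      exact R.mul_mem_right _ h
    · intro h
      apply hR
      rw [Nat.cast_mul]
      exact R.mul_mem_left _ h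
  refine ⟨{ e := e, res := he1, frob := ?_, good := ?_, inert₁ := ?_, inert₂ := ?_ }⟩
  · intro R hR hmR g hg
    have hR0 : R ≠ ⊥ := by
      rintro rfl
      have := hg 0
      simp at this
    have hP0 : R.under (𝓞 K) ≠ ⊥ := Ideal.under_ne_bot _ hR0
    refine ⟨?_, ?_, ?_⟩
    · have h3 := ram_frobQ_res (L := L) R g _ hg
      have h4 := fe_unique s hs hcard hun (R.under (𝓞 K)) inferInstance hP0 (R.under (𝓞 L))
        inferInstance (Ideal.under_under _) _ h3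
      rw [he1 g] at h4
      exact art_pow_val_inj s hs hcard h4
    · rw [he2, ram_autToPow_iff]
      exact ram_apply_root R r₁ (hnm R hmR).1 _ hζ₁.pow_eq_one g _ hg
    · rw [he3, ram_autToPow_iff]
      exact ram_apply_root R r₂ (hnm R hmR).2 _ hζ₂.pow_eq_one g _ hg
  · intro R hR hmR
    rw [eq_bot_iff]
    intro g hg
    rw [Subgroup.mem_bot]
    by_cases hR0 : R = ⊥
    · subst hR0
      have : FaithfulSMul (Ω ≃ₐ[K] Ω) (𝓞 Ω) := IsGaloisGroup.faithful (𝓞 K)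
      apply FaithfulSMul.eq_of_smul_eq_smul (α := 𝓞 Ω)
      intro x
      have := hg x
      rw [one_smul]
      exact sub_eq_zero.1 this
    · exact hinj g (ram_res_inertia hun R hR hR0 g hg)
        (ram_fix_root R r₁ (hnm R hmR).1 _ hζ₁.pow_eq_one g hg)
        (ram_fix_root R r₂ (hnm R hmR).2 _ hζ₂.pow_eq_one g hg)
  · intro R hR hmem g hg1 hg2
    rw [he3, ram_autToPow_eq_one_iff] at hg2
    exact (key₁ R hR hmem).1 g (he1' g hg1) hg2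
  · intro R hR hmem g hg1 hg2
    rw [he2, ram_autToPow_eq_one_iff] at hg2
    exact (key₂ R hR hmem).1 g (he1' g hg1) hg2

end cross

section RAM

variable {p : ℕ} [Fact p.Prime] {K L : Type} [Field K] [NumberField K] [Field L] [NumberField L]
  [Algebra K L] [IsGalois K L] [IsGalois ℚ L] [IsCyclotomicExtension {p} ℚ K]

theorem exists_cross (s : L ≃ₐ[K] L) (hs : ∀ g : L ≃ₐ[K] L, g ∈ Subgroup.zpowers s)
    (hcard : Module.finrank K L = p) (hun : Unram K L)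
    (hunQ : ∀ Q : Ideal (𝓞 L), Q.IsPrime → Q ≠ ⊥ → (p : 𝓞 L) ∉ Q →
      Ideal.inertia (L ≃ₐ[ℚ] L) Q = ⊥)
    (r₁ r₂ : ℕ) [Fact r₁.Prime] [Fact r₂.Prime] (h12 : r₁ ≠ r₂) (h1 : r₁ ≠ p) (h2 : r₂ ≠ p) :
    Nonempty (Cross p r₁ r₂ K L (CyclotomicField (r₁ * r₂) L) s) := by
  have : IsGalois K (CyclotomicField (r₁ * r₂) L) := ram_isGalois (r₁ * r₂)
  exact ram_cross s hs hcard hun r₁ r₂ h12 h1 h2

end RAM

end Fermat.Agent.S14
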