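import Fermat.Agent.S14.RecCore
import Fermat.Agent.S14.BMain

/-!
# S14 (REC): reciprocity, from the comparison theorem (E)
-/

set_option autoImplicit false

namespace Fermat.Agent.S14

open NumberField Ideal

lemma rec_natCast_not_mem {R : Type*} [CommRing R] [IsDedekindDomain R] [Module.Free ℤ R]
    (P : Ideal R) (hP : P ≠ ⊤) {r : ℕ} (hr : r.Prime) (h : ¬ r ∣ absNorm P) : (r : R) ∉ P := by
  intro hmem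
  have hcop : Nat.Coprime r (absNorm P) := (Nat.Prime.coprime_iff_not_dvd hr).2 h
  have h3 : (absNorm P : R) ∈ P := Ideal.absNorm_mem P
  have h4 : ((1 : ℤ) : R) ∈ P := by
    rw [← Int.natCast_one, ← hcop.gcd_eq_one, Nat.gcd_eq_gcd_ab]
    push_cast
    exact P.add_mem (P.mul_mem_right _ hmem) (P.mul_mem_right _ h3)
  rw [Int.cast_one] at h4
  exact hP ((Ideal.eq_top_iff_one P).2 h4)

lemma rec_mod_eq_one {p r a : ℕ} (hp : p.Prime) (hr : r.Prime) (ha : ¬ r ∣ a)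
    (h : p ∣ orderOf (a : ZMod r)) : r % p = 1 := by
  have : Fact r.Prime := ⟨hr⟩
  have h0 : (a : ZMod r) ≠ 0 := fun h0 => ha ((ZMod.natCast_eq_zero_iff a r).1 h0)
  obtain ⟨k, hk⟩ := h.trans (ZMod.orderOf_dvd_card_sub_one h0)
  have h1 : r = p * k + 1 := by have := hr.one_le; omega
  rw [h1, Nat.mul_add_mod, Nat.mod_eq_of_lt hp.one_lt]

theorem rec_main_of {p : ℕ} [Fact p.Prime] {K L : Type} [Field K] [NumberField K] [Field L]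
    [NumberField L] [Algebra K L] [IsGalois K L] [IsCyclotomicExtension {p} ℚ K]
    (hNT : ∀ a : ℕ, 1 < a → ∀ S : Finset ℕ,
      ∃ r : ℕ, r.Prime ∧ r ∉ S ∧ a.Coprime r ∧ p ∣ orderOf (a : ZMod r))
    (hres : ∀ (r : ℕ) [Fact r.Prime], r % p = 1 → ∀ 𝔯 : Ideal (𝓞 K), 𝔯.IsPrime →
      (r : 𝓞 K) ∈ 𝔯 → absNorm 𝔯 = r)
    (hp2 : p ≠ 2) (s : L ≃ₐ[K] L) (hs : ∀ g : L ≃ₐ[K] L, g ∈ Subgroup.zpowers s)
    (hcard : Module.finrank K L = p) (hun : Unram K L)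
    (hEm : ∀ (r₁ r₂ : ℕ) [Fact r₁.Prime] [Fact r₂.Prime], r₁ ≠ r₂ → r₁ ≠ p → r₂ ≠ p →
      (∀ 𝔯 : Ideal (𝓞 K), 𝔯.IsPrime → (r₁ : 𝓞 K) ∈ 𝔯 → absNorm 𝔯 = r₁) →
      (∀ 𝔯 : Ideal (𝓞 K), 𝔯.IsPrime → (r₂ : 𝓞 K) ∈ 𝔯 → absNorm 𝔯 = r₂) →
      ∀ P₁ P₂ : Ideal (𝓞 K), P₁.IsPrime → P₂.IsPrime → P₁ ≠ ⊥ → P₂ ≠ ⊥ →
      ((r₁ * r₂ : ℕ) : 𝓞 K) ∉ P₁ → ((r₁ * r₂ : ℕ) : 𝓞 K) ∉ P₂ →
      (fe s P₁ : ZMod p) ≠ 0 → (fe s P₂ : ZMod p) ≠ 0 →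
      p ∣ orderOf (absNorm P₁ : ZMod r₁) → p ∣ orderOf (absNorm P₂ : ZMod r₂) →
      cl P₁ ^ (fe s P₂ : ZMod p).val / cl P₂ ^ (fe s P₁ : ZMod p).val ∈ normCl K L)
    (x : 𝓞 K) (hx : x ≠ 0) : (art s (span {x}) : ZMod p) = 0 := by
  have hp : p.Prime := Fact.out
  refine rec_core s hs hcard hun (normCl_ne_top p hp2 K L hcard hun) ?_ x hx
  intro P₁ P₂ hP₁ hP₂ h₁ h₂ hf₁ hf₂
  have ha₁ := one_lt_absNorm P₁ hP₁ h₁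
  have ha₂ := one_lt_absNorm P₂ hP₂ h₂
  obtain ⟨r₁, hr₁, hr₁S, -, ho₁⟩ := hNT (absNorm P₁) ha₁
    ({p} ∪ (absNorm P₁ * absNorm P₂).primeFactors)
  obtain ⟨r₂, hr₂, hr₂S, -, ho₂⟩ := hNT (absNorm P₂) ha₂
    ({p, r₁} ∪ (absNorm P₁ * absNorm P₂).primeFactors)
  have hprod0 : absNorm P₁ * absNorm P₂ ≠ 0 := by positivity
  simp only [Finset.mem_union, Finset.mem_singleton, Finset.mem_insert, Nat.mem_primeFactors,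
    not_or, not_and] at hr₁S hr₂S
  have hd₁ : ¬ r₁ ∣ absNorm P₁ * absNorm P₂ := fun h => hr₁S.2 hr₁ h hprod0
  have hd₂ : ¬ r₂ ∣ absNorm P₁ * absNorm P₂ := fun h => hr₂S.2 hr₂ h hprod0
  have hd₁₁ : ¬ r₁ ∣ absNorm P₁ := fun h => hd₁ (h.mul_right _)
  have hd₁₂ : ¬ r₁ ∣ absNorm P₂ := fun h => hd₁ (h.mul_left _)
  have hd₂₁ : ¬ r₂ ∣ absNorm P₁ := fun h => hd₂ (h.mul_right _)
  have hd₂₂ : ¬ r₂ ∣ absNorm P₂ := fun h => hd₂ (h.mul_left _)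
  have : Fact r₁.Prime := ⟨hr₁⟩
  have : Fact r₂.Prime := ⟨hr₂⟩
  have hm : ∀ P : Ideal (𝓞 K), P.IsPrime → ¬ r₁ ∣ absNorm P → ¬ r₂ ∣ absNorm P →
      ((r₁ * r₂ : ℕ) : 𝓞 K) ∉ P := by
    intro P hP h1 h2 hmem
    rw [Nat.cast_mul] at hmem
    rcases hP.mem_or_mem hmem with h | h
    · exact rec_natCast_not_mem P hP.ne_top hr₁ h1 h
    · exact rec_natCast_not_mem P hP.ne_top hr₂ h2 h
  exact hEm r₁ r₂ (fun h => hr₂S.1.2 h.symm) hr₁S.1 hr₂S.1.1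
    (hres r₁ (rec_mod_eq_one hp hr₁ hd₁₁ ho₁)) (hres r₂ (rec_mod_eq_one hp hr₂ hd₂₂ ho₂))
    P₁ P₂ hP₁ hP₂ h₁ h₂ (hm P₁ hP₁ hd₁₁ hd₂₁) (hm P₂ hP₂ hd₁₂ hd₂₂) hf₁ hf₂ ho₁ ho₂

end Fermat.Agent.S14
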