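import Mathlib
import Fermat.Agent.S14.H
import Fermat.Agent.S14.C4
import Fermat.Agent.S14.E
import Fermat.Agent.S14.RecOf
import Fermat.Agent.S14.RamCross
import Fermat.Agent.S14.NT

/-!
# S14 (REC) + (H): final statements
-/

set_option autoImplicit false

namespace Fermat.Agent.S14

open NumberField Ideal IntermediateField
open scoped nonZeroDivisors Pointwise

section REC

variable {p : ℕ} [Fact p.Prime] {K L : Type} [Field K] [NumberField K] [Field L] [NumberField L]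
  [Algebra K L] [IsGalois K L] [IsGalois ℚ L] [IsCyclotomicExtension {p} ℚ K]

theorem h_rec_main (hp2 : p ≠ 2) (s : L ≃ₐ[K] L) (hs : ∀ g : L ≃ₐ[K] L, g ∈ Subgroup.zpowers s)
    (hcard : Module.finrank K L = p) (hun : Unram K L)
    (hunQ : ∀ Q : Ideal (𝓞 L), Q.IsPrime → Q ≠ ⊥ → (p : 𝓞 L) ∉ Q →
      Ideal.inertia (L ≃ₐ[ℚ] L) Q = ⊥)
    (x : 𝓞 K) (hx : x ≠ 0) : (art s (span {x}) : ZMod p) = 0 := by
  have _ : NeZero p := ⟨(Fact.out : p.Prime).ne_zero⟩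
  have _ : IsGalois ℚ K := IsCyclotomicExtension.isGalois {p} ℚ K
  refine rec_main_of (exists_prime_dvd_orderOf p)
    (fun r _ hr 𝔯 h𝔯 hmem => absNorm_eq_of_modEq_one r hr 𝔯 h𝔯 hmem) hp2 s hs hcard hun ?_ x hx
  intro r₁ r₂ _ _ h12 h1 h2 hres₁ hres₂ P₁ P₂ hP₁ hP₂ h₁ h₂ hm₁ hm₂ hf₁ hf₂ ho₁ ho₂
  have _ : NeZero (r₁ * r₂) :=
    ⟨Nat.mul_ne_zero (Fact.out : r₁.Prime).ne_zero (Fact.out : r₂.Prime).ne_zero⟩
  have _ : IsGalois K (CyclotomicField (r₁ * r₂) L) := ram_isGalois (r₁ * r₂)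
  obtain ⟨c⟩ := exists_cross s hs hcard hun hunQ r₁ r₂ h12 h1 h2
  exact e_main hs hcard hun c hp2 hres₁ hres₂ P₁ P₂ hP₁ hP₂ h₁ h₂ hm₁ hm₂ hf₁ hf₂ ho₁ ho₂

end REC

theorem no_badData (p : ℕ) [Fact p.Prime] (h3 : 3 ≤ p) (L : Type) [Field L] [NumberField L]
    (ζ : L) : ¬ BadData p L ζ := by
  intro h
  have _ := h.gal
  have _ := g4_isGalois h
  have _ := g4_cyc h
  have hun : Unram (g4K ζ) L := fun Q hQ hQ0 => g4_inertia h Q hQ0
  refine no_badData_of p h3 L ζ h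
    (fun s hs x hx => h_rec_main (by omega) s hs (g4_finrank h) hun ?_ x hx)
    (c4 (g4K ζ) L (by rw [g4_finrank h]; omega) _ (Ideal.finite_setOfPred_absNorm_eq p)
      (fun Q hQ hQ0 _ => hun Q hQ hQ0))
  intro Q hQ hQ0 hpQ
  rw [eq_bot_iff]
  intro t ht
  rw [Subgroup.mem_bot]
  exact h.unram Q hQ hQ0 hpQ t ht

end Fermat.Agent.S14
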