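import Mathlib
import Fermat.Agent.S14.Defs
import Fermat.Agent.S14.Art
import Fermat.Agent.S14.X1
import Fermat.Agent.S14.XC
import Fermat.Agent.S14.D3
import Fermat.Agent.S14.D4X

/-!
# S14 (D3), (D4): the statements `d3`, `d4` of the skeleton (with `c` explicit)
-/

set_option autoImplicit false
set_option linter.unusedSectionVars false
set_option linter.unusedVariables false

namespace Fermat.Agent.S14

open NumberField Ideal IntermediateField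
open scoped nonZeroDivisors Pointwise

section X

variable {p r₁ r₂ : ℕ} [Fact p.Prime] [Fact r₁.Prime] [Fact r₂.Prime]
  {K L Ω : Type} [Field K] [NumberField K] [Field L] [NumberField L]
  [Field Ω] [NumberField Ω] [Algebra K L] [Algebra L Ω] [Algebra K Ω] [IsScalarTower K L Ω]
  [IsGalois K L] [IsGalois K Ω] {s : L ≃ₐ[K] L}

variable (hs : ∀ g : L ≃ₐ[K] L, g ∈ Subgroup.zpowers s)
  (hcard : Module.finrank K L = p) (hun : Unram K L) (c : Cross p r₁ r₂ K L Ω s)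
  (Φ : Subgroup (Ω ≃ₐ[K] Ω))

include hs hcard hun

theorem d3 (hp2 : p ≠ 2) [IsGalois ℚ K]
    (hres : ∀ 𝔯 : Ideal (𝓞 K), 𝔯.IsPrime → (r₁ : 𝓞 K) ∈ 𝔯 → absNorm 𝔯 = r₁)
    (g : Ω ≃ₐ[K] Ω) (hg1 : (c.e g).1 ≠ 1) (hord : p ∣ orderOf (c.e g).2.1)
    (γ : 𝓞 (fixedField (c.H₁ g))) (hγ0 : γ ≠ 0)
    (hγ : IsCoprime (span {γ}) (span {((r₁ * r₂ : ℕ) : 𝓞 (fixedField (c.H₁ g)))})) :
    (art s (relNorm (𝓞 K) (span {γ})) : ZMod p) = 0 :=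
  d3_of c hp2 x0 (fun Φ 𝔠 h0 h => x1 hs hcard hun c Φ 𝔠 h0 h) (art_pow s) hres g hg1 hord γ hγ0 hγ

include c

theorem d4
    (hprin : ∀ γ : 𝓞 (fixedField Φ), γ ≠ 0 →
      IsCoprime (span {γ}) (span {((r₁ * r₂ : ℕ) : 𝓞 (fixedField Φ))}) →
      (art s (relNorm (𝓞 K) (span {γ})) : ZMod p) = 0)
    (h1 : ∃ 𝔓 : Ideal (𝓞 (fixedField Φ)), 𝔓 ≠ ⊥ ∧
      IsCoprime 𝔓 (span {((r₁ * r₂ : ℕ) : 𝓞 (fixedField Φ))}) ∧
      (art s (relNorm (𝓞 K) 𝔓) : ZMod p) ≠ 0)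
    (𝔠 𝔠' : Ideal (𝓞 (fixedField Φ))) (h0 : 𝔠 ≠ ⊥) (h0' : 𝔠' ≠ ⊥)
    (h𝔠 : IsCoprime 𝔠 (span {((r₁ * r₂ : ℕ) : 𝓞 (fixedField Φ))}))
    (h𝔠' : IsCoprime 𝔠' (span {((r₁ * r₂ : ℕ) : 𝓞 (fixedField Φ))}))
    (h : (art s (relNorm (𝓞 K) 𝔠) : ZMod p) = art s (relNorm (𝓞 K) 𝔠')) :
    cl (relNorm (𝓞 K) 𝔠) / cl (relNorm (𝓞 K) 𝔠') ∈ normCl K L :=
  d4_of_xc3 hs hcard hun Φ (fun H hH => xc3 hs hcard hun c Φ H hH) hprin h1 𝔠 𝔠' h0 h0' h𝔠 h𝔠' h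

end X

end Fermat.Agent.S14
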