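import Mathlib

/-!
# S14 (F), part 1: the power residue character and its Jacobi sums (abstract version)

`k` is a finite field with `q` elements, `π : R →+* k` a ring homomorphism, `ζ : R` a primitive
`p`-th root of unity which stays non trivial in `k`.
-/

set_option autoImplicit false
set_option linter.unusedSectionVars false

namespace Fermat.Agent.S14

open Finset

section sums

variable {k : Type*} [Field k] [Fintype k]

/-- `∑ x^a (1-x)^a = 0` when `2 a < q - 1` -/
lemma jac_sum_zero (a : ℕ) (h : 2 * a < Fintype.card k - 1) :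
    ∑ x : k, x ^ a * (1 - x) ^ a = 0 := by
  have h1 : ∀ x : k, x ^ a * (1 - x) ^ a =
      ∑ j ∈ range (a + 1), ((-1) ^ j * (a.choose j : k)) * x ^ (a + j) := by
    intro x
    have : (1 - x) ^ a = (-x + 1) ^ a := by ring
    rw [this, add_pow, Finset.mul_sum]
    refine Finset.sum_congr rfl fun j _ => ?_
    rw [one_pow, neg_pow, pow_add]
    ring
  simp_rw [h1]
  rw [Finset.sum_comm]
  refine Finset.sum_eq_zero fun j hj => ?_
  rw [← Finset.mul_sum, FiniteField.sum_pow_lt_card_sub_one k (a + j)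
    (by rw [mem_range] at hj; omega), mul_zero]

/-- `x ↦ x ^ a` is not identically `1` on `k \ {0}` for `0 < a < q - 1` -/
lemma jac_exists_pow_ne_one (a : ℕ) (h0 : 0 < a) (h : a < Fintype.card k - 1) :
    ∃ x : k, x ≠ 0 ∧ x ^ a ≠ 1 := by
  classical
  by_contra hcon
  push Not at hcon
  obtain ⟨g, hg⟩ := IsCyclic.exists_generator (α := kˣ)
  have h1 : orderOf g = Fintype.card k - 1 := by
    rw [orderOf_eq_card_of_forall_mem_zpowers hg, Nat.card_eq_fintype_card, Fintype.card_units]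
  have h2 : g ^ a = 1 := by
    apply Units.ext
    rw [Units.val_pow_eq_pow_val, Units.val_one]
    exact hcon _ g.ne_zero
  have h3 := orderOf_dvd_of_pow_eq_one h2
  rw [h1] at h3
  exact absurd (Nat.le_of_dvd h0 h3) (by omega)

end sums

section char

variable {k : Type*} [Field k] [Fintype k] [DecidableEq k]
variable {R : Type*} [CommRing R]

omit [Fintype k] [DecidableEq k] in
/-- the image of `ζ` in `k` is a primitive `p`-th root of unity -/
lemma jac_primitive {p : ℕ} (hp : p.Prime) (π : R →+* k) {ζ : R} (hζ : ζ ^ p = 1)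
    (hπ : π ζ ≠ 1) : IsPrimitiveRoot (π ζ) p := by
  have : Fact p.Prime := ⟨hp⟩
  have h1 : orderOf (π ζ) = p := orderOf_eq_prime (by rw [← map_pow, hζ, map_one]) hπ
  rw [← h1]
  exact IsPrimitiveRoot.orderOf _

/-- the `p`-th power residue character -/
theorem jac_exists_char {p : ℕ} (hp : p.Prime) (π : R →+* k) {ζ : R} (hζ : ζ ^ p = 1)
    (hπ : π ζ ≠ 1) :
    ∃ (χ : MulChar k R) (m : ℕ), 0 < m ∧ p * m = Fintype.card k - 1 ∧
      (∀ x, π (χ x) = x ^ m) ∧ ∀ x, x ≠ 0 → ∃ i : ℕ, χ x = ζ ^ i := by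
  have hprim := jac_primitive hp π hζ hπ
  have : NeZero p := ⟨hp.ne_zero⟩
  have hcard : 1 < Fintype.card k := Fintype.one_lt_card
  -- `p ∣ q - 1`
  have hdvd : p ∣ Fintype.card k - 1 := by
    have h0 : π ζ ≠ 0 := hprim.ne_zero hp.ne_zero
    have h1 : (π ζ) ^ (Fintype.card k - 1) = 1 := FiniteField.pow_card_sub_one_eq_one _ h0
    exact hprim.dvd_of_pow_eq_one _ h1
  obtain ⟨m, hm⟩ := hdvd
  have hm0 : 0 < m := by
    rcases Nat.eq_zero_or_pos m with h | h
    · rw [h, mul_zero] at hm; omega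
    · exact h
  obtain ⟨g, hg⟩ := IsCyclic.exists_generator (α := kˣ)
  have hgp : ((g : k) ^ m) ^ p = 1 := by
    rw [← pow_mul, mul_comm, ← hm]
    exact FiniteField.pow_card_sub_one_eq_one _ g.ne_zero
  obtain ⟨i, -, hi⟩ := hprim.eq_pow_of_pow_eq_one hgp
  have hu : IsUnit ζ := IsUnit.of_pow_eq_one hζ hp.ne_zero
  obtain ⟨u, hu⟩ := hu
  have hup : u ^ p = 1 := by
    apply Units.ext
    rw [Units.val_pow_eq_pow_val, hu, hζ, Units.val_one]
  have hmem : u ^ i ∈ rootsOfUnity (Fintype.card kˣ) R := by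
    rw [mem_rootsOfUnity, Fintype.card_units, hm, ← pow_mul, mul_comm i, mul_assoc, pow_mul, hup,
      one_pow]
  refine ⟨MulChar.ofRootOfUnity hmem hg, m, hm0, hm.symm, ?_, ?_⟩
  · intro x
    by_cases hx : x = 0
    · rw [hx, MulChar.map_zero, map_zero, zero_pow hm0.ne']
    · obtain ⟨n, hn⟩ := (mem_powers_iff_mem_zpowers).2 (hg (Units.mk0 x hx))
      have hx' : x = (g : k) ^ n := by
        have := congrArg Units.val hn
        simpa using this.symm
      rw [hx', map_pow, MulChar.ofRootOfUnity_spec, map_pow, Units.val_pow_eq_pow_val, hu, map_pow,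
        hi, ← pow_mul, ← pow_mul, mul_comm]
  · intro x hx
    obtain ⟨n, hn⟩ := (mem_powers_iff_mem_zpowers).2 (hg (Units.mk0 x hx))
    have hx' : x = (g : k) ^ n := by
      have := congrArg Units.val hn
      simpa using this.symm
    exact ⟨i * n, by rw [hx', map_pow, MulChar.ofRootOfUnity_spec, Units.val_pow_eq_pow_val, hu,
      pow_mul]⟩

end char

section jsum

variable {k : Type*} [Field k] [Fintype k] [DecidableEq k]
variable {R : Type*} [CommRing R]

/-- the Jacobi sum of `χ ^ e` with itself -/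
noncomputable def jacS (χ : MulChar k R) (e : ℕ) : R := ∑ x : k, χ x ^ e * χ (1 - x) ^ e

lemma jacS_map (χ : MulChar k R) {ζ : R} (hχ : ∀ x, x ≠ 0 → ∃ i : ℕ, χ x = ζ ^ i)
    (f : R →+* R) {t : ℕ} (ht : t ≠ 0) (hf : f ζ = ζ ^ t) (e : ℕ) :
    f (jacS χ e) = jacS χ (e * t) := by
  have h1 : ∀ x, f (χ x) = χ x ^ t := by
    intro x
    by_cases hx : x = 0
    · rw [hx, MulChar.map_zero, map_zero, zero_pow ht]
    · obtain ⟨i, hi⟩ := hχ x hx
      rw [hi, map_pow, hf, ← pow_mul, ← pow_mul, mul_comm]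
  rw [jacS, jacS, map_sum]
  refine Finset.sum_congr rfl fun x _ => ?_
  rw [map_mul, map_pow, map_pow, h1, h1, ← pow_mul, ← pow_mul, mul_comm t]

lemma jacS_mod (χ : MulChar k R) {ζ : R} {p : ℕ} (hζ : ζ ^ p = 1)
    (hχ : ∀ x, x ≠ 0 → ∃ i : ℕ, χ x = ζ ^ i) {e e' : ℕ} (he : e ≠ 0) (he' : e' ≠ 0)
    (h : e % p = e' % p) : jacS χ e = jacS χ e' := by
  have h1 : ∀ x, χ x ^ e = χ x ^ e' := by
    intro x
    by_cases hx : x = 0
    · rw [hx, MulChar.map_zero, zero_pow he, zero_pow he']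
    · obtain ⟨i, hi⟩ := hχ x hx
      have h2 : (χ x) ^ p = 1 := by rw [hi, ← pow_mul, mul_comm, pow_mul, hζ, one_pow]
      rw [pow_eq_pow_mod e h2, pow_eq_pow_mod e' h2, h]
  rw [jacS, jacS]
  exact Finset.sum_congr rfl fun x _ => by rw [h1, h1]

lemma jacS_proj (χ : MulChar k R) (π : R →+* k) {m : ℕ} (hπχ : ∀ x, π (χ x) = x ^ m) {e : ℕ}
    (h : 2 * (m * e) < Fintype.card k - 1) : π (jacS χ e) = 0 := by
  rw [jacS, map_sum, ← jac_sum_zero (m * e) h]
  refine Finset.sum_congr rfl fun x _ => ?_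
  rw [map_mul, map_pow, map_pow, hπχ, hπχ, ← pow_mul, ← pow_mul]

/-- `J(χ,χ) J(χ⁻¹,χ⁻¹) = q` -/
theorem jacS_mul [IsDomain R] [CharZero R] {p : ℕ} (hp : p.Prime) (hp2 : p ≠ 2)
    (χ : MulChar k R) (π : R →+* k)
    {ζ : R} (hζ : ζ ^ p = 1) {m : ℕ} (hm0 : 0 < m) (hm : p * m = Fintype.card k - 1)
    (hπχ : ∀ x, π (χ x) = x ^ m) (hχ : ∀ x, x ≠ 0 → ∃ i : ℕ, χ x = ζ ^ i) :
    jacS χ 1 * jacS χ (p - 1) = (Fintype.card k : R) := by
  have hp3 : 3 ≤ p := by have := hp.two_le; omega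
  -- `χ ^ e ≠ 1`
  have hne : ∀ e : ℕ, 0 < e → e < p → χ ^ e ≠ 1 := by
    intro e he0 hep h1
    obtain ⟨x, hx0, hx⟩ := jac_exists_pow_ne_one (k := k) (m * e) (Nat.mul_pos hm0 he0)
      (by rw [← hm, mul_comm p]; exact Nat.mul_lt_mul_of_pos_left hep hm0)
    apply hx
    have h2 : (χ ^ e) x = 1 := by
      rw [h1]
      exact MulChar.one_apply (isUnit_iff_ne_zero.2 hx0)
    rw [MulChar.pow_apply' _ he0.ne'] at h2
    rw [pow_mul, ← hπχ, ← map_pow, h2, map_one]
  have hpow : χ ^ p = 1 := by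
    ext x
    obtain ⟨i, hi⟩ := hχ x x.ne_zero
    rw [MulChar.pow_apply' _ hp.ne_zero, hi, ← pow_mul, mul_comm, pow_mul, hζ, one_pow,
      MulChar.one_apply x.isUnit]
  have hinv : χ⁻¹ = χ ^ (p - 1) := by
    rw [inv_eq_iff_mul_eq_one, ← pow_succ', Nat.sub_add_cancel hp.one_le, hpow]
  have hJ1 : jacS χ 1 = jacobiSum χ χ := by
    simp only [jacS, jacobiSum, pow_one]
  have hJ2 : jacS χ (p - 1) = jacobiSum χ⁻¹ χ⁻¹ := by
    rw [hinv]
    simp only [jacS, jacobiSum]
    exact Finset.sum_congr rfl fun x _ => by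
      rw [MulChar.pow_apply' _ (by omega), MulChar.pow_apply' _ (by omega)]
  have hinj : Function.Injective (algebraMap R (FractionRing R)) := IsFractionRing.injective _ _
  apply hinj
  rw [hJ1, hJ2, map_mul, ← jacobiSum_ringHomComp, ← jacobiSum_ringHomComp, ← MulChar.ringHomComp_inv,
    map_natCast]
  have hchar : ringChar (FractionRing R) ≠ ringChar k := by
    rw [ringChar.eq_zero]
    intro h
    have : CharZero k := by
      have := ringChar.charP k
      rw [← h] at this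
      exact CharP.charP_to_charZero k
    exact not_finite k
  have h1 := hne 1 one_pos (by omega)
  have h2 := hne 2 two_pos (by omega)
  rw [pow_one] at h1
  rw [pow_two] at h2
  exact jacobiSum_mul_jacobiSum_inv hchar ((MulChar.ringHomComp_ne_one_iff hinj).2 h1)
    ((MulChar.ringHomComp_ne_one_iff hinj).2 h1)
    (by rw [← MulChar.ringHomComp_mul]; exact (MulChar.ringHomComp_ne_one_iff hinj).2 h2)

end jsum

end Fermat.Agent.S14
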