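import Fermat.Agent.S14.FChar

/-!
# S14 (F), part 2: the prime factorisation of the Jacobi sum
-/

set_option autoImplicit false
set_option linter.unusedSectionVars false

namespace Fermat.Agent.S14

open Finset

section

variable {R : Type*} [CommRing R] [IsDedekindDomain R] [Module.Free ℤ R] [Module.Finite ℤ R]

lemma jac_absNorm_comap (e : R ≃+* R) (Q : Ideal R) :
    Ideal.absNorm (Ideal.comap e Q) = Ideal.absNorm Q := by
  rw [Ideal.absNorm_apply, Ideal.absNorm_apply, Submodule.cardQuot_apply, Submodule.cardQuot_apply]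
  exact Nat.card_congr (Ideal.quotientEquiv (Ideal.comap e Q) Q e
    (Ideal.map_comap_of_surjective _ e.surjective Q).symm).toEquiv

omit [Module.Free ℤ R] [Module.Finite ℤ R] in
lemma jac_prod_dvd {ι : Type*} (T : Finset ι) (F : ι → Ideal R) (hinj : Set.InjOn F T)
    (hprime : ∀ t ∈ T, Prime (F t)) (x : R) (hx : ∀ t ∈ T, x ∈ F t) :
    ∏ t ∈ T, F t ∣ Ideal.span {x} := by
  classical
  have h1 : ∏ I ∈ T.image F, I = ∏ t ∈ T, F t :=
    Finset.prod_image (f := fun I => I) fun a ha b hb hab => hinj ha hb hab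
  rw [← h1]
  apply Finset.prod_primes_dvd
  · intro I hI
    obtain ⟨t, ht, rfl⟩ := Finset.mem_image.1 hI
    exact hprime t ht
  · intro I hI
    obtain ⟨t, ht, rfl⟩ := Finset.mem_image.1 hI
    exact Ideal.dvd_span_singleton.2 (hx t ht)

theorem jac_main_aux [CharZero R] {k : Type*} [Field k] [Fintype k] [DecidableEq k] (π : R →+* k)
    {p q : ℕ} (hp : p.Prime) (hp2 : p ≠ 2) (hq : q.Prime) (hcard : Fintype.card k = q)
    (hrank : Module.finrank ℤ R = p - 1) {ζ : R} (hζ : ζ ^ p = 1) (hπ : π ζ ≠ 1)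
    (Q : Ideal R) (hQ : ∀ x, x ∈ Q ↔ π x = 0) (hN : Ideal.absNorm Q = q) :
    ∃ J : R, ∀ s : ℕ → (R ≃+* R), (∀ t ∈ Icc 1 (p - 1), s t ζ = ζ ^ t) →
      Ideal.span {J} = ∏ t ∈ Icc 1 ((p - 1) / 2), Ideal.comap (s t) Q := by
  obtain ⟨χ, m, hm0, hm, hπχ, hχ⟩ := jac_exists_char hp π hζ hπ
  refine ⟨jacS χ 1, fun s hs => ?_⟩
  have hprim := jac_primitive hp π hζ hπ
  obtain ⟨h, hh⟩ : ∃ h, p = 2 * h + 1 := by
    obtain ⟨h, hh⟩ := hp.odd_of_ne_two hp2
    exact ⟨h, hh⟩
  have hh2 : (p - 1) / 2 = h := by omega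
  rw [hh2]
  have hQprime : Q.IsPrime :=
    Ideal.isPrime_of_irreducible_absNorm (by rw [hN]; exact hq.prime.irreducible)
  have hQbot : Q ≠ ⊥ := by
    intro h0
    rw [h0, Ideal.absNorm_bot] at hN
    exact hq.ne_zero hN.symm
  -- membership
  have hmem1 : ∀ t ∈ Icc 1 h, jacS χ 1 ∈ Ideal.comap (s t) Q := by
    intro t ht
    rw [mem_Icc] at ht
    rw [Ideal.mem_comap, hQ]
    have h1 := jacS_map χ hχ (s t : R →+* R) (t := t) (by omega)
      (hs t (by rw [mem_Icc]; omega)) 1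
    rw [one_mul] at h1
    have h2 : (s t) (jacS χ 1) = jacS χ t := h1
    rw [h2]
    refine jacS_proj χ π hπχ ?_
    rw [← hm, hh]
    nlinarith
  have hmem2 : ∀ t ∈ Icc (h + 1) (p - 1), jacS χ (p - 1) ∈ Ideal.comap (s t) Q := by
    intro t ht
    rw [mem_Icc] at ht
    rw [Ideal.mem_comap, hQ]
    have h1 := jacS_map χ hχ (s t : R →+* R) (t := t) (by omega)
      (hs t (by rw [mem_Icc]; omega)) (p - 1)
    have h2 : (s t) (jacS χ (p - 1)) = jacS χ ((p - 1) * t) := h1
    have h3 : jacS χ ((p - 1) * t) = jacS χ (p - t) := by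
      refine jacS_mod χ hζ hχ (Nat.mul_ne_zero (by omega) (by omega)) (by omega) ?_
      obtain ⟨t', rfl⟩ : ∃ t', t = t' + 1 := ⟨t - 1, by omega⟩
      have : (p - 1) * (t' + 1) = (p - (t' + 1)) + p * t' := by
        obtain ⟨p', rfl⟩ : ∃ p', p = p' + (t' + 1) := ⟨p - (t' + 1), by omega⟩
        have e1 : p' + (t' + 1) - 1 = p' + t' := by omega
        have e2 : p' + (t' + 1) - (t' + 1) = p' := by omega
        rw [e1, e2]
        ring
      rw [this, Nat.add_mul_mod_self_left]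
    rw [h2, h3]
    refine jacS_proj χ π hπχ ?_
    rw [← hm]
    have : 2 * (p - t) < p := by omega
    nlinarith
  -- injectivity
  have hinj : Set.InjOn (fun t => Ideal.comap (s t) Q) (Icc 1 (p - 1) : Finset ℕ) := by
    intro t ht u hu heq
    have ht' := ht
    have hu' := hu
    rw [Finset.coe_Icc, Set.mem_Icc] at ht' hu'
    have : Fact q.Prime := ⟨hq⟩
    obtain ⟨n, hn⟩ := mem_multiples_of_prime_card (G := k) (p := q)
      (by rw [Nat.card_eq_fintype_card, hcard]) (g := 1) (g' := π (ζ ^ t)) one_ne_zero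
    have hn' : (n : k) = π (ζ ^ t) := by
      rw [← hn]
      simp
    have h1 : ζ - (n : R) ∈ Ideal.comap (s t) Q := by
      rw [Ideal.mem_comap, hQ, map_sub, map_natCast, hs t ht, map_sub, map_natCast, hn', sub_self]
    have heq' : Ideal.comap (s t) Q = Ideal.comap (s u) Q := heq
    rw [heq', Ideal.mem_comap, hQ, map_sub, map_natCast, hs u hu, map_sub, map_natCast, hn',
      sub_eq_zero, map_pow, map_pow] at h1
    exact (hprim.pow_inj (by omega) (by omega) h1).symm
  have hprime : ∀ t, Prime (Ideal.comap (s t) Q) := by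
    intro t
    apply Ideal.prime_of_isPrime
    · intro h0
      have h1 := jac_absNorm_comap (s t) Q
      rw [h0, Ideal.absNorm_bot, hN] at h1
      exact hq.ne_zero h1.symm
    · exact Ideal.comap_isPrime _ _
  have hsub1 : (Icc 1 h : Finset ℕ) ⊆ Icc 1 (p - 1) := Finset.Icc_subset_Icc le_rfl (by omega)
  have hsub2 : (Icc (h + 1) (p - 1) : Finset ℕ) ⊆ Icc 1 (p - 1) :=
    Finset.Icc_subset_Icc (by omega) le_rfl
  have hd1 := jac_prod_dvd (Icc 1 h) (fun t => Ideal.comap (s t) Q)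
    (hinj.mono (by exact_mod_cast hsub1)) (fun t _ => hprime t) _ hmem1
  have hd2 := jac_prod_dvd (Icc (h + 1) (p - 1)) (fun t => Ideal.comap (s t) Q)
    (hinj.mono (by exact_mod_cast hsub2)) (fun t _ => hprime t) _ hmem2
  -- norms
  have hn1 : Ideal.absNorm (∏ t ∈ Icc 1 h, Ideal.comap (s t) Q) = q ^ h := by
    rw [map_prod, Finset.prod_congr rfl fun t _ => (jac_absNorm_comap (s t) Q).trans hN,
      Finset.prod_const, Nat.card_Icc, Nat.add_sub_cancel]
  have hn2 : Ideal.absNorm (∏ t ∈ Icc (h + 1) (p - 1), Ideal.comap (s t) Q) = q ^ h := by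
    rw [map_prod, Finset.prod_congr rfl fun t _ => (jac_absNorm_comap (s t) Q).trans hN,
      Finset.prod_const, Nat.card_Icc]
    congr 1
    omega
  have hmul := jacS_mul hp hp2 χ π hζ hm0 hm hπχ hχ
  have hN12 : Ideal.absNorm (Ideal.span {jacS χ 1}) * Ideal.absNorm (Ideal.span {jacS χ (p - 1)}) =
      q ^ (p - 1) := by
    rw [← map_mul, Ideal.span_singleton_mul_span_singleton, hmul, hcard, Ideal.absNorm_span_natCast,
      hrank]
  obtain ⟨I', hI'⟩ := hd1
  obtain ⟨c, hc⟩ := map_dvd Ideal.absNorm hd2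
  rw [hn2] at hc
  rw [hI', map_mul, hn1, hc] at hN12
  have hq0 : 0 < q ^ h := pow_pos hq.pos h
  have h5 : Ideal.absNorm I' * c = 1 := by
    have e : q ^ (p - 1) = q ^ h * q ^ h := by rw [← pow_add]; congr 1; omega
    rw [e] at hN12
    have : q ^ h * q ^ h * (Ideal.absNorm I' * c) = q ^ h * q ^ h * 1 := by
      rw [mul_one]
      calc q ^ h * q ^ h * (Ideal.absNorm I' * c) = q ^ h * Ideal.absNorm I' * (q ^ h * c) := by ring
        _ = q ^ h * q ^ h := hN12
    exact Nat.eq_of_mul_eq_mul_left (Nat.mul_pos hq0 hq0) this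
  have h6 : Ideal.absNorm I' = 1 := Nat.eq_one_of_mul_eq_one_right h5
  rw [Ideal.absNorm_eq_one_iff] at h6
  rw [hI', h6, Ideal.mul_top]

end

end Fermat.Agent.S14
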