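import Mathlib
import Fermat.Agent.S14.RecOf
import Fermat.Agent.S14.NT
import Fermat.Agent.S14.RamCross
import Fermat.Agent.S14.E

/-!
# S14 (REC): reciprocity for the unramified cyclic extension `L / K`, `K = ℚ(ζ_p)`

The Artin symbol of every nonzero principal ideal of `𝓞 K` is trivial.
-/

set_option autoImplicit false
set_option linter.unusedSectionVars false
set_option linter.unusedVariables false

namespace Fermat.Agent.S14

open NumberField Ideal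

section REC

variable {p : ℕ} [Fact p.Prime] {K L : Type} [Field K] [NumberField K] [Field L] [NumberField L]
  [Algebra K L] [IsGalois K L] [IsGalois ℚ L] [IsCyclotomicExtension {p} ℚ K]

theorem rec_main (hp2 : p ≠ 2) (s : L ≃ₐ[K] L) (hs : ∀ g : L ≃ₐ[K] L, g ∈ Subgroup.zpowers s)
    (hcard : Module.finrank K L = p) (hun : Unram K L)
    (hunQ : ∀ Q : Ideal (𝓞 L), Q.IsPrime → Q ≠ ⊥ → (p : 𝓞 L) ∉ Q →
      Ideal.inertia (L ≃ₐ[ℚ] L) Q = ⊥)
    (x : 𝓞 K) (hx : x ≠ 0) : (art s (span {x}) : ZMod p) = 0 := by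
  have hp : p.Prime := Fact.out
  have : NeZero p := ⟨hp.ne_zero⟩
  refine rec_main_of (fun a ha S => exists_prime_dvd_orderOf p a ha S)
    (fun r _ hr 𝔯 h𝔯 hmem => absNorm_eq_of_modEq_one (p := p) r hr 𝔯 h𝔯 hmem) hp2 s hs hcard hun
    ?_ x hx
  intro r₁ r₂ _ _ h12 h1 h2 hres₁ hres₂ P₁ P₂ hP₁ hP₂ h₁ h₂ hm₁ hm₂ hf₁ hf₂ ho₁ ho₂
  have : NeZero (r₁ * r₂) :=
    ⟨Nat.mul_ne_zero (Fact.out : r₁.Prime).ne_zero (Fact.out : r₂.Prime).ne_zero⟩
  have := ram_isGalois (K := K) (L := L) (r₁ * r₂)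
  have : IsGalois ℚ K := IsCyclotomicExtension.isGalois {p} ℚ K
  obtain ⟨c⟩ := exists_cross s hs hcard hun hunQ r₁ r₂ h12 h1 h2
  exact e_main hs hcard hun c hp2 hres₁ hres₂ P₁ P₂ hP₁ hP₂ h₁ h₂ hm₁ hm₂ hf₁ hf₂ ho₁ ho₂

end REC

end Fermat.Agent.S14
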