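import Fermat.Agent.S14.Art

/-!
# S14 (REC), core: principal ideals are in the kernel of the Artin map
-/

set_option autoImplicit false

namespace Fermat.Agent.S14

open NumberField Ideal

/-- exponents in `ZMod p` for elements killed by `p` -/
lemma rec_pow_val_add {G : Type*} [Monoid G] {p : ℕ} [NeZero p] {y : G} (hy : y ^ p = 1)
    (a b : ZMod p) : y ^ (a + b).val = y ^ a.val * y ^ b.val := by
  rw [ZMod.val_add, ← pow_eq_pow_mod _ hy, pow_add]

section

variable {p : ℕ} [Fact p.Prime] {K L : Type*} [Field K] [NumberField K] [Field L] [NumberField L]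
  [Algebra K L] [IsGalois K L] (s : L ≃ₐ[K] L) (hs : ∀ g : L ≃ₐ[K] L, g ∈ Subgroup.zpowers s)
  (hcard : Module.finrank K L = p) (hun : Unram K L)

include hs hcard hun

/-- split primes are norms -/
lemma rec_split (P : Ideal (𝓞 K)) (hP : P.IsPrime) (hP0 : P ≠ ⊥) (h : (fe s P : ZMod p) = 0) :
    cl P ∈ normCl K L := by
  obtain ⟨J, hJ, hJP⟩ := exists_relNorm_eq_pow s hs hcard hun P hP hP0 1 (by rw [h, mul_zero])
  rw [pow_one] at hJP
  rw [← hJP]
  exact cl_relNorm_mem_normCl J hJ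

theorem rec_core (hB : normCl K L ≠ ⊤)
    (hE : ∀ P₁ P₂ : Ideal (𝓞 K), P₁.IsPrime → P₂.IsPrime → P₁ ≠ ⊥ → P₂ ≠ ⊥ →
      (fe s P₁ : ZMod p) ≠ 0 → (fe s P₂ : ZMod p) ≠ 0 →
      cl P₁ ^ (fe s P₂ : ZMod p).val / cl P₂ ^ (fe s P₁ : ZMod p).val ∈ normCl K L)
    (x : 𝓞 K) (hx : x ≠ 0) : (art s (span {x}) : ZMod p) = 0 := by
  have hp : p.Prime := Fact.out
  have : NeZero p := ⟨hp.ne_zero⟩
  -- a prime whose class is not a norm class
  obtain ⟨P₀, hP₀, hP₀0, hP₀N⟩ : ∃ P₀ : Ideal (𝓞 K), P₀.IsPrime ∧ P₀ ≠ ⊥ ∧ cl P₀ ∉ normCl K L := by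
    by_contra hcon
    push Not at hcon
    apply hB
    rw [eq_top_iff]
    intro C _
    obtain ⟨I, hI, rfl⟩ := cl_surjective C
    induction I using UniqueFactorizationMonoid.induction_on_prime with
    | h₁ => exact absurd rfl hI
    | h₂ I hI' =>
      rw [Ideal.isUnit_iff] at hI'
      rw [hI', ← Ideal.one_eq_top, cl_one]
      exact one_mem _
    | h₃ I P hI0 hP ih =>
      rw [cl_mul hP.ne_zero hI0]
      exact mul_mem (hcon P (Ideal.isPrime_of_prime hP) hP.ne_zero) (ih hI0 trivial)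
  have hf₀ : (fe s P₀ : ZMod p) ≠ 0 := fun h => hP₀N (rec_split s hs hcard hun P₀ hP₀ hP₀0 h)
  -- work in the quotient
  let π := QuotientGroup.mk' (normCl K L)
  have hπ : ∀ C, π C = 1 ↔ C ∈ normCl K L := fun C => QuotientGroup.eq_one_iff C
  have hπp : ∀ C, π C ^ p = 1 := fun C => by
    rw [← map_pow, hπ]
    exact pow_mem_normCl hcard C
  have key : ∀ I : Ideal (𝓞 K), I ≠ ⊥ →
      π (cl I) ^ (fe s P₀ : ZMod p).val = π (cl P₀) ^ (art s I : ZMod p).val := by
    intro I hI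
    induction I using UniqueFactorizationMonoid.induction_on_prime with
    | h₁ => exact absurd rfl hI
    | h₂ I hI' =>
      rw [Ideal.isUnit_iff] at hI'
      rw [hI', ← Ideal.one_eq_top, cl_one, art_one, map_one, one_pow, ZMod.val_zero, pow_zero]
    | h₃ I P hI0 hP ih =>
      have hPp := Ideal.isPrime_of_prime hP
      rw [cl_mul hP.ne_zero hI0, art_mul s hP.ne_zero hI0, map_mul, mul_pow, ih hI0,
        rec_pow_val_add (hπp _), art_prime s P hPp hP.ne_zero]
      congr 1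
      by_cases hf : (fe s P : ZMod p) = 0
      · rw [hf, ZMod.val_zero, pow_zero, (hπ _).2 (rec_split s hs hcard hun P hPp hP.ne_zero hf),
          one_pow]
      · have := (hπ _).2 (hE P P₀ hPp hP₀ hP.ne_zero hP₀0 hf hf₀)
        rw [map_div, map_pow, map_pow, div_eq_one] at this
        exact this
  have h1 := key (span {x}) (by rwa [Ne, Ideal.span_singleton_eq_bot])
  rw [cl_span_singleton, map_one, one_pow] at h1
  have hy : π (cl P₀) ≠ 1 := fun h => hP₀N ((hπ _).1 h)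
  have hord : orderOf (π (cl P₀)) = p := orderOf_eq_prime (hπp _) hy
  have h2 := orderOf_dvd_of_pow_eq_one h1.symm
  rw [hord] at h2
  have h3 : (art s (span {x}) : ZMod p).val = 0 :=
    Nat.eq_zero_of_dvd_of_lt h2 (ZMod.val_lt _)
  exact (ZMod.val_eq_zero _).1 h3

end

end Fermat.Agent.S14
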